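/-
A complete discrete valuation ring with algebraically closed residue field inside `ℂ`, containing
given algebraic numbers: completion of the part of a place lying in a field generated by a number
field and the roots of unity of order prime to `ℓ`.
-/
import Mathlib
import Fermat.Agent.Galois.Places
import Fermat.Agent.GalRep.Cyclo
import Fermat.Agent.GalRep.Datum

set_option autoImplicit false

noncomputable section

namespace Fermat.Agent.GalRep.Model

open IsLocalRing Fermat.Agent.Galois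

local notation "Q̄" => AlgebraicClosure ℚ

variable {ℓ : ℕ}

/-- Roots of unity of order prime to `ℓ`. -/
def primeToRoots (ℓ : ℕ) : Set Q̄ := {x | ∃ n : ℕ, ¬ ℓ ∣ n ∧ x ^ n = 1}

/-- The ring generated by the roots of unity of order prime to `ℓ`. -/
def cycRing (ℓ : ℕ) : Subalgebra ℤ Q̄ := Algebra.adjoin ℤ (primeToRoots ℓ)

theorem cycRing_le_integralClosure : cycRing ℓ ≤ integralClosure ℤ Q̄ := by
  refine Algebra.adjoin_le ?_
  rintro x ⟨n, hn, hx⟩
  have hn0 : n ≠ 0 := fun h => hn (h ▸ dvd_zero ℓ)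
  exact IsIntegral.of_pow (Nat.pos_of_ne_zero hn0) (hx ▸ isIntegral_one)

theorem exists_frob_congr (hℓ : ℓ.Prime) (z : cycRing ℓ) :
    ∃ f : ℕ, 0 < f ∧ ∀ j : ℕ, (ℓ : cycRing ℓ) ∣ z ^ ℓ ^ (f * j) - z := by
  haveI : Fact ℓ.Prime := ⟨hℓ⟩
  suffices h : ∀ x, (hx : x ∈ cycRing ℓ) → ∃ f : ℕ, 0 < f ∧
      ∀ j : ℕ, (ℓ : cycRing ℓ) ∣ (⟨x, hx⟩ : cycRing ℓ) ^ ℓ ^ (f * j) - ⟨x, hx⟩ from h z z.2
  intro x hx
  induction hx using Algebra.adjoin_induction with
  | mem x hx =>
    obtain ⟨n, hn, hxn⟩ := hx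
    have hn0 : n ≠ 0 := fun h => hn (h ▸ dvd_zero ℓ)
    have hcop : ℓ.Coprime n := hℓ.coprime_iff_not_dvd.mpr hn
    refine ⟨Nat.totient n, Nat.totient_pos.mpr (Nat.pos_of_ne_zero hn0), fun j => ?_⟩
    have hmod : ℓ ^ (Nat.totient n * j) ≡ 1 [MOD n] := by
      rw [pow_mul]
      simpa using (Nat.ModEq.pow_totient hcop).pow j
    suffices h : x ^ ℓ ^ (Nat.totient n * j) = x by
      rw [show (⟨x, Algebra.subset_adjoin ⟨n, hn, hxn⟩⟩ : cycRing ℓ) ^ ℓ ^ (Nat.totient n * j) -
        ⟨x, Algebra.subset_adjoin ⟨n, hn, hxn⟩⟩ = 0 from by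
          rw [sub_eq_zero]; exact Subtype.ext h]
      exact dvd_zero _
    have h1 : 1 ≤ ℓ ^ (Nat.totient n * j) := Nat.one_le_pow _ _ hℓ.pos
    obtain ⟨c, hc⟩ := (Nat.modEq_iff_dvd' h1).mp hmod.symm
    rw [show ℓ ^ (Nat.totient n * j) = n * c + 1 by omega, pow_succ, pow_mul, hxn, one_pow,
      one_mul]
  | algebraMap r =>
    refine ⟨1, one_pos, fun j => ?_⟩
    have : ((r : ZMod ℓ)) ^ ℓ ^ (1 * j) = r := ZMod.pow_card_pow _
    have h : (ℓ : ℤ) ∣ r ^ ℓ ^ (1 * j) - r := by
      rw [← ZMod.intCast_zmod_eq_zero_iff_dvd]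
      push_cast
      rw [this, sub_self]
    obtain ⟨c, hc⟩ := h
    refine ⟨(c : cycRing ℓ), Subtype.ext ?_⟩
    have h2 := congrArg (fun t : ℤ => (t : Q̄)) hc
    push_cast at h2
    simpa using h2
  | add a b ha hb iha ihb =>
    obtain ⟨f, hf, iha⟩ := iha
    obtain ⟨g, hg, ihb⟩ := ihb
    refine ⟨f * g, Nat.mul_pos hf hg, fun j => ?_⟩
    obtain ⟨c₁, h₁⟩ := iha (g * j)
    obtain ⟨c₂, h₂⟩ := ihb (f * j)
    rw [show f * (g * j) = f * g * j by ring] at h₁
    rw [show g * (f * j) = f * g * j by ring] at h₂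
    obtain ⟨r, hr⟩ := exists_add_pow_prime_pow_eq (R := cycRing ℓ) hℓ ⟨a, ha⟩ ⟨b, hb⟩ (f * g * j)
    refine ⟨(⟨a, ha⟩ : cycRing ℓ) * ⟨b, hb⟩ * r + c₁ + c₂, ?_⟩
    rw [show (⟨a + b, add_mem ha hb⟩ : cycRing ℓ) = ⟨a, ha⟩ + ⟨b, hb⟩ from rfl, hr, mul_add,
      mul_add, ← h₁, ← h₂]
    ring
  | mul a b ha hb iha ihb =>
    obtain ⟨f, hf, iha⟩ := iha
    obtain ⟨g, hg, ihb⟩ := ihb
    refine ⟨f * g, Nat.mul_pos hf hg, fun j => ?_⟩
    obtain ⟨c₁, h₁⟩ := iha (g * j)
    obtain ⟨c₂, h₂⟩ := ihb (f * j)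
    rw [show f * (g * j) = f * g * j by ring] at h₁
    rw [show g * (f * j) = f * g * j by ring] at h₂
    refine ⟨c₁ * (⟨b, hb⟩ : cycRing ℓ) ^ ℓ ^ (f * g * j) + ⟨a, ha⟩ * c₂, ?_⟩
    rw [show (⟨a * b, mul_mem ha hb⟩ : cycRing ℓ) = ⟨a, ha⟩ * ⟨b, hb⟩ from rfl, mul_pow, mul_add,
      ← mul_assoc, ← h₁, mul_left_comm, ← h₂]
    ring

variable (A : ValuationSubring Q̄)

theorem val_natCast_lt_one (hA : A.LiesOverPrime ℓ) : A.valuation (ℓ : Q̄) < 1 :=
  (A.mem_nonunits_iff).mp hA

/-- A nonzero algebraic integer has valuation bounded below by a power of `ℓ`. -/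
theorem exists_pow_le_val (hℓ : ℓ.Prime) (hA : A.LiesOverPrime ℓ) {z : Q̄}
    (hz : _root_.IsIntegral ℤ z) (hz0 : z ≠ 0) :
    ∃ k : ℕ, A.valuation (ℓ : Q̄) ^ k ≤ A.valuation z := by
  have hmin := minpoly.aeval ℤ z
  set P := minpoly ℤ z with hP
  have hmem : ∀ w, _root_.IsIntegral ℤ w → A.valuation w ≤ 1 := fun w hw =>
    (A.valuation_le_one_iff w).mpr (integralClosure_le A ⟨w, hw⟩)
  have hc : P.coeff 0 ≠ 0 := fun h => hz0 ((minpoly.coeff_zero_eq_zero (A := ℚ) hz.tower_top).mp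
    (by rw [minpoly.isIntegrallyClosed_eq_field_fractions' ℚ hz, Polynomial.coeff_map, ← hP, h,
      map_zero]))
  have hle : A.valuation ((P.coeff 0 : ℤ) : Q̄) ≤ A.valuation z := by
    have hsplit : Polynomial.aeval z P =
        Polynomial.aeval z P.divX * z + ((P.coeff 0 : ℤ) : Q̄) := by
      conv_lhs => rw [← Polynomial.divX_mul_X_add P]
      simp
    rw [hmin] at hsplit
    rw [eq_neg_of_add_eq_zero_right hsplit.symm, Valuation.map_neg, map_mul]
    refine mul_le_of_le_one_left' (hmem _ ?_)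
    rw [Polynomial.aeval_eq_sum_range]
    exact IsIntegral.sum _ fun i _ => (hz.pow i).smul _
  refine ⟨multiplicity (ℓ : ℤ) (P.coeff 0), le_trans (le_of_eq ?_) hle⟩
  have hfin : FiniteMultiplicity (ℓ : ℤ) (P.coeff 0) :=
    Int.finiteMultiplicity_iff.mpr ⟨by simpa using hℓ.ne_one, hc⟩
  obtain ⟨u, hu, hnd⟩ := hfin.exists_eq_pow_mul_and_not_dvd
  conv_rhs => rw [hu]
  have hu1 : A.valuation ((u : ℤ) : Q̄) = 1 := by
    refine le_antisymm ((A.valuation_le_one_iff _).mpr (intCast_mem A u)) (not_lt.mp fun hlt => hnd ?_)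
    rw [← intCast_mem_placeCenter hℓ hA, mem_placeCenter_iff]
    exact (A.mem_nonunits_iff).mpr (by simpa using hlt)
  rw [Int.cast_mul, map_mul, hu1, mul_one, Int.cast_pow, map_pow, Int.cast_natCast]

/-- The place is unramified on the ring generated by roots of unity of order prime to `ℓ`. -/
theorem val_cycRing (hℓ : ℓ.Prime) (hA : A.LiesOverPrime ℓ) (z : cycRing ℓ) (hz : (z : Q̄) ≠ 0) :
    ∃ k : ℕ, A.valuation (z : Q̄) = A.valuation (ℓ : Q̄) ^ k := by
  obtain ⟨K, hK⟩ := exists_pow_le_val A hℓ hA (cycRing_le_integralClosure z.2) hz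
  have hl1 := val_natCast_lt_one A hA
  have hl0 : A.valuation (ℓ : Q̄) ≠ 0 := by simpa using hℓ.ne_zero
  have hle1 : ∀ w : cycRing ℓ, A.valuation (w : Q̄) ≤ 1 := fun w =>
    (A.valuation_le_one_iff _).mpr (integralClosure_le A ⟨_, cycRing_le_integralClosure w.2⟩)
  induction K generalizing z with
  | zero => exact ⟨0, by rw [pow_zero] at hK ⊢; exact le_antisymm (hle1 z) hK⟩
  | succ K ih =>
    rcases (hle1 z).eq_or_lt with h | h
    · exact ⟨0, by rw [h, pow_zero]⟩
    obtain ⟨f, hf, hfz⟩ := exists_frob_congr hℓ z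
    obtain ⟨c, hc⟩ := hfz 1
    rw [mul_one] at hc
    have hq : 1 < ℓ ^ f := Nat.one_lt_pow hf.ne' hℓ.one_lt
    have hlt : A.valuation ((z : Q̄) ^ ℓ ^ f) < A.valuation (z : Q̄) := by
      rw [map_pow]
      exact pow_lt_self_of_lt_one₀ (zero_lt_iff.mpr (by simpa using hz)) h hq
    have hval : A.valuation (z : Q̄) = A.valuation (ℓ : Q̄) * A.valuation (c : Q̄) := by
      have h2 : (z : Q̄) ^ ℓ ^ f - z = (ℓ : Q̄) * c := by
        have := congrArg (fun t : cycRing ℓ => (t : Q̄)) hc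
        push_cast at this
        exact this
      rw [← map_mul, ← h2, Valuation.map_sub_eq_of_lt_right _ hlt]
    have hc0 : (c : Q̄) ≠ 0 := fun h0 => by
      rw [h0, map_zero, mul_zero] at hval
      exact hz (by simpa using hval)
    rw [hval, pow_succ'] at hK
    obtain ⟨k, hk⟩ := ih c hc0 ((mul_le_mul_iff_right₀ (zero_lt_iff.mpr hl0)).mp hK)
    exact ⟨k + 1, by rw [hval, hk, pow_succ']⟩

/-- The field generated by the roots of unity of order prime to `ℓ`. -/
def cycField (ℓ : ℕ) : IntermediateField ℚ Q̄ := IntermediateField.adjoin ℚ (primeToRoots ℓ)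

theorem exists_cycRing_smul {x : Q̄} (hx : x ∈ cycField ℓ) :
    ∃ (m : ℤ) (z : cycRing ℓ), m ≠ 0 ∧ (m : Q̄) * x = z := by
  rw [cycField, ← IntermediateField.mem_toSubalgebra,
    IntermediateField.adjoin_toSubalgebra_of_isAlgebraic
      (fun y _ => Algebra.IsAlgebraic.isAlgebraic y)] at hx
  induction hx using Algebra.adjoin_induction with
  | mem x hx => exact ⟨1, ⟨x, Algebra.subset_adjoin hx⟩, one_ne_zero, by simp⟩
  | algebraMap r =>
    refine ⟨r.den, (r.num : cycRing ℓ), by exact_mod_cast r.den_pos.ne', ?_⟩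
    rw [eq_ratCast (algebraMap ℚ Q̄) r]
    push_cast
    rw [mul_comm]
    exact_mod_cast congrArg (fun q : ℚ => (q : Q̄)) r.mul_den_eq_num
  | add a b _ _ iha ihb =>
    obtain ⟨m, z, hm, hz⟩ := iha
    obtain ⟨m', z', hm', hz'⟩ := ihb
    refine ⟨m * m', (m' : cycRing ℓ) * z + (m : cycRing ℓ) * z', mul_ne_zero hm hm', ?_⟩
    push_cast
    linear_combination (m' : Q̄) * hz + (m : Q̄) * hz'
  | mul a b _ _ iha ihb =>
    obtain ⟨m, z, hm, hz⟩ := iha
    obtain ⟨m', z', hm', hz'⟩ := ihb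
    refine ⟨m * m', z * z', mul_ne_zero hm hm', ?_⟩
    push_cast
    linear_combination ((m' : Q̄) * b) * hz + (z : Q̄) * hz'

/-- The value group on the cyclotomic field is generated by `ℓ`. -/
theorem val_cycField (hℓ : ℓ.Prime) (hA : A.LiesOverPrime ℓ) {x : Q̄} (hx : x ∈ cycField ℓ)
    (hx0 : x ≠ 0) : ∃ k : ℤ, A.valuation x = A.valuation (ℓ : Q̄) ^ k := by
  obtain ⟨m, z, hm, hz⟩ := exists_cycRing_smul hx
  have hmQ : (m : Q̄) ≠ 0 := Int.cast_ne_zero.mpr hm
  have hz0 : (z : Q̄) ≠ 0 := hz ▸ mul_ne_zero hmQ hx0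
  obtain ⟨a, ha⟩ := val_cycRing A hℓ hA z hz0
  obtain ⟨b, hb⟩ := val_cycRing A hℓ hA (m : cycRing ℓ) (by simpa using hmQ)
  refine ⟨(a : ℤ) - b, ?_⟩
  have hl0 : A.valuation (ℓ : Q̄) ≠ 0 := by simpa using hℓ.ne_zero
  rw [zpow_sub₀ hl0, zpow_natCast, zpow_natCast, eq_div_iff (pow_ne_zero _ hl0), ← ha, ← hb,
    ← map_mul, ← hz]
  push_cast
  rw [mul_comm]

/-- The field generated by a number field and the roots of unity of order prime to `ℓ`. -/
def bigField (ℓ : ℕ) (L : IntermediateField ℚ Q̄) : IntermediateField (cycField ℓ) Q̄ :=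
  IntermediateField.adjoin (cycField ℓ) (L : Set Q̄)

theorem finiteDimensional_bigField (L : IntermediateField ℚ Q̄) [FiniteDimensional ℚ L] :
    FiniteDimensional (cycField ℓ) (bigField ℓ L) := by
  let b := Module.finBasis ℚ L
  have hle : bigField ℓ L ≤
      IntermediateField.adjoin (cycField ℓ) (Set.range fun i => ((b i : L) : Q̄)) := by
    refine IntermediateField.adjoin_le_iff.mpr fun x hx => ?_
    have hs := congrArg (fun y : L => (y : Q̄)) (b.sum_repr ⟨x, hx⟩)
    simp only [AddSubmonoidClass.coe_finsetSum] at hs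
    rw [← hs]
    refine sum_mem fun i _ => ?_
    rw [IntermediateField.coe_smul, Algebra.smul_def,
      IsScalarTower.algebraMap_apply ℚ (cycField ℓ) Q̄]
    exact mul_mem (IntermediateField.algebraMap_mem _ _)
      (IntermediateField.subset_adjoin _ _ ⟨i, rfl⟩)
  have : FiniteDimensional (cycField ℓ)
      (IntermediateField.adjoin (cycField ℓ) (Set.range fun i => ((b i : L) : Q̄))) :=
    IntermediateField.finiteDimensional_adjoin fun x _ =>
      (Algebra.IsIntegral.isIntegral (R := ℚ) x).tower_top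
  exact FiniteDimensional.of_injective (IntermediateField.inclusion hle).toLinearMap
    (IntermediateField.inclusion hle).injective

/-- There are boundedly many valuations strictly between `v(ℓ)` and `1` on the big field. -/
theorem exists_uniformizer (hℓ : ℓ.Prime) (hA : A.LiesOverPrime ℓ) (L : IntermediateField ℚ Q̄)
    [FiniteDimensional ℚ L] :
    ∃ ϖ ∈ bigField ℓ L, A.valuation ϖ < 1 ∧
      (∀ x ∈ bigField ℓ L, A.valuation x < 1 → A.valuation x ≤ A.valuation ϖ) ∧
      ∃ N : ℕ, A.valuation ϖ ^ N ≤ A.valuation (ℓ : Q̄) := by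
  classical
  haveI := finiteDimensional_bigField (ℓ := ℓ) L
  set v := A.valuation
  have hl1 := val_natCast_lt_one A hA
  have hl0 : v (ℓ : Q̄) ≠ 0 := by simpa [v] using hℓ.ne_zero
  let V : Set A.ValueGroup := v '' {x | x ∈ bigField ℓ L ∧ v (ℓ : Q̄) ≤ v x ∧ v x < 1}
  have hV : V.Finite := by
    by_contra hinf
    obtain ⟨s, hsV, hcard⟩ := Set.Infinite.exists_subset_card_eq hinf
      (Module.finrank (cycField ℓ) (bigField ℓ L) + 1)
    have hch : ∀ g : s, ∃ x : bigField ℓ L, v (x : Q̄) = (g : A.ValueGroup) ∧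
        v (ℓ : Q̄) ≤ v (x : Q̄) ∧ v (x : Q̄) < 1 := fun g => by
      obtain ⟨x, ⟨hx, h1, h2⟩, hg⟩ := hsV g.2
      exact ⟨⟨x, hx⟩, hg, h1, h2⟩
    choose y hy hy1 hy2 using hch
    have hdep : ¬ LinearIndependent (cycField ℓ) y := fun h => by
      have := h.fintype_card_le_finrank
      rw [Fintype.card_coe, hcard] at this
      omega
    obtain ⟨c, hsum, i0, hi0⟩ := Fintype.not_linearIndependent_iff.mp hdep
    let T := Finset.univ.filter fun i => c i ≠ 0
    have hsum' : ∑ i ∈ T, (c i : Q̄) * (y i : Q̄) = 0 := by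
      have h := congrArg (fun t : bigField ℓ L => (t : Q̄)) hsum
      simp only [AddSubmonoidClass.coe_finsetSum, IntermediateField.coe_smul,
        ZeroMemClass.coe_zero] at h
      show ∑ i ∈ Finset.univ.filter (fun i => c i ≠ 0), (c i : Q̄) * (y i : Q̄) = 0
      rw [Finset.sum_filter_of_ne (fun i _ hi => by
        intro hc
        exact hi (by rw [hc]; simp))]
      simpa [Algebra.smul_def] using h
    have hne : ∀ i, v (y i : Q̄) ≠ 0 := fun i => ne_of_gt (lt_of_lt_of_le (zero_lt_iff.mpr hl0) (hy1 i))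
    have hinj : ∀ i ∈ T, ∀ j ∈ T, i ≠ j → v ((c i : Q̄) * (y i : Q̄)) ≠ v ((c j : Q̄) * (y j : Q̄)) := by
      intro i hi j hj hij heq
      obtain ⟨a, ha⟩ := val_cycField A hℓ hA (c i).2
        (by simpa [T] using hi)
      obtain ⟨b, hb⟩ := val_cycField A hℓ hA (c j).2 (by simpa [T] using hj)
      simp only [map_mul] at heq
      rw [show v (c i : Q̄) = _ from ha, show v (c j : Q̄) = _ from hb] at heq
      rcases lt_trichotomy a b with h | h | h
      · have : v (y i : Q̄) = v (ℓ : Q̄) ^ (b - a) * v (y j : Q̄) := by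
          rw [zpow_sub₀ hl0, div_mul_eq_mul_div, eq_div_iff (zpow_ne_zero _ hl0), mul_comm, heq]
        have h' : v (y i : Q̄) < v (ℓ : Q̄) := by
          rw [this]
          calc v (ℓ : Q̄) ^ (b - a) * v (y j : Q̄) ≤ v (ℓ : Q̄) ^ (1 : ℤ) * v (y j : Q̄) :=
                mul_le_mul_left (zpow_le_zpow_right_of_le_one₀ (zero_lt_iff.mpr hl0) hl1.le
                  (by omega)) _
            _ < v (ℓ : Q̄) := by
                rw [zpow_one]
                exact mul_lt_of_lt_one_right (zero_lt_iff.mpr hl0) (hy2 j)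
        exact absurd (hy1 i) (not_le.mpr h')
      · subst h
        exact hij (Subtype.ext (by
          rw [← hy i, ← hy j]
          exact mul_left_cancel₀ (zpow_ne_zero _ hl0) heq))
      · have : v (y j : Q̄) = v (ℓ : Q̄) ^ (a - b) * v (y i : Q̄) := by
          rw [zpow_sub₀ hl0, div_mul_eq_mul_div, eq_div_iff (zpow_ne_zero _ hl0), mul_comm, heq]
        have h' : v (y j : Q̄) < v (ℓ : Q̄) := by
          rw [this]
          calc v (ℓ : Q̄) ^ (a - b) * v (y i : Q̄) ≤ v (ℓ : Q̄) ^ (1 : ℤ) * v (y i : Q̄) :=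
                mul_le_mul_left (zpow_le_zpow_right_of_le_one₀ (zero_lt_iff.mpr hl0) hl1.le
                  (by omega)) _
            _ < v (ℓ : Q̄) := by
                rw [zpow_one]
                exact mul_lt_of_lt_one_right (zero_lt_iff.mpr hl0) (hy2 i)
        exact absurd (hy1 j) (not_le.mpr h')
    obtain ⟨m, hm, hmax⟩ := T.exists_max_image (fun i => v ((c i : Q̄) * (y i : Q̄)))
      ⟨i0, by simpa [T] using hi0⟩
    have hlt : v (∑ i ∈ T.erase m, (c i : Q̄) * (y i : Q̄)) < v ((c m : Q̄) * (y m : Q̄)) := by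
      refine v.map_sum_lt ?_ fun i hi => ?_
      · rw [map_mul]
        exact mul_ne_zero (by simpa [T, v] using hm) (hne m)
      obtain ⟨him, hiT⟩ := Finset.mem_erase.mp hi
      exact lt_of_le_of_ne (hmax i hiT) (hinj i hiT m hm him)
    rw [← Finset.add_sum_erase T _ hm] at hsum'
    rw [eq_neg_of_add_eq_zero_right hsum', Valuation.map_neg] at hlt
    exact lt_irrefl _ hlt
  have hne : (hV.toFinset).Nonempty :=
    ⟨v (ℓ : Q̄), hV.mem_toFinset.mpr ⟨_, ⟨natCast_mem _ ℓ, le_rfl, hl1⟩, rfl⟩⟩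
  obtain ⟨ϖ, ⟨hϖ, -, hϖ1⟩, hϖv⟩ := hV.mem_toFinset.mp (Finset.max'_mem _ hne)
  refine ⟨ϖ, hϖ, hϖ1, fun x hx hx1 => ?_, ?_⟩
  swap
  · by_contra hN
    push Not at hN
    have hϖ0 : v ϖ ≠ 0 := fun h0 => by
      have := hN 1
      rw [pow_one] at this
      rw [show A.valuation ϖ = 0 from h0] at this
      exact not_lt_zero' this
    have hmem : ∀ i : ℕ, v ϖ ^ (i + 1) ∈ V := fun i =>
      ⟨ϖ ^ (i + 1), ⟨pow_mem hϖ _, by rw [map_pow]; exact (hN _).le,
        by rw [map_pow]; exact pow_lt_one₀ zero_le hϖ1 (by omega)⟩, map_pow _ _ _⟩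
    have hanti : StrictAnti fun i : ℕ => v ϖ ^ (i + 1) := fun i j hij =>
      pow_lt_pow_right_of_lt_one₀ (zero_lt_iff.mpr hϖ0) hϖ1 (by omega)
    exact Set.infinite_range_of_injective hanti.injective
      (hV.subset (Set.range_subset_iff.mpr hmem))
  rw [hϖv]
  by_cases h : v (ℓ : Q̄) ≤ v x
  · exact Finset.le_max' _ _ (hV.mem_toFinset.mpr ⟨x, ⟨hx, h, hx1⟩, rfl⟩)
  · exact le_trans (le_of_not_ge h)
      (Finset.le_max' _ _ (hV.mem_toFinset.mpr ⟨_, ⟨natCast_mem _ ℓ, le_rfl, hl1⟩, rfl⟩))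


/-- The residue field of a place above `ℓ` is algebraically closed and algebraic over `𝔽_ℓ`. -/
theorem residue_isAlgClosed (A : ValuationSubring Q̄) : IsAlgClosed (ResidueField A) := by
  refine IsAlgClosed.of_exists_root _ fun P hP _ => ?_
  have hl : P ∈ Polynomial.lifts (residue A) :=
    (Polynomial.lifts_iff_coeff_lifts _).mpr fun n => residue_surjective _
  obtain ⟨Q, hQ, hdeg, hQm⟩ := Polynomial.lifts_and_degree_eq_and_monic hl hP
  rcases eq_or_ne P.degree 0 with h0 | h0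
  · exact absurd (Polynomial.isUnit_iff_degree_eq_zero.mpr h0) (Irreducible.not_isUnit ‹_›)
  obtain ⟨x, hx⟩ := IsAlgClosed.exists_aeval_eq_zero Q̄ Q (hdeg ▸ h0)
  have hint : _root_.IsIntegral A x := ⟨Q, hQm, hx⟩
  obtain ⟨y, rfl⟩ := IsIntegrallyClosed.isIntegral_iff.mp hint
  refine ⟨residue A y, ?_⟩
  rw [← hQ, Polynomial.eval_map, Polynomial.eval₂_hom]
  rw [Polynomial.aeval_algebraMap_apply_eq_algebraMap_eval] at hx
  have : Q.eval y = 0 := (IsFractionRing.injective A Q̄) (by simpa using hx)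
  rw [this, map_zero]

theorem isIntegral_residue (hℓ : ℓ.Prime) (hA : A.LiesOverPrime ℓ) (r : ResidueField A)
    [Algebra (ZMod ℓ) (ResidueField A)] : _root_.IsIntegral (ZMod ℓ) r := by
  haveI : Fact ℓ.Prime := ⟨hℓ⟩
  have hb : ∀ b : ZBar, _root_.IsIntegral (ZMod ℓ) (residue A (zbarToPlace A b)) := by
    intro b
    obtain ⟨P, hP, hPb⟩ := Algebra.IsIntegral.isIntegral (R := ℤ) b
    refine ⟨P.map (Int.castRingHom (ZMod ℓ)), hP.map _, ?_⟩
    rw [Polynomial.eval₂_map,
      RingHom.ext_int ((algebraMap (ZMod ℓ) (ResidueField A)).comp (Int.castRingHom _))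
        (((residue A).comp (zbarToPlace A)).comp (algebraMap ℤ ZBar))]
    have := congrArg ((residue A).comp (zbarToPlace A)) hPb
    rwa [map_zero, Polynomial.hom_eval₂] at this
  obtain ⟨b, c, hc, h⟩ := exists_residue_eq hℓ hA r
  have hc0 : residue A (zbarToPlace A c) ≠ 0 := by
    rw [Ne, residue_zbar_eq_zero_iff]; exact hc
  rw [(eq_mul_inv_iff_mul_eq₀ hc0).mpr h]
  exact (hb b).mul (hb c).inv

/-- Every residue is the residue of a root of unity of order prime to `ℓ`, or zero. -/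
theorem exists_root_residue (hℓ : ℓ.Prime) (hA : A.LiesOverPrime ℓ) (r : ResidueField A)
    (hr : r ≠ 0) : ∃ y : A, (y : Q̄) ∈ primeToRoots ℓ ∧ residue A y = r := by
  classical
  haveI : Fact ℓ.Prime := ⟨hℓ⟩
  have hℓ0 : (ℓ : ResidueField A) = 0 := by
    rw [← map_natCast (residue A), residue_eq_zero_iff, ← ValuationSubring.coe_mem_nonunits_iff]
    simpa [ValuationSubring.LiesOverPrime] using hA
  haveI : CharP (ResidueField A) ℓ := (CharP.charP_iff_prime_eq_zero hℓ).mpr hℓ0
  letI : Algebra (ZMod ℓ) (ResidueField A) := ZMod.algebra _ ℓ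
  have hint := isIntegral_residue A hℓ hA r
  let E := IntermediateField.adjoin (ZMod ℓ) {r}
  haveI : FiniteDimensional (ZMod ℓ) E := IntermediateField.adjoin.finiteDimensional hint
  haveI : Finite E := Module.finite_of_finite (ZMod ℓ)
  haveI : Fintype E := Fintype.ofFinite E
  let n := Fintype.card E - 1
  have hcard : 1 < Fintype.card E := Fintype.one_lt_card
  have hrn : r ^ n = 1 := by
    have := FiniteField.pow_card_sub_one_eq_one
      (⟨r, IntermediateField.mem_adjoin_simple_self _ r⟩ : E) (fun h => hr (congrArg Subtype.val h))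
    exact congrArg Subtype.val this
  have hn0 : 0 < n := by omega
  have hnd : ¬ ℓ ∣ n := by
    intro hdiv
    obtain ⟨m, -, hm⟩ := FiniteField.card E ℓ
    have h1 : ℓ ∣ Fintype.card E := hm ▸ dvd_pow_self ℓ m.ne_zero
    have : ℓ ∣ 1 := by
      have h2 := Nat.dvd_sub h1 hdiv
      rwa [show Fintype.card E - n = 1 by omega] at h2
    exact hℓ.one_lt.ne' (Nat.eq_one_of_dvd_one this)
  haveI : NeZero n := ⟨hn0.ne'⟩
  haveI : NeZero (n : Q̄) := ⟨Nat.cast_ne_zero.mpr hn0.ne'⟩
  obtain ⟨ζ, hζ⟩ := HasEnoughRootsOfUnity.exists_primitiveRoot Q̄ n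
  have hζA : ∀ i : ℕ, ζ ^ i ∈ A := fun i =>
    integralClosure_le A ⟨ζ ^ i, (hζ.isIntegral hn0).pow i⟩
  let f : Fin n → ResidueField A := fun i => residue A ⟨ζ ^ (i : ℕ), hζA i⟩
  have hfn : ∀ i : ℕ, (⟨ζ ^ i, hζA i⟩ : A) ^ n = 1 := fun i => Subtype.ext (by
    show (ζ ^ i) ^ n = 1
    rw [← pow_mul, mul_comm, pow_mul, hζ.pow_eq_one, one_pow])
  have hinj : Function.Injective f := fun i j hij => Fin.ext (hζ.pow_inj i.2 j.2
    (congrArg Subtype.val (Fermat.Agent.GalRep.pow_eq_of_residue_eq hℓ hA hnd (hfn i) (hfn j) hij)))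
  let S : Finset (ResidueField A) := Finset.univ.image f
  have hsub : S ⊆ (Polynomial.nthRoots n (1 : ResidueField A)).toFinset := by
    intro x hx
    obtain ⟨i, -, rfl⟩ := Finset.mem_image.mp hx
    rw [Multiset.mem_toFinset, Polynomial.mem_nthRoots hn0]
    show residue A _ ^ n = 1
    rw [← map_pow, hfn, map_one]
  have hle : (Polynomial.nthRoots n (1 : ResidueField A)).toFinset.card ≤ S.card := by
    rw [Finset.card_image_of_injective _ hinj, Finset.card_univ, Fintype.card_fin]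
    exact le_trans (Multiset.toFinset_card_le _) (Polynomial.card_nthRoots n 1)
  have hmem : r ∈ S := by
    rw [Finset.eq_of_subset_of_card_le hsub hle, Multiset.mem_toFinset,
      Polynomial.mem_nthRoots hn0]
    exact hrn
  obtain ⟨i, -, hi⟩ := Finset.mem_image.mp hmem
  exact ⟨⟨ζ ^ (i : ℕ), hζA i⟩, ⟨n, hnd, congrArg Subtype.val (hfn i)⟩, hi⟩

/-- A complete domain structure from a principal maximal ideal with nonzero powers. -/
theorem isDiscreteValuationRing_of_complete {O : Type} [CommRing O] [IsLocalRing O]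
    [IsHausdorff (maximalIdeal O) O] {π : O} (hm : maximalIdeal O = Ideal.span {π})
    (hπ : ∀ n : ℕ, π ^ n ≠ 0) :
    ∃ _ : IsDomain O, IsDiscreteValuationRing O := by
  classical
  haveI : Nontrivial O := inferInstance
  have hfac : ∀ x : O, x ≠ 0 → ∃ (k : ℕ) (u : Oˣ), π ^ k * u = x := by
    intro x hx
    have hex : ∃ k : ℕ, ¬ π ^ (k + 1) ∣ x := by
      by_contra hall
      push Not at hall
      refine hx (IsHausdorff.haus ‹_› x fun n => ?_)
      rw [SModEq.zero, smul_eq_mul, Ideal.mul_top, hm, Ideal.span_singleton_pow,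
        Ideal.mem_span_singleton]
      exact dvd_trans (pow_dvd_pow π (Nat.le_succ n)) (hall n)
    have hdvd : π ^ Nat.find hex ∣ x := by
      rcases hk : Nat.find hex with _ | k
      · simp
      · exact not_not.mp (Nat.find_min hex (by omega : k < Nat.find hex))
    obtain ⟨y, hy0⟩ := hdvd
    have hy : IsUnit y := by
      by_contra hy
      have hy' : y ∈ maximalIdeal O := hy
      rw [hm, Ideal.mem_span_singleton] at hy'
      refine Nat.find_spec hex ?_
      obtain ⟨y', hy''⟩ := hy'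
      exact ⟨y', by rw [pow_succ, mul_assoc, ← hy'']; exact hy0⟩
    exact ⟨_, hy.unit, by rw [IsUnit.unit_spec]; exact hy0.symm⟩
  haveI : NoZeroDivisors O := ⟨fun {a b} hab => by
    by_contra hne
    push Not at hne
    obtain ⟨i, u, rfl⟩ := hfac a hne.1
    obtain ⟨j, w, rfl⟩ := hfac b hne.2
    refine hπ (i + j) ?_
    have : π ^ (i + j) * ((u * w : Oˣ) : O) = 0 := by rw [← hab, Units.val_mul]; ring
    exact (Units.mul_left_eq_zero _).mp this⟩
  haveI : IsDomain O := NoZeroDivisors.to_isDomain O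
  have hirr : Irreducible π := by
    refine ⟨fun hu => ?_, fun a b hab => ?_⟩
    · exact (maximalIdeal.isMaximal O).ne_top
        (hm.trans (Ideal.span_singleton_eq_top.mpr hu))
    · by_contra hne
      push Not at hne
      have ha : a ∈ maximalIdeal O := hne.1
      have hb : b ∈ maximalIdeal O := hne.2
      rw [hm, Ideal.mem_span_singleton] at ha hb
      obtain ⟨a', rfl⟩ := ha
      obtain ⟨b', rfl⟩ := hb
      have hu : IsUnit π := IsUnit.of_mul_eq_one (a' * b')
        (mul_left_cancel₀ (by simpa using hπ 1) (by linear_combination -hab))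
      exact (maximalIdeal.isMaximal O).ne_top
        (hm.trans (Ideal.span_singleton_eq_top.mpr hu))
  exact ⟨inferInstance, IsDiscreteValuationRing.ofHasUnitMulPowIrreducibleFactorization
    ⟨π, hirr, fun {x} hx => by
      obtain ⟨k, u, hu⟩ := hfac x hx
      exact ⟨k, u, hu⟩⟩⟩

/-- An algebraically closed extension of `ℚ̄` of at most continuum size embeds in `ℂ`. -/
theorem exists_embedding_complex {Ω : Type} [Field Ω] [IsAlgClosed Ω] (i : Q̄ →+* Ω)
    (hcard : Cardinal.mk Ω ≤ Cardinal.continuum) :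
    ∃ ψ : Ω →+* ℂ, ψ.comp i = qbarToC := by
  letI : Algebra Q̄ Ω := i.toAlgebra
  letI : Algebra Q̄ ℂ := qbarToC.toAlgebra
  obtain ⟨s, hs⟩ := exists_isTranscendenceBasis Q̄ Ω
  obtain ⟨t, ht⟩ := exists_isTranscendenceBasis Q̄ ℂ
  have hQ : Cardinal.mk Q̄ ≤ Cardinal.aleph0 :=
    (Algebra.IsAlgebraic.cardinalMk_le_max ℚ Q̄).trans (by simp)
  have htc : Cardinal.mk ℂ = Cardinal.mk t :=
    IsAlgClosed.cardinal_eq_cardinal_transcendence_basis_of_aleph0_lt' _ ht hQ
      (by rw [Cardinal.mk_complex]; exact Cardinal.aleph0_lt_continuum)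
  have hst : Cardinal.mk s ≤ Cardinal.mk t := by
    rw [← htc, Cardinal.mk_complex]
    exact (Cardinal.mk_subtype_le _).trans hcard
  obtain ⟨f⟩ := hst
  have hw : AlgebraicIndependent Q̄ (fun x : s => ((f x : t) : ℂ)) := ht.1.comp f f.injective
  let A₀ := Algebra.adjoin Q̄ (Set.range (Subtype.val : s → Ω))
  let g : A₀ →ₐ[Q̄] ℂ :=
    (MvPolynomial.aeval fun x : s => ((f x : t) : ℂ)).comp hs.1.aevalEquiv.symm.toAlgHom
  have hg : Function.Injective g := fun a b h =>
    hs.1.aevalEquiv.symm.injective (hw h)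
  letI : Algebra A₀ ℂ := g.toRingHom.toAlgebra
  haveI : FaithfulSMul A₀ ℂ := (faithfulSMul_iff_algebraMap_injective A₀ ℂ).mpr hg
  haveI : Algebra.IsAlgebraic A₀ Ω := hs.isAlgebraic
  let ψ : Ω →ₐ[A₀] ℂ := IsAlgClosed.lift
  refine ⟨ψ.toRingHom, RingHom.ext fun x => ?_⟩
  have h1 : ψ (algebraMap A₀ Ω (algebraMap Q̄ A₀ x)) = g (algebraMap Q̄ A₀ x) := ψ.commutes _
  rw [g.commutes] at h1
  exact h1

theorem exists_multiple_integral_aux (x : Q̄) :
    ∃ m : ℤ, m ≠ 0 ∧ _root_.IsIntegral ℤ ((m : Q̄) * x) := by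
  obtain ⟨y, hy0, hy⟩ := IsAlgebraic.exists_integral_multiple
    ((IsFractionRing.isAlgebraic_iff ℤ ℚ Q̄).mpr (Algebra.IsAlgebraic.isAlgebraic x))
  exact ⟨y, hy0, by rwa [zsmul_eq_mul] at hy⟩

/-- The complete base. -/
theorem exists_base (ℓ : ℕ) (hℓ : ℓ.Prime) (A : ValuationSubring Q̄) (hA : A.LiesOverPrime ℓ)
    (M : ℕ) (hM : ¬ ℓ ∣ M) (L : IntermediateField ℚ Q̄) [FiniteDimensional ℚ L] :
    ∃ (O : Type) (_ : CommRing O) (_ : IsDomain O) (_ : IsDiscreteValuationRing O)
      (_ : IsAdicComplete (maximalIdeal O) O) (φ : O →+* ℂ), Function.Injective φ ∧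
      IsAlgClosed (ResidueField O) ∧ (ℓ : O) ∈ maximalIdeal O ∧
      ∀ x : Q̄, (x ∈ L ∨ x ^ M = 1) → x ∈ A →
        ∃ o, φ o = qbarToC x ∧ (x ∈ A.nonunits ↔ o ∈ maximalIdeal O) := by
  classical
  obtain ⟨ϖ, hϖK, hϖ1, hϖmax, N, hN⟩ := exists_uniformizer A hℓ hA L
  let K := bigField ℓ L
  let R : ValuationSubring K := A.comap (algebraMap K Q̄)
  have hunit : ∀ x : R, IsUnit x ↔ A.valuation ((x : K) : Q̄) = 1 := by
    intro x
    constructor
    · intro hx
      let x' : A := ⟨((x : K) : Q̄), x.2⟩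
      have : IsUnit x' := hx.map (⟨⟨⟨fun y => (⟨((y : K) : Q̄), y.2⟩ : A), rfl⟩, fun _ _ => rfl⟩,
        rfl, fun _ _ => rfl⟩ : R →+* A)
      exact (A.valuation_eq_one_iff x').mp this
    · intro hx
      have hx0 : (x : K) ≠ 0 := fun h0 => by simp [h0] at hx
      have hinv : ((x : K)⁻¹ : K) ∈ R := by
        show (algebraMap K Q̄ (x : K)⁻¹) ∈ A
        rw [← A.valuation_le_one_iff, map_inv₀, map_inv₀]
        exact le_of_eq (by rw [show algebraMap K Q̄ (x : K) = ((x : K) : Q̄) from rfl, hx, inv_one])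
      exact isUnit_iff_exists_inv.mpr ⟨⟨_, hinv⟩, Subtype.ext (mul_inv_cancel₀ hx0)⟩
  let π : R := ⟨⟨ϖ, hϖK⟩, (A.valuation_le_one_iff _).mp hϖ1.le⟩
  have hle1 : ∀ x : R, A.valuation ((x : K) : Q̄) ≤ 1 := fun x =>
    (A.valuation_le_one_iff _).mpr x.2
  have hϖ0 : ϖ ≠ 0 := fun h0 => by
    rw [h0, map_zero] at hN
    rcases Nat.eq_zero_or_pos N with hN0 | hN0
    · rw [hN0, pow_zero] at hN
      exact absurd (lt_of_le_of_lt hN (val_natCast_lt_one A hA)) (lt_irrefl _)
    · rw [zero_pow hN0.ne'] at hN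
      have : (0 : A.ValueGroup) < A.valuation (ℓ : Q̄) :=
        zero_lt_iff.mpr (by simpa using hℓ.ne_zero)
      have hcontra := hϖmax (ℓ : Q̄) (natCast_mem _ ℓ) (val_natCast_lt_one A hA)
      rw [h0, map_zero] at hcontra
      exact absurd hcontra (not_le.mpr this)
  have hdvd : ∀ x : R, ¬ IsUnit x → π ∣ x := by
    intro x hx
    have hlt : A.valuation ((x : K) : Q̄) < 1 :=
      lt_of_le_of_ne (hle1 x) fun h => hx ((hunit x).mpr h)
    have hle := hϖmax _ (x : K).2 hlt
    refine ⟨⟨(x : K) / (π : K), (A.valuation_le_one_iff _).mp ?_⟩,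
      Subtype.ext (mul_div_cancel₀ _ (fun h => hϖ0 (congrArg Subtype.val h))).symm⟩
    rw [map_div₀, map_div₀]
    exact div_le_one_of_le₀ hle zero_le
  have hm : maximalIdeal R = Ideal.span {π} := by
    refine le_antisymm (fun x hx => Ideal.mem_span_singleton.mpr (hdvd x hx)) ?_
    rw [Ideal.span_le, Set.singleton_subset_iff]
    exact fun h => hϖ1.ne ((hunit π).mp h)
  have hfac : ∀ x : R, x ≠ 0 → ∃ (k : ℕ) (u : Rˣ), π ^ k * u = x := by
    have key : ∀ (n : ℕ) (x : R), A.valuation ϖ ^ n ≤ A.valuation ((x : K) : Q̄) →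
        ∃ (k : ℕ) (u : Rˣ), π ^ k * u = x := by
      intro n
      induction n with
      | zero =>
        intro x hx
        rw [pow_zero] at hx
        exact ⟨0, ((hunit x).mpr (le_antisymm (hle1 x) hx)).unit, by simp⟩
      | succ n ih =>
        intro x hx
        by_cases hu : IsUnit x
        · exact ⟨0, hu.unit, by simp⟩
        obtain ⟨y, rfl⟩ := hdvd x hu
        have : A.valuation ϖ ^ n ≤ A.valuation ((y : K) : Q̄) := by
          have h2 : A.valuation (((π * y : R) : K) : Q̄) =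
              A.valuation ϖ * A.valuation ((y : K) : Q̄) := map_mul _ _ _
          rw [h2, pow_succ'] at hx
          exact le_of_mul_le_mul_left hx (zero_lt_iff.mpr (by simpa using hϖ0))
        obtain ⟨k, u, hk⟩ := ih y this
        exact ⟨k + 1, u, by rw [pow_succ', mul_assoc, hk]⟩
    intro x hx
    have hx0 : ((x : K) : Q̄) ≠ 0 := fun h => hx (Subtype.ext (Subtype.ext h))
    obtain ⟨m, hm0, hint⟩ := exists_multiple_integral_aux ((x : K) : Q̄)
    obtain ⟨k, hk⟩ := exists_pow_le_val A hℓ hA hint (mul_ne_zero (Int.cast_ne_zero.mpr hm0) hx0)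
    refine key (N * k) x (le_trans ?_ (le_trans hk ?_))
    · rw [pow_mul]
      exact pow_le_pow_left₀ zero_le hN k
    · rw [map_mul]
      exact mul_le_of_le_one_left' ((A.valuation_le_one_iff _).mpr (intCast_mem A m))
  have hirr : Irreducible π := by
    refine ⟨fun h => hϖ1.ne ((hunit π).mp h), fun a b hab => ?_⟩
    by_contra hne
    push Not at hne
    obtain ⟨a', rfl⟩ := hdvd a hne.1
    obtain ⟨b', rfl⟩ := hdvd b hne.2
    have hπ0 : π ≠ 0 := fun h => hϖ0 (congrArg (fun z : R => ((z : K) : Q̄)) h)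
    have : IsUnit π := IsUnit.of_mul_eq_one (a' * b')
      (mul_left_cancel₀ hπ0 (by linear_combination -hab))
    exact hϖ1.ne ((hunit π).mp this)
  haveI : IsDiscreteValuationRing R :=
    IsDiscreteValuationRing.ofHasUnitMulPowIrreducibleFactorization
      ⟨π, hirr, fun {x} hx => by
        obtain ⟨k, u, hu⟩ := hfac x hx
        exact ⟨k, u, hu⟩⟩
  let O := AdicCompletion (maximalIdeal R) R
  let ι : R →+* O := algebraMap R O
  haveI : IsLocalHom ι := inferInstanceAs (IsLocalHom (algebraMap R (AdicCompletion _ R)))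
  have hιinj : Function.Injective ι := by
    rw [injective_iff_map_eq_zero]
    intro x hx
    refine IsHausdorff.haus (inferInstance : IsHausdorff (maximalIdeal R) R) x fun n => ?_
    have h := congrArg (fun z : O => z.val n) hx
    rw [SModEq.zero]
    exact (Submodule.Quotient.mk_eq_zero _).mp h
  have hmO : maximalIdeal O = Ideal.span {ι π} := by
    have h1 : maximalIdeal O = (maximalIdeal R).map ι := AdicCompletion.maximalIdeal_eq_map
    have h2 : (maximalIdeal R).map ι = (Ideal.span {π}).map ι := congrArg (Ideal.map ι) hm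
    rw [h1, h2, Ideal.map_span, Set.image_singleton]
  have hπn : ∀ n : ℕ, (ι π) ^ n ≠ 0 := fun n h => by
    rw [← map_pow] at h
    exact pow_ne_zero n hirr.ne_zero (hιinj (h.trans (map_zero ι).symm))
  obtain ⟨hdom, hdvr⟩ := isDiscreteValuationRing_of_complete hmO hπn
  -- residue field
  let toA : R →+* A := ⟨⟨⟨fun y => (⟨((y : K) : Q̄), y.2⟩ : A), rfl⟩, fun _ _ => rfl⟩,
    rfl, fun _ _ => rfl⟩
  haveI : IsLocalHom toA := ⟨fun y hy => (hunit y).mpr ((A.valuation_eq_one_iff _).mp hy)⟩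
  have hres : Function.Bijective (ResidueField.map toA) := by
    refine ⟨RingHom.injective _, fun r => ?_⟩
    rcases eq_or_ne r 0 with rfl | hr
    · exact ⟨0, map_zero _⟩
    obtain ⟨y, hy, rfl⟩ := exists_root_residue A hℓ hA r hr
    have hyK : (y : Q̄) ∈ K := by
      have : (y : Q̄) ∈ cycField ℓ := IntermediateField.subset_adjoin _ _ hy
      exact IntermediateField.algebraMap_mem K (⟨_, this⟩ : cycField ℓ)
    exact ⟨residue R ⟨⟨(y : Q̄), hyK⟩, y.2⟩, ResidueField.map_residue _ _⟩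
  haveI := residue_isAlgClosed A
  have hRclosed : IsAlgClosed (ResidueField R) :=
    IsAlgClosed.of_ringEquiv _ _ (RingEquiv.ofBijective _ hres).symm
  have hOclosed : IsAlgClosed (ResidueField O) :=
    IsAlgClosed.of_ringEquiv _ _ (RingEquiv.ofBijective _
      (AdicCompletion.residueField_map_bijective_of_fg
        (IsNoetherian.noetherian (maximalIdeal R))))
  -- embedding
  let Ω := AlgebraicClosure (FractionRing O)
  have hcardQ : Countable Q̄ := Cardinal.mk_le_aleph0_iff.mp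
    ((Algebra.IsAlgebraic.cardinalMk_le_max ℚ Q̄).trans (by simp))
  haveI : Countable R := Function.Injective.countable (f := fun y : R => ((y : K) : Q̄))
    (fun a b h => Subtype.ext (Subtype.ext h))
  obtain ⟨enc, henc⟩ := exists_injective_nat R
  have hcardO : Cardinal.mk O ≤ Cardinal.continuum := by
    let F : O → (ℕ → ℕ) := fun x n => enc (Quotient.out (x.val n))
    have hF : Function.Injective F := fun x y h => AdicCompletion.ext (fun n => by
      have := henc (congrFun h n)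
      rw [← Quotient.out_eq (x.val n), this, Quotient.out_eq])
    calc Cardinal.mk O ≤ Cardinal.mk (ℕ → ℕ) := Cardinal.mk_le_of_injective hF
      _ = Cardinal.continuum := by simp
  have hcardF : Cardinal.mk (FractionRing O) ≤ Cardinal.continuum :=
    calc Cardinal.mk (FractionRing O) ≤ Cardinal.mk (O × nonZeroDivisors O) :=
          Cardinal.mk_le_of_surjective (f := fun p : O × nonZeroDivisors O =>
            IsLocalization.mk' (FractionRing O) p.1 p.2)
            (fun z => by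
              obtain ⟨a, b, hz⟩ := IsLocalization.exists_mk'_eq (nonZeroDivisors O) z
              exact ⟨(a, b), hz⟩)
      _ ≤ Cardinal.continuum := by
          rw [Cardinal.mk_prod, Cardinal.lift_id, Cardinal.lift_id]
          exact (mul_le_mul' hcardO ((Cardinal.mk_subtype_le _).trans hcardO)).trans
            Cardinal.continuum_mul_self.le
  have hcardΩ : Cardinal.mk Ω ≤ Cardinal.continuum :=
    (Algebra.IsAlgebraic.cardinalMk_le_max (FractionRing O) Ω).trans
      (max_le hcardF Cardinal.aleph0_le_continuum)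
  let jR : R →+* FractionRing O := (algebraMap O (FractionRing O)).comp ι
  have hjR : Function.Injective jR := (IsFractionRing.injective O (FractionRing O)).comp hιinj
  let jK : K →+* Ω := (algebraMap (FractionRing O) Ω).comp
    (IsFractionRing.lift (A := R) (K := K) hjR)
  letI : Algebra K Ω := jK.toAlgebra
  haveI : Algebra.IsAlgebraic K Q̄ := Algebra.IsAlgebraic.tower_top (K := ℚ) K
  let i : Q̄ →ₐ[K] Ω := IsAlgClosed.lift
  obtain ⟨ψ, hψ⟩ := exists_embedding_complex (i := i.toRingHom) hcardΩ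
  let φ : O →+* ℂ := ψ.comp ((algebraMap (FractionRing O) Ω).comp (algebraMap O (FractionRing O)))
  have hφR : ∀ y : R, φ (ι y) = qbarToC ((y : K) : Q̄) := fun y => by
    rw [← hψ]
    show ψ _ = ψ (i ((y : K) : Q̄))
    congr 1
    rw [show ((y : K) : Q̄) = algebraMap K Q̄ (y : K) from rfl, i.commutes]
    show _ = algebraMap (FractionRing O) Ω (IsFractionRing.lift hjR (algebraMap R K y))
    rw [IsFractionRing.lift_algebraMap]
    rfl
  refine ⟨O, inferInstance, hdom, hdvr, inferInstance, φ,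
    (fun a b h => IsFractionRing.injective O (FractionRing O)
      ((algebraMap (FractionRing O) Ω).injective (ψ.injective h))),
    hOclosed, ?_, fun x hx hxA => ?_⟩
  · have hl : (ℓ : R) ∈ maximalIdeal R := fun h => by
      have := (hunit _).mp h
      push_cast at this
      exact absurd this (val_natCast_lt_one A hA).ne
    rw [← map_natCast ι]
    exact map_nonunit ι _ hl
  · have hxK : x ∈ K := by
      rcases hx with h | h
      · exact IntermediateField.subset_adjoin _ _ h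
      · exact IntermediateField.algebraMap_mem K
          (⟨x, IntermediateField.subset_adjoin _ _ ⟨M, hM, h⟩⟩ : cycField ℓ)
    refine ⟨ι ⟨⟨x, hxK⟩, hxA⟩, hφR _, ?_⟩
    rw [A.mem_nonunits_iff, IsLocalRing.mem_maximalIdeal, mem_nonunits_iff, isUnit_map_iff,
      hunit]
    exact ⟨fun h => h.ne, fun h => lt_of_le_of_ne ((A.valuation_le_one_iff _).mpr hxA) h⟩

end Fermat.Agent.GalRep.Model
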