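/-
Differences of Weierstrass functions at division points: q-expansions, transformation law, and
nonvanishing.
-/
import Fermat.Agent.GalRep.QSeries
import Mathlib.Analysis.SpecialFunctions.Elliptic.Weierstrass
import Mathlib.NumberTheory.ModularForms.EisensteinSeries.QExpansion
import Mathlib.NumberTheory.TsumDivisorsAntidiagonal

set_option autoImplicit false

noncomputable section

namespace Fermat.Agent.GalRep.Model

open UpperHalfPlane Filter Topology
open scoped MatrixGroups Manifold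

/-- The lattice `ℤ + ℤτ`. -/
def tauPair (τ : ℍ) : PeriodPair := ⟨1, (τ : ℂ), by
  rw [LinearIndependent.pair_iff]
  intro s t h
  have him := congrArg Complex.im h
  simp [Complex.real_smul, τ.im_pos.ne'] at him
  refine ⟨?_, him⟩
  have hre := congrArg Complex.re h
  simpa [Complex.real_smul, him] using hre⟩

/-- Row vector times matrix. -/
def rowMul (u : ℤ × ℤ) (g : SL(2, ℤ)) : ℤ × ℤ :=
  (u.1 * g 0 0 + u.2 * g 1 0, u.1 * g 0 1 + u.2 * g 1 1)

/-- The division point attached to `u`. -/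
def divPt (M : ℕ) (u : ℤ × ℤ) (τ : ℍ) : ℂ := (u.1 * (τ : ℂ) + u.2) / M

/-- Normalised difference of `℘` at two division points. -/
def wpDiff (M : ℕ) (u t : ℤ × ℤ) (τ : ℍ) : ℂ :=
  ((tauPair τ).weierstrassP (divPt M u τ) - (tauPair τ).weierstrassP (divPt M t τ)) /
    (2 * Real.pi * Complex.I) ^ 2

/-- The series of the function attached to `u`. -/
def pSer {R : Type*} [Field R] (M : ℕ) (z : R) (u : ℤ × ℤ) : PowerSeries R :=
  PowerSeries.mk fun n =>
    if n = 0 then (if (M : ℤ) ∣ u.1 then z ^ u.2 / (1 - z ^ u.2) ^ 2 else 0)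
    else ∑ k ∈ n.divisors, (k : R) *
      ((if (M : ℤ) ∣ ((n / k : ℕ) : ℤ) - u.1 then z ^ (u.2 * k) else 0) +
        (if (M : ℤ) ∣ ((n / k : ℕ) : ℤ) + u.1 then z ^ (-(u.2 * k)) else 0))

/-- The chosen root of unity. -/
def zetaC (M : ℕ) : ℂ := Complex.exp (2 * Real.pi * Complex.I / M)

/-- `u` is nonzero modulo `M`. -/
def NZ (M : ℕ) (u : ℤ × ℤ) : Prop := ¬ ((M : ℤ) ∣ u.1 ∧ (M : ℤ) ∣ u.2)

/-- `u ≡ ± t` modulo `M`. -/
def PM (M : ℕ) (u t : ℤ × ℤ) : Prop :=
  ((M : ℤ) ∣ u.1 - t.1 ∧ (M : ℤ) ∣ u.2 - t.2) ∨ ((M : ℤ) ∣ u.1 + t.1 ∧ (M : ℤ) ∣ u.2 + t.2)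

/-! ## Sums over the lattice -/

theorem mem_lattice_iff (τ : ℍ) (z : ℂ) :
    z ∈ (tauPair τ).lattice ↔ ∃ c d : ℤ, z = c * (τ : ℂ) + d := by
  rw [PeriodPair.mem_lattice]
  constructor
  · rintro ⟨m, n, h⟩; exact ⟨n, m, by rw [← h]; simp [tauPair, add_comm]⟩
  · rintro ⟨c, d, rfl⟩; exact ⟨d, c, by simp [tauPair, add_comm]⟩

/-- `(c, d) ↦ c τ + d`. -/
def latEquiv (τ : ℍ) : ℤ × ℤ ≃ (tauPair τ).lattice :=
  (Equiv.prodComm ℤ ℤ).trans (tauPair τ).latticeEquivProd.symm.toEquiv

theorem coe_latEquiv (τ : ℍ) (y : ℤ × ℤ) :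
    ((latEquiv τ y : (tauPair τ).lattice) : ℂ) = y.1 * (τ : ℂ) + y.2 := by
  show ((tauPair τ).latticeEquivProd.symm (y.2, y.1) : ℂ) = _
  rw [PeriodPair.latticeEquiv_symm_apply]
  simp [tauPair, add_comm]

theorem hasSum_wp (τ : ℍ) (z : ℂ) :
    HasSum (fun y : ℤ × ℤ => 1 / (z - (y.1 * (τ : ℂ) + y.2)) ^ 2 - 1 / (y.1 * (τ : ℂ) + y.2) ^ 2)
      ((tauPair τ).weierstrassP z) := by
  have h := (latEquiv τ).hasSum_iff.mpr ((tauPair τ).hasSum_weierstrassP z)
  simpa only [Function.comp_def, coe_latEquiv] using h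

theorem hasSum_wp_sub (τ : ℍ) (z w : ℂ) :
    HasSum (fun y : ℤ × ℤ =>
        1 / (z - (y.1 * (τ : ℂ) + y.2)) ^ 2 - 1 / (w - (y.1 * (τ : ℂ) + y.2)) ^ 2)
      ((tauPair τ).weierstrassP z - (tauPair τ).weierstrassP w) := by
  refine ((hasSum_wp τ z).sub (hasSum_wp τ w)).congr_fun fun y => ?_
  ring

/-- `e / (1 - e) ^ 2`. -/
def phi (e : ℂ) : ℂ := e / (1 - e) ^ 2

theorem phi_inv (e : ℂ) : phi e⁻¹ = phi e := by
  rcases eq_or_ne e 0 with rfl | he
  · simp [phi]
  rcases eq_or_ne e 1 with rfl | h1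
  · simp [phi]
  have : (1 - e) ≠ 0 := sub_ne_zero.mpr (Ne.symm h1)
  have : (e - 1) ≠ 0 := sub_ne_zero.mpr h1
  rw [phi, phi]
  field_simp
  ring

theorem summable_inv_sq (x : ℂ) : Summable fun d : ℤ => 1 / (x + d) ^ 2 := by
  simpa [one_div, zpow_natCast] using EisensteinSeries.linear_right_summable x 1 (k := 2) le_rfl

theorem tsum_inv_sq_upper {x : ℂ} (hx : 0 < x.im) :
    ∑' d : ℤ, 1 / (x + d) ^ 2 =
      (2 * Real.pi * Complex.I) ^ 2 * phi (Complex.exp (2 * Real.pi * Complex.I * x)) := by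
  have h := EisensteinSeries.qExpansion_identity (k := 1) le_rfl ⟨x, hx⟩
  simp only [show (1 + 1 : ℕ) = 2 from rfl, pow_one, Nat.factorial_one, Nat.cast_one, div_one] at h
  rw [h, (hasSum_coe_mul_geometric_of_norm_lt_one
    (UpperHalfPlane.norm_exp_two_pi_I_lt_one ⟨x, hx⟩)).tsum_eq]
  simp [phi]

theorem exp_two_pi_I_eq_one_iff {x : ℂ} :
    Complex.exp (2 * Real.pi * Complex.I * x) = 1 ↔ ∃ d : ℤ, x = d := by
  rw [Complex.exp_eq_one_iff]
  constructor
  · rintro ⟨d, hd⟩
    exact ⟨d, mul_left_cancel₀ Complex.two_pi_I_ne_zero (hd.trans (by ring))⟩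
  · rintro ⟨d, rfl⟩; exact ⟨d, by ring⟩

theorem tsum_inv_sq {x : ℂ} (hx : ∀ d : ℤ, x ≠ d) :
    ∑' d : ℤ, 1 / (x + d) ^ 2 =
      (2 * Real.pi * Complex.I) ^ 2 * phi (Complex.exp (2 * Real.pi * Complex.I * x)) := by
  rcases lt_trichotomy x.im 0 with h | h | h
  · have h' := tsum_inv_sq_upper (x := -x) (by simpa using h)
    rw [mul_neg, Complex.exp_neg, phi_inv] at h'
    rw [← h', ← (Equiv.neg ℤ).tsum_eq]
    refine tsum_congr fun d => ?_
    simp only [Equiv.neg_apply, Int.cast_neg]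
    rw [show x + -(d : ℂ) = -(-x + d) by ring, neg_sq]
  · -- continuity from above
    set s : ℕ → ℂ := fun k => x + Complex.I * ((1 / (k + 1) : ℝ) : ℂ) with hs
    have hst : Tendsto s atTop (𝓝 x) := by
      have h0 : Tendsto (fun k : ℕ => ((1 / (k + 1) : ℝ) : ℂ)) atTop (𝓝 0) := by
        simpa [Function.comp_def] using
          (Complex.continuous_ofReal.tendsto 0).comp tendsto_one_div_add_atTop_nhds_zero_nat
      simpa [hs] using (h0.const_mul Complex.I).const_add x
    have hxd : ∀ d : ℤ, x + d ≠ 0 := fun d hd => hx (-d) (by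
      push_cast; linear_combination hd)
    have h1 : Tendsto (fun k => ∑' d : ℤ, 1 / (s k + d) ^ 2) atTop
        (𝓝 (∑' d : ℤ, 1 / (x + d) ^ 2)) := by
      refine tendsto_tsum_of_dominated_convergence (summable_inv_sq x).norm (fun d => ?_)
        (.of_forall fun k d => ?_)
      · exact tendsto_const_nhds.div ((hst.add_const _).pow 2) (pow_ne_zero 2 (hxd d))
      · rw [norm_div, norm_div, norm_one, norm_pow, norm_pow]
        refine one_div_le_one_div_of_le (by have := norm_pos_iff.mpr (hxd d); positivity)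
          (pow_le_pow_left₀ (norm_nonneg _) ?_ 2)
        rw [Complex.norm_def, Complex.norm_def]
        refine Real.sqrt_le_sqrt ?_
        simp only [hs, Complex.normSq_apply, Complex.add_re, Complex.add_im, Complex.mul_re,
          Complex.mul_im, Complex.I_re, Complex.I_im, Complex.ofReal_re, Complex.ofReal_im,
          Complex.intCast_re, Complex.intCast_im, h]
        nlinarith [sq_nonneg ((1 / (k + 1) : ℝ))]
    have hne : 1 - Complex.exp (2 * Real.pi * Complex.I * x) ≠ 0 := sub_ne_zero.mpr fun h1 =>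
      absurd (exp_two_pi_I_eq_one_iff.mp h1.symm) (fun ⟨d, hd⟩ => hx d hd)
    have h2 : Tendsto (fun k => (2 * Real.pi * Complex.I) ^ 2 *
        phi (Complex.exp (2 * Real.pi * Complex.I * s k))) atTop
        (𝓝 ((2 * Real.pi * Complex.I) ^ 2 * phi (Complex.exp (2 * Real.pi * Complex.I * x)))) := by
      have he := (Complex.continuous_exp.tendsto _).comp (hst.const_mul (2 * Real.pi * Complex.I))
      exact (he.div ((he.const_sub 1).pow 2) (pow_ne_zero 2 hne)).const_mul _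
    refine tendsto_nhds_unique (h1.congr fun k => tsum_inv_sq_upper ?_) h2
    simp only [hs, Complex.add_im, Complex.mul_im, Complex.I_re, Complex.I_im, Complex.ofReal_re,
      Complex.ofReal_im, h]
    have : (0 : ℝ) < 1 / (k + 1) := by positivity
    linarith
  · exact tsum_inv_sq_upper h

variable {M : ℕ} [NeZero M]

theorem divPt_sub_ne_int {u : ℤ × ℤ} (hu : NZ M u) (τ : ℍ) (c d : ℤ) :
    divPt M u τ - c * (τ : ℂ) ≠ d := by
  intro h
  have hM : (M : ℂ) ≠ 0 := Nat.cast_ne_zero.mpr (NeZero.ne M)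
  have h' : ((u.1 - c * M : ℤ) : ℂ) * (τ : ℂ) = ((d * M - u.2 : ℤ) : ℂ) := by
    rw [divPt, sub_eq_iff_eq_add, div_eq_iff hM] at h
    push_cast
    linear_combination h
  have him := congrArg Complex.im h'
  simp only [Complex.mul_im, Complex.intCast_re, Complex.intCast_im, zero_mul, add_zero,
    mul_eq_zero, coe_im, τ.im_pos.ne', or_false, Int.cast_eq_zero] at him
  rw [him, Int.cast_zero, zero_mul] at h'
  have h2 : d * M - u.2 = 0 := by exact_mod_cast h'.symm
  exact hu ⟨⟨c, by linarith⟩, ⟨d, by linarith⟩⟩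

theorem exp_divPt_sub (u : ℤ × ℤ) (τ : ℍ) (c : ℤ) :
    Complex.exp (2 * Real.pi * Complex.I * (divPt M u τ - c * (τ : ℂ))) =
      qq M τ ^ (u.1 - c * M) * zetaC M ^ u.2 := by
  have hM : (M : ℂ) ≠ 0 := Nat.cast_ne_zero.mpr (NeZero.ne M)
  rw [qq, zetaC, ← Complex.exp_int_mul, ← Complex.exp_int_mul, ← Complex.exp_add, divPt]
  congr 1
  push_cast
  field_simp
  ring

theorem wp_sub_eq {u t : ℤ × ℤ} (hu : NZ M u) (ht : NZ M t) (τ : ℍ) :
    HasSum (fun c : ℤ => phi (qq M τ ^ (u.1 - c * M) * zetaC M ^ u.2) -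
      phi (qq M τ ^ (t.1 - c * M) * zetaC M ^ t.2)) (wpDiff M u t τ) := by
  have key : ∀ {v : ℤ × ℤ}, NZ M v → ∀ c : ℤ,
      HasSum (fun d : ℤ => 1 / (divPt M v τ - (c * (τ : ℂ) + d)) ^ 2)
        ((2 * Real.pi * Complex.I) ^ 2 * phi (qq M τ ^ (v.1 - c * M) * zetaC M ^ v.2)) := by
    intro v hv c
    set x := divPt M v τ - c * (τ : ℂ) with hx
    rw [← exp_divPt_sub, ← hx, ← tsum_inv_sq (divPt_sub_ne_int hv τ c)]
    refine ((Equiv.neg ℤ).hasSum_iff.mpr (summable_inv_sq x).hasSum).congr_fun fun d => ?_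
    simp only [Function.comp_apply, Equiv.neg_apply, Int.cast_neg, hx]
    ring_nf
  have h := (hasSum_wp_sub τ (divPt M u τ) (divPt M t τ)).prod_fiberwise
    fun c => (key hu c).sub (key ht c)
  have h2 := h.div_const ((2 * Real.pi * Complex.I) ^ 2)
  refine h2.congr_fun fun c => ?_
  rw [← mul_sub, mul_div_cancel_left₀ _ (pow_ne_zero 2 Complex.two_pi_I_ne_zero)]

/-! ## The expansion -/

/-- One half of the expansion. -/
def halfTerm (M : ℕ) (a b : ℤ) (q : ℂ) (x : ℕ+ × ℕ+) : ℂ :=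
  if (M : ℤ) ∣ ((x.1 : ℕ) : ℤ) - a then
    ((x.2 : ℕ) : ℂ) * zetaC M ^ (b * (x.2 : ℕ)) * q ^ ((x.1 : ℕ) * (x.2 : ℕ))
  else 0

theorem norm_zetaC_zpow (j : ℤ) : ‖zetaC M ^ j‖ = 1 := by
  rw [norm_zpow, zetaC, show 2 * Real.pi * Complex.I / M =
    ((2 * Real.pi / M : ℝ) : ℂ) * Complex.I by push_cast; ring, Complex.norm_exp_ofReal_mul_I,
    one_zpow]

theorem summable_halfTerm (a b : ℤ) {q : ℂ} (hq : ‖q‖ < 1) : Summable (halfTerm M a b q) := by
  refine Summable.of_norm_bounded (summable_prod_mul_pow 1 hq).norm fun x => ?_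
  rw [halfTerm]
  split_ifs
  · rw [norm_mul, norm_mul, norm_zetaC_zpow, mul_one, norm_mul, pow_one]
  · rw [norm_zero]; exact norm_nonneg _

theorem hasSum_halfTerm_fibre (a b : ℤ) {q : ℂ} (hq : ‖q‖ < 1) (m : ℕ+) :
    HasSum (fun k : ℕ+ => halfTerm M a b q (m, k))
      (if (M : ℤ) ∣ ((m : ℕ) : ℤ) - a then phi (q ^ (m : ℕ) * zetaC M ^ b) else 0) := by
  by_cases h : (M : ℤ) ∣ ((m : ℕ) : ℤ) - a
  · simp only [halfTerm, if_pos h]
    have he : ‖q ^ (m : ℕ) * zetaC M ^ b‖ < 1 := by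
      rw [norm_mul, norm_zetaC_zpow, mul_one, norm_pow]
      exact pow_lt_one₀ (norm_nonneg _) hq m.ne_zero
    have hg := hasSum_coe_mul_geometric_of_norm_lt_one he
    have hg' := (Function.Injective.hasSum_iff
      (g := fun k : ℕ+ => (k : ℕ)) PNat.coe_injective fun k hk => ?_).mpr hg
    · refine hg'.congr_fun fun k => ?_
      simp only [Function.comp_apply]
      rw [mul_pow, ← pow_mul, ← zpow_natCast (zetaC M ^ b), ← zpow_mul]
      ring
    · have : k = 0 := by
        by_contra hk0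
        exact hk ⟨⟨k, Nat.pos_of_ne_zero hk0⟩, rfl⟩
      subst this
      simp
  · simp only [halfTerm, if_neg h]
    exact hasSum_zero

theorem hasSum_half (a b : ℤ) {q : ℂ} (hq : ‖q‖ < 1) :
    HasSum (fun n : ℕ => if (M : ℤ) ∣ ((n + 1 : ℕ) : ℤ) - a then phi (q ^ (n + 1) * zetaC M ^ b)
      else 0) (∑' x, halfTerm M a b q x) := by
  have h := (summable_halfTerm (M := M) a b hq).hasSum.prod_fiberwise (hasSum_halfTerm_fibre a b hq)
  exact (Equiv.pnatEquivNat.symm.hasSum_iff.mpr h).congr_fun fun n => rfl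

/-- The function attached to a single division point. -/
def gFun (M : ℕ) (u : ℤ × ℤ) (τ : ℍ) : ℂ :=
  (if (M : ℤ) ∣ u.1 then phi (zetaC M ^ u.2) else 0) +
    ((∑' x, halfTerm M u.1 u.2 (qq M τ) x) + ∑' x, halfTerm M (-u.1) (-u.2) (qq M τ) x)

theorem hasSum_gFun (u : ℤ × ℤ) (τ : ℍ) :
    HasSum (fun c : ℤ => phi (qq M τ ^ (u.1 - c * M) * zetaC M ^ u.2)) (gFun M u τ) := by
  set q := qq M τ
  have hq : ‖q‖ < 1 := norm_qq_lt_one M (NeZero.pos M) τ
  set ψ : ℤ → ℂ := fun m => if (M : ℤ) ∣ m - u.1 then phi (q ^ m * zetaC M ^ u.2) else 0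
  have hψ : HasSum ψ (gFun M u τ) := by
    have hp : HasSum (fun n : ℕ => ψ ((n : ℤ) + 1)) (∑' x, halfTerm M u.1 u.2 q x) :=
      (hasSum_half u.1 u.2 hq).congr_fun fun n => by
        simp only [ψ, Nat.cast_add, Nat.cast_one]
        rw [show ((n : ℤ) + 1) = ((n + 1 : ℕ) : ℤ) by simp, zpow_natCast]
    have hn : HasSum (fun n : ℕ => ψ (-((n : ℤ) + 1))) (∑' x, halfTerm M (-u.1) (-u.2) q x) :=
      (hasSum_half (-u.1) (-u.2) hq).congr_fun fun n => by
        simp only [ψ]
        have hiff : (M : ℤ) ∣ -((n : ℤ) + 1) - u.1 ↔ (M : ℤ) ∣ ((n + 1 : ℕ) : ℤ) - -u.1 := by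
          rw [← dvd_neg]; push_cast; ring_nf
        rw [show q ^ (-((n : ℤ) + 1)) * zetaC M ^ u.2 = (q ^ (n + 1) * zetaC M ^ (-u.2))⁻¹ by
          rw [mul_inv, ← zpow_neg, neg_neg, zpow_neg, ← zpow_natCast]; push_cast; rfl, phi_inv]
        by_cases h : (M : ℤ) ∣ ((n + 1 : ℕ) : ℤ) - -u.1
        · rw [if_pos h, if_pos (hiff.mpr h)]
        · rw [if_neg h, if_neg (mt hiff.mp h)]
    have h := HasSum.of_add_one_of_neg_add_one hp hn
    convert h using 1
    simp only [gFun, ψ, zero_sub, dvd_neg, zpow_zero, one_mul]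
    ring
  have hinj : Function.Injective fun c : ℤ => u.1 - c * M := fun c c' h =>
    mul_right_cancel₀ (Int.natCast_ne_zero.mpr (NeZero.ne M)) (sub_right_injective h)
  have := (hinj.hasSum_iff (f := ψ) fun m hm => ?_).mpr hψ
  · refine this.congr_fun fun c => ?_
    simp only [Function.comp_apply, ψ]
    rw [if_pos ⟨-c, by ring⟩]
  · simp only [ψ]
    rw [if_neg]
    rintro ⟨k, hk⟩
    exact hm ⟨-k, by linarith⟩

theorem hasSum_pSer (u : ℤ × ℤ) (τ : ℍ) :
    HasSum (fun n : ℕ => PowerSeries.coeff n (pSer M (zetaC M) u) * qq M τ ^ n) (gFun M u τ) := by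
  set q := qq M τ
  have hq : ‖q‖ < 1 := norm_qq_lt_one M (NeZero.pos M) τ
  have h := ((summable_halfTerm (M := M) u.1 u.2 hq).hasSum.add
    (summable_halfTerm (M := M) (-u.1) (-u.2) hq).hasSum)
  have h' := (sigmaAntidiagonalEquivProd.hasSum_iff.mpr h).sigma fun n => hasSum_fintype _
  refine (hasSum_nat_add_iff' 1).mp ?_
  rw [Finset.sum_range_one, show PowerSeries.coeff 0 (pSer M (zetaC M) u) * q ^ 0 =
    (if (M : ℤ) ∣ u.1 then phi (zetaC M ^ u.2) else 0) by simp [pSer, phi]]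
  rw [gFun, add_sub_cancel_left]
  refine (Equiv.pnatEquivNat.symm.hasSum_iff.mpr h').congr_fun fun n => ?_
  simp only [Function.comp_apply, Equiv.pnatEquivNat_symm_apply]
  show PowerSeries.coeff (n + 1) _ * q ^ (n + 1) = _
  simp only [pSer, PowerSeries.coeff_mk, Nat.succ_ne_zero, if_false, Finset.sum_mul]
  let f : ℕ → ℕ → ℂ := fun m k =>
    (if (M : ℤ) ∣ (m : ℤ) - u.1 then (k : ℂ) * zetaC M ^ (u.2 * k) * q ^ (m * k) else 0) +
      (if (M : ℤ) ∣ (m : ℤ) - -u.1 then (k : ℂ) * zetaC M ^ (-u.2 * k) * q ^ (m * k) else 0)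
  have hright := (n + 1).divisorsAntidiagonal.sum_attach fun x : ℕ × ℕ => f x.1 x.2
  refine Eq.trans ?_ (Eq.trans (Nat.sum_divisorsAntidiagonal' (n := n + 1) f).symm
    (hright.symm.trans ?_))
  · refine Finset.sum_congr rfl fun k hk => ?_
    have hmk : (n + 1) / k * k = n + 1 := Nat.div_mul_cancel (Nat.dvd_of_mem_divisors hk)
    simp only [f, hmk, sub_neg_eq_add, neg_mul]
    split_ifs <;> ring
  · refine Finset.sum_congr rfl fun x _ => ?_
    simp only [f, halfTerm, sigmaAntidiagonalEquivProd, divisorsAntidiagonalFactors, Equiv.coe_fn_mk,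
      PNat.mk_coe]

theorem hasSum_wpDiff {u t : ℤ × ℤ} (hu : NZ M u) (ht : NZ M t) (τ : ℍ) :
    HasSum (fun n : ℕ => PowerSeries.coeff n (pSer M (zetaC M) u - pSer M (zetaC M) t) *
      qq M τ ^ n) (wpDiff M u t τ) := by
  rw [(wp_sub_eq hu ht τ).unique ((hasSum_gFun u τ).sub (hasSum_gFun t τ))]
  refine ((hasSum_pSer u τ).sub (hasSum_pSer t τ)).congr_fun fun n => ?_
  rw [map_sub, sub_mul]

theorem hasQSeries_wpDiff {u t : ℤ × ℤ} (hu : NZ M u) (ht : NZ M t) :
    HasQSeries M (wpDiff M u t)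
      (HahnSeries.ofPowerSeries ℤ ℂ (pSer M (zetaC M) u - pSer M (zetaC M) t)) := by
  rw [hasQSeries_iff]
  refine .of_forall fun τ => (Nat.cast_injective.hasSum_iff fun m hm => ?_).mp ?_
  · rw [HahnSeries.ofPowerSeries_apply, HahnSeries.embDomain_of_notMem_range, zero_mul]
    rintro ⟨k, hk⟩; exact hm ⟨k, hk⟩
  · simpa [Function.comp_def, HahnSeries.ofPowerSeries_apply_coeff] using hasSum_wpDiff hu ht τ

theorem mdifferentiable_wpDiff {u t : ℤ × ℤ} (hu : NZ M u) (ht : NZ M t) :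
    MDifferentiable 𝓘(ℂ) 𝓘(ℂ) (wpDiff M u t) := by
  set P := pSer M (zetaC M) u - pSer M (zetaC M) t
  rw [UpperHalfPlane.mdifferentiable_iff]
  intro z hz
  have hz' : 0 < z.im := hz
  set B : ℝ := z.im / 2 with hB
  have hB0 : 0 < B := half_pos hz'
  set τ₀ : ℍ := ⟨Complex.I * (B : ℂ), by simpa using hB0⟩ with hτ₀
  set U : Set ℂ := {w | B < w.im} with hU
  have hUo : IsOpen U := isOpen_lt continuous_const Complex.continuous_im
  have hsum := (hasSum_wpDiff hu ht τ₀).summable.norm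
  have hd : DifferentiableOn ℂ (fun w => ∑' n : ℕ, PowerSeries.coeff n P *
      Complex.exp (2 * Real.pi * Complex.I * w / M) ^ n) U := by
    refine Complex.differentiableOn_tsum_of_summable_norm hsum (fun n => ?_) hUo fun n w hw => ?_
    · apply Differentiable.differentiableOn; fun_prop
    · rw [norm_mul, norm_mul, norm_pow, norm_pow]
      refine mul_le_mul_of_nonneg_left (pow_le_pow_left₀ (norm_nonneg _) ?_ n) (norm_nonneg _)
      rw [qq, Complex.norm_exp, Complex.norm_exp]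
      refine Real.exp_le_exp.mpr ?_
      have hM : (0 : ℝ) < M := by exact_mod_cast NeZero.pos M
      have hwB : B ≤ w.im := le_of_lt hw
      have e : ∀ x : ℂ, (2 * Real.pi * Complex.I * x / M).re = -(2 * Real.pi * x.im / M) := fun x => by
        simp [Complex.div_natCast_re]; ring
      rw [e, e]
      refine neg_le_neg (div_le_div_of_nonneg_right ?_ hM.le)
      refine mul_le_mul_of_nonneg_left ?_ (by positivity)
      simpa [hτ₀] using hwB
  refine ((hd.differentiableAt (hUo.mem_nhds (half_lt_self hz'))).congr_of_eventuallyEq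
    ?_).differentiableWithinAt
  filter_upwards [hUo.mem_nhds (show B < z.im from half_lt_self hz')] with w hw
  simp only [Function.comp, ofComplex_apply_of_im_pos (hB0.trans hw)]
  exact (hasSum_wpDiff hu ht ⟨w, hB0.trans hw⟩).tsum_eq.symm

omit [NeZero M]

/-! ## Transformation and congruence -/

theorem rowMul_rowMul (y : ℤ × ℤ) (g h : SL(2, ℤ)) :
    rowMul (rowMul y g) h = rowMul y (g * h) := by
  simp only [rowMul, Matrix.SpecialLinearGroup.coe_mul, Matrix.mul_apply, Fin.sum_univ_two,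
    Prod.mk.injEq]
  constructor <;> ring

theorem rowMul_one (y : ℤ × ℤ) : rowMul y 1 = y := by simp [rowMul]

/-- Right multiplication as a bijection. -/
def rowMulEquiv (g : SL(2, ℤ)) : ℤ × ℤ ≃ ℤ × ℤ where
  toFun y := rowMul y g
  invFun y := rowMul y g⁻¹
  left_inv y := by
    show rowMul (rowMul y g) g⁻¹ = y
    rw [rowMul_rowMul, mul_inv_cancel, rowMul_one]
  right_inv y := by
    show rowMul (rowMul y g⁻¹) g = y
    rw [rowMul_rowMul, inv_mul_cancel, rowMul_one]

theorem wp_smul (g : SL(2, ℤ)) (τ : ℍ) (z : ℂ) :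
    (tauPair (g • τ)).weierstrassP (z / ((g 1 0 : ℂ) * τ + g 1 1)) =
      ((g 1 0 : ℂ) * τ + g 1 1) ^ 2 * (tauPair τ).weierstrassP z := by
  set j : ℂ := (g 1 0 : ℂ) * τ + g 1 1 with hj
  have hj0 : j ≠ 0 := by
    have := denom_ne_zero (g : GL (Fin 2) ℝ) τ
    rw [ModularGroup.denom_apply] at this
    exact this
  have hg : ((g • τ : ℍ) : ℂ) = ((g 0 0 : ℂ) * τ + g 0 1) / j := by
    rw [hj, UpperHalfPlane.specialLinearGroup_apply]; simp
  refine (hasSum_wp (g • τ) (z / j)).unique ?_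
  have h := ((rowMulEquiv g).hasSum_iff.mpr (hasSum_wp τ z)).mul_left (j ^ 2)
  refine h.congr_fun fun y => ?_
  simp only [Function.comp_apply, rowMulEquiv, Equiv.coe_fn_mk, rowMul]
  set X : ℂ := ((y.1 * g 0 0 + y.2 * g 1 0 : ℤ) : ℂ) * τ + ((y.1 * g 0 1 + y.2 * g 1 1 : ℤ) : ℂ)
    with hX
  have hXy : (y.1 : ℂ) * ((g • τ : ℍ) : ℂ) + y.2 = X / j := by
    rw [hg, hX]
    field_simp
    rw [hj]
    push_cast
    ring
  rw [hXy, ← sub_div, div_pow, div_pow, one_div_div, one_div_div]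
  ring

theorem wpDiff_smul (u t : ℤ × ℤ) (g : SL(2, ℤ)) (τ : ℍ) :
    wpDiff M u t (g • τ) =
      ((g 1 0 : ℂ) * τ + g 1 1) ^ 2 * wpDiff M (rowMul u g) (rowMul t g) τ := by
  have hj0 : (g 1 0 : ℂ) * τ + g 1 1 ≠ 0 := by
    have := denom_ne_zero (g : GL (Fin 2) ℝ) τ
    rw [ModularGroup.denom_apply] at this
    exact this
  have e : ∀ v : ℤ × ℤ,
      divPt M v (g • τ) = divPt M (rowMul v g) τ / ((g 1 0 : ℂ) * τ + g 1 1) := fun v => by
    have hg : ((g • τ : ℍ) : ℂ) = ((g 0 0 : ℂ) * τ + g 0 1) / ((g 1 0 : ℂ) * τ + g 1 1) := by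
      rw [UpperHalfPlane.specialLinearGroup_apply]; simp
    rcases eq_or_ne (M : ℂ) 0 with hM | hM
    · simp [divPt, hM]
    · obtain ⟨j, hj⟩ : ∃ j : ℂ, j = (g 1 0 : ℂ) * τ + g 1 1 := ⟨_, rfl⟩
      rw [← hj] at hg hj0 ⊢
      rw [divPt, divPt, hg, rowMul]
      field_simp
      rw [hj]
      push_cast
      ring
  rw [wpDiff, wpDiff, e, e, wp_smul, wp_smul]
  ring

theorem wp_divPt_congr [NeZero M] {u u' : ℤ × ℤ} (h : PM M u u') (τ : ℍ) :
    (tauPair τ).weierstrassP (divPt M u τ) = (tauPair τ).weierstrassP (divPt M u' τ) := by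
  have hM : (M : ℂ) ≠ 0 := Nat.cast_ne_zero.mpr (NeZero.ne M)
  rcases h with ⟨⟨p, hp⟩, ⟨r, hr⟩⟩ | ⟨⟨p, hp⟩, ⟨r, hr⟩⟩
  all_goals
    have hp' := congrArg (fun x : ℤ => (x : ℂ)) hp
    have hr' := congrArg (fun x : ℤ => (x : ℂ)) hr
    push_cast at hp' hr'
    let l : (tauPair τ).lattice := latEquiv τ (p, r)
  · rw [show divPt M u τ = divPt M u' τ + (l : ℂ) by
      rw [coe_latEquiv]; simp only [divPt]; field_simp
      linear_combination (τ : ℂ) * hp' + hr', PeriodPair.weierstrassP_add_coe]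
  · rw [show divPt M u τ = -divPt M u' τ + (l : ℂ) by
      rw [coe_latEquiv]; simp only [divPt]; field_simp
      linear_combination (τ : ℂ) * hp' + hr', PeriodPair.weierstrassP_add_coe,
      PeriodPair.weierstrassP_neg]

theorem wpDiff_congr [NeZero M] {u u' t t' : ℤ × ℤ} (hu : PM M u u') (ht : PM M t t') :
    wpDiff M u t = wpDiff M u' t' := by
  funext τ
  rw [wpDiff, wpDiff, wp_divPt_congr hu τ, wp_divPt_congr ht τ]

/-! ## Injectivity of `℘` -/

section Inj

variable (L : PeriodPair)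

theorem countable_lattice : (L.lattice : Set ℂ).Countable := by
  have : Countable L.lattice := L.latticeEquivProd.toEquiv.countable_iff.mpr inferInstance
  exact Set.to_countable _

theorem isPreconnected_compl_countable {s : Set ℂ} (hs : s.Countable) : IsPreconnected sᶜ :=
  (hs.isConnected_compl_of_one_lt_rank (by simp)).2

theorem wp_not_bounded_at_zero {v : ℂ} :
    ¬ Tendsto L.weierstrassP (𝓝[≠] 0) (𝓝 v) := by
  intro h
  have hc : ContinuousAt (L.weierstrassPExcept 0) 0 :=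
    (L.analyticAt_weierstrassPExcept 0).continuousAt
  have hid : Tendsto (fun y : ℂ => y ^ 2) (𝓝[≠] 0) (𝓝 0) := by
    have : Tendsto (fun y : ℂ => y ^ 2) (𝓝 0) (𝓝 ((0 : ℂ) ^ 2)) :=
      (continuous_pow 2).tendsto 0
    simpa using this.mono_left nhdsWithin_le_nhds
  have h1 : Tendsto (fun y => y ^ 2 * L.weierstrassP y) (𝓝[≠] 0) (𝓝 (0 * v)) := hid.mul h
  have h2 : Tendsto (fun y => y ^ 2 * L.weierstrassPExcept 0 y + 1) (𝓝[≠] 0)
      (𝓝 (0 * L.weierstrassPExcept 0 0 + 1)) :=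
    (hid.mul (hc.tendsto.mono_left nhdsWithin_le_nhds)).add_const 1
  have h3 : Tendsto (fun y => y ^ 2 * L.weierstrassP y) (𝓝[≠] 0)
      (𝓝 (0 * L.weierstrassPExcept 0 0 + 1)) := by
    refine h2.congr' (eventually_nhdsWithin_of_forall fun y hy => ?_)
    have hy0 : y ≠ 0 := hy
    have := L.weierstrassPExcept_def (0 : L.lattice) y
    simp only [ZeroMemClass.coe_zero] at this
    rw [this]
    simp only [ne_eq, OfNat.ofNat_ne_zero, not_false_eq_true, zero_pow, div_zero, zero_sub, sub_zero]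
    field_simp
    ring
  simpa using tendsto_nhds_unique h1 h3

theorem hasDerivAt_wp {x : ℂ} (hx : x ∉ L.lattice) :
    HasDerivAt L.weierstrassP (L.derivWeierstrassP x) x := by
  have := ((L.analyticOnNhd_weierstrassP x hx).differentiableAt).hasDerivAt
  rwa [L.deriv_weierstrassP] at this

theorem second_deriv_wp {x : ℂ} (hx : x ∉ L.lattice) :
    deriv L.derivWeierstrassP x = 6 * L.weierstrassP x ^ 2 - L.g₂ / 2 := by
  set U : Set ℂ := (L.lattice : Set ℂ)ᶜ with hU
  have hUo : IsOpen U := L.isClosed_lattice.isOpen_compl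
  have hP' : AnalyticOnNhd ℂ L.derivWeierstrassP U := L.analyticOnNhd_derivWeierstrassP
  have hk : AnalyticOnNhd ℂ
      (fun y => deriv L.derivWeierstrassP y - (6 * L.weierstrassP y ^ 2 - L.g₂ / 2)) U := by
    intro y hy
    exact (hP'.deriv y hy).sub (((analyticAt_const).mul
      ((L.analyticOnNhd_weierstrassP y hy).pow 2)).sub analyticAt_const)
  have hmul : ∀ y ∈ U, (deriv L.derivWeierstrassP y - (6 * L.weierstrassP y ^ 2 - L.g₂ / 2)) *
      L.derivWeierstrassP y = 0 := by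
    intro y hy
    have hd1 : HasDerivAt (fun w => L.derivWeierstrassP w ^ 2)
        (2 * L.derivWeierstrassP y * deriv L.derivWeierstrassP y) y := by
      exact ((hP' y hy).differentiableAt.hasDerivAt.pow 2).congr_deriv (by norm_num)
    have hd2 : HasDerivAt
        (fun w => 4 * L.weierstrassP w ^ 3 - L.g₂ * L.weierstrassP w - L.g₃)
        ((12 * L.weierstrassP y ^ 2 - L.g₂) * L.derivWeierstrassP y) y := by
      refine ((((hasDerivAt_wp L hy).pow 3).const_mul 4).sub
        ((hasDerivAt_wp L hy).const_mul L.g₂)).sub_const L.g₃ |>.congr_deriv ?_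
      push_cast
      ring
    have := (hd1.congr_of_eventuallyEq (f₁ := fun w =>
      4 * L.weierstrassP w ^ 3 - L.g₂ * L.weierstrassP w - L.g₃)
      (by filter_upwards [hUo.mem_nhds hy] with w hw using (L.derivWeierstrassP_sq w hw).symm)).unique hd2
    linear_combination this / 2
  rcases AnalyticOnNhd.eq_zero_or_eq_zero_of_mul_eq_zero hk hP' hmul
    (isPreconnected_compl_countable (countable_lattice L)) with h | h
  · exact sub_eq_zero.mp (h x hx)
  · exfalso
    have hconst : ∀ y ∈ U, L.weierstrassP y = L.weierstrassP x := fun y hy =>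
      IsOpen.is_const_of_deriv_eq_zero hUo (isPreconnected_compl_countable (countable_lattice L))
        (fun w hw => (hasDerivAt_wp L hw).differentiableAt.differentiableWithinAt)
        (fun w hw => by rw [L.deriv_weierstrassP]; exact h w hw) hy hx
    refine wp_not_bounded_at_zero L (v := L.weierstrassP x)
      (tendsto_const_nhds.congr' ?_)
    filter_upwards [nhdsWithin_le_nhds (L.compl_lattice_sdiff_singleton_mem_nhds 0),
      self_mem_nhdsWithin] with y hy hy0
    exact (hconst y fun hmem => hy ⟨hmem, hy0⟩).symm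

theorem sub_mem_of_wp_eq {z w : ℂ} (hz : z ∉ L.lattice) (hw : w ∉ L.lattice)
    (h0 : L.weierstrassP z = L.weierstrassP w)
    (h1 : L.derivWeierstrassP z = L.derivWeierstrassP w) : z - w ∈ L.lattice := by
  set S : Set ℂ := ((· + z) ⁻¹' (L.lattice : Set ℂ)) ∪ ((· + w) ⁻¹' (L.lattice : Set ℂ)) with hS
  have hScount : S.Countable :=
    ((countable_lattice L).preimage (add_left_injective z)).union
      ((countable_lattice L).preimage (add_left_injective w))
  have hSo : IsOpen Sᶜ := by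
    rw [hS, Set.compl_union]
    exact ((L.isClosed_lattice.preimage (continuous_add_const z)).isOpen_compl).inter
      ((L.isClosed_lattice.preimage (continuous_add_const w)).isOpen_compl)
  have h0S : (0 : ℂ) ∈ Sᶜ := by simp [hS, hz, hw]
  have han : ∀ v x : ℂ, x + v ∉ L.lattice → AnalyticAt ℂ (fun y => L.weierstrassP (y + v)) x :=
    fun v x hx => by
      have h2 : AnalyticAt ℂ (fun y : ℂ => y + v) x := analyticAt_id.add analyticAt_const
      exact (L.analyticOnNhd_weierstrassP (x + v) hx).comp_of_eq h2 rfl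
  set h : ℂ → ℂ := fun y => L.weierstrassP (y + z) - L.weierstrassP (y + w) with hh
  have hhan : AnalyticOnNhd ℂ h Sᶜ := fun x hx => by
    simp only [hS, Set.compl_union, Set.mem_inter_iff, Set.mem_compl_iff, Set.mem_preimage,
      SetLike.mem_coe] at hx
    exact (han z x hx.1).sub (han w x hx.2)
  have hd : ∀ x ∈ Sᶜ, HasDerivAt h (L.derivWeierstrassP (x + z) - L.derivWeierstrassP (x + w)) x :=
    fun x hx => by
      simp only [hS, Set.compl_union, Set.mem_inter_iff, Set.mem_compl_iff, Set.mem_preimage,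
        SetLike.mem_coe] at hx
      exact ((hasDerivAt_wp L hx.1).comp_add_const x z).sub ((hasDerivAt_wp L hx.2).comp_add_const x w)
  have hdd : deriv (deriv h) =ᶠ[𝓝 0]
      fun x => (6 * (L.weierstrassP (x + z) + L.weierstrassP (x + w))) * h x := by
    filter_upwards [hSo.mem_nhds h0S] with x hx
    have he : deriv h =ᶠ[𝓝 x]
        fun y => L.derivWeierstrassP (y + z) - L.derivWeierstrassP (y + w) := by
      filter_upwards [hSo.mem_nhds hx] with y hy using (hd y hy).deriv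
    simp only [hS, Set.compl_union, Set.mem_inter_iff, Set.mem_compl_iff, Set.mem_preimage,
      SetLike.mem_coe] at hx
    have hp : ∀ v : ℂ, x + v ∉ L.lattice →
        HasDerivAt (fun y => L.derivWeierstrassP (y + v))
          (6 * L.weierstrassP (x + v) ^ 2 - L.g₂ / 2) x := fun v hv => by
      rw [← second_deriv_wp L hv]
      exact ((L.analyticOnNhd_derivWeierstrassP _ hv).differentiableAt.hasDerivAt).comp_add_const x v
    rw [he.deriv_eq]
    refine ((hp z hx.1).sub (hp w hx.2)).deriv.trans ?_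
    rw [hh]
    ring
  have htop : analyticOrderAt h 0 = ⊤ := by
    have hA := hhan 0 h0S
    have e0 : h 0 = 0 := by simp [hh, h0]
    have e1 : deriv h 0 = 0 := by rw [(hd 0 h0S).deriv]; simp [h1]
    have o1 := hA.analyticOrderAt_deriv_add_one
    simp only [e0, sub_zero] at o1
    have o2 := hA.deriv.analyticOrderAt_deriv_add_one
    simp only [e1, sub_zero] at o2
    have hc : AnalyticAt ℂ (fun x => 6 * (L.weierstrassP (x + z) + L.weierstrassP (x + w))) 0 :=
      analyticAt_const.mul ((han z 0 (by simpa using hz)).add (han w 0 (by simpa using hw)))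
    rw [analyticOrderAt_congr hdd] at o2
    have hmulo : analyticOrderAt (fun x => (6 * (L.weierstrassP (x + z) + L.weierstrassP (x + w))) * h x) 0 =
        analyticOrderAt (fun x => 6 * (L.weierstrassP (x + z) + L.weierstrassP (x + w))) 0 +
          analyticOrderAt h 0 := analyticOrderAt_mul hc hA
    rw [hmulo, ← o1] at o2
    by_contra hne
    obtain ⟨m, hm⟩ := ENat.ne_top_iff_exists.mp hne
    rw [← hm] at o1
    have hfin : analyticOrderAt (deriv h) 0 ≠ ⊤ := fun ht => by rw [ht] at o1; simp at o1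
    obtain ⟨j, hj⟩ := ENat.ne_top_iff_exists.mp hfin
    rw [← hj] at o2
    generalize analyticOrderAt (fun x => 6 * (L.weierstrassP (x + z) + L.weierstrassP (x + w))) 0 = c
      at o2
    cases c with
    | top => simp at o2
    | coe i => norm_cast at o2; omega
  have hzero := hhan.eqOn_zero_of_preconnected_of_eventuallyEq_zero
    (isPreconnected_compl_countable hScount) h0S (analyticOrderAt_eq_top.mp htop)
  by_contra hzw
  have hwz : w - z ∉ L.lattice := fun hm => hzw (by simpa using L.lattice.neg_mem hm)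
  refine wp_not_bounded_at_zero L (v := L.weierstrassP (w - z)) ?_
  have hcont : Tendsto (fun y => L.weierstrassP (y + (w - z))) (𝓝[≠] 0)
      (𝓝 (L.weierstrassP (w - z))) := by
    have := (han (w - z) 0 (by simpa using hwz)).continuousAt.tendsto
    simp only [zero_add] at this
    exact this.mono_left nhdsWithin_le_nhds
  refine hcont.congr' ?_
  have hnear : ∀ᶠ y in 𝓝 (0 : ℂ), y + (w - z) ∉ L.lattice :=
    ((L.isClosed_lattice.preimage (continuous_add_const (w - z))).isOpen_compl).mem_nhds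
      (by simpa using hwz)
  filter_upwards [nhdsWithin_le_nhds hnear,
    nhdsWithin_le_nhds (L.compl_lattice_sdiff_singleton_mem_nhds 0), self_mem_nhdsWithin]
    with y hy hy' hy0
  have hmem : y - z ∈ Sᶜ := by
    simp only [hS, Set.compl_union, Set.mem_inter_iff, Set.mem_compl_iff, Set.mem_preimage,
      SetLike.mem_coe, sub_add_cancel]
    exact ⟨fun hm => hy' ⟨hm, hy0⟩, by rwa [show y - z + w = y + (w - z) by ring]⟩
  have := hzero hmem
  simp only [hh, sub_add_cancel, Pi.zero_apply, sub_eq_zero] at this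
  rw [this]
  congr 1
  ring

theorem wp_eq_iff_mem {z w : ℂ} (hz : z ∉ L.lattice) (hw : w ∉ L.lattice)
    (h0 : L.weierstrassP z = L.weierstrassP w) : z - w ∈ L.lattice ∨ z + w ∈ L.lattice := by
  have hsq : L.derivWeierstrassP z ^ 2 = L.derivWeierstrassP w ^ 2 := by
    rw [L.derivWeierstrassP_sq z hz, L.derivWeierstrassP_sq w hw, h0]
  rcases sq_eq_sq_iff_eq_or_eq_neg.mp hsq with h1 | h1
  · exact Or.inl (sub_mem_of_wp_eq L hz hw h0 h1)
  · right
    have := sub_mem_of_wp_eq L hz (w := -w) (fun hm => hw (by simpa using L.lattice.neg_mem hm))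
      (by rw [L.weierstrassP_neg]; exact h0) (by rw [L.derivWeierstrassP_neg]; exact h1)
    rwa [sub_neg_eq_add] at this

end Inj

theorem wpDiff_ne_zero [NeZero M] {u t : ℤ × ℤ} (hu : NZ M u) (ht : NZ M t) (h : ¬ PM M u t)
    (τ : ℍ) : wpDiff M u t τ ≠ 0 := by
  intro h0
  have hM : (M : ℂ) ≠ 0 := Nat.cast_ne_zero.mpr (NeZero.ne M)
  have hout : ∀ {v : ℤ × ℤ}, NZ M v → divPt M v τ ∉ (tauPair τ).lattice := fun {v} hv hm => by
    obtain ⟨c, d, hcd⟩ := (mem_lattice_iff τ _).mp hm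
    exact divPt_sub_ne_int hv τ c d (by rw [hcd]; ring)
  rw [wpDiff, div_eq_zero_iff, sub_eq_zero] at h0
  have h0' := h0.resolve_right (pow_ne_zero 2 Complex.two_pi_I_ne_zero)
  have key : ∀ v : ℤ × ℤ, divPt M v τ ∈ (tauPair τ).lattice → (M : ℤ) ∣ v.1 ∧ (M : ℤ) ∣ v.2 :=
    fun v hm => not_not.mp fun hv => hout (v := v) hv hm
  refine h ?_
  rcases wp_eq_iff_mem _ (hout hu) (hout ht) h0' with hm | hm
  · left
    refine key (u.1 - t.1, u.2 - t.2) ?_
    rwa [show divPt M (u.1 - t.1, u.2 - t.2) τ = divPt M u τ - divPt M t τ by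
      simp [divPt]; field_simp; ring]
  · right
    refine key (u.1 + t.1, u.2 + t.2) ?_
    rwa [show divPt M (u.1 + t.1, u.2 + t.2) τ = divPt M u τ + divPt M t τ by
      simp [divPt]; field_simp; ring]

end Fermat.Agent.GalRep.Model
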