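/-
Combinatorics of division points modulo `M` and the integral series attached to them: leading
terms of differences are units.
-/
import Fermat.Agent.GalRep.Model.WpDiff

set_option autoImplicit false

noncomputable section

namespace Fermat.Agent.GalRep.Model

open CongruenceSubgroup
open scoped MatrixGroups

/-! ## Division points -/

variable {M : ℕ}

theorem PM.refl (u : ℤ × ℤ) : PM M u u := Or.inl ⟨by simp, by simp⟩

theorem PM.neg_right (u : ℤ × ℤ) : PM M u (-u) := Or.inr ⟨by simp, by simp⟩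

theorem pm_iff {u t : ℤ × ℤ} : PM M u t ↔
    ((u.1 : ZMod M) = t.1 ∧ (u.2 : ZMod M) = t.2) ∨
      ((u.1 : ZMod M) = -t.1 ∧ (u.2 : ZMod M) = -t.2) := by
  simp only [PM, ← ZMod.intCast_zmod_eq_zero_iff_dvd, Int.cast_sub, Int.cast_add, sub_eq_zero,
    add_eq_zero_iff_eq_neg]

theorem nz_iff {u : ℤ × ℤ} : NZ M u ↔ ¬ ((u.1 : ZMod M) = 0 ∧ (u.2 : ZMod M) = 0) := by
  simp only [NZ, ← ZMod.intCast_zmod_eq_zero_iff_dvd]

theorem PM.symm {u t : ℤ × ℤ} (h : PM M u t) : PM M t u := by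
  rw [pm_iff] at h ⊢
  rcases h with ⟨h1, h2⟩ | ⟨h1, h2⟩
  · exact Or.inl ⟨h1.symm, h2.symm⟩
  · exact Or.inr ⟨by rw [h1, neg_neg], by rw [h2, neg_neg]⟩

theorem PM.trans {u t s : ℤ × ℤ} (h : PM M u t) (h' : PM M t s) : PM M u s := by
  rw [pm_iff] at h h' ⊢
  rcases h with ⟨h1, h2⟩ | ⟨h1, h2⟩ <;> rcases h' with ⟨h3, h4⟩ | ⟨h3, h4⟩ <;>
    simp [h1, h2, h3, h4]

theorem PM.nz {u t : ℤ × ℤ} (h : PM M u t) (hu : NZ M u) : NZ M t := by
  rw [pm_iff] at h
  rw [nz_iff] at hu ⊢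
  rintro ⟨ha, hb⟩
  rcases h with ⟨h1, h2⟩ | ⟨h1, h2⟩ <;> exact hu ⟨by simp [h1, ha], by simp [h2, hb]⟩

theorem rowMul_congr {u t : ℤ × ℤ} (g : SL(2, ℤ)) (h : PM M u t) :
    PM M (rowMul u g) (rowMul t g) := by
  rw [pm_iff] at h ⊢
  rcases h with ⟨h1, h2⟩ | ⟨h1, h2⟩
  · exact Or.inl ⟨by simp [rowMul, h1, h2], by simp [rowMul, h1, h2]⟩
  · exact Or.inr ⟨by simp [rowMul, h1, h2]; ring, by simp [rowMul, h1, h2]; ring⟩

theorem pm_rowMul_iff {u t : ℤ × ℤ} (g : SL(2, ℤ)) :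
    PM M (rowMul u g) (rowMul t g) ↔ PM M u t :=
  ⟨fun h => by simpa [rowMul_rowMul, rowMul_one] using rowMul_congr g⁻¹ h, rowMul_congr g⟩

theorem nz_rowMul {u : ℤ × ℤ} (g : SL(2, ℤ)) (hu : NZ M u) : NZ M (rowMul u g) := by
  intro h
  have h0 : PM M (rowMul u g) (rowMul (0, 0) g) := Or.inl (by simpa [rowMul] using h)
  rw [pm_rowMul_iff, pm_iff] at h0
  rw [nz_iff] at hu
  simp at h0
  exact hu h0

theorem rowMul_of_mem_Gamma {γ : SL(2, ℤ)} (hγ : γ ∈ Gamma M) (u : ℤ × ℤ) :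
    PM M (rowMul u γ) u := by
  obtain ⟨h1, h2, h3, h4⟩ := Gamma_mem.mp hγ
  rw [pm_iff]
  exact Or.inl ⟨by simp [rowMul, h1, h3], by simp [rowMul, h2, h4]⟩

/-- The distance of a residue class to zero. -/
def absRes (M : ℕ) (a : ℤ) : ℕ := min (a % M).toNat (M - (a % M).toNat)

variable [NeZero M]

theorem absRes_spec (a : ℤ) : 2 * absRes M a ≤ M ∧
    ((M : ℤ) ∣ a - absRes M a ∨ (M : ℤ) ∣ a + absRes M a) := by
  have hM : (0 : ℤ) < M := by exact_mod_cast NeZero.pos M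
  have h0 := Int.emod_nonneg a hM.ne'
  have h1 := Int.emod_lt_of_pos a hM
  have h2 : (M : ℤ) ∣ a - a % M := ⟨a / M, by rw [Int.emod_def]; ring⟩
  refine ⟨by unfold absRes; omega, ?_⟩
  rcases le_total (a % M).toNat (M - (a % M).toNat) with h | h
  · left
    rw [absRes, min_eq_left h, Int.toNat_of_nonneg h0]
    exact h2
  · right
    rw [absRes, min_eq_right h, Nat.cast_sub (by omega), Int.toNat_of_nonneg h0,
      show a + ((M : ℤ) - a % M) = (a - a % M) + M by ring]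
    exact dvd_add h2 dvd_rfl

theorem absRes_unique {a : ℤ} {i : ℕ} (hi : 2 * i ≤ M)
    (h : (M : ℤ) ∣ a - i ∨ (M : ℤ) ∣ a + i) : absRes M a = i := by
  have hM : (0 : ℤ) < M := by exact_mod_cast NeZero.pos M
  obtain ⟨hα, h'⟩ := absRes_spec (M := M) a
  set α := absRes M a
  have key : (M : ℤ) ∣ (α : ℤ) - i ∨ (M : ℤ) ∣ (α : ℤ) + i := by
    rcases h with h | h <;> rcases h' with h' | h'
    · left; have := dvd_sub h h'; rwa [sub_sub_sub_cancel_left] at this
    · right; have := dvd_sub h' h; rwa [show a + (α : ℤ) - (a - i) = α + i by ring] at this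
    · right; have := dvd_sub h h'; rwa [show a + (i : ℤ) - (a - α) = α + i by ring] at this
    · left; have := dvd_sub h' h; rwa [add_sub_add_left_eq_sub] at this
  have hα' : (α : ℤ) * 2 ≤ M := by exact_mod_cast (by omega : α * 2 ≤ M)
  have hi' : (i : ℤ) * 2 ≤ M := by exact_mod_cast (by omega : i * 2 ≤ M)
  rcases key with ⟨q, hq⟩ | ⟨q, hq⟩
  · have hq0 : q = 0 := by
      by_contra hne
      rcases lt_or_gt_of_ne hne with hlt | hgt <;> nlinarith
    subst hq0; omega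
  · rcases le_or_gt q 0 with hle | hgt
    · have : (M : ℤ) * q ≤ 0 := mul_nonpos_of_nonneg_of_nonpos hM.le hle
      omega
    · have : (M : ℤ) * 1 ≤ M * q := by nlinarith
      omega

theorem absRes_eq_zero_iff {a : ℤ} : absRes M a = 0 ↔ (M : ℤ) ∣ a := by
  constructor
  · intro h
    have := (absRes_spec (M := M) a).2
    simpa [h] using this
  · exact fun h => absRes_unique (by simp) (Or.inl (by simpa using h))

theorem absRes_congr {u t : ℤ × ℤ} (h : PM M u t) : absRes M u.1 = absRes M t.1 := by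
  obtain ⟨hα, h'⟩ := absRes_spec (M := M) t.1
  refine absRes_unique hα ?_
  rcases h with ⟨h1, -⟩ | ⟨h1, -⟩ <;> rcases h' with h' | h'
  · left; have := dvd_add h1 h'; rwa [show u.1 - t.1 + (t.1 - absRes M t.1) = u.1 - absRes M t.1 by ring] at this
  · right; have := dvd_add h1 h'; rwa [show u.1 - t.1 + (t.1 + absRes M t.1) = u.1 + absRes M t.1 by ring] at this
  · right; have := dvd_sub h1 h'; rwa [show u.1 + t.1 - (t.1 - absRes M t.1) = u.1 + absRes M t.1 by ring] at this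
  · left; have := dvd_sub h1 h'; rwa [show u.1 + t.1 - (t.1 + absRes M t.1) = u.1 - absRes M t.1 by ring] at this

/-! ## Cyclotomic data and series -/

/-- A root of unity of order `M` in a ring with `M` invertible, matching `exp (2πi/M)`. -/
structure Cyc (O : Type*) [CommRing O] (M : ℕ) where
  φ : O →+* ℂ
  inj : Function.Injective φ
  ζ : O
  map_ζ : φ ζ = zetaC M
  unit : IsUnit (M : O)

variable {O : Type*} [CommRing O] [IsDomain O] (C : Cyc O M)

theorem Cyc.isPrimitiveRoot : IsPrimitiveRoot C.ζ M := by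
  refine IsPrimitiveRoot.of_map_of_injective (f := C.φ) ?_ C.inj
  rw [C.map_ζ]
  exact Complex.isPrimitiveRoot_exp M (NeZero.ne M)

/-- The root of unity as a unit. -/
def Cyc.z : Oˣ := (C.isPrimitiveRoot.isUnit (NeZero.ne M)).unit

theorem Cyc.z_pow : C.z ^ M = 1 := by
  ext
  simp [Cyc.z, C.isPrimitiveRoot.pow_eq_one]

theorem Cyc.z_zpow_congr {a b : ℤ} (h : (M : ℤ) ∣ a - b) : C.z ^ a = C.z ^ b := by
  obtain ⟨q, hq⟩ := h
  have : a = b + M * q := by linarith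
  rw [this, zpow_add, zpow_mul, zpow_natCast, C.z_pow, one_zpow, mul_one]

theorem Cyc.isUnit_one_sub {a : ℤ} (h : ¬ (M : ℤ) ∣ a) : IsUnit (1 - ((C.z ^ a : Oˣ) : O)) := by
  have hM : (0 : ℤ) < M := by exact_mod_cast NeZero.pos M
  obtain ⟨K, hK⟩ : ∃ K, M = K + 1 := ⟨M - 1, by have := NeZero.pos M; omega⟩
  subst hK
  set i := (a % ((K + 1 : ℕ) : ℤ)).toNat with hi
  have h0 := Int.emod_nonneg a hM.ne'
  have h1 := Int.emod_lt_of_pos a hM
  have hi0 : i ≠ 0 := fun h' => h (Int.dvd_of_emod_eq_zero (by omega))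
  have hz : ((C.z ^ a : Oˣ) : O) = C.ζ ^ i := by
    rw [C.z_zpow_congr (b := (i : ℤ)) (by
      rw [hi, Int.toNat_of_nonneg h0]
      exact Int.dvd_of_emod_eq_zero (by simp [Int.sub_emod])), zpow_natCast]
    simp [Cyc.z]
  have hprod := C.isPrimitiveRoot.prod_one_sub_pow_eq_order
  have hu := C.unit
  push_cast at hu hprod
  rw [← hprod, IsUnit.prod_iff] at hu
  rw [hz]
  obtain ⟨l, hl⟩ : ∃ l, i = l + 1 := ⟨i - 1, by omega⟩
  rw [hl]
  exact hu l (Finset.mem_range.mpr (by omega))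

theorem Cyc.z_zpow_ne_one {a : ℤ} (h : ¬ (M : ℤ) ∣ a) : ((C.z ^ a : Oˣ) : O) ≠ 1 := fun h' => by
  have := C.isUnit_one_sub h
  rw [h', sub_self] at this
  exact not_isUnit_zero this

/-- `z / (1 - z)²`. -/
def fVal (x : Oˣ) : O := x * Ring.inverse ((1 - (x : O)) ^ 2)

/-- The series of a division point. -/
def pO (u : ℤ × ℤ) : PowerSeries O :=
  PowerSeries.mk fun n =>
    if n = 0 then (if (M : ℤ) ∣ u.1 then fVal (C.z ^ u.2) else 0)
    else ∑ k ∈ n.divisors, (k : O) *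
      ((if (M : ℤ) ∣ ((n / k : ℕ) : ℤ) - u.1 then ((C.z ^ (u.2 * k) : Oˣ) : O) else 0) +
        (if (M : ℤ) ∣ ((n / k : ℕ) : ℤ) + u.1 then ((C.z ^ (-(u.2 * k)) : Oˣ) : O) else 0))

theorem fVal_inv (x : Oˣ) : fVal x⁻¹ = fVal x := by
  have h2 : ((1 : O) - (x⁻¹ : Oˣ)) ^ 2 = ((x⁻¹ : Oˣ) : O) ^ 2 * (1 - (x : O)) ^ 2 := by
    rw [← mul_pow, mul_sub, mul_one, Units.inv_mul]
    ring
  rw [fVal, fVal, h2, Ring.mul_inverse_rev, ← Units.val_pow_eq_pow_val, Ring.inverse_unit]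
  rw [← mul_assoc, mul_comm ((x⁻¹ : Oˣ) : O), mul_assoc, ← Units.val_mul, mul_comm]
  congr 1
  rw [Units.val_inj]
  group

theorem pO_neg (u : ℤ × ℤ) : pO C (-u) = pO C u := by
  ext n
  simp only [pO, PowerSeries.coeff_mk, Prod.fst_neg, Prod.snd_neg, dvd_neg, zpow_neg, fVal_inv]
  split_ifs with hn hd
  · rfl
  · rfl
  · refine Finset.sum_congr rfl fun k _ => ?_
    rw [add_comm]
    simp only [sub_neg_eq_add, ← sub_eq_add_neg, neg_mul, zpow_neg, inv_inv]

theorem pO_congr {u t : ℤ × ℤ} (h : PM M u t) : pO C u = pO C t := by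
  suffices key : ∀ u t : ℤ × ℤ, (M : ℤ) ∣ u.1 - t.1 → (M : ℤ) ∣ u.2 - t.2 → pO C u = pO C t by
    rcases h with ⟨h1, h2⟩ | ⟨h1, h2⟩
    · exact key u t h1 h2
    · rw [← pO_neg C t]
      exact key u (-t) (by simpa using h1) (by simpa using h2)
  intro u t h1 h2
  have ha : ∀ x : ℤ, ((M : ℤ) ∣ x - u.1 ↔ (M : ℤ) ∣ x - t.1) ∧
      ((M : ℤ) ∣ x + u.1 ↔ (M : ℤ) ∣ x + t.1) := fun x =>
    ⟨dvd_iff_dvd_of_dvd_sub (by
        rw [show x - u.1 - (x - t.1) = -(u.1 - t.1) by ring]; exact dvd_neg.mpr h1),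
      dvd_iff_dvd_of_dvd_sub (by rwa [show x + u.1 - (x + t.1) = u.1 - t.1 by ring])⟩
  have hb : ∀ k : ℤ, C.z ^ (u.2 * k) = C.z ^ (t.2 * k) := fun k => C.z_zpow_congr (by
    rw [← sub_mul]; exact h2.mul_right k)
  have hb' : ∀ k : ℤ, C.z ^ (-(u.2 * k)) = C.z ^ (-(t.2 * k)) := fun k => by
    rw [zpow_neg, zpow_neg, hb]
  have h0 : (M : ℤ) ∣ u.1 ↔ (M : ℤ) ∣ t.1 := by simpa using (ha 0).2
  have hb1 : C.z ^ u.2 = C.z ^ t.2 := C.z_zpow_congr h2
  ext n
  simp only [pO, PowerSeries.coeff_mk, fun x => (ha x).1, fun x => (ha x).2, h0, hb1, hb, hb']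

theorem coeff_pO_of_lt {u : ℤ × ℤ} {n : ℕ} (hn : n < absRes M u.1) :
    PowerSeries.coeff n (pO C u) = 0 := by
  rw [pO, PowerSeries.coeff_mk]
  split_ifs with h0 hd
  · exact absurd (absRes_eq_zero_iff.mpr hd) (by omega)
  · rfl
  · refine Finset.sum_eq_zero fun k hk => ?_
    have hle : n / k ≤ n := Nat.div_le_self _ _
    have hα := (absRes_spec (M := M) u.1).1
    have hne : ∀ (_ : (M : ℤ) ∣ u.1 - (n / k : ℕ) ∨ (M : ℤ) ∣ u.1 + (n / k : ℕ)), False :=
      fun h => by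
        have := absRes_unique (by omega) h
        omega
    rw [if_neg (fun h => hne (Or.inl (by simpa using dvd_neg.mpr h))),
      if_neg (fun h => hne (Or.inr (by rwa [add_comm]))), add_zero, mul_zero]

/-- Leading coefficient for a positive first coordinate. -/
theorem coeff_pO_self {u : ℤ × ℤ} {α : ℕ} (hα : 0 < α) (h2 : 2 * α ≤ M)
    (hu : (M : ℤ) ∣ u.1 - α) :
    PowerSeries.coeff α (pO C u) = ((C.z ^ u.2 : Oˣ) : O) +
      if 2 * α = M then ((C.z ^ (-u.2) : Oˣ) : O) else 0 := by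
  have hα' : absRes M u.1 = α := absRes_unique h2 (Or.inl hu)
  rw [pO, PowerSeries.coeff_mk, if_neg hα.ne', Finset.sum_eq_single 1]
  · simp only [Nat.cast_one, Nat.div_one, mul_one, one_mul]
    rw [if_pos (by simpa using dvd_neg.mpr hu)]
    congr 1
    refine if_congr ⟨fun h => ?_, fun h => ?_⟩ rfl rfl
    · have h3 := dvd_sub h hu
      rw [show (α : ℤ) + u.1 - (u.1 - α) = ((2 * α : ℕ) : ℤ) by push_cast; ring,
        Int.natCast_dvd_natCast] at h3
      have := Nat.le_of_dvd (by omega) h3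
      omega
    · have h3 : (M : ℤ) ∣ (u.1 - α) + M := dvd_add hu dvd_rfl
      convert h3 using 1
      rw [← h]; push_cast; ring
  · intro k hk hk1
    rw [Nat.mem_divisors] at hk
    have hk0 : 0 < k := Nat.pos_of_dvd_of_pos hk.1 hα
    have hlt : α / k < α := Nat.div_lt_self hα (by omega)
    have hne : ∀ (_ : (M : ℤ) ∣ u.1 - (α / k : ℕ) ∨ (M : ℤ) ∣ u.1 + (α / k : ℕ)), False :=
      fun h => by
        have := absRes_unique (by omega) h
        omega
    rw [if_neg (fun h => hne (Or.inl (by simpa using dvd_neg.mpr h))),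
      if_neg (fun h => hne (Or.inr (by rwa [add_comm]))), add_zero, mul_zero]
  · simp [hα.ne']

theorem constantCoeff_pO (u : ℤ × ℤ) : PowerSeries.constantCoeff (pO C u) =
    if (M : ℤ) ∣ u.1 then fVal (C.z ^ u.2) else 0 := by
  rw [← PowerSeries.coeff_zero_eq_constantCoeff, pO, PowerSeries.coeff_mk, if_pos rfl]

theorem isUnit_fVal {b : ℤ} (hb : ¬ (M : ℤ) ∣ b) : IsUnit (fVal (C.z ^ b)) := by
  rw [fVal]
  obtain ⟨v, hv⟩ := (C.isUnit_one_sub hb).pow 2
  rw [← hv, Ring.inverse_unit]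
  exact (Units.isUnit _).mul (Units.isUnit _)

theorem Cyc.isUnit_zpow_sub {b b' : ℤ} (h : ¬ (M : ℤ) ∣ b' - b) :
    IsUnit (((C.z ^ b : Oˣ) : O) - (C.z ^ b' : Oˣ)) := by
  have : ((C.z ^ b : Oˣ) : O) - (C.z ^ b' : Oˣ) =
      (C.z ^ b : Oˣ) * (1 - ((C.z ^ (b' - b) : Oˣ) : O)) := by
    rw [mul_sub, mul_one, ← Units.val_mul, ← zpow_add, add_sub_cancel]
  rw [this]
  exact (Units.isUnit _).mul (C.isUnit_one_sub h)

theorem isUnit_fVal_sub {b b' : ℤ} (hb : ¬ (M : ℤ) ∣ b) (hb' : ¬ (M : ℤ) ∣ b')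
    (h1 : ¬ (M : ℤ) ∣ b' - b) (h2 : ¬ (M : ℤ) ∣ b + b') :
    IsUnit (fVal (C.z ^ b) - fVal (C.z ^ b')) := by
  obtain ⟨p, hp⟩ := (C.isUnit_one_sub hb).pow 2
  obtain ⟨q, hq⟩ := (C.isUnit_one_sub hb').pow 2
  have key : (fVal (C.z ^ b) - fVal (C.z ^ b')) * ((p * q : Oˣ) : O) =
      (((C.z ^ b : Oˣ) : O) - (C.z ^ b' : Oˣ)) * (1 - ((C.z ^ (b + b') : Oˣ) : O)) := by
    rw [fVal, fVal, ← hp, ← hq, Ring.inverse_unit, Ring.inverse_unit, sub_mul, Units.val_mul,
      ← mul_assoc, mul_assoc _ (p⁻¹ : Oˣ).val, Units.inv_mul, mul_one,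
      mul_comm (p : O) (q : O), ← mul_assoc, mul_assoc _ (q⁻¹ : Oˣ).val, Units.inv_mul, mul_one,
      hp, hq, zpow_add, Units.val_mul]
    ring
  have hR : IsUnit ((((C.z ^ b : Oˣ) : O) - (C.z ^ b' : Oˣ)) *
      (1 - ((C.z ^ (b + b') : Oˣ) : O))) := (C.isUnit_zpow_sub h1).mul (C.isUnit_one_sub h2)
  rw [← key] at hR
  exact isUnit_of_mul_isUnit_left hR

/-- Differences of two division series have a unit leading coefficient. -/
theorem exists_lead {u t : ℤ × ℤ} (hu : NZ M u) (ht : NZ M t) (h : ¬ PM M u t) :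
    ∃ U : (PowerSeries O)ˣ,
      pO C u - pO C t = PowerSeries.X ^ min (absRes M u.1) (absRes M t.1) * (U : PowerSeries O) := by
  set μ := min (absRes M u.1) (absRes M t.1) with hμ
  obtain ⟨v, hv⟩ : (PowerSeries.X : PowerSeries O) ^ μ ∣ pO C u - pO C t :=
    PowerSeries.X_pow_dvd_iff.mpr fun n hn => by
      rw [map_sub, coeff_pO_of_lt C (by omega), coeff_pO_of_lt C (by omega), sub_zero]
  suffices hlead : IsUnit (PowerSeries.coeff μ (pO C u - pO C t)) by
    have hv0 : IsUnit (PowerSeries.constantCoeff v) := by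
      rw [hv, PowerSeries.coeff_X_pow_mul', if_pos le_rfl, Nat.sub_self,
        PowerSeries.coeff_zero_eq_constantCoeff] at hlead
      exact hlead
    exact ⟨(PowerSeries.isUnit_iff_constantCoeff.mpr hv0).unit, hv⟩
  clear hv
  -- reduce to first coordinates congruent to their residues
  have hnorm : ∀ s : ℤ × ℤ, NZ M s → ∃ s', PM M s s' ∧ NZ M s' ∧
      (M : ℤ) ∣ s'.1 - (absRes M s.1 : ℕ) ∧ absRes M s'.1 = absRes M s.1 := by
    intro s hs
    rcases (absRes_spec (M := M) s.1).2 with hd | hd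
    · exact ⟨s, PM.refl s, hs, hd, rfl⟩
    · refine ⟨-s, PM.neg_right s, (PM.neg_right s).nz hs, ?_,
        (absRes_congr (PM.neg_right s)).symm⟩
      have := dvd_neg.mpr hd
      rwa [show -(s.1 + (absRes M s.1 : ℕ)) = (-s).1 - (absRes M s.1 : ℕ) by simp; ring] at this
  obtain ⟨u', hu', hun, hud, hua⟩ := hnorm u hu
  obtain ⟨t', ht', htn, htd, hta⟩ := hnorm t ht
  have h' : ¬ PM M u' t' := fun hh => h ((hu'.trans hh).trans ht'.symm)
  rw [map_sub, pO_congr C hu', pO_congr C ht']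
  set α := absRes M u.1
  set β := absRes M t.1
  have hα := (absRes_spec (M := M) u.1).1
  have hβ := (absRes_spec (M := M) t.1).1
  have hcu : α < β → IsUnit (PowerSeries.coeff α (pO C u') - PowerSeries.coeff α (pO C t')) := by
    intro hlt
    rw [coeff_pO_of_lt C (u := t') (by omega), sub_zero]
    rcases Nat.eq_zero_or_pos α with h0 | h0
    · rw [h0, PowerSeries.coeff_zero_eq_constantCoeff, constantCoeff_pO]
      have hd : (M : ℤ) ∣ u'.1 := by simpa [h0] using hud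
      rw [if_pos hd]
      exact isUnit_fVal C fun hb => hun ⟨hd, hb⟩
    · rw [coeff_pO_self C h0 hα hud, if_neg (by omega), add_zero]
      exact Units.isUnit _
  rcases lt_trichotomy α β with hlt | heq | hgt
  · rw [hμ, min_eq_left hlt.le]; exact hcu hlt
  · rw [hμ, ← heq, min_self]
    rw [← heq] at htd
    rcases Nat.eq_zero_or_pos α with h0 | h0
    · rw [h0, PowerSeries.coeff_zero_eq_constantCoeff, constantCoeff_pO, constantCoeff_pO]
      have hd : (M : ℤ) ∣ u'.1 := by simpa [h0] using hud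
      have hd' : (M : ℤ) ∣ t'.1 := by simpa [h0] using htd
      rw [if_pos hd, if_pos hd']
      refine isUnit_fVal_sub C (fun hb => hun ⟨hd, hb⟩) (fun hb => htn ⟨hd', hb⟩)
        (fun hb => h' (Or.inl ⟨dvd_sub hd hd', ?_⟩)) (fun hb => h' (Or.inr ⟨dvd_add hd hd', hb⟩))
      have := dvd_neg.mpr hb
      rwa [neg_sub] at this
    · rw [coeff_pO_self C h0 hα hud, coeff_pO_self C h0 hα htd]
      have hb1 : ¬ (M : ℤ) ∣ t'.2 - u'.2 := fun hb => h' (Or.inl ⟨by
        have := dvd_sub hud htd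
        rwa [sub_sub_sub_cancel_right] at this, by
        have := dvd_neg.mpr hb
        rwa [neg_sub] at this⟩)
      split_ifs with h2
      · have hb2 : ¬ (M : ℤ) ∣ u'.2 + t'.2 := fun hb => h' (Or.inr ⟨by
          have := dvd_add (dvd_add hud htd) (show (M : ℤ) ∣ ((2 * α : ℕ) : ℤ) by rw [h2])
          rwa [show u'.1 - (α : ℕ) + (t'.1 - (α : ℕ)) + ((2 * α : ℕ) : ℤ) = u'.1 + t'.1 by
            push_cast; ring] at this, hb⟩)
        have e : ((C.z ^ u'.2 : Oˣ) : O) + (C.z ^ (-u'.2) : Oˣ) -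
            (((C.z ^ t'.2 : Oˣ) : O) + (C.z ^ (-t'.2) : Oˣ)) =
            (((C.z ^ u'.2 : Oˣ) : O) - (C.z ^ t'.2 : Oˣ)) *
              (1 - ((C.z ^ (-(u'.2 + t'.2)) : Oˣ) : O)) := by
          rw [neg_add, zpow_add, Units.val_mul, sub_mul, mul_sub, mul_sub, mul_one, mul_one]
          have e1 : ((C.z ^ u'.2 : Oˣ) : O) * (C.z ^ (-u'.2) : Oˣ) = 1 := by
            rw [← Units.val_mul, ← zpow_add, add_neg_cancel, zpow_zero, Units.val_one]
          have e2 : ((C.z ^ t'.2 : Oˣ) : O) * (C.z ^ (-t'.2) : Oˣ) = 1 := by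
            rw [← Units.val_mul, ← zpow_add, add_neg_cancel, zpow_zero, Units.val_one]
          linear_combination ((C.z ^ (-t'.2) : Oˣ) : O) * e1 - ((C.z ^ (-u'.2) : Oˣ) : O) * e2
        rw [e]
        exact (C.isUnit_zpow_sub hb1).mul (C.isUnit_one_sub (by rwa [dvd_neg]))
      · simpa using C.isUnit_zpow_sub hb1
  · rw [hμ, min_eq_right hgt.le, coeff_pO_of_lt C (u := u') (by omega), zero_sub, IsUnit.neg_iff]
    rcases Nat.eq_zero_or_pos β with h0 | h0
    · rw [h0, PowerSeries.coeff_zero_eq_constantCoeff, constantCoeff_pO]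
      have hd : (M : ℤ) ∣ t'.1 := by simpa [h0] using htd
      rw [if_pos hd]
      exact isUnit_fVal C fun hb => htn ⟨hd, hb⟩
    · rw [coeff_pO_self C h0 hβ htd, if_neg (by omega), add_zero]
      exact Units.isUnit _

theorem map_pO (u : ℤ × ℤ) : PowerSeries.map C.φ (pO C u) = pSer M (zetaC M) u := by
  have hz : ∀ a : ℤ, C.φ ((C.z ^ a : Oˣ) : O) = zetaC M ^ a := fun a => by
    have := congrArg Units.val (map_zpow (Units.map (C.φ : O →* ℂ)) C.z a)
    rw [Units.coe_map, Units.val_zpow_eq_zpow_val, Units.coe_map] at this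
    refine this.trans ?_
    simp [Cyc.z, C.map_ζ]
  ext n
  simp only [PowerSeries.coeff_map, pO, pSer, PowerSeries.coeff_mk, apply_ite C.φ, map_zero,
    map_sum, map_mul, map_add, map_natCast, hz]
  refine if_congr Iff.rfl (ite_congr rfl (fun hd => ?_) fun _ => rfl) rfl
  rw [fVal, map_mul, hz]
  by_cases hb : (M : ℤ) ∣ u.2
  · have h1 : C.z ^ u.2 = 1 := by rw [C.z_zpow_congr (b := 0) (by simpa using hb), zpow_zero]
    have h2 : zetaC M ^ u.2 = 1 := by rw [← hz, h1, Units.val_one, map_one]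
    simp [h1, h2]
  · obtain ⟨p, hp⟩ := (C.isUnit_one_sub hb).pow 2
    rw [← hp, Ring.inverse_unit, map_units_inv, hp, map_pow, map_sub, map_one, hz, div_eq_mul_inv]

end Fermat.Agent.GalRep.Model
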