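/-
Auxiliary lemmas on power series over a complete discrete valuation ring, used for models of
curves given by sheets.
-/
import Mathlib

set_option autoImplicit false

noncomputable section

namespace Fermat.Agent.GalRep.Model

open PowerSeries IsLocalRing

section Basic

variable {R : Type*} [CommRing R]

theorem C_dvd_series_iff (a : R) (f : R⟦X⟧) : C a ∣ f ↔ ∀ i, a ∣ coeff i f := by
  constructor
  · rintro ⟨g, rfl⟩ i
    rw [coeff_C_mul]
    exact dvd_mul_right _ _
  · intro h
    choose g hg using h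
    exact ⟨mk g, by ext i; rw [coeff_C_mul, coeff_mk, ← hg]⟩

theorem C_pow_dvd_series_iff (a : R) (N : ℕ) (f : R⟦X⟧) :
    C a ^ N ∣ f ↔ ∀ i, a ^ N ∣ coeff i f := by
  rw [← map_pow, C_dvd_series_iff]

end Basic

section Subst

variable {k : Type*} [CommRing k]

theorem subst_C_eq {t : k⟦X⟧} (a : k) : (C a : k⟦X⟧).subst t = C a :=
  PowerSeries.subst_C _

theorem X_pow_dvd_subst {t f : k⟦X⟧} (ht : constantCoeff t = 0) {N : ℕ} (h : X ^ N ∣ f) :
    t ^ N ∣ f.subst t := by
  have hs : HasSubst t := HasSubst.of_constantCoeff_zero' ht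
  obtain ⟨g, rfl⟩ := h
  exact ⟨g.subst t, by rw [subst_mul hs, subst_pow hs, subst_X hs]⟩

theorem subst_coe_eq_aeval {t : k⟦X⟧} (ht : constantCoeff t = 0) (p : Polynomial k) :
    (p : k⟦X⟧).subst t = Polynomial.aeval t p :=
  subst_coe (HasSubst.of_constantCoeff_zero' ht) p

/-- Substitution commutes with coefficientwise ring maps. -/
theorem map_subst_series {l : Type*} [CommRing l] (φ : k →+* l) {t f : k⟦X⟧}
    (ht : constantCoeff t = 0) :
    (PowerSeries.map φ) (f.subst t) = (PowerSeries.map φ f).subst (PowerSeries.map φ t) :=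
  map_subst (HasSubst.of_constantCoeff_zero' ht) f

end Subst

section DVR

variable {O : Type*} [CommRing O] [IsLocalRing O]

/-- Reduction of coefficients. -/
abbrev red : O⟦X⟧ →+* (ResidueField O)⟦X⟧ := PowerSeries.map (residue O)

theorem red_surjective : Function.Surjective (red (O := O)) :=
  PowerSeries.map_surjective _ residue_surjective

variable {π : O} (hπ : maximalIdeal O = Ideal.span {π})

include hπ in
theorem red_eq_zero_iff (f : O⟦X⟧) : red f = 0 ↔ C π ∣ f := by
  rw [C_dvd_series_iff]
  refine ⟨fun h i => ?_, fun h => ?_⟩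
  · have := congrArg (coeff i) h
    rw [coeff_map, map_zero, residue_eq_zero_iff, hπ, Ideal.mem_span_singleton] at this
    exact this
  · ext i
    rw [coeff_map, map_zero, residue_eq_zero_iff, hπ, Ideal.mem_span_singleton]
    exact h i

include hπ in
theorem eq_zero_of_forall_C_pow_dvd [IsHausdorff (maximalIdeal O) O] {f : O⟦X⟧}
    (h : ∀ N : ℕ, C π ^ N ∣ f) : f = 0 := by
  ext i
  rw [map_zero]
  refine IsHausdorff.haus ‹_› _ fun N => ?_
  rw [SModEq.zero, smul_eq_mul, Ideal.mul_top, hπ, Ideal.span_singleton_pow,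
    Ideal.mem_span_singleton]
  exact (C_pow_dvd_series_iff π N f).mp (h N) i

include hπ in
/-- Limit of a `π`-adically Cauchy sequence of series. -/
theorem exists_series_limit [IsPrecomplete (maximalIdeal O) O] (a : ℕ → O⟦X⟧)
    (h : ∀ m, C π ^ m ∣ a (m + 1) - a m) : ∃ L : O⟦X⟧, ∀ m, C π ^ m ∣ L - a m := by
  have h' : ∀ {m n : ℕ}, m ≤ n → C π ^ m ∣ a n - a m := by
    intro m n hmn
    induction n, hmn using Nat.le_induction with
    | base => simp
    | succ n hmn ih =>
      have := dvd_add (dvd_trans (pow_dvd_pow _ hmn) (h n)) ih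
      simpa using this
  have hc : ∀ i, ∃ L : O, ∀ m, π ^ m ∣ L - coeff i (a m) := by
    intro i
    obtain ⟨L, hL⟩ := IsPrecomplete.prec ‹IsPrecomplete (maximalIdeal O) O›
      (f := fun m => coeff i (a m)) (fun {m n} hmn => by
        rw [SModEq.sub_mem, smul_eq_mul, Ideal.mul_top, hπ, Ideal.span_singleton_pow,
          Ideal.mem_span_singleton]
        have := (C_pow_dvd_series_iff π m _).mp (h' hmn) i
        rw [map_sub] at this
        simpa using dvd_neg.mpr this)
    refine ⟨L, fun m => ?_⟩
    have := hL m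
    rw [SModEq.sub_mem, smul_eq_mul, Ideal.mul_top, hπ, Ideal.span_singleton_pow,
      Ideal.mem_span_singleton] at this
    simpa using dvd_neg.mpr this
  choose L hL using hc
  exact ⟨mk L, fun m => (C_pow_dvd_series_iff π m _).mpr fun i => by
    rw [map_sub, coeff_mk]; exact hL i m⟩

end DVR

section Coordinates

variable {k : Type*} [Field k]

/-- Truncation data: the coefficient vector of the first `e j` coefficients of each component. -/
def truncVec {r : ℕ} (e : Fin r → ℕ) : (Fin r → k⟦X⟧) →ₗ[k] ((Σ j, Fin (e j)) → k) where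
  toFun z := fun x => coeff (x.2 : ℕ) (z x.1)
  map_add' z z' := by ext x; simp
  map_smul' a z := by ext x; simp

theorem X_pow_dvd_of_truncVec_eq_zero {r : ℕ} {e : Fin r → ℕ} {z : Fin r → k⟦X⟧}
    (h : truncVec e z = 0) (j : Fin r) : (X : k⟦X⟧) ^ e j ∣ z j :=
  PowerSeries.X_pow_dvd_iff.mpr fun i hi => congrFun h ⟨j, ⟨i, hi⟩⟩

variable {r : ℕ} {e : Fin r → ℕ} (u : Fin r → (k⟦X⟧)ˣ) (b : Fin r → (Σ j, Fin (e j)) → k⟦X⟧)

/-- The coordinate map attached to `b` and the local parameters `t j = X ^ e j * u j`. -/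
def coordMap (a : (Σ j, Fin (e j)) → k⟦X⟧) : Fin r → k⟦X⟧ :=
  fun j => ∑ x, (a x).subst (X ^ e j * (u j : k⟦X⟧)) * b j x

theorem coordMap_surjective (he : ∀ j, 0 < e j)
    (hb : LinearIndependent k (fun x => truncVec e (fun j => b j x))) :
    Function.Surjective (coordMap u b) := by
  classical
  intro z
  have hspan : ∀ v : (Σ j, Fin (e j)) → k, ∃ c : (Σ j, Fin (e j)) → k,
      ∑ x, c x • truncVec e (fun j => b j x) = v := by
    intro v
    have htop : Submodule.span k (Set.range fun x => truncVec e (fun j => b j x)) = ⊤ :=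
      hb.span_eq_top_of_card_eq_finrank' (by rw [Module.finrank_fintype_fun_eq_card])
    have : v ∈ Submodule.span k (Set.range fun x => truncVec e (fun j => b j x)) := by
      rw [htop]; trivial
    exact (Submodule.mem_span_range_iff_exists_fun k).mp this
  have step : ∀ w : Fin r → k⟦X⟧, ∃ (c : (Σ j, Fin (e j)) → k) (w' : Fin r → k⟦X⟧),
      ∀ j, w j = ∑ x, C (c x) * b j x + (X ^ e j * (u j : k⟦X⟧)) * w' j := by
    intro w
    obtain ⟨c, hc⟩ := hspan (truncVec e w)
    have h0 : truncVec e (fun j => w j - ∑ x, C (c x) * b j x) = 0 := by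
      have : (fun j => w j - ∑ x, C (c x) * b j x) =
          w - ∑ x, c x • (fun j => b j x) := by
        funext j
        simp [Finset.sum_apply, PowerSeries.smul_eq_C_mul]
      rw [this, map_sub, map_sum]
      simp only [map_smul]
      rw [hc, sub_self]
    choose q hq using fun j => X_pow_dvd_of_truncVec_eq_zero h0 j
    refine ⟨c, fun j => ((u j)⁻¹ : (k⟦X⟧)ˣ) * q j, fun j => ?_⟩
    have hu : (u j : k⟦X⟧) * ((u j)⁻¹ : (k⟦X⟧)ˣ) = 1 := by simp
    linear_combination hq j - X ^ e j * q j * hu
  choose c w' hstep using step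
  let seq : ℕ → (Fin r → k⟦X⟧) := fun n => w'^[n] z
  let A : (Σ j, Fin (e j)) → k⟦X⟧ := fun x => mk fun n => c (seq n) x
  refine ⟨A, funext fun j => ?_⟩
  have ht : constantCoeff (X ^ e j * (u j : k⟦X⟧)) = 0 := by
    simp [zero_pow (he j).ne']
  have hs : HasSubst (X ^ e j * (u j : k⟦X⟧)) := HasSubst.of_constantCoeff_zero' ht
  set t := X ^ e j * (u j : k⟦X⟧) with ht_def
  have htr : ∀ N, z j = (∑ n ∈ Finset.range N, t ^ n * ∑ x, C (c (seq n) x) * b j x) +
      t ^ N * seq N j := by
    intro N
    induction N with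
    | zero => simp [seq]
    | succ N ih =>
      rw [Finset.sum_range_succ, ih, hstep (seq N) j]
      have : seq (N + 1) = w' (seq N) := Function.iterate_succ_apply' _ _ _
      rw [this]
      ring
  have key : ∀ N, t ^ N ∣ coordMap u b A j - z j := by
    intro N
    have h1 : ∀ x, t ^ N ∣ (A x).subst t - ∑ n ∈ Finset.range N, t ^ n * C (c (seq n) x) := by
      intro x
      have hdvd : (X : k⟦X⟧) ^ N ∣ A x - ((trunc N (A x) : Polynomial k) : k⟦X⟧) := by
        rw [PowerSeries.X_pow_dvd_iff]
        intro i hi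
        rw [map_sub, Polynomial.coeff_coe, coeff_trunc, if_pos hi, sub_self]
      have := X_pow_dvd_subst ht hdvd
      rw [subst_sub hs, subst_coe_eq_aeval ht] at this
      have e1 : Polynomial.aeval t (trunc N (A x)) =
          ∑ n ∈ Finset.range N, t ^ n * C (c (seq n) x) := by
        rw [trunc_apply, map_sum, Finset.range_eq_Ico]
        refine Finset.sum_congr rfl fun n _ => ?_
        rw [Polynomial.aeval_monomial, mul_comm]
        simp [A, PowerSeries.algebraMap_apply]
      rwa [e1] at this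
    have h2 : t ^ N ∣ ∑ x, ((A x).subst t - ∑ n ∈ Finset.range N, t ^ n * C (c (seq n) x)) * b j x :=
      Finset.dvd_sum fun x _ => Dvd.dvd.mul_right (h1 x) _
    have h3 : coordMap u b A j - z j =
        (∑ x, ((A x).subst t - ∑ n ∈ Finset.range N, t ^ n * C (c (seq n) x)) * b j x) -
          t ^ N * seq N j := by
      rw [htr N]
      simp only [coordMap, ← ht_def, sub_mul, Finset.sum_sub_distrib, Finset.sum_mul]
      rw [Finset.sum_comm]
      simp only [Finset.mul_sum, mul_assoc]
      ring
    rw [h3]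
    exact dvd_sub h2 (dvd_mul_right _ _)
  rw [← sub_eq_zero]
  ext i
  rw [map_zero]
  have hX : (X : k⟦X⟧) ^ (i + 1) ∣ coordMap u b A j - z j := by
    refine dvd_trans ?_ (key (i + 1))
    rw [ht_def, mul_pow, ← pow_mul]
    exact Dvd.dvd.mul_right (pow_dvd_pow _ (Nat.le_mul_of_pos_left _ (he j))) _
  exact PowerSeries.X_pow_dvd_iff.mp hX i (Nat.lt_succ_self i)

theorem zeroth (he : ∀ j, 0 < e j)
    (hb : LinearIndependent k (fun x => truncVec e (fun j => b j x)))
    (a : (Σ j, Fin (e j)) → k⟦X⟧) (ha : coordMap u b a = 0) (x : Σ j, Fin (e j)) :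
    coeff 0 (a x) = 0 := by
  classical
  have h0 : ∑ y, constantCoeff (a y) • truncVec e (fun j => b j y) = 0 := by
    funext z
    obtain ⟨j, i⟩ := z
    have hs : HasSubst (X ^ e j * (u j : k⟦X⟧)) :=
      HasSubst.of_constantCoeff_zero' (by simp [zero_pow (he j).ne'])
    have hdiv : ∀ y, (X : k⟦X⟧) ^ e j ∣
        (a y).subst (X ^ e j * (u j : k⟦X⟧)) - C (constantCoeff (a y)) := by
      intro y
      have h1 : (X : k⟦X⟧) ∣ a y - C (constantCoeff (a y)) := by
        rw [PowerSeries.X_dvd_iff]; simp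
      have h2 := X_pow_dvd_subst (t := X ^ e j * (u j : k⟦X⟧))
        (by simp [zero_pow (he j).ne']) (N := 1) (by simpa using h1)
      rw [subst_sub hs, subst_C_eq, pow_one] at h2
      exact dvd_trans (dvd_mul_right _ _) h2
    have h3 : (X : k⟦X⟧) ^ e j ∣ ∑ y, C (constantCoeff (a y)) * b j y := by
      have h4 := congrFun ha j
      simp only [coordMap, Pi.zero_apply] at h4
      have h5 : ∑ y, C (constantCoeff (a y)) * b j y =
          -∑ y, ((a y).subst (X ^ e j * (u j : k⟦X⟧)) - C (constantCoeff (a y))) * b j y := by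
        simp only [sub_mul, Finset.sum_sub_distrib, h4, zero_sub, neg_neg]
      rw [h5]
      exact dvd_neg.mpr (Finset.dvd_sum fun y _ => Dvd.dvd.mul_right (hdiv y) _)
    have h6 := PowerSeries.X_pow_dvd_iff.mp h3 i i.2
    simpa [truncVec, Finset.sum_apply] using h6
  rw [coeff_zero_eq_constantCoeff]
  exact Fintype.linearIndependent_iff.mp hb _ h0 x

theorem coordMap_eq_zero (he : ∀ j, 0 < e j)
    (hb : LinearIndependent k (fun x => truncVec e (fun j => b j x)))
    {a : (Σ j, Fin (e j)) → k⟦X⟧} (ha : coordMap u b a = 0) : a = 0 := by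
  classical
  suffices h : ∀ (n : ℕ) (a : (Σ j, Fin (e j)) → k⟦X⟧), coordMap u b a = 0 →
      ∀ x, coeff n (a x) = 0 by
    funext x
    ext n
    simpa using h n a ha x
  intro n
  induction n with
  | zero =>
    intro a ha x
    exact zeroth u b he hb a ha x
  | succ n ih =>
    intro a ha x
    have h0 : ∀ y, constantCoeff (a y) = 0 := fun y => by
      simpa using zeroth u b he hb a ha y
    choose a' ha' using fun y => PowerSeries.X_dvd_iff.mpr (h0 y)
    have h1 : coordMap u b a' = 0 := by
      funext j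
      have h4 := congrFun ha j
      have hs : HasSubst (X ^ e j * (u j : k⟦X⟧)) :=
        HasSubst.of_constantCoeff_zero' (by simp [zero_pow (he j).ne'])
      simp only [coordMap, Pi.zero_apply, ha', subst_mul hs, subst_X hs, mul_assoc,
        ← Finset.mul_sum] at h4
      rw [← mul_assoc] at h4
      rcases mul_eq_zero.mp h4 with h5 | h5
      · simp at h5
      · exact h5
    rw [ha' x, PowerSeries.coeff_succ_X_mul]
    exact ih a' h1 x

end Coordinates

end Fermat.Agent.GalRep.Model
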