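/-
Sheets of a curve model over a point of the special fibre of the line, and the resulting local
facts: coordinates, rationality, injectivity of reduction.
-/
import Fermat.Agent.GalRep.Model.SeriesLemmas

set_option autoImplicit false

noncomputable section

namespace Fermat.Agent.GalRep.Model

open PowerSeries IsLocalRing Polynomial

variable {O : Type*} [CommRing O] [IsDomain O] [IsDiscreteValuationRing O]
variable {F : Type*} [Field F] [Algebra O F]

/-- Integral closure of `O[w]` in `F`. -/
def chartRing (O : Type*) [CommRing O] {F : Type*} [Field F] [Algebra O F] (w : F) :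
    Subalgebra O F :=
  (integralClosure (Algebra.adjoin O ({w} : Set F)) F).restrictScalars O

theorem mem_chartRing_iff {w x : F} :
    x ∈ chartRing O w ↔ IsIntegral (Algebra.adjoin O ({w} : Set F)) x := Iff.rfl

theorem self_mem_chartRing (w : F) : w ∈ chartRing O w := by
  rw [mem_chartRing_iff]
  exact isIntegral_algebraMap (A := F)
    (x := (⟨w, Algebra.self_mem_adjoin_singleton O w⟩ : Algebra.adjoin O ({w} : Set F)))

/-- `P(w)` as an element of the chart ring. -/
def polyVal (w : F) (P : O[X]) : chartRing O w := Polynomial.aeval ⟨w, self_mem_chartRing w⟩ P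

@[simp] theorem coe_polyVal (w : F) (P : O[X]) :
    ((polyVal w P : chartRing O w) : F) = Polynomial.aeval w P :=
  (Polynomial.aeval_algHom_apply (chartRing O w).val
    (⟨w, self_mem_chartRing w⟩ : chartRing O w) P).symm

variable (O) in
/-- The fraction field of `O⟦X⟧`. -/
abbrev SeriesField : Type _ := FractionRing O⟦X⟧

/-- The sheets over the point `c` of the special line: embeddings of `F` into series in a local
parameter, with enough functions to separate them. -/
structure Sheets (w : F) (c : O) where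
  r : ℕ
  e : Fin r → ℕ
  e_pos : ∀ j, 0 < e j
  unit : Fin r → (O⟦X⟧)ˣ
  ι : Fin r → F →+* SeriesField O
  ι_O : ∀ j a, ι j (algebraMap O F a) = algebraMap O⟦X⟧ (SeriesField O) (PowerSeries.C a)
  ι_w : ∀ j, ι j w = algebraMap O⟦X⟧ (SeriesField O)
    (PowerSeries.C c + PowerSeries.X ^ e j * (unit j : O⟦X⟧))
  dep : ∀ v : Option (Σ j, Fin (e j)) → F, ∃ P : Option (Σ j, Fin (e j)) → O[X],
    P ≠ 0 ∧ ∑ x, Polynomial.aeval w (P x) * v x = 0
  surj : ∀ z : (Σ j, Fin (e j)) → ResidueField O, ∃ f ∈ chartRing O w, ∀ j (g : O⟦X⟧),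
    ι j f = algebraMap O⟦X⟧ (SeriesField O) g →
      ∀ i : Fin (e j), residue O (PowerSeries.coeff (i : ℕ) g) = z ⟨j, i⟩

namespace Sheets

variable {w : F} {c : O} (Sh : Sheets w c)

/-- The local parameter at the sheet `j`. -/
def tpar (j : Fin Sh.r) : O⟦X⟧ := PowerSeries.X ^ Sh.e j * (Sh.unit j : O⟦X⟧)

theorem constantCoeff_tpar (j : Fin Sh.r) : PowerSeries.constantCoeff (Sh.tpar j) = 0 := by
  simp [tpar, zero_pow (Sh.e_pos j).ne']

theorem hasSubst_tpar (j : Fin Sh.r) : PowerSeries.HasSubst (Sh.tpar j) :=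
  PowerSeries.HasSubst.of_constantCoeff_zero' (Sh.constantCoeff_tpar j)

theorem ι_aeval (j : Fin Sh.r) (P : O[X]) :
    Sh.ι j (Polynomial.aeval w P) =
      algebraMap O⟦X⟧ (SeriesField O) (Polynomial.aeval (PowerSeries.C c + Sh.tpar j) P) := by
  induction P using Polynomial.induction_on' with
  | add p q hp hq => simp [map_add, hp, hq]
  | monomial n a =>
    rw [Polynomial.aeval_monomial, Polynomial.aeval_monomial, map_mul, map_mul, map_pow, map_pow,
      Sh.ι_w, Sh.ι_O, tpar]
    simp [PowerSeries.algebraMap_apply]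

theorem exists_series (j : Fin Sh.r) (f : chartRing O w) :
    ∃ g : O⟦X⟧, algebraMap O⟦X⟧ (SeriesField O) g = Sh.ι j f := by
  obtain ⟨P, hP, hPf⟩ := mem_chartRing_iff.mp f.2
  have hrange : ∀ a ∈ Algebra.adjoin O ({w} : Set F),
      ∃ g : O⟦X⟧, algebraMap O⟦X⟧ (SeriesField O) g = Sh.ι j a := by
    intro a ha
    rw [Algebra.adjoin_singleton_eq_range_aeval] at ha
    obtain ⟨Q, rfl⟩ := ha
    exact ⟨_, (Sh.ι_aeval j Q).symm⟩
  let φ : Algebra.adjoin O ({w} : Set F) →+* SeriesField O :=
    (Sh.ι j).comp (algebraMap _ F)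
  have hlift : P.map φ ∈ Polynomial.lifts (algebraMap O⟦X⟧ (SeriesField O)) := by
    rw [Polynomial.lifts_iff_coeff_lifts]
    intro n
    rw [Polynomial.coeff_map]
    exact hrange _ (P.coeff n).2
  obtain ⟨Q, hQ, -, hQm⟩ := Polynomial.lifts_and_natDegree_eq_and_monic hlift (hP.map φ)
  have hint : IsIntegral O⟦X⟧ (Sh.ι j f) := by
    refine ⟨Q, hQm, ?_⟩
    rw [← Polynomial.eval_map, hQ, Polynomial.eval_map, ← Polynomial.hom_eval₂, hPf, map_zero]
  exact IsIntegrallyClosed.isIntegral_iff.mp hint

/-- The expansion at a sheet, on the chart ring. -/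
def ser (j : Fin Sh.r) : chartRing O w →+* O⟦X⟧ where
  toFun f := (Sh.exists_series j f).choose
  map_one' := IsFractionRing.injective O⟦X⟧ (SeriesField O) (by
    rw [(Sh.exists_series j 1).choose_spec]; simp)
  map_zero' := IsFractionRing.injective O⟦X⟧ (SeriesField O) (by
    rw [(Sh.exists_series j 0).choose_spec]; simp)
  map_add' f g := IsFractionRing.injective O⟦X⟧ (SeriesField O) (by
    rw [map_add, (Sh.exists_series j f).choose_spec, (Sh.exists_series j g).choose_spec,
      (Sh.exists_series j (f + g)).choose_spec]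
    simp)
  map_mul' f g := IsFractionRing.injective O⟦X⟧ (SeriesField O) (by
    rw [map_mul, (Sh.exists_series j f).choose_spec, (Sh.exists_series j g).choose_spec,
      (Sh.exists_series j (f * g)).choose_spec]
    simp)

theorem algebraMap_ser (j : Fin Sh.r) (f : chartRing O w) :
    algebraMap O⟦X⟧ (SeriesField O) (Sh.ser j f) = Sh.ι j f :=
  (Sh.exists_series j f).choose_spec

theorem ser_algebraMap (j : Fin Sh.r) (a : O) :
    Sh.ser j (algebraMap O (chartRing O w) a) = PowerSeries.C a := by
  refine IsFractionRing.injective O⟦X⟧ (SeriesField O) ?_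
  rw [algebraMap_ser, ← Sh.ι_O j a]
  rfl

theorem ser_polyVal (j : Fin Sh.r) (P : O[X]) :
    Sh.ser j (polyVal w P) = ((P.taylor c : O[X]) : O⟦X⟧).subst (Sh.tpar j) := by
  refine IsFractionRing.injective O⟦X⟧ (SeriesField O) ?_
  rw [algebraMap_ser, coe_polyVal, ι_aeval, subst_coe_eq_aeval (Sh.constantCoeff_tpar j),
    Polynomial.taylor_apply, Polynomial.aeval_comp]
  congr 2
  simp [PowerSeries.algebraMap_apply, add_comm]

/-- The chosen separating family. -/
def bas (x : Σ j, Fin (Sh.e j)) : chartRing O w :=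
  ⟨(Sh.surj (Pi.single x 1)).choose, (Sh.surj (Pi.single x 1)).choose_spec.1⟩

theorem linearIndependent_bas :
    LinearIndependent (ResidueField O) (fun x => truncVec Sh.e
      (fun j => red (Sh.ser j (Sh.bas x)))) := by
  classical
  have h : (fun x => truncVec Sh.e (fun j => red (Sh.ser j (Sh.bas x)))) =
      fun x => Pi.single x 1 := by
    funext x y
    obtain ⟨j, i⟩ := y
    show PowerSeries.coeff (i : ℕ) (PowerSeries.map (residue O) (Sh.ser j (Sh.bas x))) = _
    rw [PowerSeries.coeff_map]
    exact (Sh.surj (Pi.single x 1)).choose_spec.2 j _ (Sh.algebraMap_ser j (Sh.bas x)).symm i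
  rw [h]
  exact Pi.linearIndependent_single_one _ _

/-- The coordinate map over `O`. -/
def coord (a : (Σ j, Fin (Sh.e j)) → O⟦X⟧) : Fin Sh.r → O⟦X⟧ :=
  fun j => ∑ x, (a x).subst (Sh.tpar j) * Sh.ser j (Sh.bas x)

/-- The reduced parameter unit. -/
def redUnit (j : Fin Sh.r) : ((ResidueField O)⟦X⟧)ˣ := Units.map red.toMonoidHom (Sh.unit j)

theorem red_tpar (j : Fin Sh.r) :
    red (Sh.tpar j) = PowerSeries.X ^ Sh.e j * (Sh.redUnit j : (ResidueField O)⟦X⟧) := by
  simp [tpar, redUnit]

theorem red_coord (a : (Σ j, Fin (Sh.e j)) → O⟦X⟧) :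
    (fun j => red (Sh.coord a j)) =
      coordMap Sh.redUnit (fun j x => red (Sh.ser j (Sh.bas x))) (fun x => red (a x)) := by
  funext j
  simp only [coord, coordMap, map_sum, map_mul]
  refine Finset.sum_congr rfl fun x _ => ?_
  rw [show red ((a x).subst (Sh.tpar j)) = _ from
    map_subst_series (residue O) (Sh.constantCoeff_tpar j), ← Sh.red_tpar]

theorem coord_add (a a' : (Σ j, Fin (Sh.e j)) → O⟦X⟧) :
    Sh.coord (a + a') = Sh.coord a + Sh.coord a' := by
  funext j
  simp only [coord, Pi.add_apply, subst_add (Sh.hasSubst_tpar j), add_mul, Finset.sum_add_distrib]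

theorem coord_sub (a a' : (Σ j, Fin (Sh.e j)) → O⟦X⟧) :
    Sh.coord (a - a') = Sh.coord a - Sh.coord a' := by
  funext j
  simp only [coord, Pi.sub_apply, subst_sub (Sh.hasSubst_tpar j), sub_mul, Finset.sum_sub_distrib]

theorem coord_C_mul (s : O) (a : (Σ j, Fin (Sh.e j)) → O⟦X⟧) :
    Sh.coord (fun x => PowerSeries.C s * a x) = fun j => PowerSeries.C s * Sh.coord a j := by
  funext j
  simp only [coord, subst_mul (Sh.hasSubst_tpar j), subst_C_eq, Finset.mul_sum, mul_assoc]

theorem red_eq_zero_of_coord {a : (Σ j, Fin (Sh.e j)) → O⟦X⟧}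
    (h : ∀ j, red (Sh.coord a j) = 0) (x : Σ j, Fin (Sh.e j)) : red (a x) = 0 := by
  have h' := Sh.red_coord a
  rw [funext h] at h'
  exact congrFun (coordMap_eq_zero Sh.redUnit _ Sh.e_pos Sh.linearIndependent_bas h'.symm) x

variable [IsAdicComplete (maximalIdeal O) O]

theorem coord_injective {a : (Σ j, Fin (Sh.e j)) → O⟦X⟧} (h : Sh.coord a = 0) : a = 0 := by
  obtain ⟨π, hπ⟩ := IsDiscreteValuationRing.exists_irreducible O
  have hm := hπ.maximalIdeal_eq
  suffices hs : ∀ (N : ℕ) (a : (Σ j, Fin (Sh.e j)) → O⟦X⟧), Sh.coord a = 0 →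
      ∀ x, PowerSeries.C π ^ N ∣ a x by
    funext x
    exact eq_zero_of_forall_C_pow_dvd hm fun N => hs N a h x
  intro N
  induction N with
  | zero => simp
  | succ N ih =>
    intro a ha x
    have h0 := fun y => (red_eq_zero_iff hm _).mp
      (Sh.red_eq_zero_of_coord (a := a) (fun j => by rw [ha]; simp) y)
    choose a' ha' using h0
    have h1 : Sh.coord a' = 0 := by
      have h2 := Sh.coord_C_mul π a'
      rw [← funext ha', ha] at h2
      funext j
      have h3 := congrFun h2 j
      refine (mul_eq_zero.mp h3.symm).resolve_left fun h => hπ.ne_zero ?_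
      simpa using congrArg PowerSeries.constantCoeff h
    rw [ha' x, pow_succ']
    exact mul_dvd_mul_left _ (ih a' h1 x)

theorem coord_surjective : Function.Surjective Sh.coord := by
  obtain ⟨π, hπ⟩ := IsDiscreteValuationRing.exists_irreducible O
  have hm := hπ.maximalIdeal_eq
  intro z
  have step : ∀ z : Fin Sh.r → O⟦X⟧, ∃ (a : (Σ j, Fin (Sh.e j)) → O⟦X⟧) (z' : Fin Sh.r → O⟦X⟧),
      z - Sh.coord a = fun j => PowerSeries.C π * z' j := by
    intro z
    obtain ⟨ā, hā⟩ := coordMap_surjective Sh.redUnit (fun j x => red (Sh.ser j (Sh.bas x)))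
      Sh.e_pos Sh.linearIndependent_bas (fun j => red (z j))
    choose a ha using fun x => red_surjective (O := O) (ā x)
    have h : ∀ j, red ((z - Sh.coord a) j) = 0 := fun j => by
      have := congrFun (Sh.red_coord a) j
      rw [funext ha, hā] at this
      simp [this]
    choose z' hz' using fun j => (red_eq_zero_iff hm _).mp (h j)
    exact ⟨a, z', funext hz'⟩
  choose a z' hstep using step
  let seq : ℕ → Fin Sh.r → O⟦X⟧ := fun n => z'^[n] z
  let S : ℕ → (Σ j, Fin (Sh.e j)) → O⟦X⟧ :=
    fun n x => ∑ i ∈ Finset.range n, PowerSeries.C π ^ i * a (seq i) x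
  have hS : ∀ n j, z j - Sh.coord (S n) j = PowerSeries.C π ^ n * seq n j := by
    intro n
    induction n with
    | zero =>
      intro j
      have : S 0 = 0 := by funext x; simp [S]
      have h0 : Sh.coord (0 : (Σ j, Fin (Sh.e j)) → O⟦X⟧) = 0 := by
        have := Sh.coord_sub 0 0
        simpa using this
      simp [this, h0, seq]
    | succ n ih =>
      intro j
      have hs : S (n + 1) = S n + fun x => PowerSeries.C (π ^ n) * a (seq n) x := by
        funext x
        simp [S, Finset.sum_range_succ, map_pow]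
      have h1 := congrFun (hstep (seq n)) j
      have h2 : seq (n + 1) = z' (seq n) := Function.iterate_succ_apply' _ _ _
      rw [hs, coord_add, coord_C_mul, h2]
      simp only [Pi.add_apply, Pi.sub_apply, map_pow] at h1 ⊢
      linear_combination ih j + PowerSeries.C π ^ n * h1
  choose L hL using fun x => exists_series_limit hm (fun n => S n x) fun m => by
    simp [S, Finset.sum_range_succ]
  refine ⟨L, funext fun j => ?_⟩
  rw [← sub_eq_zero]
  refine eq_zero_of_forall_C_pow_dvd hm fun N => ?_
  choose q hq using fun x => hL x N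
  have h1 : Sh.coord L = Sh.coord (S N) + fun j => PowerSeries.C (π ^ N) * Sh.coord q j := by
    rw [← coord_C_mul, ← coord_add]
    congr 1
    funext x
    have := hq x
    simp only [Pi.add_apply, map_pow]
    linear_combination this
  have h2 := hS N j
  rw [h1]
  refine ⟨Sh.coord q j - seq N j, ?_⟩
  simp only [Pi.add_apply, map_pow]
  linear_combination -h2

end Sheets

end Fermat.Agent.GalRep.Model
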