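/-
Facts at one point of the special line: every function of the chart ring has polynomial coordinates
up to a polynomial invertible at the point; rationality of local targets.
-/
import Fermat.Agent.GalRep.Model.Sheets

set_option autoImplicit false

noncomputable section

namespace Fermat.Agent.GalRep.Model

open PowerSeries IsLocalRing Polynomial

variable {O : Type*} [CommRing O] [IsDomain O] [IsDiscreteValuationRing O]
variable {F : Type*} [Field F] [Algebra O F]

/-- The Taylor expansion at `c` as a series. -/
def taylorSeries (c : O) : O[X] →+* O⟦X⟧ where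
  toFun P := ((P.taylor c : O[X]) : O⟦X⟧)
  map_one' := by simp
  map_zero' := by simp
  map_add' := by simp
  map_mul' := by simp

theorem constantCoeff_taylorSeries (c : O) (P : O[X]) :
    PowerSeries.constantCoeff (taylorSeries c P) = P.eval c := by
  simp [taylorSeries, Polynomial.taylor_coeff_zero]

theorem taylorSeries_C (c a : O) : taylorSeries c (Polynomial.C a) = PowerSeries.C a := by
  simp [taylorSeries]

theorem C_dvd_of_dvd_taylorSeries {c a : O} {P : O[X]}
    (h : PowerSeries.C a ∣ taylorSeries c P) : Polynomial.C a ∣ P := by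
  have h1 : Polynomial.C a ∣ P.taylor c := by
    rw [Polynomial.C_dvd_iff_dvd_coeff]
    intro i
    have := (C_dvd_series_iff a _).mp h i
    simpa [taylorSeries] using this
  obtain ⟨Q, hQ⟩ := h1
  refine ⟨Q.taylor (-c), ?_⟩
  have := congrArg (Polynomial.taylor (-c)) hQ
  rw [Polynomial.taylor_taylor, neg_add_cancel, Polynomial.taylor_zero,
    Polynomial.taylor_mul, Polynomial.taylor_C] at this
  exact this

theorem red_taylorSeries_eq_zero_iff {π : O} (hm : maximalIdeal O = Ideal.span {π}) (c : O)
    (P : O[X]) : red (taylorSeries c P) = 0 ↔ Polynomial.C π ∣ P := by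
  rw [red_eq_zero_iff hm]
  exact ⟨C_dvd_of_dvd_taylorSeries, fun ⟨Q, hQ⟩ => ⟨taylorSeries c Q, by
    rw [hQ, map_mul, taylorSeries_C]⟩⟩

theorem C_pi_prime {π : O} (hπ : Irreducible π) : Prime (PowerSeries.C π : O⟦X⟧) := by
  have hm := hπ.maximalIdeal_eq
  refine ⟨fun h => hπ.ne_zero (by simpa using congrArg PowerSeries.constantCoeff h), fun h => ?_,
    fun a b h => ?_⟩
  · exact hπ.not_isUnit (by simpa using h.map PowerSeries.constantCoeff)
  · rw [← red_eq_zero_iff hm, map_mul, mul_eq_zero, red_eq_zero_iff hm, red_eq_zero_iff hm] at h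
    exact h

/-- A prime polynomial vanishing at the special point, dividing `P` in the series ring, divides
`P`. -/
theorem prime_dvd_of_dvd_taylorSeries (c : O) {p P : O[X]} (hp : Prime p)
    (hpc : ¬ IsUnit (p.eval c)) (h : taylorSeries c p ∣ taylorSeries c P) : p ∣ P := by
  rcases Nat.eq_zero_or_pos p.natDegree with h0 | h0
  · rw [Polynomial.eq_C_of_natDegree_eq_zero h0] at h ⊢
    rw [taylorSeries_C] at h
    exact C_dvd_of_dvd_taylorSeries h
  by_contra hnd
  obtain ⟨π, hπ⟩ := IsDiscreteValuationRing.exists_irreducible O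
  have hm := hπ.maximalIdeal_eq
  let K := FractionRing O
  have hprim : p.IsPrimitive := hp.irreducible.isPrimitive h0.ne'
  have hirr : Irreducible (p.map (algebraMap O K)) :=
    hprim.irreducible_iff_irreducible_map_fraction_map.mp hp.irreducible
  letI : NormalizedGCDMonoid O := Classical.choice inferInstance
  have hnd' : ¬ p.map (algebraMap O K) ∣ P.map (algebraMap O K) := by
    intro hd
    exact hnd ((Polynomial.IsPrimitive.dvd_iff_fraction_map_dvd_fraction_map K hprim).mpr hd)
  obtain ⟨u, v, huv⟩ := (hirr.coprime_iff_not_dvd.mpr hnd')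
  obtain ⟨b1, hb1, hb1'⟩ := IsLocalization.integerNormalization_spec (nonZeroDivisors O) u
  obtain ⟨b2, hb2, hb2'⟩ := IsLocalization.integerNormalization_spec (nonZeroDivisors O) v
  set U := IsLocalization.integerNormalization (nonZeroDivisors O) u
  set V := IsLocalization.integerNormalization (nonZeroDivisors O) v
  have key : Polynomial.C b2 * (U * p) + Polynomial.C b1 * (V * P) = Polynomial.C (b1 * b2) := by
    apply Polynomial.map_injective (algebraMap O K) (IsFractionRing.injective O K)
    simp only [Polynomial.map_add, Polynomial.map_mul, Polynomial.map_C, hb1', hb2', map_mul,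
      Algebra.smul_def, Polynomial.algebraMap_eq, IsScalarTower.algebraMap_apply O K K[X]]
    linear_combination (Polynomial.C (algebraMap O K b1) * Polynomial.C (algebraMap O K b2)) * huv
  have h1 : taylorSeries c p ∣ PowerSeries.C (b1 * b2) := by
    rw [← taylorSeries_C c, ← key, map_add, map_mul, map_mul, map_mul, map_mul]
    exact dvd_add (Dvd.dvd.mul_left (dvd_mul_left _ _) _)
      (Dvd.dvd.mul_left (Dvd.dvd.mul_left h _) _)
  obtain ⟨m, hm'⟩ := IsDiscreteValuationRing.associated_pow_irreducible
    (mul_ne_zero (nonZeroDivisors.ne_zero hb1) (nonZeroDivisors.ne_zero hb2)) hπ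
  have h2 : taylorSeries c p ∣ PowerSeries.C π ^ m := by
    rw [← map_pow]
    exact dvd_trans h1 (map_dvd PowerSeries.C hm'.dvd)
  obtain ⟨i, -, hi⟩ := (dvd_prime_pow (C_pi_prime hπ) m).mp h2
  rcases i with _ | i
  · refine hpc ?_
    have h3 : IsUnit (taylorSeries c p) := associated_one_iff_isUnit.mp (by simpa using hi)
    rw [← constantCoeff_taylorSeries]
    exact h3.map _
  · have h3 : Polynomial.C π ∣ p := C_dvd_of_dvd_taylorSeries
      (dvd_trans (dvd_pow_self _ i.succ_ne_zero) hi.symm.dvd)
    exact hπ.not_isUnit ((hprim π) h3)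

namespace Sheets

variable {w : F} {c : O} (Sh : Sheets w c)

theorem ser_polyVal' (j : Fin Sh.r) (P : O[X]) :
    Sh.ser j (polyVal w P) = (taylorSeries c P).subst (Sh.tpar j) :=
  Sh.ser_polyVal j P

theorem coord_taylor (P : (Σ j, Fin (Sh.e j)) → O[X]) :
    Sh.coord (fun x => taylorSeries c (P x)) =
      fun j => Sh.ser j (∑ x, polyVal w (P x) * Sh.bas x) := by
  funext j
  simp [coord, map_sum, ser_polyVal']

theorem coord_smul_series (D : O⟦X⟧) (a : (Σ j, Fin (Sh.e j)) → O⟦X⟧) :
    Sh.coord (fun x => D * a x) = fun j => D.subst (Sh.tpar j) * Sh.coord a j := by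
  funext j
  simp only [coord, subst_mul (Sh.hasSubst_tpar j), Finset.mul_sum, mul_assoc]

variable [IsAdicComplete (maximalIdeal O) O]

/-- Every chart function has polynomial coordinates over a polynomial invertible at the point. -/
theorem exists_poly_coords (hr : 0 < Sh.r) (f : chartRing O w) :
    ∃ (D : O[X]) (P : (Σ j, Fin (Sh.e j)) → O[X]), IsUnit (D.eval c) ∧
      polyVal w D * f = ∑ x, polyVal w (P x) * Sh.bas x := by
  classical
  obtain ⟨R, hR0, hR⟩ := Sh.dep (fun x => x.elim (f : F) (fun y => (Sh.bas y : F)))
  have heq : polyVal w (R none) * f = ∑ x, polyVal w (-R (some x)) * Sh.bas x := by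
    apply Subtype.ext
    rw [Fintype.sum_option] at hR
    simp only [Option.elim_none, Option.elim_some] at hR
    simp only [MulMemClass.coe_mul, AddSubmonoidClass.coe_finset_sum, coe_polyVal, map_neg,
      neg_mul, Finset.sum_neg_distrib]
    linear_combination hR
  have hpv : ∀ {Q : O[X]}, Q ≠ 0 → (polyVal w Q : chartRing O w) ≠ 0 := by
    intro Q hQ h
    refine hQ ?_
    have hs : Sh.ser ⟨0, hr⟩ (polyVal w Q) = 0 := by rw [h, map_zero]
    rw [ser_polyVal'] at hs
    have h2 : Sh.coord (fun x => taylorSeries c Q * 1) = fun j => Sh.ser j (∑ x, polyVal w Q * Sh.bas x) := by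
      rw [← Sh.coord_taylor (fun _ => Q)]
      simp
    have h3 : Sh.coord (fun _ => taylorSeries c Q) = 0 := by
      have h4 := Sh.coord_smul_series (taylorSeries c Q) 1
      simp only [Pi.one_apply, mul_one] at h4
      rw [h4]
      funext j
      have : Sh.ser j (polyVal w Q) = 0 := by rw [h, map_zero]
      rw [ser_polyVal'] at this
      simp [this]
    have h5 := congrFun (Sh.coord_injective h3) ⟨⟨0, hr⟩, ⟨0, Sh.e_pos _⟩⟩
    have h6 : Q.taylor c = 0 := Polynomial.coe_eq_zero_iff.mp h5
    exact Polynomial.taylor_injective c (by simpa using h6)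
  have hD : R none ≠ 0 := by
    intro h
    refine hR0 (funext fun x => ?_)
    rcases x with _ | x
    · exact h
    · have h1 : Sh.coord (fun y => taylorSeries c (-R (some y))) = 0 := by
        rw [Sh.coord_taylor, ← heq, h]
        funext j
        simp [polyVal]
      have h2 := congrFun (Sh.coord_injective h1) x
      have h6 : (-R (some x)).taylor c = 0 := Polynomial.coe_eq_zero_iff.mp h2
      have := Polynomial.taylor_injective c (by simpa using h6 : (-R (some x)).taylor c = Polynomial.taylor c 0)
      simpa using this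
  suffices h : ∀ D : O[X], D ≠ 0 → ∀ (f : chartRing O w) (P : (Σ j, Fin (Sh.e j)) → O[X]),
      polyVal w D * f = ∑ x, polyVal w (P x) * Sh.bas x →
      ∃ (D : O[X]) (P : (Σ j, Fin (Sh.e j)) → O[X]), IsUnit (D.eval c) ∧
        polyVal w D * f = ∑ x, polyVal w (P x) * Sh.bas x from h _ hD _ _ heq
  intro D
  induction D using UniqueFactorizationMonoid.induction_on_prime with
  | h₁ => exact fun h => absurd rfl h
  | h₂ u hu =>
    exact fun _ f P hP => ⟨u, P, hu.map (Polynomial.evalRingHom c), hP⟩
  | h₃ D p hD0 hp ih =>
    intro _ f P hP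
    by_cases hpc : IsUnit (p.eval c)
    · have h1 : polyVal w D * (polyVal w p * f) = ∑ x, polyVal w (P x) * Sh.bas x := by
        rw [← hP]; simp only [polyVal, map_mul]; ring
      obtain ⟨D', P', hD', hP'⟩ : ∃ (D' : O[X]) (P' : (Σ j, Fin (Sh.e j)) → O[X]),
          IsUnit (D'.eval c) ∧
          polyVal w D' * (polyVal w p * f) = ∑ x, polyVal w (P' x) * Sh.bas x :=
        ih hD0 (polyVal w p * f) P h1
      exact ⟨D' * p, P', by rw [Polynomial.eval_mul]; exact hD'.mul hpc, by
        rw [← hP']; simp only [polyVal, map_mul]; ring⟩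
    · have hdiv : ∀ x, p ∣ P x := by
        obtain ⟨a, ha⟩ := Sh.coord_surjective (fun j => Sh.ser j f)
        have h2 : Sh.coord (fun x => taylorSeries c (P x) - taylorSeries c (p * D) * a x) = 0 := by
          have h3 := Sh.coord_sub (fun x => taylorSeries c (P x))
            (fun x => taylorSeries c (p * D) * a x)
          rw [Sh.coord_taylor, Sh.coord_smul_series, ha] at h3
          refine h3.trans ?_
          funext j
          simp only [Pi.sub_apply, Pi.zero_apply, ← ser_polyVal', ← map_mul, ← hP, sub_self]
        intro x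
        refine prime_dvd_of_dvd_taylorSeries c hp hpc ?_
        have h4 := congrFun (Sh.coord_injective h2) x
        rw [Pi.zero_apply, sub_eq_zero] at h4
        rw [h4, map_mul]
        exact Dvd.dvd.mul_right (dvd_mul_right _ _) _
      choose P' hP' using hdiv
      refine ih hD0 f P' ?_
      refine mul_left_cancel₀ (hpv hp.ne_zero) ?_
      rw [← mul_assoc, Finset.mul_sum]
      have e : polyVal w p * polyVal w D = polyVal w (p * D) := by simp [polyVal]
      rw [e, hP]
      refine Finset.sum_congr rfl fun x _ => ?_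
      rw [hP' x]
      simp only [polyVal, map_mul]
      ring

end Sheets

end Fermat.Agent.GalRep.Model
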