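/-
A chart of a curve model: sheets over every point of the special affine line. Global consequences:
reduction is injective at any single point, and locally solvable congruences are solvable.
-/
import Fermat.Agent.GalRep.Model.Local

set_option autoImplicit false

noncomputable section

namespace Fermat.Agent.GalRep.Model

open PowerSeries IsLocalRing Polynomial

variable {O : Type*} [CommRing O] [IsDomain O] [IsDiscreteValuationRing O]
variable {F : Type*} [Field F] [Algebra O F]

theorem subst_ne_zero_of_ne_zero {k : Type*} [Field k] {t f : k⟦X⟧}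
    (ht : PowerSeries.constantCoeff t = 0) (ht0 : t ≠ 0) (hf : f ≠ 0) : f.subst t ≠ 0 := by
  classical
  have hs : PowerSeries.HasSubst t := PowerSeries.HasSubst.of_constantCoeff_zero' ht
  obtain ⟨m, g, hg, rfl⟩ : ∃ (m : ℕ) (g : k⟦X⟧), PowerSeries.constantCoeff g ≠ 0 ∧
      f = PowerSeries.X ^ m * g := by
    refine ⟨f.order.toNat, PowerSeries.divXPowOrder f, ?_, (PowerSeries.X_pow_order_mul_divXPowOrder).symm⟩
    rw [PowerSeries.constantCoeff_divXPowOrder]
    exact PowerSeries.coeff_order hf
  rw [subst_mul hs, subst_pow hs, subst_X hs]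
  refine mul_ne_zero (pow_ne_zero _ ht0) fun h => ?_
  have hdvd : (PowerSeries.X : k⟦X⟧) ^ 1 ∣ g - PowerSeries.C (PowerSeries.constantCoeff g) := by
    rw [pow_one, PowerSeries.X_dvd_iff]; simp
  have h2 := X_pow_dvd_subst ht hdvd
  rw [pow_one, subst_sub hs, h, subst_C_eq, zero_sub, dvd_neg] at h2
  obtain ⟨v, hv⟩ := h2
  exact hg (by simpa [ht] using congrArg PowerSeries.constantCoeff hv)

theorem red_coe (R : O[X]) :
    red (R : O⟦X⟧) = ((R.map (residue O) : (ResidueField O)[X]) : (ResidueField O)⟦X⟧) := by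
  ext i; simp [PowerSeries.coeff_map]

theorem red_taylorSeries (c : O) (R : O[X]) :
    red (taylorSeries c R) =
      (((R.taylor c).map (residue O) : (ResidueField O)[X]) : (ResidueField O)⟦X⟧) :=
  red_coe _

theorem polyVal_add (w : F) (P Q : O[X]) :
    polyVal w (P + Q) = polyVal w P + polyVal w Q := map_add _ _ _

theorem polyVal_mul (w : F) (P Q : O[X]) :
    polyVal w (P * Q) = polyVal w P * polyVal w Q := map_mul _ _ _

theorem polyVal_C (w : F) (a : O) :
    polyVal w (Polynomial.C a) = algebraMap O (chartRing O w) a := Polynomial.aeval_C _ _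

theorem exists_monic_lift (w : F) (q : chartRing O w) : ∃ Q : (O[X])[X], Q.Monic ∧
    Q.eval₂ (Polynomial.aeval (⟨w, self_mem_chartRing w⟩ : chartRing O w)).toRingHom q = 0 := by
  obtain ⟨P, hP, hPq⟩ := mem_chartRing_iff.mp q.2
  let φ : O[X] →+* Algebra.adjoin O ({w} : Set F) :=
    ((Polynomial.aeval (R := O)
      (⟨w, Algebra.self_mem_adjoin_singleton O w⟩ : Algebra.adjoin O ({w} : Set F)))).toRingHom
  have hφ : Function.Surjective φ := by
    rintro ⟨a, ha⟩
    rw [Algebra.adjoin_singleton_eq_range_aeval] at ha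
    obtain ⟨Q, rfl⟩ := ha
    exact ⟨Q, Subtype.ext (Polynomial.aeval_algHom_apply
      (Algebra.adjoin O ({w} : Set F)).val
      (⟨w, Algebra.self_mem_adjoin_singleton O w⟩ : Algebra.adjoin O ({w} : Set F)) Q).symm⟩
  obtain ⟨Q, hQ, -, hQm⟩ := Polynomial.lifts_and_natDegree_eq_and_monic
    ((Polynomial.mem_lifts P).mpr (Polynomial.map_surjective φ hφ P)) hP
  refine ⟨Q, hQm, Subtype.val_injective ?_⟩
  have h1 : (algebraMap (Algebra.adjoin O ({w} : Set F)) F).comp φ =
      (chartRing O w).val.toRingHom.comp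
        (Polynomial.aeval (⟨w, self_mem_chartRing w⟩ : chartRing O w)).toRingHom := by
    refine Polynomial.ringHom_ext (fun a => ?_) ?_ <;> simp [φ] <;> rfl
  rw [← hQ, Polynomial.eval₂_map, h1] at hPq
  have := Polynomial.hom_eval₂ Q
    (Polynomial.aeval (⟨w, self_mem_chartRing w⟩ : chartRing O w)).toRingHom
    (chartRing O w).val.toRingHom q
  exact this.trans hPq

namespace Sheets

variable {w : F} {c : O} (Sh : Sheets w c)

theorem red_tpar_ne_zero (j : Fin Sh.r) : red (Sh.tpar j) ≠ 0 := by
  rw [Sh.red_tpar]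
  exact mul_ne_zero (pow_ne_zero _ PowerSeries.X_ne_zero) (Sh.redUnit j).ne_zero

theorem red_ser_polyVal_ne_zero {π : O} (hm : maximalIdeal O = Ideal.span {π}) (j : Fin Sh.r)
    {G : O[X]} (hG : ¬ Polynomial.C π ∣ G) : red (Sh.ser j (polyVal w G)) ≠ 0 := by
  rw [ser_polyVal', show red ((taylorSeries c G).subst (Sh.tpar j)) = _ from
    map_subst_series (residue O) (Sh.constantCoeff_tpar j)]
  refine subst_ne_zero_of_ne_zero ?_ (Sh.red_tpar_ne_zero j)
    (mt (red_taylorSeries_eq_zero_iff hm c G).mp hG)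
  rw [Sh.red_tpar, map_mul, map_pow, PowerSeries.constantCoeff_X, zero_pow (Sh.e_pos j).ne',
    zero_mul]

theorem ser_C_mul (j : Fin Sh.r) (a : O) (f : chartRing O w) :
    Sh.ser j (algebraMap O (chartRing O w) a * f) = PowerSeries.C a * Sh.ser j f := by
  rw [map_mul, ser_algebraMap]

theorem red_ser_pi_mul {π : O} (hm : maximalIdeal O = Ideal.span {π}) (j : Fin Sh.r)
    (f : chartRing O w) : red (Sh.ser j (algebraMap O (chartRing O w) π * f)) = 0 := by
  rw [ser_C_mul, red_eq_zero_iff hm]
  exact dvd_mul_right _ _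

variable [IsAdicComplete (maximalIdeal O) O]

theorem local_zero {π : O} (hm : maximalIdeal O = Ideal.span {π}) (hr : 0 < Sh.r)
    (f : chartRing O w) (h : ∀ j, red (Sh.ser j f) = 0) :
    ∃ D : O[X], IsUnit (D.eval c) ∧ algebraMap O (chartRing O w) π ∣ polyVal w D * f := by
  obtain ⟨D, P, hD, hP⟩ := Sh.exists_poly_coords hr f
  have h1 : ∀ j, red (Sh.coord (fun x => taylorSeries c (P x)) j) = 0 := fun j => by
    rw [Sh.coord_taylor]
    simp only [← hP, map_mul, h j, mul_zero]
  have h2 := fun x => (red_taylorSeries_eq_zero_iff hm c (P x)).mp (Sh.red_eq_zero_of_coord h1 x)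
  choose P' hP' using h2
  refine ⟨D, hD, ⟨∑ x, polyVal w (P' x) * Sh.bas x, ?_⟩⟩
  rw [hP, Finset.mul_sum]
  refine Finset.sum_congr rfl fun x _ => ?_
  rw [hP' x, polyVal_mul, polyVal_C, mul_assoc]

theorem local_rational {π : O} (hm : maximalIdeal O = Ideal.span {π}) (hr : 0 < Sh.r)
    {G : O[X]} (hG : ¬ Polynomial.C π ∣ G) (p : chartRing O w)
    (hz : ∀ j, red (Sh.ser j (polyVal w G)) ∣ red (Sh.ser j p)) :
    ∃ (D : O[X]) (f : chartRing O w), IsUnit (D.eval c) ∧
      algebraMap O (chartRing O w) π ∣ polyVal w G * f - polyVal w D * p := by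
  classical
  obtain ⟨D, P, hD, hP⟩ := Sh.exists_poly_coords hr p
  let k := ResidueField O
  choose z hz' using hz
  choose zl hzl using fun j => red_surjective (O := O) (red (Sh.ser j (polyVal w D)) * z j)
  obtain ⟨a, ha⟩ := Sh.coord_surjective zl
  have hPa : ∀ x, red (taylorSeries c G) * red (a x) = red (taylorSeries c (P x)) := by
    intro x
    rw [← map_mul, ← sub_eq_zero, ← map_sub]
    refine Sh.red_eq_zero_of_coord
      (a := fun x => taylorSeries c G * a x - taylorSeries c (P x)) (fun j => ?_) x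
    have h3 := Sh.coord_sub (fun x => taylorSeries c G * a x) (fun x => taylorSeries c (P x))
    rw [Sh.coord_smul_series, Sh.coord_taylor, ha] at h3
    rw [show Sh.coord (fun x => taylorSeries c G * a x - taylorSeries c (P x)) = _ from h3]
    simp only [Pi.sub_apply, map_sub, map_mul, ← hP, ← ser_polyVal', hzl, hz' j]
    ring
  -- divide by the power of the local parameter
  let Gb : k[X] := (G.taylor c).map (residue O)
  have hGb : Gb ≠ 0 := fun h => hG ((red_taylorSeries_eq_zero_iff hm c G).mp (by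
    rw [red_taylorSeries, show (G.taylor c).map (residue O) = 0 from h, Polynomial.coe_zero]))
  obtain ⟨G', hG', hG'0⟩ := Polynomial.exists_eq_pow_rootMultiplicity_mul_and_not_dvd Gb hGb 0
  set m := Gb.rootMultiplicity 0
  rw [map_zero, sub_zero] at hG' hG'0
  have hx : ∀ x, ∃ Q : k[X], ((P x).taylor c).map (residue O) = Polynomial.X ^ m * Q := by
    intro x
    refine Polynomial.X_pow_dvd_iff.mpr fun d hd => ?_
    have h4 : (PowerSeries.X : k⟦X⟧) ^ m ∣ red (taylorSeries c (P x)) := by
      rw [← hPa x, red_taylorSeries, show (G.taylor c).map (residue O) = _ from hG']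
      refine Dvd.dvd.mul_right ?_ _
      push_cast
      exact dvd_mul_right _ _
    have := PowerSeries.X_pow_dvd_iff.mp h4 d hd
    rwa [red_taylorSeries, Polynomial.coeff_coe] at this
  choose Q hQ using hx
  choose Ql hQl using fun x => Polynomial.map_surjective (residue O) residue_surjective (Q x)
  obtain ⟨Gl, hGl⟩ := Polynomial.map_surjective (residue O) residue_surjective G'
  let back : O[X] → O[X] := fun R => R.taylor (-c)
  have hback : ∀ R : O[X], taylorSeries c (back R) = (R : O⟦X⟧) := by
    intro R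
    show ((((R.taylor (-c)).taylor c : O[X])) : O⟦X⟧) = _
    rw [Polynomial.taylor_taylor, add_neg_cancel, Polynomial.taylor_zero]
  have hD' : IsUnit ((D * back Gl).eval c) := by
    rw [Polynomial.eval_mul]
    refine hD.mul ?_
    rw [← constantCoeff_taylorSeries, hback, Polynomial.constantCoeff_coe]
    refine notMem_maximalIdeal.mp fun hmem => hG'0 (Polynomial.X_dvd_iff.mpr ?_)
    rw [← hGl, Polynomial.coeff_map, residue_eq_zero_iff]
    exact hmem
  let f := ∑ x, polyVal w (back (Ql x)) * Sh.bas x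
  have hf : ∀ j, red (Sh.ser j (polyVal w G * f - polyVal w (D * back Gl) * p)) = 0 := by
    intro j
    let a' : (Σ j, Fin (Sh.e j)) → O⟦X⟧ := fun x =>
      taylorSeries c (G * back (Ql x)) - taylorSeries c (back Gl * P x)
    have h7 : polyVal w G * f - polyVal w (D * back Gl) * p =
        (∑ x, polyVal w (G * back (Ql x)) * Sh.bas x) -
          ∑ x, polyVal w (back Gl * P x) * Sh.bas x := by
      simp only [f, Finset.mul_sum, polyVal_mul, mul_assoc]
      congr 1
      rw [← Finset.mul_sum, ← hP]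
      ring
    have h8 : Sh.ser j (polyVal w G * f - polyVal w (D * back Gl) * p) = Sh.coord a' j := by
      rw [h7, map_sub]
      have h5 := congrFun (Sh.coord_taylor (fun x => G * back (Ql x))) j
      have h6 := congrFun (Sh.coord_taylor (fun x => back Gl * P x)) j
      rw [← h5, ← h6]
      exact (congrFun (Sh.coord_sub (fun x => taylorSeries c (G * back (Ql x)))
        (fun x => taylorSeries c (back Gl * P x))) j).symm
    have h9 : ∀ x, red (a' x) = 0 := by
      intro x
      simp only [a', map_sub, map_mul, hback, red_coe, red_taylorSeries, hQ x,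
        show (G.taylor c).map (residue O) = _ from hG', hQl, hGl, Polynomial.coe_mul,
        Polynomial.coe_pow, Polynomial.coe_X]
      ring
    have hs : PowerSeries.HasSubst (red (Sh.tpar j)) :=
      PowerSeries.HasSubst.of_constantCoeff_zero' (by
        rw [Sh.red_tpar, map_mul, map_pow, PowerSeries.constantCoeff_X,
          zero_pow (Sh.e_pos j).ne', zero_mul])
    rw [h8, show red (Sh.coord a' j) = _ from congrFun (Sh.red_coord a') j]
    refine Finset.sum_eq_zero fun x _ => ?_
    simp only [h9 x]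
    rw [← Sh.red_tpar, ← PowerSeries.coe_substAlgHom hs, map_zero, zero_mul]
  obtain ⟨D2, hD2, hdvd⟩ := Sh.local_zero hm hr _ hf
  refine ⟨D * back Gl * D2, polyVal w D2 * f, by rw [Polynomial.eval_mul]; exact hD'.mul hD2, ?_⟩
  convert hdvd using 1
  rw [polyVal_mul w (D * back Gl) D2]
  ring

end Sheets

theorem isUnit_eval_of_residue_eq {D : O[X]} {c c' : O} (h : residue O c' = residue O c)
    (hD : IsUnit (D.eval c')) : IsUnit (D.eval c) := by
  rw [← residue_ne_zero_iff_isUnit, ← Polynomial.eval₂_at_apply] at hD ⊢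
  rwa [← h]

/-- Sheets over a chosen lift of every point of the special line. -/
structure Chart (O : Type*) [CommRing O] [IsDomain O] [IsDiscreteValuationRing O]
    {F : Type*} [Field F] [Algebra O F] (w : F) where
  rep : O → O
  residue_rep : ∀ c, residue O (rep c) = residue O c
  rep_zero : rep 0 = 0
  sheets : ∀ c : O, Sheets w (rep c)
  r_pos : ∀ c, 0 < (sheets c).r

theorem eq_top_of_forall_isUnit_eval [IsAlgClosed (ResidueField O)] {π : O}
    (hm : maximalIdeal O = Ideal.span {π}) (I : Ideal O[X]) (hπ : Polynomial.C π ∈ I)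
    (h : ∀ c : O, ∃ D ∈ I, IsUnit (D.eval c)) : I = ⊤ := by
  have hs : Function.Surjective (Polynomial.mapRingHom (residue O)) :=
    Polynomial.map_surjective _ residue_surjective
  have htop : I.map (Polynomial.mapRingHom (residue O)) = ⊤ := by
    by_contra hne
    obtain ⟨M, hM, hIM⟩ := Ideal.exists_le_maximal _ hne
    obtain ⟨g, hg⟩ := (IsPrincipalIdealRing.principal M).principal
    have hg0 : g ≠ 0 := by
      rintro rfl
      apply Ring.not_isField_of_ne_of_ne (I := Ideal.span ({Polynomial.X} : Set (ResidueField O)[X]))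
      · rw [Ne, Ideal.span_singleton_eq_bot]; exact Polynomial.X_ne_zero
      · rw [Ne, Ideal.span_singleton_eq_top]; exact Polynomial.not_isUnit_X
      · exact Ring.isField_iff_maximal_bot.mpr (by rw [hg] at hM; simpa using hM)
    have hgu : ¬ IsUnit g := fun hu => hM.ne_top (by
      rw [hg, Ideal.submodule_span_eq, Ideal.span_singleton_eq_top]; exact hu)
    obtain ⟨a, ha⟩ := IsAlgClosed.exists_root g (fun hd => hgu
      (Polynomial.isUnit_iff_degree_eq_zero.mpr hd))
    obtain ⟨c, rfl⟩ := residue_surjective a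
    obtain ⟨D, hD, hDu⟩ := h c
    have hDM := hIM (Ideal.mem_map_of_mem (Polynomial.mapRingHom (residue O)) hD)
    rw [hg, Ideal.submodule_span_eq, Ideal.mem_span_singleton] at hDM
    have h2 : (D.map (residue O)).eval (residue O c) = 0 := by
      obtain ⟨v, hv⟩ := hDM
      rw [Polynomial.coe_mapRingHom] at hv
      rw [hv, Polynomial.eval_mul, ha.eq_zero, zero_mul]
    rw [Polynomial.eval_map, Polynomial.eval₂_at_apply, residue_eq_zero_iff] at h2
    exact h2 hDu
  obtain ⟨D, hD, hD1⟩ := (Ideal.mem_map_iff_of_surjective _ hs).mp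
    (show (1 : (ResidueField O)[X]) ∈ _ by rw [htop]; trivial)
  have hdvd : Polynomial.C π ∣ D - 1 := by
    rw [Polynomial.C_dvd_iff_dvd_coeff]
    intro i
    have := congrArg (fun R => Polynomial.coeff R i) hD1
    simp only [Polynomial.coe_mapRingHom, Polynomial.coeff_map] at this
    rw [← Ideal.mem_span_singleton, ← hm, ← residue_eq_zero_iff, Polynomial.coeff_sub, map_sub,
      this, Polynomial.coeff_one, Polynomial.coeff_one]
    split <;> simp
  obtain ⟨v, hv⟩ := hdvd
  rw [Ideal.eq_top_iff_one, show (1 : O[X]) = D - Polynomial.C π * v by rw [← hv]; ring]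
  exact sub_mem hD (I.mul_mem_right _ hπ)

namespace Chart

variable [IsAlgClosed (ResidueField O)] [IsAdicComplete (maximalIdeal O) O]
variable {w : F} (C : Chart O w) {π : O} (hm : maximalIdeal O = Ideal.span {π})

include C hm

/-- Vanishing of the reduction on the sheets of a single point implies divisibility by `π`. -/
theorem pi_dvd_of_red_eq_zero (c₀ : O) (f : chartRing O w)
    (h : ∀ j, red ((C.sheets c₀).ser j f) = 0) : algebraMap O (chartRing O w) π ∣ f := by
  let I : Ideal O[X] :=
    { carrier := {D | algebraMap O (chartRing O w) π ∣ polyVal w D * f}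
      zero_mem' := by simp [polyVal]
      add_mem' := fun {a b} ha hb => by
        simp only [Set.mem_setOf_eq, polyVal_add, add_mul] at ha hb ⊢; exact dvd_add ha hb
      smul_mem' := fun a D hD => by
        simp only [Set.mem_setOf_eq, smul_eq_mul, polyVal_mul, mul_assoc] at hD ⊢
        exact hD.mul_left _ }
  obtain ⟨D₀, hD₀, hdvd⟩ := (C.sheets c₀).local_zero hm (C.r_pos c₀) f h
  have hD₀' : ¬ Polynomial.C π ∣ D₀ := by
    rintro ⟨v, rfl⟩
    rw [Polynomial.eval_mul, Polynomial.eval_C, IsUnit.mul_iff] at hD₀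
    exact (maximalIdeal.isMaximal O).ne_top (hm ▸ Ideal.span_singleton_eq_top.mpr hD₀.1)
  have hI : I = ⊤ := by
    refine eq_top_of_forall_isUnit_eval hm I ?_ fun c => ?_
    · show algebraMap O (chartRing O w) π ∣ polyVal w (Polynomial.C π) * f
      rw [polyVal_C]
      exact dvd_mul_right _ _
    · obtain ⟨D, hD, hd⟩ := (C.sheets c).local_zero hm (C.r_pos c) f fun j => by
        obtain ⟨v, hv⟩ := hdvd
        have h1 := (C.sheets c).red_ser_pi_mul hm j v
        rw [← hv, map_mul, map_mul, mul_eq_zero] at h1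
        exact h1.resolve_left ((C.sheets c).red_ser_polyVal_ne_zero hm j hD₀')
      exact ⟨D, hd, isUnit_eval_of_residue_eq (C.residue_rep c) hD⟩
  have h1 : (1 : O[X]) ∈ I := by rw [hI]; trivial
  simpa [polyVal] using (show algebraMap O (chartRing O w) π ∣ polyVal w 1 * f from h1)

theorem red_ser_eq_of_pi_dvd (c : O) (j : Fin (C.sheets c).r) {f g : chartRing O w}
    (h : algebraMap O (chartRing O w) π ∣ f - g) :
    red ((C.sheets c).ser j f) = red ((C.sheets c).ser j g) := by
  obtain ⟨v, hv⟩ := h
  rw [← sub_eq_zero, ← map_sub, ← map_sub, hv]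
  exact (C.sheets c).red_ser_pi_mul hm j v

/-- A function nonzero on all sheets over one point divides a nonzero polynomial modulo `π`. -/
theorem exists_mul_eq_poly (c₀ : O) (q : chartRing O w)
    (hq : ∀ j, red ((C.sheets c₀).ser j q) ≠ 0) :
    ∃ (u : chartRing O w) (G : O[X]), ¬ Polynomial.C π ∣ G ∧
      algebraMap O (chartRing O w) π ∣ q * u - polyVal w G := by
  obtain ⟨Q, hQm, hQ⟩ := exists_monic_lift w q
  set φ := (Polynomial.aeval (R := O) (⟨w, self_mem_chartRing w⟩ : chartRing O w)).toRingHom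
  suffices h : ∀ (n : ℕ) (Q : (O[X])[X]), Q.natDegree = n → Q.Monic →
      algebraMap O (chartRing O w) π ∣ Q.eval₂ φ q →
      ∃ (u : chartRing O w) (G : O[X]), ¬ Polynomial.C π ∣ G ∧
        algebraMap O (chartRing O w) π ∣ q * u - polyVal w G from
    h _ Q rfl hQm (by rw [hQ]; exact dvd_zero _)
  intro n
  induction n with
  | zero =>
    intro Q hn hQm hd
    exfalso
    rw [hQm.natDegree_eq_zero.mp hn, Polynomial.eval₂_one] at hd
    have := C.red_ser_eq_of_pi_dvd hm c₀ ⟨0, C.r_pos c₀⟩ (g := 0) (by simpa using hd)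
    simp at this
  | succ n ih =>
    intro Q hn hQm hd
    have hQ' : Q = Q.divX * Polynomial.X + Polynomial.C (Q.coeff 0) := (Q.divX_mul_X_add).symm
    rw [hQ', Polynomial.eval₂_add, Polynomial.eval₂_mul_X, Polynomial.eval₂_C] at hd
    by_cases h0 : Polynomial.C π ∣ Q.coeff 0
    · refine ih Q.divX (by rw [Polynomial.natDegree_divX_eq_natDegree_tsub_one, hn]; simp) ?_ ?_
      · rw [Polynomial.Monic, Polynomial.leadingCoeff,
          Polynomial.natDegree_divX_eq_natDegree_tsub_one, Polynomial.coeff_divX, hn,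
          Nat.add_sub_cancel, ← hn]
        exact hQm
      · obtain ⟨v, hv⟩ := h0
        refine C.pi_dvd_of_red_eq_zero hm c₀ _ fun j => ?_
        have h1 : algebraMap O (chartRing O w) π ∣ Q.divX.eval₂ φ q * q := by
          refine (dvd_add_left ?_).mp hd
          show _ ∣ polyVal w (Q.coeff 0)
          rw [hv, polyVal_mul, polyVal_C]
          exact dvd_mul_right _ _
        have h2 := C.red_ser_eq_of_pi_dvd hm c₀ j (g := 0) (by simpa using h1)
        rw [map_mul, map_mul, map_zero, map_zero] at h2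
        exact (mul_eq_zero.mp h2).resolve_right (hq j)
    · refine ⟨-Q.divX.eval₂ φ q, Q.coeff 0, h0, ?_⟩
      rw [show q * -Q.divX.eval₂ φ q - polyVal w (Q.coeff 0) =
        -(Q.divX.eval₂ φ q * q + φ (Q.coeff 0)) by simp [φ, polyVal]; ring]
      exact dvd_neg.mpr hd

theorem red_ser_ne_zero (c₀ : O) (q : chartRing O w)
    (hq : ∀ j, red ((C.sheets c₀).ser j q) ≠ 0) (c : O) (j : Fin (C.sheets c).r) :
    red ((C.sheets c).ser j q) ≠ 0 := by
  obtain ⟨u, G, hG, hd⟩ := C.exists_mul_eq_poly hm c₀ q hq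
  have h := C.red_ser_eq_of_pi_dvd hm c j hd
  rw [map_mul, map_mul] at h
  intro h0
  rw [h0, zero_mul] at h
  exact (C.sheets c).red_ser_polyVal_ne_zero hm j hG h.symm

/-- A congruence `q f ≡ p` solvable on every sheet is solvable in the chart ring. -/
theorem exists_solution (c₀ : O) (q p : chartRing O w)
    (hq : ∀ j, red ((C.sheets c₀).ser j q) ≠ 0)
    (hz : ∀ c j, red ((C.sheets c).ser j q) ∣ red ((C.sheets c).ser j p)) :
    ∃ f : chartRing O w, algebraMap O (chartRing O w) π ∣ q * f - p := by
  obtain ⟨u, G, hG, hd⟩ := C.exists_mul_eq_poly hm c₀ q hq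
  let I : Ideal O[X] :=
    { carrier := {D | ∃ f, algebraMap O (chartRing O w) π ∣ polyVal w G * f - polyVal w D * (p * u)}
      zero_mem' := ⟨0, by simp [polyVal]⟩
      add_mem' := by
        rintro a b ⟨f, hf⟩ ⟨g, hg⟩
        refine ⟨f + g, ?_⟩
        convert dvd_add hf hg using 1
        simp only [polyVal_add]; ring
      smul_mem' := by
        rintro a D ⟨f, hf⟩
        refine ⟨polyVal w a * f, ?_⟩
        convert hf.mul_left (polyVal w a) using 1
        simp only [smul_eq_mul, polyVal_mul]; ring }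
  have hI : I = ⊤ := by
    refine eq_top_of_forall_isUnit_eval hm I ⟨0, ?_⟩ fun c => ?_
    · rw [polyVal_C, mul_zero, zero_sub, dvd_neg]
      exact dvd_mul_right _ _
    · obtain ⟨D, f, hD, hf⟩ := (C.sheets c).local_rational hm (C.r_pos c) hG (p * u) fun j => by
        rw [← C.red_ser_eq_of_pi_dvd hm c j hd, map_mul, map_mul, map_mul, map_mul]
        exact mul_dvd_mul (hz c j) dvd_rfl
      exact ⟨D, ⟨f, hf⟩, isUnit_eval_of_residue_eq (C.residue_rep c) hD⟩
  obtain ⟨f, hf⟩ := (show (1 : O[X]) ∈ I by rw [hI]; trivial)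
  refine ⟨f, C.pi_dvd_of_red_eq_zero hm c₀ _ fun j => ?_⟩
  have h1 : algebraMap O (chartRing O w) π ∣ u * (q * f - p) := by
    have := dvd_add hf (hd.mul_right f)
    simp only [polyVal, map_one] at this ⊢
    convert this using 1
    ring
  have h2 := C.red_ser_eq_of_pi_dvd hm c₀ j (g := 0) (by simpa using h1)
  rw [map_mul, map_mul, map_zero, map_zero, mul_eq_zero] at h2
  refine h2.resolve_left fun h3 => ?_
  have h4 := C.red_ser_eq_of_pi_dvd hm c₀ j hd
  rw [map_mul, map_mul, h3, mul_zero] at h4
  exact (C.sheets c₀).red_ser_polyVal_ne_zero hm j hG h4.symm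

end Chart

end Fermat.Agent.GalRep.Model
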