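/-
A curve with two charts given by sheets over every special point of the projective line:
gluing of congruences, connectedness of the special fibre, lifting of roots.
-/
import Fermat.Agent.GalRep.Model.Chart

set_option autoImplicit false

noncomputable section

namespace Fermat.Agent.GalRep.Model

open PowerSeries IsLocalRing Polynomial

variable {O : Type*} [CommRing O] [IsDomain O] [IsDiscreteValuationRing O]
variable {F : Type*} [Field F] [Algebra O F]

theorem self_pow_mem_chartRing (w : F) (i : ℕ) : w ^ i ∈ chartRing O w :=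
  pow_mem (self_mem_chartRing w) i

theorem pow_mul_aeval_inv_mem {w : F} (hw : w ≠ 0) {P : O[X]} {m : ℕ} (h : P.natDegree ≤ m) :
    w ^ m * Polynomial.aeval w⁻¹ P ∈ Algebra.adjoin O ({w} : Set F) := by
  rw [Polynomial.aeval_eq_sum_range, Finset.mul_sum]
  refine Subalgebra.sum_mem _ fun i hi => ?_
  have hi' : i ≤ m := le_trans (Nat.lt_succ_iff.mp (Finset.mem_range.mp hi)) h
  rw [mul_smul_comm, inv_pow, ← pow_sub₀ w hw hi']
  exact Subalgebra.smul_mem _ (pow_mem (Algebra.self_mem_adjoin_singleton O w) _) _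

theorem exists_pow_mul_mem {w u : F} (huv : u = w⁻¹) (hw : w ≠ 0) {y : F}
    (hy : y ∈ chartRing O u) : ∃ E, w ^ E * y ∈ chartRing O w := by
  obtain ⟨Q, hQm, hQ⟩ := exists_monic_lift u ⟨y, hy⟩
  let ev : O[X] →+* F := (Polynomial.aeval u).toRingHom
  have hy0 : Q.eval₂ ev y = 0 := by
    have h := congrArg (fun z : chartRing O u => (z : F)) hQ
    simp only [ZeroMemClass.coe_zero] at h
    rw [← h, show (((Q.eval₂ (Polynomial.aeval (⟨u, self_mem_chartRing u⟩ : chartRing O u)).toRingHom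
      ⟨y, hy⟩ : chartRing O u)) : F) = (chartRing O u).val.toRingHom (Q.eval₂ _ ⟨y, hy⟩) from rfl,
      Polynomial.hom_eval₂]
    congr 1
    refine Polynomial.ringHom_ext (fun a => ?_) ?_ <;> simp [ev]
  let E := (Finset.range (Q.natDegree + 1)).sup fun i => (Q.coeff i).natDegree
  refine ⟨E, ?_⟩
  rw [mem_chartRing_iff]
  have hroot : (((Q.map ev).scaleRoots (w ^ E))).eval (w ^ E * y) = 0 := by
    have := Polynomial.scaleRoots_eval₂_mul (RingHom.id F) y (w ^ E) (p := Q.map ev)
    simp only [Polynomial.eval₂_id, RingHom.id_apply] at this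
    rw [this, Polynomial.eval_map, hy0, mul_zero]
  have hl : (Q.map ev).scaleRoots (w ^ E) ∈
      Polynomial.lifts (algebraMap (Algebra.adjoin O ({w} : Set F)) F) := by
    rw [Polynomial.lifts_iff_coeff_lifts]
    intro i
    rw [Polynomial.coeff_scaleRoots, Polynomial.coeff_map]
    suffices h : ev (Q.coeff i) * (w ^ E) ^ ((Q.map ev).natDegree - i) ∈
        Algebra.adjoin O ({w} : Set F) from ⟨⟨_, h⟩, rfl⟩
    rw [hQm.natDegree_map]
    rcases lt_trichotomy i Q.natDegree with hi | hi | hi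
    · rw [← pow_mul, mul_comm]
      show w ^ _ * Polynomial.aeval u _ ∈ _
      rw [huv]
      refine pow_mul_aeval_inv_mem hw ?_
      refine le_trans (Finset.le_sup (f := fun i => (Q.coeff i).natDegree)
        (Finset.mem_range.mpr (Nat.lt_succ_of_lt hi))) (Nat.le_mul_of_pos_right _ (by omega))
    · subst hi
      rw [hQm.coeff_natDegree, map_one, Nat.sub_self, pow_zero, mul_one]
      exact one_mem _
    · rw [Polynomial.coeff_eq_zero_of_natDegree_lt hi, map_zero, zero_mul]
      exact zero_mem _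
  obtain ⟨R, hR, -, hRm⟩ := Polynomial.lifts_and_natDegree_eq_and_monic hl
    ((Polynomial.monic_scaleRoots_iff _).mpr (hQm.map ev))
  exact ⟨R, hRm, by rw [← Polynomial.eval_map, hR, hroot]⟩

theorem exists_inv_pow_mul_mem {w : F} (hw : w ≠ 0) (f : chartRing O w) :
    ∃ E, w⁻¹ ^ E * (f : F) ∈ chartRing O w⁻¹ :=
  exists_pow_mul_mem (inv_inv w).symm (inv_ne_zero hw) f.2

theorem pow_mul_mem_of_le {u y : F} {E E' : ℕ} (h : E ≤ E') (hy : u ^ E * y ∈ chartRing O u) :
    u ^ E' * y ∈ chartRing O u := by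
  obtain ⟨d, rfl⟩ := Nat.exists_eq_add_of_le h
  rw [pow_add, mul_comm (u ^ E), mul_assoc]
  exact mul_mem (self_pow_mem_chartRing u d) hy

/-- A curve with two charts. -/
structure TwoChart (O : Type*) [CommRing O] [IsDomain O] [IsDiscreteValuationRing O]
    {F : Type*} [Field F] [Algebra O F] (w : F) where
  chart0 : Chart O w
  chart1 : Chart O w⁻¹
  fg0 : ∃ (n : ℕ) (g : Fin n → chartRing O w), ∀ f : chartRing O w, ∃ P : Fin n → O[X],
    f = ∑ i, polyVal w (P i) * g i
  fg1 : ∃ (n : ℕ) (g : Fin n → chartRing O w⁻¹), ∀ f : chartRing O w⁻¹, ∃ P : Fin n → O[X],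
    f = ∑ i, polyVal w⁻¹ (P i) * g i

/-- Functions regular on the first chart with pole order at most `B` at infinity. -/
def poleSpace (O : Type*) [CommRing O] {F : Type*} [Field F] [Algebra O F] (w : F) (B : ℕ) :
    Submodule O F where
  carrier := {f | f ∈ chartRing O w ∧ w⁻¹ ^ B * f ∈ chartRing O w⁻¹}
  zero_mem' := ⟨zero_mem _, by rw [mul_zero]; exact zero_mem _⟩
  add_mem' := by
    rintro a b ⟨ha, ha'⟩ ⟨hb, hb'⟩
    exact ⟨add_mem ha hb, by rw [mul_add]; exact add_mem ha' hb'⟩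
  smul_mem' := by
    rintro r a ⟨ha, ha'⟩
    exact ⟨Subalgebra.smul_mem _ ha r, by rw [mul_smul_comm]; exact Subalgebra.smul_mem _ ha' r⟩

theorem mem_poleSpace_iff {w f : F} {B : ℕ} :
    f ∈ poleSpace O w B ↔ f ∈ chartRing O w ∧ w⁻¹ ^ B * f ∈ chartRing O w⁻¹ := Iff.rfl

namespace TwoChart

variable {w : F} (M : TwoChart O w)

include M in
theorem w_ne_zero : w ≠ 0 := by
  intro h
  let S := M.chart0.sheets 0
  have h1 := S.ι_w ⟨0, M.chart0.r_pos 0⟩
  have h2 : S.ι ⟨0, M.chart0.r_pos 0⟩ w = 0 := by simp [h]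
  simp only [M.chart0.rep_zero] at h1
  rw [h2, map_zero, zero_add, eq_comm,
    map_eq_zero_iff _ (IsFractionRing.injective O⟦X⟧ (SeriesField O))] at h1
  exact mul_ne_zero (pow_ne_zero _ PowerSeries.X_ne_zero) (S.unit _).ne_zero h1

theorem ser_injective (c : O) (j : Fin (M.chart0.sheets c).r) :
    Function.Injective ((M.chart0.sheets c).ser j) := by
  intro f g h
  have := congrArg (algebraMap O⟦X⟧ (SeriesField O)) h
  rw [Sheets.algebraMap_ser, Sheets.algebraMap_ser] at this
  exact Subtype.ext (((M.chart0.sheets c).ι j).injective this)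

include M in
theorem algebraMap_injective : Function.Injective (algebraMap O F) := by
  intro a b h
  have h1 := congrArg ((M.chart0.sheets 0).ι ⟨0, M.chart0.r_pos 0⟩) h
  rw [Sheets.ι_O, Sheets.ι_O] at h1
  simpa using congrArg PowerSeries.constantCoeff (IsFractionRing.injective O⟦X⟧ (SeriesField O) h1)

include M in
theorem exists_decomp : ∃ B₀ : ℕ, ∀ B, B₀ ≤ B → ∀ (m : ℕ) (r : chartRing O w),
    ∃ (z0 : chartRing O w) (z1 : chartRing O w⁻¹),
      w⁻¹ ^ m * (r : F) = z0 + w ^ B * z1 := by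
  have hw := M.w_ne_zero
  obtain ⟨n, g, hg⟩ := M.fg0
  choose E hE using fun i => exists_inv_pow_mul_mem (O := O) hw (g i)
  refine ⟨Finset.univ.sup E, fun B hB m r => ?_⟩
  let S : Submodule O F := (chartRing O w).toSubmodule ⊔
    ((chartRing O w⁻¹).toSubmodule.map (LinearMap.mulLeft O (w ^ B)))
  suffices h : w⁻¹ ^ m * (r : F) ∈ S by
    obtain ⟨a, ha, b, hb, hab⟩ := Submodule.mem_sup.mp h
    obtain ⟨z, hz, rfl⟩ := Submodule.mem_map.mp hb
    exact ⟨⟨a, ha⟩, ⟨z, hz⟩, hab.symm⟩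
  obtain ⟨P, hP⟩ := hg r
  rw [hP, AddSubmonoidClass.coe_finsetSum, Finset.mul_sum]
  refine Submodule.sum_mem _ fun i _ => ?_
  rw [MulMemClass.coe_mul, coe_polyVal, Polynomial.aeval_eq_sum_range, Finset.sum_mul,
    Finset.mul_sum]
  refine Submodule.sum_mem _ fun l _ => ?_
  rw [smul_mul_assoc, mul_smul_comm]
  refine Submodule.smul_mem _ _ ?_
  rcases le_or_gt m l with hl | hl
  · refine Submodule.mem_sup_left ?_
    rw [← mul_assoc, inv_pow, mul_comm (w ^ m)⁻¹, ← pow_sub₀ w hw hl]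
    show _ ∈ chartRing O w
    exact mul_mem (self_pow_mem_chartRing w _) (g i).2
  · refine Submodule.mem_sup_right (Submodule.mem_map.mpr
      ⟨w⁻¹ ^ (m - l) * (w⁻¹ ^ B * (g i : F)), ?_, ?_⟩)
    · show _ ∈ chartRing O w⁻¹
      exact mul_mem (self_pow_mem_chartRing _ _)
        (pow_mul_mem_of_le (le_trans (Finset.le_sup (Finset.mem_univ i)) hB) (hE i))
    · obtain ⟨d, rfl⟩ := Nat.exists_eq_add_of_le hl.le
      simp only [LinearMap.mulLeft_apply, Nat.add_sub_cancel_left, inv_pow, pow_add]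
      field_simp

theorem natDegree_coords_le {ι : Type*} [Fintype ι] {N B G : ℕ} (Q P : ι → O[X])
    (hQ : ∀ i, (Q i).natDegree ≤ N) (hP : ∀ i, (P i).natDegree ≤ G) :
    (∑ i, (Q i).reflect N * Polynomial.X ^ B * P i).natDegree ≤ N + B + G := by
  refine Polynomial.natDegree_sum_le_of_forall_le _ _ fun i _ => ?_
  refine Polynomial.natDegree_mul_le.trans (Nat.add_le_add (Polynomial.natDegree_mul_le.trans
    (Nat.add_le_add ?_ (Polynomial.natDegree_X_pow_le B))) (hP i))
  exact Polynomial.natDegree_reflect_le.trans (max_le le_rfl (hQ i))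

variable [IsAdicComplete (maximalIdeal O) O]

include M in
theorem exists_coords_div (m : ℕ) (f : chartRing O w)
    (C : (Σ j, Fin ((M.chart0.sheets 0).e j)) → O[X])
    (h : polyVal w (Polynomial.X ^ m) * f =
      ∑ x, polyVal w (C x) * (M.chart0.sheets 0).bas x) :
    ∃ C' : (Σ j, Fin ((M.chart0.sheets 0).e j)) → O[X], (∀ x, C x = Polynomial.X ^ m * C' x) ∧
      (f : F) = ∑ x, Polynomial.aeval w (C' x) * ((M.chart0.sheets 0).bas x : F) := by
  obtain ⟨a, ha⟩ := (M.chart0.sheets 0).coord_surjective (fun j => (M.chart0.sheets 0).ser j f)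
  have h5 : (M.chart0.sheets 0).coord (fun x => taylorSeries 0 (C x) -
      taylorSeries 0 (Polynomial.X ^ m) * a x) = 0 := by
    have h7 := (M.chart0.sheets 0).coord_sub (fun x => taylorSeries 0 (C x))
      (fun x => taylorSeries 0 (Polynomial.X ^ m) * a x)
    have h8 := (M.chart0.sheets 0).coord_taylor C
    have h8' := (M.chart0.sheets 0).coord_smul_series (taylorSeries 0 (Polynomial.X ^ m)) a
    have h9 : ∀ j, ((M.chart0.sheets 0).ser j (polyVal w (Polynomial.X ^ m))) = _ :=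
      fun j => (M.chart0.sheets 0).ser_polyVal' j (Polynomial.X ^ m)
    simp only [M.chart0.rep_zero] at h8 h8' h9
    rw [h8, h8', ha] at h7
    refine h7.trans (funext fun j => ?_)
    simp only [Pi.sub_apply, Pi.zero_apply, ← h9, ← map_mul, ← h, sub_self]
  have h6 : ∀ x, ∃ C' : O[X], C x = Polynomial.X ^ m * C' := by
    intro x
    refine Polynomial.X_pow_dvd_iff.mpr fun d hd => ?_
    have h9 := congrArg (PowerSeries.coeff d)
      (congrFun ((M.chart0.sheets 0).coord_injective h5) x)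
    simp only [Pi.zero_apply, map_sub, map_zero, sub_eq_zero, taylorSeries, RingHom.coe_mk,
      MonoidHom.coe_mk, OneHom.coe_mk, Polynomial.taylor_zero, Polynomial.coeff_coe,
      Polynomial.coe_pow, Polynomial.coe_X] at h9
    rw [h9]
    exact PowerSeries.X_pow_dvd_iff.mp (dvd_mul_right _ _) d hd
  choose C' hC' using h6
  refine ⟨C', hC', mul_left_cancel₀ (pow_ne_zero m M.w_ne_zero) ?_⟩
  have h9 := congrArg (fun z : chartRing O w => (z : F)) h
  simp only [AddSubmonoidClass.coe_finsetSum, MulMemClass.coe_mul, coe_polyVal, hC', map_mul,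
    map_pow, Polynomial.aeval_X, mul_assoc, ← Finset.mul_sum] at h9
  exact h9

omit [IsAdicComplete (maximalIdeal O) O] in
include M in
theorem aeval_reflect {N : ℕ} (Q : O[X]) (hQ : Q.natDegree ≤ N) :
    Polynomial.aeval w (Q.reflect N) = w ^ N * Polynomial.aeval w⁻¹ Q := by
  have hw := M.w_ne_zero
  haveI : Invertible w⁻¹ := invertibleOfNonzero (inv_ne_zero hw)
  have h3 := Polynomial.eval₂_reflect_mul_pow (algebraMap O F) w⁻¹ N Q hQ
  rw [invOf_eq_inv, inv_inv] at h3
  rw [Polynomial.aeval_def, Polynomial.aeval_def, ← h3, inv_pow]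
  field_simp

include M in
theorem poleSpace_bound {n B G E₀ N : ℕ} (D0 : O[X]) (hg : Fin n → chartRing O w)
    (h : Fin n → chartRing O w⁻¹) (hgh : ∀ i, (hg i : F) = w ^ E₀ * (h i : F))
    (P' : Fin n → (Σ j, Fin ((M.chart0.sheets 0).e j)) → O[X])
    (hP' : ∀ i, polyVal w D0 * hg i = ∑ x, polyVal w (P' i x) * (M.chart0.sheets 0).bas x)
    (hG : ∀ i x, (P' i x).natDegree ≤ G) (f : chartRing O w) (Q : Fin n → O[X])
    (hN : ∀ i, (Q i).natDegree ≤ N)
    (hQ : w⁻¹ ^ B * (f : F) = ∑ i, Polynomial.aeval w⁻¹ (Q i) * (h i : F)) :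
    ((polyVal w D0 : chartRing O w) : F) * (f : F) ∈ Submodule.span O (Set.range
      fun x : Fin (B + G + 1) × (Σ j, Fin ((M.chart0.sheets 0).e j)) =>
        w ^ (x.1 : ℕ) * ((M.chart0.sheets 0).bas x.2 : F)) := by
  have hw := M.w_ne_zero
  have key : polyVal w (Polynomial.X ^ (N + E₀)) * f =
      ∑ i, polyVal w ((Q i).reflect N * Polynomial.X ^ B) * hg i := by
    apply Subtype.ext
    simp only [AddSubmonoidClass.coe_finsetSum, MulMemClass.coe_mul, coe_polyVal, map_mul,
      map_pow, Polynomial.aeval_X, hgh]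
    have h4 : w ^ B * (w⁻¹ ^ B * (f : F)) = f := by
      rw [← mul_assoc, ← mul_pow, mul_inv_cancel₀ hw, one_pow, one_mul]
    rw [← h4, hQ, Finset.mul_sum, Finset.mul_sum]
    refine Finset.sum_congr rfl fun i _ => ?_
    rw [M.aeval_reflect (Q i) (hN i), pow_add]
    ring
  have hC : polyVal w (Polynomial.X ^ (N + E₀)) * (polyVal w D0 * f) =
      ∑ x, polyVal w (∑ i, (Q i).reflect N * Polynomial.X ^ B * P' i x) *
        (M.chart0.sheets 0).bas x := by
    rw [mul_left_comm, key, Finset.mul_sum]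
    simp only [polyVal, map_sum, Finset.sum_mul] at hP' ⊢
    rw [Finset.sum_comm]
    refine Finset.sum_congr rfl fun i _ => ?_
    simp only [map_mul, mul_assoc, ← Finset.mul_sum]
    rw [← hP' i]
    ring
  obtain ⟨C', hC', h10⟩ := M.exists_coords_div (N + E₀) (polyVal w D0 * f) _ hC
  rw [MulMemClass.coe_mul] at h10
  rw [h10]
  refine Submodule.sum_mem _ fun x _ => ?_
  have hdeg : (C' x).natDegree < B + G + 1 := by
    by_cases h0 : C' x = 0
    · rw [h0, Polynomial.natDegree_zero]; exact Nat.succ_pos _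
    have h7 := natDegree_coords_le (B := B) Q (fun i => P' i x) hN (fun i => hG i x)
    rw [hC' x, Polynomial.natDegree_mul (pow_ne_zero _ Polynomial.X_ne_zero) h0,
      Polynomial.natDegree_X_pow] at h7
    omega
  rw [Polynomial.aeval_eq_sum_range' hdeg, Finset.sum_mul]
  refine Submodule.sum_mem _ fun d hd => ?_
  rw [smul_mul_assoc]
  exact Submodule.smul_mem _ _
    (Submodule.subset_span ⟨(⟨d, Finset.mem_range.mp hd⟩, x), rfl⟩)

include M in
theorem poleSpace_fg (B : ℕ) : (poleSpace O w B).FG := by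
  classical
  have hw := M.w_ne_zero
  obtain ⟨n, h, hh⟩ := M.fg1
  choose E hE using fun i => exists_pow_mul_mem (O := O) (w := w) rfl hw (h i).2
  obtain ⟨E₀, hE₀⟩ : ∃ E₀, ∀ i, E i ≤ E₀ := ⟨Finset.univ.sup E, fun i => Finset.le_sup (Finset.mem_univ i)⟩
  obtain ⟨hg, hgh⟩ : ∃ hg : Fin n → chartRing O w, ∀ i, (hg i : F) = w ^ E₀ * (h i : F) :=
    ⟨fun i => ⟨_, pow_mul_mem_of_le (hE₀ i) (hE i)⟩, fun i => rfl⟩
  choose D P hD hP using fun i =>
    (M.chart0.sheets 0).exists_poly_coords (M.chart0.r_pos 0) (hg i)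
  obtain ⟨D0, hD0u, P', hP'⟩ : ∃ (D0 : O[X]), IsUnit (D0.eval 0) ∧
      ∃ P' : Fin n → (Σ j, Fin ((M.chart0.sheets 0).e j)) → O[X], ∀ i,
        polyVal w D0 * hg i = ∑ x, polyVal w (P' i x) * (M.chart0.sheets 0).bas x := by
    refine ⟨∏ i, D i, ?_, fun i x => (∏ l ∈ Finset.univ.erase i, D l) * P i x, fun i => ?_⟩
    · rw [Polynomial.eval_prod, IsUnit.prod_iff]
      exact fun i _ => M.chart0.rep_zero ▸ hD i
    · simp only [polyVal_mul, mul_assoc, ← Finset.mul_sum, ← hP i]
      rw [← mul_assoc, ← polyVal_mul, Finset.prod_erase_mul _ _ (Finset.mem_univ i)]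
  obtain ⟨G, hG⟩ : ∃ G, ∀ i x, (P' i x).natDegree ≤ G :=
    ⟨(Finset.univ : Finset (Fin n × _)).sup fun y => (P' y.1 y.2).natDegree,
      fun i x => Finset.le_sup (f := fun y : Fin n × _ => (P' y.1 y.2).natDegree)
        (Finset.mem_univ (i, x))⟩
  have hD0 : ((polyVal w D0 : chartRing O w) : F) ≠ 0 := by
    intro h0
    obtain ⟨π, hπ⟩ := IsDiscreteValuationRing.exists_irreducible O
    have hd : ¬ Polynomial.C π ∣ D0 := by
      rintro ⟨v, hv⟩
      rw [hv, Polynomial.eval_mul, Polynomial.eval_C, IsUnit.mul_iff] at hD0u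
      exact hπ.not_isUnit hD0u.1
    refine (M.chart0.sheets 0).red_ser_polyVal_ne_zero hπ.maximalIdeal_eq
      ⟨0, M.chart0.r_pos 0⟩ hd ?_
    rw [show polyVal w D0 = 0 from Subtype.ext h0, map_zero, map_zero]
  let T : Submodule O F := Submodule.span O (Set.range
    fun x : Fin (B + G + 1) × (Σ j, Fin ((M.chart0.sheets 0).e j)) =>
      w ^ (x.1 : ℕ) * ((M.chart0.sheets 0).bas x.2 : F))
  have hmap : (poleSpace O w B).map (LinearMap.mulLeft O ((polyVal w D0 : chartRing O w) : F)) ≤ T := by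
    rintro _ ⟨f, hf, rfl⟩
    obtain ⟨hf0, hf1⟩ := mem_poleSpace_iff.mp hf
    obtain ⟨Q, hQ⟩ := hh ⟨_, hf1⟩
    have h1 := congrArg (fun z : chartRing O w⁻¹ => (z : F)) hQ
    simp only [AddSubmonoidClass.coe_finsetSum, MulMemClass.coe_mul, coe_polyVal] at h1
    exact M.poleSpace_bound D0 hg h hgh P' hP' hG ⟨f, hf0⟩ Q
      (fun i => Finset.le_sup (f := fun i => (Q i).natDegree) (Finset.mem_univ i)) h1
  haveI : IsNoetherian O T :=
    isNoetherian_of_fg_of_noetherian T (Submodule.fg_span (Set.finite_range _))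
  have hfg := (IsNoetherian.noetherian
    (((poleSpace O w B).map (LinearMap.mulLeft O ((polyVal w D0 : chartRing O w) : F))).comap
      T.subtype)).map T.subtype
  rw [Submodule.map_comap_subtype, inf_eq_right.mpr hmap] at hfg
  exact Submodule.fg_of_fg_map_injective _ (fun a b hab => mul_left_cancel₀ hD0 hab) hfg

end TwoChart

end Fermat.Agent.GalRep.Model
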