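/-
Gluing of congruences on a two-chart curve: connectedness of the special fibre and lifting of roots.
-/
import Fermat.Agent.GalRep.Model.Glue

set_option autoImplicit false

noncomputable section

namespace Fermat.Agent.GalRep.Model

open PowerSeries IsLocalRing Polynomial

variable {O : Type*} [CommRing O] [IsDomain O] [IsDiscreteValuationRing O]
variable {F : Type*} [Field F] [Algebra O F]
variable [IsAdicComplete (maximalIdeal O) O]

/-- A submodule which is finitely generated contains the limits of its Cauchy sequences. -/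
theorem exists_limit_of_fg {π : O} (hm : maximalIdeal O = Ideal.span {π}) {W : Submodule O F}
    (hW : W.FG) (f : ℕ → F) (hf0 : f 0 ∈ W)
    (hf : ∀ k, ∃ d ∈ W, f (k + 1) - f k = π ^ k • d) :
    ∃ L ∈ W, ∀ k, ∃ d ∈ W, L - f k = π ^ k • d := by
  classical
  obtain ⟨n, g, hg⟩ := Submodule.fg_iff_exists_fin_generating_family.mp hW
  choose d hdW hd using hf
  have hc : ∀ k, ∃ a : Fin n → O, ∑ i, a i • g i = d k := fun k =>
    (Submodule.mem_span_range_iff_exists_fun O).mp (by rw [hg]; exact hdW k)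
  choose a ha using hc
  have hgW : ∀ i, g i ∈ W := fun i => by rw [← hg]; exact Submodule.subset_span ⟨i, rfl⟩
  have hlim : ∀ i, ∃ S : O, ∀ k, π ^ k ∣ S - ∑ l ∈ Finset.range k, π ^ l * a l i := by
    intro i
    obtain ⟨S, hS⟩ := IsPrecomplete.prec inferInstance (I := maximalIdeal O)
      (f := fun k => ∑ l ∈ Finset.range k, π ^ l * a l i) (fun {m n} hmn => by
        rw [SModEq.sub_mem, smul_eq_mul, Ideal.mul_top, hm, Ideal.span_singleton_pow,
          Ideal.mem_span_singleton, ← dvd_neg, neg_sub, ← Finset.sum_Ico_eq_sub _ hmn]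
        exact Finset.dvd_sum fun l hl =>
          Dvd.dvd.mul_right (pow_dvd_pow _ (Finset.mem_Ico.mp hl).1) _)
    refine ⟨S, fun k => ?_⟩
    have := hS k
    rw [SModEq.sub_mem, smul_eq_mul, Ideal.mul_top, hm, Ideal.span_singleton_pow,
      Ideal.mem_span_singleton] at this
    rwa [← dvd_neg, neg_sub]
  choose S hS using hlim
  have hk : ∀ k, f k = f 0 + ∑ i, (∑ l ∈ Finset.range k, π ^ l * a l i) • g i := by
    intro k
    induction k with
    | zero => simp
    | succ k ih =>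
      have h1 : f (k + 1) = f k + π ^ k • d k := by rw [← hd k]; abel
      rw [h1, ih, ← ha k, Finset.smul_sum, add_assoc, ← Finset.sum_add_distrib]
      congr 1
      refine Finset.sum_congr rfl fun i _ => ?_
      rw [Finset.sum_range_succ, add_smul, mul_smul]
  refine ⟨f 0 + ∑ i, S i • g i, add_mem hf0 (sum_mem fun i _ => W.smul_mem _ (hgW i)), fun k => ?_⟩
  choose q hq using fun i => hS i k
  refine ⟨∑ i, q i • g i, sum_mem fun i _ => W.smul_mem _ (hgW i), ?_⟩
  rw [hk k, Finset.smul_sum, add_sub_add_left_eq_sub, ← Finset.sum_sub_distrib]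
  refine Finset.sum_congr rfl fun i _ => ?_
  rw [← sub_smul, hq i, mul_smul]

/-- A monic relation modulo a prime not containing polynomials gives a polynomial in `(x) + P`. -/
theorem exists_poly_mem_of_prime {w : F} {π : O} (P : Ideal (chartRing O w)) [P.IsPrime]
    (hπ : algebraMap O (chartRing O w) π ∈ P) (x : chartRing O w) (hx : x ∉ P) :
    ∃ (u : chartRing O w) (G : O[X]), ¬ Polynomial.C π ∣ G ∧ x * u - polyVal w G ∈ P := by
  obtain ⟨Q, hQm, hQ⟩ := exists_monic_lift w x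
  set φ := (Polynomial.aeval (R := O) (⟨w, self_mem_chartRing w⟩ : chartRing O w)).toRingHom
  suffices h : ∀ (n : ℕ) (Q : (O[X])[X]), Q.natDegree = n → Q.Monic → Q.eval₂ φ x ∈ P →
      ∃ (u : chartRing O w) (G : O[X]), ¬ Polynomial.C π ∣ G ∧ x * u - polyVal w G ∈ P from
    h _ Q rfl hQm (by rw [hQ]; exact zero_mem _)
  intro n
  induction n with
  | zero =>
    intro Q hn hQm hd
    rw [hQm.natDegree_eq_zero.mp hn, Polynomial.eval₂_one] at hd
    exact absurd hd (Ideal.IsPrime.one_notMem inferInstance)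
  | succ n ih =>
    intro Q hn hQm hd
    rw [← Q.divX_mul_X_add, Polynomial.eval₂_add, Polynomial.eval₂_mul_X, Polynomial.eval₂_C] at hd
    by_cases h0 : Polynomial.C π ∣ Q.coeff 0
    · refine ih Q.divX (by rw [Polynomial.natDegree_divX_eq_natDegree_tsub_one, hn]; simp) ?_ ?_
      · rw [Polynomial.Monic, Polynomial.leadingCoeff,
          Polynomial.natDegree_divX_eq_natDegree_tsub_one, Polynomial.coeff_divX, hn,
          Nat.add_sub_cancel, ← hn]
        exact hQm
      · obtain ⟨v, hv⟩ := h0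
        have h1 : φ (Q.coeff 0) ∈ P := by
          show polyVal w (Q.coeff 0) ∈ P
          rw [hv, polyVal_mul, polyVal_C]
          exact P.mul_mem_right _ hπ
        exact (‹P.IsPrime›.mem_or_mem ((P.add_mem_iff_left h1).mp hd)).resolve_right hx
    · refine ⟨-Q.divX.eval₂ φ x, Q.coeff 0, h0, ?_⟩
      rw [show x * -Q.divX.eval₂ φ x - polyVal w (Q.coeff 0) =
        -(Q.divX.eval₂ φ x * x + φ (Q.coeff 0)) by simp [φ, polyVal]; ring]
      exact P.neg_mem hd

namespace TwoChart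

variable [IsAlgClosed (ResidueField O)]
variable {w : F} (M : TwoChart O w) {π : O} (hm : maximalIdeal O = Ideal.span {π})

omit [IsAdicComplete (maximalIdeal O) O] [IsAlgClosed (ResidueField O)] in
include M in
theorem exists_pow_mul_mem_inv (f : chartRing O w) :
    ∃ E, ∀ E', E ≤ E' → w⁻¹ ^ E' * (f : F) ∈ chartRing O w⁻¹ := by
  obtain ⟨E, hE⟩ := exists_inv_pow_mul_mem M.w_ne_zero f
  exact ⟨E, fun E' h => pow_mul_mem_of_le h hE⟩

include M hm in
/-- Division by `π` of a function of the second chart, regular in the first. -/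
theorem mem_chart1_of_pi_smul {v : F} {C : ℕ} (hv : w ^ C * v ∈ chartRing O w)
    (hπv : π • v ∈ chartRing O w⁻¹) : v ∈ chartRing O w⁻¹ := by
  obtain ⟨E₁, hE₁⟩ := M.exists_pow_mul_mem_inv ⟨_, hv⟩
  obtain ⟨E, hE⟩ : ∃ E, ∀ E', E ≤ E' → w⁻¹ ^ E' * v ∈ chartRing O w⁻¹ := by
    refine ⟨E₁ + C, fun E' h' => pow_mul_mem_of_le h' ?_⟩
    have h := hE₁ E₁ le_rfl
    have h2 := mul_mem (self_pow_mem_chartRing (O := O) w⁻¹ (2 * C)) h
    have e : w⁻¹ ^ (2 * C) * (w⁻¹ ^ E₁ * (w ^ C * v)) = w⁻¹ ^ (E₁ + C) * v := by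
      calc _ = w⁻¹ ^ (E₁ + C) * v * (w⁻¹ ^ C * w ^ C) := by ring
        _ = _ := by rw [← mul_pow, inv_mul_cancel₀ M.w_ne_zero, one_pow, mul_one]
    rwa [show ((⟨_, hv⟩ : chartRing O w) : F) = w ^ C * v from rfl, e] at h2
  have hd : algebraMap O (chartRing O w⁻¹) π ∣ ⟨_, hπv⟩ := by
    refine M.chart1.pi_dvd_of_red_eq_zero hm 1 _ fun j => ?_
    have h1 : algebraMap O (chartRing O w⁻¹) π * ⟨_, hE E le_rfl⟩ =
        polyVal w⁻¹ (Polynomial.X ^ E) * ⟨_, hπv⟩ := by
      apply Subtype.ext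
      simp only [MulMemClass.coe_mul, coe_polyVal, map_pow, Polynomial.aeval_X, Algebra.smul_def]
      rw [show ((algebraMap O (chartRing O w⁻¹) π : chartRing O w⁻¹) : F) = algebraMap O F π
        from rfl]
      ring
    have h2 := (M.chart1.sheets 1).red_ser_pi_mul hm j ⟨_, hE E le_rfl⟩
    rw [h1, map_mul, map_mul, mul_eq_zero] at h2
    refine h2.resolve_left ((M.chart1.sheets 1).red_ser_polyVal_ne_zero hm j ?_)
    rintro ⟨g, hg⟩
    have h3 := congrArg (fun P => Polynomial.coeff P E) hg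
    simp only [Polynomial.coeff_X_pow_self, Polynomial.coeff_C_mul] at h3
    exact (maximalIdeal.isMaximal O).ne_top
      (hm ▸ Ideal.span_singleton_eq_top.mpr (isUnit_of_dvd_one ⟨_, h3⟩))
  obtain ⟨y, hy⟩ := hd
  have hy' := congrArg (fun z : chartRing O w⁻¹ => (z : F)) hy
  simp only [MulMemClass.coe_mul] at hy'
  rw [show ((algebraMap O (chartRing O w⁻¹) π : chartRing O w⁻¹) : F) = algebraMap O F π
    from rfl, Algebra.smul_def] at hy'
  have hπ0 : algebraMap O F π ≠ 0 := fun h0 =>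
    (IsDiscreteValuationRing.not_a_field O) (hm.trans (Ideal.span_singleton_eq_bot.mpr
      (M.algebraMap_injective (h0.trans (map_zero _).symm))))
  rw [mul_left_cancel₀ hπ0 hy']
  exact y.2

include hm in
theorem red_ser1_ne_zero (c₀ : O) (q : chartRing O w)
    (hq : ∀ j, red ((M.chart0.sheets c₀).ser j q) ≠ 0) (m : ℕ) (q1 : chartRing O w⁻¹)
    (hq1 : (q1 : F) = w⁻¹ ^ m * q) (c : O) (j : Fin (M.chart1.sheets c).r) :
    red ((M.chart1.sheets c).ser j q1) ≠ 0 := by
  obtain ⟨u, G, hG, r, hr⟩ := M.chart0.exists_mul_eq_poly hm c₀ q hq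
  obtain ⟨Eu, hu⟩ := M.exists_pow_mul_mem_inv u
  obtain ⟨Er, hr'⟩ := M.exists_pow_mul_mem_inv r
  obtain ⟨K, hK1, hK2, hK3⟩ : ∃ K, G.natDegree ≤ m + K ∧ Eu ≤ K ∧ Er ≤ m + K :=
    ⟨G.natDegree + Eu + Er, by omega, by omega, by omega⟩
  have hG' : ¬ Polynomial.C π ∣ G.reflect (m + K) := by
    intro hd
    refine hG (Polynomial.C_dvd_iff_dvd_coeff _ _ |>.mpr fun i => ?_)
    have := (Polynomial.C_dvd_iff_dvd_coeff _ _).mp hd (Polynomial.revAt (m + K) i)
    rwa [Polynomial.coeff_reflect, Polynomial.revAt_invol] at this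
  have h1 : q1 * ⟨_, hu K hK2⟩ - polyVal w⁻¹ (G.reflect (m + K)) =
      algebraMap O (chartRing O w⁻¹) π * ⟨_, hr' _ hK3⟩ := by
    apply Subtype.ext
    have hr2 := congrArg (fun z : chartRing O w => (z : F)) hr
    simp only [MulMemClass.coe_mul, AddSubgroupClass.coe_sub, coe_polyVal] at hr2 ⊢
    have hw := M.w_ne_zero
    have h2 : Polynomial.aeval w⁻¹ (G.reflect (m + K)) =
        w⁻¹ ^ (m + K) * Polynomial.aeval w G := by
      haveI : Invertible w := invertibleOfNonzero hw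
      have h3 := Polynomial.eval₂_reflect_mul_pow (algebraMap O F) w (m + K) G hK1
      rw [invOf_eq_inv] at h3
      rw [Polynomial.aeval_def, Polynomial.aeval_def, ← h3, inv_pow]
      field_simp
    rw [show ((algebraMap O (chartRing O w⁻¹) π : chartRing O w⁻¹) : F) = algebraMap O F π
      from rfl]
    rw [show ((algebraMap O (chartRing O w) π : chartRing O w) : F) = algebraMap O F π
      from rfl] at hr2
    rw [hq1, h2, pow_add]
    linear_combination (w⁻¹ ^ m * w⁻¹ ^ K) * hr2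
  have h4 := M.chart1.red_ser_eq_of_pi_dvd hm c j ⟨_, h1⟩
  rw [map_mul, map_mul] at h4
  intro h0
  rw [h0, zero_mul] at h4
  exact (M.chart1.sheets c).red_ser_polyVal_ne_zero hm j hG' h4.symm

include hm in
/-- Gluing: a congruence `q f ≡ p` locally solvable in both charts has a solution with bounded
poles. -/
theorem exists_glued_solution {B₀ : ℕ}
    (hdec : ∀ B, B₀ ≤ B → ∀ (m : ℕ) (r : chartRing O w),
      ∃ (z0 : chartRing O w) (z1 : chartRing O w⁻¹), w⁻¹ ^ m * (r : F) = z0 + w ^ B * z1)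
    {B : ℕ} (hB : B₀ ≤ B) (c₀ : O) (q p : chartRing O w) (m : ℕ)
    (q1 p1 : chartRing O w⁻¹) (hq1 : (q1 : F) = w⁻¹ ^ m * q)
    (hp1 : (p1 : F) = w⁻¹ ^ (m + B) * p)
    (hq : ∀ j, red ((M.chart0.sheets c₀).ser j q) ≠ 0)
    (hz0 : ∀ c j, red ((M.chart0.sheets c).ser j q) ∣ red ((M.chart0.sheets c).ser j p))
    (hz1 : ∀ c j, red ((M.chart1.sheets c).ser j q1) ∣ red ((M.chart1.sheets c).ser j p1)) :
    ∃ f : chartRing O w, (f : F) ∈ poleSpace O w B ∧
      algebraMap O (chartRing O w) π ∣ q * f - p := by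
  have hw := M.w_ne_zero
  obtain ⟨x, r0, hr0⟩ := M.chart0.exists_solution hm c₀ q p hq hz0
  obtain ⟨y, r1, hr1⟩ := M.chart1.exists_solution hm 0 q1 p1
    (fun j => M.red_ser1_ne_zero hm c₀ q hq m q1 hq1 0 j) hz1
  obtain ⟨Ey, hy⟩ := exists_pow_mul_mem (O := O) (w := w) rfl hw y.2
  obtain ⟨Er, hr⟩ := exists_pow_mul_mem (O := O) (w := w) rfl hw r1.2
  obtain ⟨E, hEy, hEr⟩ : ∃ E, Ey ≤ E ∧ Er ≤ E := ⟨Ey + Er, by omega, by omega⟩
  -- `z = w ^ E * (x - w ^ B * y)`
  let y0 : chartRing O w := ⟨_, pow_mul_mem_of_le hEy hy⟩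
  let r10 : chartRing O w := ⟨_, pow_mul_mem_of_le hEr hr⟩
  let zz : chartRing O w := polyVal w (Polynomial.X ^ E) * x - polyVal w (Polynomial.X ^ B) * y0
  have h1 : q * zz = algebraMap O (chartRing O w) π *
      (polyVal w (Polynomial.X ^ E) * r0 - polyVal w (Polynomial.X ^ (m + B)) * r10) := by
    apply Subtype.ext
    have e0 := congrArg (fun z : chartRing O w => (z : F)) hr0
    have e1 := congrArg (fun z : chartRing O w⁻¹ => (z : F)) hr1
    simp only [zz, y0, r10, MulMemClass.coe_mul, AddSubgroupClass.coe_sub, coe_polyVal, map_pow,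
      Polynomial.aeval_X, hq1, hp1] at e0 e1 ⊢
    rw [show ((algebraMap O (chartRing O w⁻¹) π : chartRing O w⁻¹) : F) = algebraMap O F π
      from rfl] at e1
    rw [show ((algebraMap O (chartRing O w) π : chartRing O w) : F) = algebraMap O F π
      from rfl] at e0 ⊢
    have hwm : w ^ m * w⁻¹ ^ m = 1 := by rw [← mul_pow, mul_inv_cancel₀ hw, one_pow]
    have hwB : w ^ B * w⁻¹ ^ B = 1 := by rw [← mul_pow, mul_inv_cancel₀ hw, one_pow]
    rw [pow_add] at e1 ⊢
    linear_combination (w ^ E) * e0 - (w ^ E * w ^ m * w ^ B) * e1 +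
      ((q : F) * w ^ E * (y : F) * w ^ B - w ^ E * (p : F) * w ^ B * w⁻¹ ^ B) * hwm -
      (w ^ E * (p : F)) * hwB
  obtain ⟨z', hz'⟩ := M.chart0.pi_dvd_of_red_eq_zero hm c₀ zz fun j => by
    have h2 := (M.chart0.sheets c₀).red_ser_pi_mul hm j
      (polyVal w (Polynomial.X ^ E) * r0 - polyVal w (Polynomial.X ^ (m + B)) * r10)
    rw [← h1, map_mul, map_mul, mul_eq_zero] at h2
    exact h2.resolve_left (hq j)
  obtain ⟨z0, z1, hz01⟩ := hdec B hB E z'
  refine ⟨x - algebraMap O (chartRing O w) π * z0, mem_poleSpace_iff.mpr ⟨SetLike.coe_mem _, ?_⟩, ?_⟩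
  · have h3 : w⁻¹ ^ B * ((x - algebraMap O (chartRing O w) π * z0 : chartRing O w) : F) =
        ((y + algebraMap O (chartRing O w⁻¹) π * z1 : chartRing O w⁻¹) : F) := by
      have e2 := congrArg (fun z : chartRing O w => (z : F)) hz'
      simp only [zz, y0, MulMemClass.coe_mul, AddSubgroupClass.coe_sub, coe_polyVal, map_pow,
        Polynomial.aeval_X, AddMemClass.coe_add] at e2 ⊢
      rw [show ((algebraMap O (chartRing O w⁻¹) π : chartRing O w⁻¹) : F) = algebraMap O F π
        from rfl]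
      rw [show ((algebraMap O (chartRing O w) π : chartRing O w) : F) = algebraMap O F π
        from rfl] at e2 ⊢
      have hwE : w⁻¹ ^ E * w ^ E = 1 := by rw [← mul_pow, inv_mul_cancel₀ hw, one_pow]
      have hwB : w⁻¹ ^ B * w ^ B = 1 := by rw [← mul_pow, inv_mul_cancel₀ hw, one_pow]
      linear_combination (w⁻¹ ^ B * w⁻¹ ^ E) * e2 + (algebraMap O F π * w⁻¹ ^ B) * hz01 -
        (w⁻¹ ^ B * (x : F) - w⁻¹ ^ B * w ^ B * (y : F)) * hwE +
        ((y : F) + algebraMap O F π * (z1 : F)) * hwB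
    rw [h3]
    exact SetLike.coe_mem _
  · refine ⟨r0 - q * z0, ?_⟩
    linear_combination hr0

include hm M in
theorem pi_ne_zero : algebraMap O (chartRing O w) π ≠ 0 := fun h0 =>
  (IsDiscreteValuationRing.not_a_field O) (hm.trans (Ideal.span_singleton_eq_bot.mpr
    (M.algebraMap_injective ((congrArg Subtype.val h0).trans (map_zero _).symm))))

/-- The reduction map of a sheet. -/
def redSer (c : O) (j : Fin (M.chart0.sheets c).r) :
    chartRing O w →+* (ResidueField O)⟦X⟧ :=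
  red.comp ((M.chart0.sheets c).ser j)

include hm in
/-- If every sheet at `c₀` has kernel `P`, reduction is injective on each sheet. -/
theorem ker_le_of_ker_le (c c' : O) (j : Fin (M.chart0.sheets c).r)
    (j' : Fin (M.chart0.sheets c').r)
    (h : RingHom.ker (M.redSer c j) ≤ RingHom.ker (M.redSer c' j')) :
    RingHom.ker (M.redSer c' j') ≤ RingHom.ker (M.redSer c j) := by
  intro x hx
  by_contra hxP
  haveI : (RingHom.ker (M.redSer c j)).IsPrime := RingHom.ker_isPrime _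
  obtain ⟨u, G, hG, hd⟩ := exists_poly_mem_of_prime (RingHom.ker (M.redSer c j))
    (π := π) (by
      rw [RingHom.mem_ker]
      show red ((M.chart0.sheets c).ser j _) = 0
      rw [Sheets.ser_algebraMap, red_eq_zero_iff hm]) x hxP
  have h1 := RingHom.mem_ker.mp (h hd)
  rw [map_sub, map_mul, RingHom.mem_ker.mp hx, zero_mul, zero_sub, neg_eq_zero] at h1
  exact (M.chart0.sheets c').red_ser_polyVal_ne_zero hm j' hG h1

include hm in
/-- Iteration lifting a solution of a polynomial equation modulo `π` to an exact one. -/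
theorem exists_exact_solution {B₀ : ℕ}
    (hdec : ∀ B, B₀ ≤ B → ∀ (m : ℕ) (r : chartRing O w),
      ∃ (z0 : chartRing O w) (z1 : chartRing O w⁻¹), w⁻¹ ^ m * (r : F) = z0 + w ^ B * z1)
    {B C : ℕ} (hB : B₀ ≤ B) (hBC : B ≤ C) (Φ Φ' : chartRing O w → chartRing O w)
    (Ψ : chartRing O w → chartRing O w → chartRing O w)
    (hΦ : ∀ f d : chartRing O w, Φ (f + d) = Φ f + Φ' f * d + Ψ f d * d ^ 2)
    (hbdd : ∀ f : chartRing O w, (f : F) ∈ poleSpace O w B →
      w⁻¹ ^ C * (Φ f : F) ∈ chartRing O w⁻¹ ∧ w⁻¹ ^ (C - B) * (Φ' f : F) ∈ chartRing O w⁻¹)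
    (f₀ : chartRing O w) (hf₀ : (f₀ : F) ∈ poleSpace O w B)
    (h₀ : algebraMap O (chartRing O w) π ∣ Φ f₀)
    (hne : ∀ f : chartRing O w, algebraMap O (chartRing O w) π ∣ f - f₀ →
      ∀ c j, red ((M.chart0.sheets c).ser j (Φ' f)) ≠ 0)
    (hloc0 : ∀ (k : ℕ), 1 ≤ k → ∀ (f r : chartRing O w),
      algebraMap O (chartRing O w) π ∣ f - f₀ → Φ f = algebraMap O (chartRing O w) π ^ k * r →
      ∀ c j, red ((M.chart0.sheets c).ser j (Φ' f)) ∣ red ((M.chart0.sheets c).ser j r))
    (hloc1 : ∀ (k : ℕ), 1 ≤ k → ∀ (f r : chartRing O w),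
      algebraMap O (chartRing O w) π ∣ f - f₀ → Φ f = algebraMap O (chartRing O w) π ^ k * r →
      ∀ (hf : (f : F) ∈ poleSpace O w B) (q1 r1 : chartRing O w⁻¹),
        (q1 : F) = w⁻¹ ^ (C - B) * (Φ' f : F) → (r1 : F) = w⁻¹ ^ C * (r : F) →
        ∀ c j, red ((M.chart1.sheets c).ser j q1) ∣ red ((M.chart1.sheets c).ser j r1)) :
    ∃ f : chartRing O w, algebraMap O (chartRing O w) π ∣ f - f₀ ∧ Φ f = 0 := by
  classical
  let R := chartRing O w
  let pi : R := algebraMap O R π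
  have step : ∀ (k : ℕ) (f : R), (f : F) ∈ poleSpace O w B ∧ pi ∣ f - f₀ ∧ pi ^ (k + 1) ∣ Φ f →
      ∃ d : R, (d : F) ∈ poleSpace O w B ∧ pi ^ (k + 2) ∣ Φ (f + pi ^ (k + 1) * d) := by
    rintro k f ⟨hfW, hf0, r, hr⟩
    obtain ⟨hb1, hb2⟩ := hbdd f hfW
    have hr1 : w⁻¹ ^ C * (r : F) ∈ chartRing O w⁻¹ := by
      obtain ⟨Er, hEr⟩ := M.exists_pow_mul_mem_inv r
      have hw := M.w_ne_zero
      -- divide `π ^ (k + 1)` away one factor at a time
      suffices h : ∀ (i : ℕ) (x : F), w ^ C * x ∈ chartRing O w →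
          π ^ i • x ∈ chartRing O w⁻¹ → x ∈ chartRing O w⁻¹ by
        refine h (k + 1) _ ?_ ?_
        · rw [← mul_assoc, ← mul_pow, mul_inv_cancel₀ hw, one_pow, one_mul]; exact r.2
        · convert hb1 using 1
          rw [hr, Algebra.smul_def, map_pow]
          simp only [pi, R, MulMemClass.coe_mul, SubmonoidClass.coe_pow]
          rw [show ((algebraMap O (chartRing O w) π : chartRing O w) : F) = algebraMap O F π
            from rfl]
          ring
      intro i
      induction i with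
      | zero => intro x _ hx; simpa using hx
      | succ i ih =>
        intro x hx0 hx
        refine ih x hx0 ?_
        rw [pow_succ', mul_smul] at hx
        refine M.mem_chart1_of_pi_smul hm (C := C) ?_ hx
        rw [mul_smul_comm]
        exact Subalgebra.smul_mem _ hx0 _
    obtain ⟨d, hdW, v, hv⟩ := M.exists_glued_solution hm hdec hB 0 (Φ' f) (-r) (C - B)
      ⟨_, hb2⟩ (-⟨_, hr1⟩) rfl (by
        rw [Nat.sub_add_cancel hBC]; simp) (hne f hf0 0)
      (fun c j => by rw [map_neg, map_neg, dvd_neg]; exact hloc0 (k + 1) (by omega) f r hf0 hr c j)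
      (fun c j => by
        rw [map_neg, map_neg, dvd_neg]
        exact hloc1 (k + 1) (by omega) f r hf0 hr hfW _ _ rfl rfl c j)
    refine ⟨d, hdW, v + Ψ f (pi ^ (k + 1) * d) * d ^ 2 * pi ^ k, ?_⟩
    rw [hΦ, hr]
    linear_combination (pi ^ (k + 1)) * hv
  choose d hdW hd using step
  let seq : ∀ k : ℕ, {f : R // (f : F) ∈ poleSpace O w B ∧ pi ∣ f - f₀ ∧ pi ^ (k + 1) ∣ Φ f} :=
    fun k => Nat.rec ⟨f₀, hf₀, by simp, by simpa using h₀⟩
      (fun k f => ⟨f.1 + pi ^ (k + 1) * d k f.1 f.2, by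
        rw [AddMemClass.coe_add]
        refine add_mem f.2.1 ?_
        have := (poleSpace O w B).smul_mem (π ^ (k + 1)) (hdW k f.1 f.2)
        rw [Algebra.smul_def, map_pow] at this
        simp only [MulMemClass.coe_mul, SubmonoidClass.coe_pow, pi]
        exact this, by
        rw [add_sub_right_comm]
        exact dvd_add f.2.2.1 ((dvd_pow_self _ k.succ_ne_zero).mul_right _), hd k f.1 f.2⟩) k
  obtain ⟨L, hLW, hL⟩ := exists_limit_of_fg hm (M.poleSpace_fg B) (fun k => ((seq k).1 : F))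
    (seq 0).2.1 fun k => ⟨(π • (d k (seq k).1 (seq k).2 : F)),
      Submodule.smul_mem _ _ (hdW k _ _), by
        show (((seq k).1 + pi ^ (k + 1) * d k (seq k).1 (seq k).2 : R) : F) - _ = _
        rw [AddMemClass.coe_add, add_sub_cancel_left, MulMemClass.coe_mul, SubmonoidClass.coe_pow,
          ← mul_smul, ← pow_succ, Algebra.smul_def, map_pow]
        rfl⟩
  let Lr : R := ⟨L, (mem_poleSpace_iff.mp hLW).1⟩
  have hdvd : ∀ k, pi ^ k ∣ Lr - (seq k).1 := by
    intro k
    obtain ⟨e, he, hLe⟩ := hL k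
    refine ⟨⟨e, (mem_poleSpace_iff.mp he).1⟩, Subtype.ext ?_⟩
    rw [AddSubgroupClass.coe_sub, MulMemClass.coe_mul, SubmonoidClass.coe_pow]
    show L - _ = algebraMap O F π ^ k * e
    rw [hLe, Algebra.smul_def, map_pow]
  refine ⟨Lr, ?_, ?_⟩
  · have h1 := hdvd 1
    rw [pow_one] at h1
    have := dvd_add h1 (seq 1).2.2.1
    simpa using this
  · refine M.ser_injective 0 ⟨0, M.chart0.r_pos 0⟩ ?_
    rw [map_zero]
    refine eq_zero_of_forall_C_pow_dvd hm fun k => ?_
    have h1 : pi ^ k ∣ Φ Lr := by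
      obtain ⟨e, he⟩ := hdvd k
      rw [show Lr = (seq k).1 + pi ^ k * e by rw [← he]; ring, hΦ]
      refine dvd_add (dvd_add (dvd_trans (pow_dvd_pow _ k.le_succ) (seq k).2.2.2)
        (Dvd.dvd.mul_left (dvd_mul_right _ _) _)) ?_
      rw [mul_pow]
      exact Dvd.dvd.mul_left (Dvd.dvd.mul_right (dvd_pow_self _ two_ne_zero) _) _
    obtain ⟨e, he⟩ := h1
    rw [he, map_mul, map_pow, Sheets.ser_algebraMap]
    exact dvd_mul_right _ _

end TwoChart

end Fermat.Agent.GalRep.Model
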