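/-
Main results on two-chart models: the special fibre is integral, and roots lift.
-/
import Fermat.Agent.GalRep.Model.Lifting

set_option autoImplicit false

noncomputable section

namespace Fermat.Agent.GalRep.Model

open PowerSeries IsLocalRing Polynomial

variable {O : Type*} [CommRing O] [IsDomain O] [IsDiscreteValuationRing O]
variable {F : Type*} [Field F] [Algebra O F]

theorem red_dvd_of_mul_eq_pow {π : O} (hπ : Irreducible π) {x y r : O⟦X⟧} {k : ℕ} (hk : 1 ≤ k)
    (h : x * y = PowerSeries.C π ^ k * r) (hne : red (x + y) ≠ 0) : red (x + y) ∣ red r := by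
  have hm := hπ.maximalIdeal_eq
  wlog hx : PowerSeries.C π ∣ x generalizing x y
  · have hxy : red (x * y) = 0 := by
      rw [red_eq_zero_iff hm, h]
      exact Dvd.dvd.mul_right (dvd_pow_self _ (by omega)) _
    rw [map_mul, mul_eq_zero, red_eq_zero_iff hm, red_eq_zero_iff hm] at hxy
    rw [add_comm] at hne ⊢
    exact this (by rw [mul_comm, h]) hne (hxy.resolve_left hx)
  have hx0 : red x = 0 := (red_eq_zero_iff hm x).mpr hx
  rw [map_add, hx0, zero_add] at hne ⊢
  have hy : ¬ PowerSeries.C π ∣ y := mt (red_eq_zero_iff hm y).mpr hne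
  obtain ⟨x', hx'⟩ := (C_pi_prime hπ).pow_dvd_of_dvd_mul_right k hy
    (a := x) (by rw [h]; exact dvd_mul_right _ r)
  rw [hx', mul_assoc] at h
  rw [← mul_left_cancel₀ (pow_ne_zero k (C_pi_prime hπ).ne_zero) h, map_mul]
  exact dvd_mul_left _ _

variable [IsAlgClosed (ResidueField O)] [IsAdicComplete (maximalIdeal O) O]

theorem exists_rootOfUnity_lift {n : ℕ} (hn : IsUnit (n : O)) (ζ : ResidueField O)
    (hζ : ζ ^ n = 1) : ∃ z : O, z ^ n = 1 ∧ residue O z = ζ := by
  haveI : HenselianLocalRing O :=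
    { is_henselian := fun f hf a₀ h1 h2 =>
        HenselianRing.is_henselian (I := maximalIdeal O) f hf a₀ h1 (h2.map _) }
  have hn0 : n ≠ 0 := by rintro rfl; simp at hn
  have hζu : ζ ≠ 0 := by rintro rfl; simp [zero_pow hn0] at hζ
  obtain ⟨a, ha⟩ := residue_surjective ζ
  obtain ⟨z, hz, hza⟩ := HenselianLocalRing.is_henselian (Polynomial.X ^ n - 1 : O[X])
    (by have h := Polynomial.monic_X_pow_sub_C (1 : O) hn0; rwa [map_one] at h) a
    (by rw [← residue_eq_zero_iff]; simp [ha, hζ])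
    (by
      rw [Polynomial.derivative_sub, Polynomial.derivative_X_pow, Polynomial.derivative_one,
        sub_zero, Polynomial.eval_mul, Polynomial.eval_C, Polynomial.eval_pow, Polynomial.eval_X]
      refine hn.mul (IsUnit.pow _ ?_)
      rw [← notMem_maximalIdeal, ← residue_eq_zero_iff, ha]
      exact hζu)
  refine ⟨z, sub_eq_zero.mp (by simpa [Polynomial.IsRoot] using hz), ?_⟩
  rw [← ha, ← sub_eq_zero, ← map_sub, residue_eq_zero_iff]
  exact hza

theorem red_dvd_of_pow_eq {π : O} (hπ : Irreducible π) {n : ℕ} (hn : IsUnit (n : O))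
    {x g A r : O⟦X⟧} {k : ℕ} (hk : 1 ≤ k) (hA : g ^ n = A)
    (h : x ^ n - A = PowerSeries.C π ^ k * r) (hne : red ((n : O⟦X⟧) * x ^ (n - 1)) ≠ 0) :
    red ((n : O⟦X⟧) * x ^ (n - 1)) ∣ red r := by
  have hm := hπ.maximalIdeal_eq
  have hn0 : n ≠ 0 := by rintro rfl; simp at hn
  haveI : NeZero (n : ResidueField O) := ⟨by
    intro h0
    rw [← map_natCast (residue O), residue_eq_zero_iff] at h0
    exact h0 hn⟩
  haveI : NeZero n := ⟨hn0⟩
  obtain ⟨ζ₀, hζ₀⟩ := HasEnoughRootsOfUnity.exists_primitiveRoot (ResidueField O) n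
  have hprim := hζ₀.map_of_injective
    (f := (PowerSeries.C : ResidueField O →+* (ResidueField O)⟦X⟧)) PowerSeries.C_injective
  have h0 : red x ^ n - red g ^ n = 0 := by
    rw [← map_pow, ← map_pow, ← map_sub, red_eq_zero_iff hm, hA, h]
    exact Dvd.dvd.mul_right (dvd_pow_self _ (by omega)) _
  rw [hprim.pow_sub_pow_eq_prod_sub_mul _ _ (Nat.pos_of_ne_zero hn0), Finset.prod_eq_zero_iff] at h0
  obtain ⟨μ, hμ, hμ0⟩ := h0
  rw [Polynomial.mem_nthRootsFinset (Nat.pos_of_ne_zero hn0)] at hμ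
  obtain ⟨i, -, hi⟩ := hprim.eq_pow_of_pow_eq_one hμ
  obtain ⟨z, hz, hzr⟩ := exists_rootOfUnity_lift hn (ζ₀ ^ i) (by
    rw [← pow_mul, mul_comm, pow_mul, hζ₀.pow_eq_one, one_pow])
  set g' := PowerSeries.C z * g
  have hg' : g' ^ n = A := by rw [mul_pow, ← map_pow, hz, map_one, one_mul, hA]
  have hxg : red x = red g' := by
    rw [← sub_eq_zero, map_mul, PowerSeries.map_C, hzr, map_pow, hi]
    exact hμ0
  obtain ⟨Sig, hSig, hred⟩ : ∃ Sig : O⟦X⟧, x ^ n - g' ^ n = (x - g') * Sig ∧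
      red Sig = red ((n : O⟦X⟧) * x ^ (n - 1)) := by
    refine ⟨∑ i ∈ Finset.range n, x ^ i * g' ^ (n - 1 - i), ?_, ?_⟩
    · rw [mul_comm]; exact (geom_sum₂_mul x g' n).symm
    · rw [map_sum, map_mul, map_natCast, map_pow]
      simp only [map_mul, map_pow, ← hxg, ← pow_add]
      rw [Finset.sum_congr rfl (fun i hi => by
        rw [Nat.add_sub_cancel' (by have := Finset.mem_range.mp hi; omega)]), Finset.sum_const,
        Finset.card_range, nsmul_eq_mul]
  rw [hg'] at hSig
  rw [← hred] at hne ⊢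
  have hS : ¬ PowerSeries.C π ∣ Sig := mt (red_eq_zero_iff hm _).mpr hne
  obtain ⟨d, hd⟩ := (C_pi_prime hπ).pow_dvd_of_dvd_mul_right k hS
    (a := x - g') (by rw [← hSig, h]; exact dvd_mul_right _ r)
  rw [hSig, hd, mul_assoc] at h
  rw [← mul_left_cancel₀ (pow_ne_zero k (C_pi_prime hπ).ne_zero) h, map_mul]
  exact dvd_mul_left _ _

theorem exists_series_root {n : ℕ} (hn : 0 < n) {A : O⟦X⟧} {g : SeriesField O}
    (h : g ^ n = algebraMap O⟦X⟧ (SeriesField O) A) : ∃ G : O⟦X⟧, G ^ n = A := by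
  have hint : IsIntegral O⟦X⟧ g :=
    ⟨Polynomial.X ^ n - Polynomial.C A, Polynomial.monic_X_pow_sub_C A hn.ne', by simp [h]⟩
  obtain ⟨G, rfl⟩ := IsIntegrallyClosed.isIntegral_iff.mp hint
  rw [← map_pow] at h
  exact ⟨G, IsFractionRing.injective O⟦X⟧ (SeriesField O) h⟩

namespace TwoChart

variable {w : F} (M : TwoChart O w) {π : O} (hπ : Irreducible π)

include M hπ in
/-- The special fibre is integral: reduction is injective on every single sheet. -/
theorem pi_dvd_of_red_ser_eq_zero (c₀ : O) (j₀ : Fin (M.chart0.sheets c₀).r) (f : chartRing O w)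
    (h : red ((M.chart0.sheets c₀).ser j₀ f) = 0) : algebraMap O (chartRing O w) π ∣ f := by
  classical
  have hm := hπ.maximalIdeal_eq
  let R := chartRing O w
  let pi : R := algebraMap O R π
  let ker : Fin (M.chart0.sheets c₀).r → Ideal R := fun j => RingHom.ker (M.redSer c₀ j)
  have hker : ∀ j (x : R), x ∈ ker j ↔ red ((M.chart0.sheets c₀).ser j x) = 0 := fun j x =>
    RingHom.mem_ker
  have hprime : ∀ j, (ker j).IsPrime := fun j => RingHom.ker_isPrime _
  by_cases hall : ∀ j, ker j = ker j₀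
  · refine M.chart0.pi_dvd_of_red_eq_zero hm c₀ f fun j => ?_
    rw [← hker, hall j, hker]
    exact h
  exfalso
  push Not at hall
  obtain ⟨j₁, hj₁⟩ := hall
  let S := Finset.univ.image ker
  have hS : ∀ K ∈ S, K.IsPrime := by
    intro K hK
    obtain ⟨j, -, rfl⟩ := Finset.mem_image.mp hK
    exact hprime j
  have hinc : ∀ K ∈ S, ∀ L ∈ S, K ≠ L → ∃ x ∈ K, x ∉ L := by
    intro K hK L hL hne
    obtain ⟨j, -, rfl⟩ := Finset.mem_image.mp hK
    obtain ⟨j', -, rfl⟩ := Finset.mem_image.mp hL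
    refine SetLike.not_le_iff_exists.mp fun hle => hne ?_
    exact le_antisymm hle (M.ker_le_of_ker_le hm c₀ c₀ j j' hle)
  have hy : ∀ K ∈ S, ∃ y : R, y ∉ K ∧ ∀ L ∈ S, L ≠ K → y ∈ L := by
    intro K hK
    choose x hx hx' using fun L : {L // L ∈ S.erase K} =>
      hinc L.1 (Finset.mem_of_mem_erase L.2) K hK (Finset.ne_of_mem_erase L.2)
    refine ⟨∏ L, x L, fun hmem => ?_, fun L hL hLK => ?_⟩
    · obtain ⟨L, -, hL⟩ := (hS K hK).prod_mem_iff.mp hmem
      exact hx' L hL
    · exact Ideal.prod_mem L (Finset.mem_univ ⟨L, Finset.mem_erase.mpr ⟨hLK, hL⟩⟩)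
        (hx ⟨L, Finset.mem_erase.mpr ⟨hLK, hL⟩⟩)
  choose y hy1 hy2 using hy
  have hjS : ∀ j, ker j ∈ S := fun j => Finset.mem_image_of_mem _ (Finset.mem_univ j)
  let p : R := y _ (hjS j₀)
  let q : R := ∑ K ∈ S.attach, y K.1 K.2
  have hqK : ∀ K ∈ S, q ∉ K := by
    intro K hK hq
    refine hy1 K hK ?_
    have h1 : ∑ L ∈ S.attach.erase ⟨K, hK⟩, y L.1 L.2 ∈ K := sum_mem fun L hL =>
      hy2 _ _ K hK fun hKL => Finset.ne_of_mem_erase hL (Subtype.ext hKL.symm)
    have h2 := Finset.add_sum_erase S.attach (fun L => y L.1 L.2) (Finset.mem_attach S ⟨K, hK⟩)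
    exact (K.add_mem_iff_left h1).mp (by rw [h2]; exact hq)
  have hqp : q - p ∈ ker j₀ := by
    have h2 := Finset.add_sum_erase S.attach (fun L => y L.1 L.2)
      (Finset.mem_attach S ⟨_, hjS j₀⟩)
    show ∑ K ∈ S.attach, y K.1 K.2 - y _ _ ∈ _
    rw [← h2, add_sub_cancel_left]
    exact sum_mem fun L hL =>
      hy2 _ _ _ (hjS j₀) fun hKL => Finset.ne_of_mem_erase hL (Subtype.ext hKL.symm)
  have hq0 : ∀ j, red ((M.chart0.sheets c₀).ser j q) ≠ 0 := fun j h0 =>
    hqK _ (hjS j) ((hker j q).mpr h0)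
  have hpS : ∀ K ∈ S, K ≠ ker j₀ → p ∈ K := fun K hK hne => hy2 _ _ K hK hne
  -- `p (q - p) ≡ 0`
  obtain ⟨v, hv⟩ : pi ∣ p * (q - p) := by
    refine M.chart0.pi_dvd_of_red_eq_zero hm c₀ _ fun j => ?_
    rw [← hker]
    by_cases hj : ker j = ker j₀
    · rw [hj]; exact Ideal.mul_mem_left _ _ hqp
    · exact Ideal.mul_mem_right _ _ (hpS _ (hjS j) hj)
  obtain ⟨B₀, hdec⟩ := M.exists_decomp
  obtain ⟨Eq', hEq⟩ := M.exists_pow_mul_mem_inv q
  obtain ⟨Ep, hEp⟩ := M.exists_pow_mul_mem_inv p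
  obtain ⟨Ev, hEv⟩ := M.exists_pow_mul_mem_inv v
  obtain ⟨m, hmq, hmp, hmv⟩ : ∃ m, Eq' ≤ m ∧ Ep ≤ m + B₀ ∧ Ev ≤ 2 * (m + B₀) :=
    ⟨Eq' + Ep + Ev, by omega, by omega, by omega⟩
  let q1 : chartRing O w⁻¹ := ⟨_, hEq m hmq⟩
  let p1 : chartRing O w⁻¹ := ⟨_, hEp (m + B₀) hmp⟩
  let v1 : chartRing O w⁻¹ := ⟨_, hEv _ hmv⟩
  have hrel1 : p1 * (q1 * polyVal w⁻¹ (Polynomial.X ^ B₀) - p1) =
      algebraMap O (chartRing O w⁻¹) π * v1 := by
    apply Subtype.ext
    have e := congrArg (fun z : R => (z : F)) hv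
    simp only [pi, R, p1, q1, v1, MulMemClass.coe_mul, AddSubgroupClass.coe_sub, coe_polyVal,
      map_pow, Polynomial.aeval_X] at e ⊢
    rw [show ((algebraMap O (chartRing O w⁻¹) π : chartRing O w⁻¹) : F) = algebraMap O F π
      from rfl]
    rw [show ((algebraMap O (chartRing O w) π : chartRing O w) : F) = algebraMap O F π
      from rfl] at e
    have hpow : w⁻¹ ^ (2 * (m + B₀)) = w⁻¹ ^ m * w⁻¹ ^ B₀ * (w⁻¹ ^ m * w⁻¹ ^ B₀) := by ring
    rw [hpow, pow_add]
    linear_combination (w⁻¹ ^ m * w⁻¹ ^ B₀ * (w⁻¹ ^ m * w⁻¹ ^ B₀)) * e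
  obtain ⟨e, heW, he⟩ := M.exists_glued_solution hm hdec le_rfl c₀ q p m q1 p1 rfl rfl hq0
    (fun c j => by
      have h1 := (M.chart0.sheets c).red_ser_pi_mul hm j v
      rw [← hv, map_mul, map_mul, mul_eq_zero, map_sub, map_sub, sub_eq_zero] at h1
      rcases h1 with h1 | h1
      · rw [h1]; exact dvd_zero _
      · rw [h1])
    (fun c j => by
      have h1 := (M.chart1.sheets c).red_ser_pi_mul hm j v1
      rw [← hrel1, map_mul, map_mul, mul_eq_zero, map_sub, map_sub, sub_eq_zero] at h1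
      rcases h1 with h1 | h1
      · rw [h1]; exact dvd_zero _
      · rw [← h1, map_mul, map_mul]; exact dvd_mul_right _ _)
  -- lift the idempotent
  have he2 : pi ∣ e ^ 2 - e := by
    refine M.chart0.pi_dvd_of_red_eq_zero hm c₀ _ fun j => ?_
    have h1 : pi ∣ q ^ 2 * (e ^ 2 - e) := by
      have h2 : q ^ 2 * (e ^ 2 - e) = (q * e - p) * (q * e + p - q) - p * (q - p) := by ring
      rw [h2, hv]
      exact dvd_sub (he.mul_right _) (dvd_mul_right _ _)
    obtain ⟨u, hu⟩ := h1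
    have h3 := (M.chart0.sheets c₀).red_ser_pi_mul hm j u
    rw [← hu, map_mul, map_mul, mul_eq_zero] at h3
    refine h3.resolve_left ?_
    rw [map_pow, map_pow]
    exact pow_ne_zero _ (hq0 j)
  have hsq : ∀ f : R, pi ∣ f - e → ∀ c j, IsUnit (red ((M.chart0.sheets c).ser j (2 * f - 1))) := by
    intro f hf c j
    refine IsUnit.of_mul_eq_one (red ((M.chart0.sheets c).ser j (2 * f - 1))) ?_
    rw [← map_mul, ← map_mul]
    have h1 : pi ∣ (2 * f - 1) * (2 * f - 1) - 1 := by
      rw [show (2 * f - 1) * (2 * f - 1) - 1 = 4 * (e ^ 2 - e) + 4 * (f - e) * (f + e - 1) by ring]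
      exact dvd_add (he2.mul_left _) ((hf.mul_left _).mul_right _)
    rw [M.chart0.red_ser_eq_of_pi_dvd hm c j h1, map_one, map_one]
  obtain ⟨L, hLe, hL⟩ := M.exists_exact_solution hm hdec (B := B₀) (C := 2 * B₀) le_rfl (by omega)
    (fun f => f ^ 2 - f) (fun f => 2 * f - 1) (fun _ _ => 1) (fun f d => by ring)
    (fun f hf => by
      obtain ⟨hf0, hf1⟩ := mem_poleSpace_iff.mp hf
      refine ⟨?_, ?_⟩
      · have e1 : w⁻¹ ^ (2 * B₀) * ((f ^ 2 - f : R) : F) =
            (w⁻¹ ^ B₀ * (f : F)) * (w⁻¹ ^ B₀ * (f : F)) - w⁻¹ ^ B₀ * (w⁻¹ ^ B₀ * (f : F)) := by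
          simp only [AddSubgroupClass.coe_sub, SubmonoidClass.coe_pow, R]; ring
        rw [e1]
        exact sub_mem (mul_mem hf1 hf1) (mul_mem (self_pow_mem_chartRing _ _) hf1)
      · have e1 : w⁻¹ ^ (2 * B₀ - B₀) * ((2 * f - 1 : R) : F) =
            (w⁻¹ ^ B₀ * (f : F)) + (w⁻¹ ^ B₀ * (f : F)) - w⁻¹ ^ B₀ := by
          rw [show 2 * B₀ - B₀ = B₀ by omega]
          simp only [two_mul, AddSubgroupClass.coe_sub, AddMemClass.coe_add, OneMemClass.coe_one, R]
          ring
        rw [e1]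
        exact sub_mem (add_mem hf1 hf1) (self_pow_mem_chartRing _ _))
    e heW he2 (fun f hf c j => (hsq f hf c j).ne_zero)
    (fun k hk f r hf hr c j => (hsq f hf c j).dvd)
    (fun k hk f r hf hr hfW q1' r1 hq1' hr1 c j => by
      let f1 : chartRing O w⁻¹ := ⟨_, (mem_poleSpace_iff.mp hfW).2⟩
      have hx : f1 * (f1 - polyVal w⁻¹ (Polynomial.X ^ B₀)) =
          algebraMap O (chartRing O w⁻¹) π ^ k * r1 := by
        apply Subtype.ext
        have e := congrArg (fun z : R => (z : F)) hr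
        simp only [f1, R, pi, MulMemClass.coe_mul, AddSubgroupClass.coe_sub, coe_polyVal, map_pow,
          Polynomial.aeval_X, SubmonoidClass.coe_pow, hr1] at e ⊢
        rw [show ((algebraMap O (chartRing O w⁻¹) π : chartRing O w⁻¹) : F) = algebraMap O F π
          from rfl]
        rw [show ((algebraMap O (chartRing O w) π : chartRing O w) : F) = algebraMap O F π
          from rfl] at e
        rw [two_mul B₀, pow_add]
        linear_combination (w⁻¹ ^ B₀ * w⁻¹ ^ B₀) * e
      have hq : f1 + (f1 - polyVal w⁻¹ (Polynomial.X ^ B₀)) = q1' := by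
        apply Subtype.ext
        rw [hq1', show 2 * B₀ - B₀ = B₀ by omega]
        simp only [f1, R, two_mul, AddSubgroupClass.coe_sub, AddMemClass.coe_add, coe_polyVal,
          map_pow, Polynomial.aeval_X, OneMemClass.coe_one]
        ring
      have hx' := congrArg ((M.chart1.sheets c).ser j) hx
      rw [map_mul, map_mul, map_pow, Sheets.ser_algebraMap] at hx'
      have hne := M.red_ser1_ne_zero hm c₀ (2 * f - 1)
        (fun j' => (hsq f hf c₀ j').ne_zero) (2 * B₀ - B₀) q1' hq1' c j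
      rw [← hq, map_add] at hne ⊢
      exact red_dvd_of_mul_eq_pow hπ hk hx' hne)
  have hL' : (L : R) * (L - 1) = 0 := by linear_combination hL
  rcases mul_eq_zero.mp hL' with h0 | h0
  · have hpe : p ∈ ker j₀ := by
      rw [hker]
      have h1 : pi ∣ p := by
        have h2 : pi ∣ q * e := by
          rw [h0, zero_sub, dvd_neg] at hLe
          exact hLe.mul_left _
        have := dvd_sub h2 he
        rwa [sub_sub_cancel] at this
      obtain ⟨u, hu⟩ := h1
      rw [hu]
      exact (M.chart0.sheets c₀).red_ser_pi_mul hm j₀ u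
    exact hy1 _ (hjS j₀) hpe
  · rw [sub_eq_zero] at h0
    have h1 : pi ∣ q - p := by
      have h2 : pi ∣ q * (1 - e) := by
        rw [h0] at hLe
        exact hLe.mul_left _
      have := dvd_add h2 he
      rwa [show q * (1 - e) + (q * e - p) = q - p by ring] at this
    refine hqK _ (hjS j₁) ?_
    have h3 : q - p ∈ ker j₁ := by
      obtain ⟨u, hu⟩ := h1
      rw [hker, hu]
      exact (M.chart0.sheets c₀).red_ser_pi_mul hm j₁ u
    exact (Submodule.sub_mem_iff_left _ (hpS _ (hjS j₁) hj₁)).mp h3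

include M hπ in
/-- Lifting of roots: a function congruent to an `n`-th power, and locally an `n`-th power on
every sheet, is an `n`-th power. -/
theorem exists_root {n : ℕ} (hn : IsUnit (n : O)) (a v : chartRing O w)
    (hv : ¬ algebraMap O (chartRing O w) π ∣ v)
    (hav : algebraMap O (chartRing O w) π ∣ a - v ^ n)
    (h0 : ∀ c j, ∃ g : SeriesField O, g ^ n = (M.chart0.sheets c).ι j (a : F))
    (h1 : ∀ c j, ∃ g : SeriesField O, g ^ n = (M.chart1.sheets c).ι j (a : F)) :
    ∃ f : chartRing O w, f ^ n = a := by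
  have hm := hπ.maximalIdeal_eq
  let R := chartRing O w
  have hn0 : 0 < n := Nat.pos_of_ne_zero (by rintro rfl; simp at hn)
  obtain ⟨B₁, hdec⟩ := M.exists_decomp
  obtain ⟨Ev, hEv⟩ := M.exists_pow_mul_mem_inv v
  obtain ⟨Ea, hEa⟩ := M.exists_pow_mul_mem_inv a
  obtain ⟨B, hB, hBv, hBa⟩ : ∃ B, B₁ ≤ B ∧ Ev ≤ B ∧ Ea ≤ n * B :=
    ⟨B₁ + Ev + Ea, by omega, by omega,
      le_trans (Nat.le_add_left Ea (B₁ + Ev)) (Nat.le_mul_of_pos_left _ hn0)⟩
  have hnB : n * B - B = (n - 1) * B := (Nat.sub_one_mul n B).symm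
  have hΨ : ∀ f d : R, ∃ k : R,
      (f + d) ^ n = f ^ n + (n : R) * f ^ (n - 1) * d + k * d ^ 2 := by
    intro f d
    obtain ⟨k, hk⟩ := Polynomial.binomExpansion (Polynomial.X ^ n : R[X]) f d
    exact ⟨k, by simpa [Polynomial.derivative_X_pow] using hk⟩
  choose Ψ hΨ using hΨ
  have hne : ∀ f : R, algebraMap O R π ∣ f - v → ∀ c j,
      red ((M.chart0.sheets c).ser j ((n : R) * f ^ (n - 1))) ≠ 0 := by
    intro f hf c j
    rw [map_mul, map_mul, map_natCast, map_natCast, map_pow, map_pow]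
    refine mul_ne_zero ?_ (pow_ne_zero _ ?_)
    · rw [← map_natCast (PowerSeries.C : ResidueField O →+* _), Ne,
        map_eq_zero_iff _ PowerSeries.C_injective, ← map_natCast (residue O), residue_eq_zero_iff]
      exact fun h => h hn
    · rw [M.chart0.red_ser_eq_of_pi_dvd hm c j hf]
      exact fun h => hv (M.pi_dvd_of_red_ser_eq_zero hπ c j v h)
  obtain ⟨f, -, hf⟩ := M.exists_exact_solution hm hdec (B := B) (C := n * B) hB
    (Nat.le_mul_of_pos_left _ hn0) (fun f => f ^ n - a) (fun f => (n : R) * f ^ (n - 1)) Ψ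
    (fun f d => by rw [hΨ]; ring)
    (fun f hf => by
      obtain ⟨hf0, hf1⟩ := mem_poleSpace_iff.mp hf
      refine ⟨?_, ?_⟩
      · have e1 : w⁻¹ ^ (n * B) * ((f ^ n - a : R) : F) =
            (w⁻¹ ^ B * (f : F)) ^ n - w⁻¹ ^ (n * B) * (a : F) := by
          simp only [AddSubgroupClass.coe_sub, SubmonoidClass.coe_pow, R]
          rw [mul_pow, ← pow_mul, mul_comm B n]; ring
        rw [e1]
        exact sub_mem (pow_mem hf1 n) (hEa _ hBa)
      · rw [hnB]
        have e1 : w⁻¹ ^ ((n - 1) * B) * (((n : R) * f ^ (n - 1) : R) : F) =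
            (n : F) * (w⁻¹ ^ B * (f : F)) ^ (n - 1) := by
          simp only [MulMemClass.coe_mul, SubmonoidClass.coe_pow, R]
          rw [mul_pow, ← pow_mul, mul_comm B (n - 1), show (((n : chartRing O w) : chartRing O w) : F)
            = (n : F) from map_natCast (chartRing O w).val n]
          ring
        rw [e1]
        exact mul_mem (natCast_mem _ n) (pow_mem hf1 _))
    v (mem_poleSpace_iff.mpr ⟨v.2, hEv B hBv⟩) (by rw [← dvd_neg, neg_sub]; exact hav) hne
    (fun k hk f r hf hr c j => by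
      obtain ⟨g, hg⟩ := h0 c j
      obtain ⟨G, hG⟩ := exists_series_root hn0 (hg.trans ((M.chart0.sheets c).algebraMap_ser j a).symm)
      have hr' := congrArg ((M.chart0.sheets c).ser j) hr
      rw [map_sub, map_pow, map_mul, map_pow, Sheets.ser_algebraMap] at hr'
      have h := hne f hf c j
      rw [map_mul ((M.chart0.sheets c).ser j), map_natCast ((M.chart0.sheets c).ser j),
        map_pow ((M.chart0.sheets c).ser j)] at h ⊢
      exact red_dvd_of_pow_eq hπ hn hk hG hr' h)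
    (fun k hk f r hf hr hfW q1 r1 hq1 hr1 c j => by
      let f1 : chartRing O w⁻¹ := ⟨_, (mem_poleSpace_iff.mp hfW).2⟩
      let a1 : chartRing O w⁻¹ := ⟨_, hEa _ hBa⟩
      have hx : f1 ^ n - a1 = algebraMap O (chartRing O w⁻¹) π ^ k * r1 := by
        apply Subtype.ext
        have e := congrArg (fun z : R => (z : F)) hr
        simp only [f1, a1, R, MulMemClass.coe_mul, AddSubgroupClass.coe_sub,
          SubmonoidClass.coe_pow, hr1] at e ⊢
        rw [show ((algebraMap O (chartRing O w⁻¹) π : chartRing O w⁻¹) : F) = algebraMap O F π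
          from rfl]
        rw [show ((algebraMap O (chartRing O w) π : chartRing O w) : F) = algebraMap O F π
          from rfl] at e
        rw [mul_pow, ← pow_mul, mul_comm B n]
        linear_combination (w⁻¹ ^ (n * B)) * e
      have hq : q1 = (n : chartRing O w⁻¹) * f1 ^ (n - 1) := by
        apply Subtype.ext
        rw [hq1, hnB]
        simp only [f1, MulMemClass.coe_mul, SubmonoidClass.coe_pow, R]
        rw [mul_pow, ← pow_mul, mul_comm B (n - 1),
          show (((n : chartRing O w⁻¹)) : F) = (n : F) from map_natCast (chartRing O w⁻¹).val n,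
          show (((n : chartRing O w)) : F) = (n : F) from map_natCast (chartRing O w).val n]
        ring
      obtain ⟨g, hg⟩ := h1 c j
      obtain ⟨G, hG⟩ := exists_series_root hn0
        (A := (M.chart1.sheets c).ser j a1)
        (g := (M.chart1.sheets c).ι j (w⁻¹) ^ B * g) (by
          rw [Sheets.algebraMap_ser, mul_pow, hg, ← pow_mul, ← map_pow, ← map_mul, mul_comm B n])
      have hr' := congrArg ((M.chart1.sheets c).ser j) hx
      rw [map_sub, map_pow, map_mul, map_pow, Sheets.ser_algebraMap] at hr'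
      have h := M.red_ser1_ne_zero hm c _ (hne f hf c) (n * B - B) q1 hq1 c j
      rw [hq, map_mul ((M.chart1.sheets c).ser j), map_natCast ((M.chart1.sheets c).ser j),
        map_pow ((M.chart1.sheets c).ser j)] at h ⊢
      exact red_dvd_of_pow_eq hπ hn hk hG hr' h)
  exact ⟨f, sub_eq_zero.mp hf⟩

end TwoChart

end Fermat.Agent.GalRep.Model
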