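/-
Construction of sheets and of finiteness data from a finite group of automorphisms whose fixed
functions are the rational functions of `w`.
-/
import Fermat.Agent.GalRep.Model.Root

set_option autoImplicit false

noncomputable section

namespace Fermat.Agent.GalRep.Model

open PowerSeries IsLocalRing Polynomial

variable {O : Type*} [CommRing O] [IsDomain O]
variable {F : Type*} [Field F] [Algebra O F]

/-- `P(w) / Q(w)`: every element fixed by `G` has this form. -/
def FixedRational (O : Type*) [CommRing O] {F : Type*} [Field F] [Algebra O F]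
    (G : Type*) [Group G] [MulSemiringAction G F] (w : F) : Prop :=
  ∀ x : F, (∀ σ : G, σ • x = x) →
    ∃ P Q : O[X], Polynomial.aeval w Q ≠ 0 ∧ x * Polynomial.aeval w Q = Polynomial.aeval w P

section Dep

variable {G : Type*} [Group G] [Finite G] [MulSemiringAction G F] [FaithfulSMul G F] {w : F}

/-- More elements than automorphisms are dependent over `O[w]`. -/
theorem exists_dependence (hfix : FixedRational O G w) {ι : Type*} [Fintype ι]
    (hcard : Nat.card G < Fintype.card ι) (v : ι → F) :
    ∃ P : ι → O[X], P ≠ 0 ∧ ∑ x, Polynomial.aeval w (P x) * v x = 0 := by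
  classical
  haveI := Fintype.ofFinite G
  have hli : ¬ LinearIndependent (FixedPoints.subfield G F) v := fun h => by
    have h1 := h.fintype_card_le_finrank
    rw [FixedPoints.finrank_eq_card G F] at h1
    rw [Nat.card_eq_fintype_card] at hcard
    omega
  obtain ⟨g, hg, i₀, hi₀⟩ := Fintype.not_linearIndependent_iff.mp hli
  choose P Q hQ hPQ using fun x => hfix (g x : F) fun σ => (g x).2 σ
  refine ⟨fun x => P x * ∏ y ∈ Finset.univ.erase x, Q y, fun h => ?_, ?_⟩
  · have h1 := congrArg (Polynomial.aeval w) (congrFun h i₀)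
    simp only [map_mul, map_prod, Pi.zero_apply, map_zero, mul_eq_zero] at h1
    rcases h1 with h1 | h1
    · rw [← hPQ, mul_eq_zero] at h1
      exact hi₀ (Subtype.ext (h1.resolve_right (hQ i₀)))
    · exact Finset.prod_ne_zero_iff.mpr (fun y _ => hQ y) h1
  · have h1 : ∀ x, Polynomial.aeval w (P x * ∏ y ∈ Finset.univ.erase x, Q y) * v x =
        (∏ y, Polynomial.aeval w (Q y)) * ((g x : F) * v x) := fun x => by
      rw [map_mul, map_prod, ← hPQ, ← Finset.mul_prod_erase _ _ (Finset.mem_univ x)]
      ring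
    rw [Finset.sum_congr rfl fun x _ => h1 x, ← Finset.mul_sum]
    have h2 : ∑ x, (g x : F) * v x = 0 := hg
    rw [h2, mul_zero]

end Dep

section FG

variable [IsDiscreteValuationRing O]
variable {G : Type*} [Group G] [Finite G] [MulSemiringAction G F] [FaithfulSMul G F]

omit [IsDomain O] [IsDiscreteValuationRing O] in
theorem isIntegral_adjoin_iff (w x : F) :
    IsIntegral (Algebra.adjoin O ({w} : Set F)) x ↔
      ∃ P : O[X][X], P.Monic ∧ P.eval₂ (Polynomial.aeval w).toRingHom x = 0 := by
  constructor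
  · rintro ⟨P, hP, hPx⟩
    let φ : O[X] →+* Algebra.adjoin O ({w} : Set F) :=
      (Polynomial.aeval (R := O)
        (⟨w, Algebra.self_mem_adjoin_singleton O w⟩ : Algebra.adjoin O ({w} : Set F))).toRingHom
    have hcomp : (algebraMap (Algebra.adjoin O ({w} : Set F)) F).comp φ =
        (Polynomial.aeval w).toRingHom := by
      refine Polynomial.ringHom_ext (fun a => ?_) ?_ <;> simp [φ] <;> rfl
    have hφ : Function.Surjective φ := by
      rintro ⟨a, ha⟩
      rw [Algebra.adjoin_singleton_eq_range_aeval] at ha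
      obtain ⟨Q, rfl⟩ := ha
      exact ⟨Q, Subtype.ext (RingHom.congr_fun hcomp Q)⟩
    obtain ⟨Q, hQ, -, hQm⟩ := Polynomial.lifts_and_natDegree_eq_and_monic
      ((Polynomial.mem_lifts P).mpr (Polynomial.map_surjective φ hφ P)) hP
    refine ⟨Q, hQm, ?_⟩
    rwa [← hQ, Polynomial.eval₂_map, hcomp] at hPx
  · rintro ⟨P, hP, hPx⟩
    let φ : O[X] →+* Algebra.adjoin O ({w} : Set F) :=
      (Polynomial.aeval (R := O)
        (⟨w, Algebra.self_mem_adjoin_singleton O w⟩ : Algebra.adjoin O ({w} : Set F))).toRingHom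
    have hcomp : (algebraMap (Algebra.adjoin O ({w} : Set F)) F).comp φ =
        (Polynomial.aeval w).toRingHom := by
      refine Polynomial.ringHom_ext (fun a => ?_) ?_ <;> simp [φ] <;> rfl
    exact ⟨P.map φ, hP.map φ, by rw [Polynomial.eval₂_map, hcomp]; exact hPx⟩

/-- The integral closure of `O[w]` is finite over `O[w]`. -/
theorem fg_chartRing [CharZero F] (w : F) (htr : Function.Injective (Polynomial.aeval (R := O) w))
    (hfix : FixedRational O G w) :
    ∃ (m : ℕ) (h : Fin m → chartRing O w),
      ∀ f : chartRing O w, ∃ Q : Fin m → O[X], f = ∑ i, polyVal w (Q i) * h i := by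
  classical
  haveI := Fintype.ofFinite G
  letI : Algebra O[X] F := (Polynomial.aeval w).toRingHom.toAlgebra
  letI : Algebra (FractionRing O[X]) F :=
    (IsFractionRing.lift (g := (Polynomial.aeval (R := O) w).toRingHom) htr).toAlgebra
  haveI : IsScalarTower O[X] (FractionRing O[X]) F := IsScalarTower.of_algebraMap_eq fun P =>
    (IsFractionRing.lift_algebraMap (g := (Polynomial.aeval (R := O) w).toRingHom) htr P).symm
  haveI : FiniteDimensional (FractionRing O[X]) F := by
    let b := Module.finBasis (FixedPoints.subfield G F) F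
    refine ⟨⟨Finset.univ.image b, ?_⟩⟩
    rw [Finset.coe_image, Finset.coe_univ, Set.image_univ, eq_top_iff]
    rintro x -
    rw [← b.sum_repr x]
    refine Submodule.sum_mem _ fun i _ => ?_
    obtain ⟨P, Q, hQ, hPQ⟩ := hfix (b.repr x i : F) fun σ => (b.repr x i).2 σ
    have hQ' : algebraMap O[X] (FractionRing O[X]) Q ≠ 0 := by
      rw [Ne, map_eq_zero_iff _ (IsFractionRing.injective _ _)]
      exact fun h => hQ (by simp [h])
    have hval : ((b.repr x i : FixedPoints.subfield G F) : F) =
        algebraMap (FractionRing O[X]) F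
          (algebraMap O[X] (FractionRing O[X]) P / algebraMap O[X] (FractionRing O[X]) Q) := by
      rw [map_div₀, ← IsScalarTower.algebraMap_apply, ← IsScalarTower.algebraMap_apply,
        eq_div_iff (by exact hQ)]
      exact hPQ
    rw [show (b.repr x i) • b i = (algebraMap (FractionRing O[X]) F
        (algebraMap O[X] (FractionRing O[X]) P / algebraMap O[X] (FractionRing O[X]) Q)) * b i by
      rw [← hval]; rfl, ← Algebra.smul_def]
    exact Submodule.smul_mem _ _ (Submodule.subset_span ⟨i, rfl⟩)
  haveI : CharZero (FractionRing O[X]) :=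
    (algebraMap (FractionRing O[X]) F).charZero_iff (algebraMap (FractionRing O[X]) F).injective |>.mpr
      inferInstance
  haveI : Algebra.IsSeparable (FractionRing O[X]) F := inferInstance
  haveI := IsIntegralClosure.finite O[X] (FractionRing O[X]) F (integralClosure O[X] F)
  obtain ⟨n, g, hg⟩ := Module.Finite.exists_fin (R := O[X]) (M := integralClosure O[X] F)
  have hmem : ∀ x : F, x ∈ integralClosure O[X] F ↔ x ∈ chartRing O w := fun x => by
    rw [mem_chartRing_iff, isIntegral_adjoin_iff]; rfl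
  refine ⟨n, fun i => ⟨(g i : F), (hmem _).mp (g i).2⟩, fun f => ?_⟩
  obtain ⟨Q, hQ⟩ := (Submodule.mem_span_range_iff_exists_fun O[X]).mp
    (show (⟨(f : F), (hmem _).mpr f.2⟩ : integralClosure O[X] F) ∈
      Submodule.span O[X] (Set.range g) by rw [hg]; trivial)
  refine ⟨Q, Subtype.ext ?_⟩
  have h1 := congrArg (Subtype.val : integralClosure O[X] F → F) hQ
  simp only [AddSubmonoidClass.coe_finsetSum, MulMemClass.coe_mul, coe_polyVal] at h1 ⊢
  rw [← h1]
  exact Finset.sum_congr rfl fun i _ => rfl

end FG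

section Mk

variable [IsDiscreteValuationRing O] {w : F}

/-- Two truncation-separating sheets data give all truncated targets. -/
theorem surj_of_separated (c : O) {r : ℕ} (e : Fin r → ℕ) (he : ∀ j, 0 < e j)
    (S : ∀ j, chartRing O w →+* (ResidueField O)⟦X⟧)
    (hS : ∀ j (a : O), S j (algebraMap O (chartRing O w) a) = PowerSeries.C (residue O a))
    (hsep : ∀ i j, i ≠ j → ∃ f, PowerSeries.constantCoeff (S i f) ≠ PowerSeries.constantCoeff (S j f))
    (hunif : ∀ j, 1 < e j → ∃ z, PowerSeries.constantCoeff (S j z) = 0 ∧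
      PowerSeries.coeff 1 (S j z) ≠ 0)
    (y : (Σ j, Fin (e j)) → ResidueField O) :
    ∃ f, ∀ j (i : Fin (e j)), PowerSeries.coeff (i : ℕ) (S j f) = y ⟨j, i⟩ := by
  classical
  let k := ResidueField O
  have lift : ∀ a : k, ∃ b : chartRing O w, ∀ j, S j b = PowerSeries.C a := fun a => by
    obtain ⟨a, rfl⟩ := residue_surjective a
    exact ⟨_, fun j => hS j a⟩
  choose cst hcst using lift
  -- elements separating constant terms
  have hd : ∀ j, ∃ d, PowerSeries.constantCoeff (S j d) = 1 ∧
      ∀ i, i ≠ j → PowerSeries.constantCoeff (S i d) = 0 := by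
    intro j
    choose f hf using fun i : {i // i ≠ j} => hsep i.1 j i.2
    refine ⟨∏ i, cst (PowerSeries.constantCoeff (S j (f i)) - PowerSeries.constantCoeff (S i.1 (f i)))⁻¹
        * (f i - cst (PowerSeries.constantCoeff (S i.1 (f i)))), ?_, fun i hi => ?_⟩
    · rw [map_prod, map_prod]
      refine Finset.prod_eq_one fun i _ => ?_
      rw [map_mul, map_sub, hcst, hcst, map_mul, map_sub, PowerSeries.constantCoeff_C,
        PowerSeries.constantCoeff_C]
      exact inv_mul_cancel₀ (sub_ne_zero.mpr (Ne.symm (hf i)))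
    · rw [map_prod, map_prod]
      refine Finset.prod_eq_zero (Finset.mem_univ ⟨i, hi⟩) ?_
      rw [map_mul, map_sub, hcst, hcst, map_mul, map_sub, PowerSeries.constantCoeff_C,
        PowerSeries.constantCoeff_C, sub_self, mul_zero]
  choose d hd1 hd0 using hd
  -- improved to full truncation
  let B : ℕ := ∑ j, e j
  have hB : ∀ j, e j ≤ B := fun j => Finset.single_le_sum (fun _ _ => Nat.zero_le _) (Finset.mem_univ j)
  have hXdvd : ∀ f : k⟦X⟧, PowerSeries.constantCoeff f = 0 → (PowerSeries.X : k⟦X⟧) ^ B ∣ f ^ B :=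
    fun f h => pow_dvd_pow_of_dvd (PowerSeries.X_dvd_iff.mpr h) B
  let E : Fin r → chartRing O w := fun j => 1 - (1 - d j ^ B) ^ B
  have hE1 : ∀ j, (PowerSeries.X : k⟦X⟧) ^ e j ∣ S j (E j) - 1 := fun j => by
    refine (pow_dvd_pow _ (hB j)).trans ?_
    simp only [E, map_sub, map_one, map_pow, sub_sub_cancel_left]
    exact dvd_neg.mpr (hXdvd _ (by simp [hd1]))
  have hE0 : ∀ i j, i ≠ j → (PowerSeries.X : k⟦X⟧) ^ e i ∣ S i (E j) := fun i j hij => by
    refine (pow_dvd_pow _ (hB i)).trans ?_
    simp only [E, map_sub, map_one, map_pow]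
    have h1 : S i (d j) ^ B ∣ 1 - (1 - S i (d j) ^ B) ^ B := by
      have := sub_dvd_pow_sub_pow (1 : k⟦X⟧) (1 - S i (d j) ^ B) B
      rwa [sub_sub_cancel, one_pow] at this
    exact (hXdvd _ (hd0 j i hij)).trans h1
  -- targets on a single sheet
  have hQ : ∀ (j : Fin r) (g : k⟦X⟧) (l : ℕ), l ≤ e j →
      ∃ f, (PowerSeries.X : k⟦X⟧) ^ l ∣ g - S j f := by
    intro j g l
    induction l with
    | zero => exact fun _ => ⟨0, by simp⟩
    | succ l ih =>
      intro hl
      obtain ⟨f, u, hu⟩ := ih (by omega)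
      rcases Nat.eq_zero_or_pos l with rfl | hl0
      · refine ⟨f + cst (PowerSeries.constantCoeff u), ?_⟩
        rw [pow_one, PowerSeries.X_dvd_iff, map_add, hcst]
        rw [pow_zero, one_mul] at hu
        simp [← hu]
      · obtain ⟨z, hz0, hz1⟩ := hunif j (by omega)
        obtain ⟨v, hv⟩ := PowerSeries.X_dvd_iff.mpr hz0
        have hv0 : PowerSeries.constantCoeff v ≠ 0 := by
          rw [hv, show (1 : ℕ) = 0 + 1 from rfl, PowerSeries.coeff_succ_X_mul,
            PowerSeries.coeff_zero_eq_constantCoeff] at hz1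
          exact hz1
        refine ⟨f + cst (PowerSeries.constantCoeff u / PowerSeries.constantCoeff v ^ l) * z ^ l, ?_⟩
        have h1 : g - S j (f + cst (PowerSeries.constantCoeff u / PowerSeries.constantCoeff v ^ l) *
            z ^ l) = PowerSeries.X ^ l *
            (u - PowerSeries.C (PowerSeries.constantCoeff u / PowerSeries.constantCoeff v ^ l) * v ^ l) := by
          rw [map_add, map_mul, map_pow, hcst, hv]
          linear_combination hu
        rw [h1, pow_succ]
        refine mul_dvd_mul_left _ (PowerSeries.X_dvd_iff.mpr ?_)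
        simp only [map_sub, map_mul, PowerSeries.constantCoeff_C, map_pow]
        rw [div_mul_cancel₀ _ (pow_ne_zero _ hv0), sub_self]
  choose q hq using fun j => hQ j (PowerSeries.mk fun i => if h : i < e j then y ⟨j, ⟨i, h⟩⟩ else 0)
    (e j) le_rfl
  refine ⟨∑ j, E j * q j, fun i l => ?_⟩
  have h1 : (PowerSeries.X : k⟦X⟧) ^ e i ∣
      PowerSeries.mk (fun m => if h : m < e i then y ⟨i, ⟨m, h⟩⟩ else 0) - S i (∑ j, E j * q j) := by
    rw [map_sum, ← Finset.add_sum_erase _ _ (Finset.mem_univ i), sub_add_eq_sub_sub]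
    refine dvd_sub ?_ (Finset.dvd_sum fun j hj => ?_)
    · have := dvd_sub (hq i) ((hE1 i).mul_right (S i (q i)))
      convert this using 1
      rw [map_mul]; ring
    · rw [map_mul]
      exact (hE0 i j (Finset.ne_of_mem_erase hj).symm).mul_right _
  have h2 := PowerSeries.X_pow_dvd_iff.mp h1 l l.2
  rw [map_sub, PowerSeries.coeff_mk, dif_pos l.2, sub_eq_zero] at h2
  exact h2.symm

/-- Data from which sheets are built. -/
structure SheetData (w : F) (c : O) where
  r : ℕ
  e : Fin r → ℕ
  e_pos : ∀ j, 0 < e j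
  r_pos : 0 < r
  unit : Fin r → (O⟦X⟧)ˣ
  ι : Fin r → F →+* SeriesField O
  ι_O : ∀ j a, ι j (algebraMap O F a) = algebraMap O⟦X⟧ (SeriesField O) (PowerSeries.C a)
  ι_w : ∀ j, ι j w = algebraMap O⟦X⟧ (SeriesField O)
    (PowerSeries.C c + PowerSeries.X ^ e j * (unit j : O⟦X⟧))
  sep : ∀ i j, i ≠ j → ∃ f ∈ chartRing O w, ∃ g g' : O⟦X⟧,
    ι i f = algebraMap O⟦X⟧ (SeriesField O) g ∧ ι j f = algebraMap O⟦X⟧ (SeriesField O) g' ∧
      residue O (PowerSeries.constantCoeff g) ≠ residue O (PowerSeries.constantCoeff g')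
  unif : ∀ j, 1 < e j → ∃ f ∈ chartRing O w, ∃ g : O⟦X⟧,
    ι j f = algebraMap O⟦X⟧ (SeriesField O) g ∧
      residue O (PowerSeries.constantCoeff g) = 0 ∧ residue O (PowerSeries.coeff 1 g) ≠ 0

theorem ι_aeval_of {c : O} (ι : F →+* SeriesField O)
    (hO : ∀ a, ι (algebraMap O F a) = algebraMap O⟦X⟧ (SeriesField O) (PowerSeries.C a))
    {t : O⟦X⟧} (hw : ι w = algebraMap O⟦X⟧ (SeriesField O) (PowerSeries.C c + t)) (P : O[X]) :
    ι (Polynomial.aeval w P) =
      algebraMap O⟦X⟧ (SeriesField O) (Polynomial.aeval (PowerSeries.C c + t) P) := by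
  induction P using Polynomial.induction_on' with
  | add p q hp hq => simp [map_add, hp, hq]
  | monomial n a =>
    rw [Polynomial.aeval_monomial, Polynomial.aeval_monomial, map_mul, map_mul, map_pow, map_pow,
      hw, hO]
    simp [PowerSeries.algebraMap_apply]

/-- An integral element has integral series. -/
theorem exists_series_of_mem {c : O} (ι : F →+* SeriesField O)
    (hO : ∀ a, ι (algebraMap O F a) = algebraMap O⟦X⟧ (SeriesField O) (PowerSeries.C a))
    {t : O⟦X⟧} (hw : ι w = algebraMap O⟦X⟧ (SeriesField O) (PowerSeries.C c + t))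
    (f : chartRing O w) : ∃ g : O⟦X⟧, algebraMap O⟦X⟧ (SeriesField O) g = ι f := by
  obtain ⟨P, hP, hPf⟩ := (isIntegral_adjoin_iff (O := O) w (f : F)).mp (mem_chartRing_iff.mp f.2)
  let φ : O[X] →+* O⟦X⟧ := (Polynomial.aeval (PowerSeries.C c + t)).toRingHom
  have hcomp : (algebraMap O⟦X⟧ (SeriesField O)).comp φ =
      ι.comp (Polynomial.aeval w).toRingHom :=
    RingHom.ext fun P => (ι_aeval_of ι hO hw P).symm
  have hint : IsIntegral O⟦X⟧ (ι f) := by
    refine ⟨P.map φ, hP.map φ, ?_⟩
    rw [Polynomial.eval₂_map, hcomp, ← Polynomial.hom_eval₂, hPf, map_zero]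
  exact IsIntegrallyClosed.isIntegral_iff.mp hint

/-- Sheets from data and a dependence bound. -/
def SheetData.toSheets {c : O} (D : SheetData w c) {G : Type*} [Group G] [Finite G]
    [MulSemiringAction G F] [FaithfulSMul G F] (hfix : FixedRational O G w)
    (hcard : Nat.card G ≤ ∑ j, D.e j) : Sheets w c where
  r := D.r
  e := D.e
  e_pos := D.e_pos
  unit := D.unit
  ι := D.ι
  ι_O := D.ι_O
  ι_w := D.ι_w
  dep v := exists_dependence hfix (by
    simp only [Fintype.card_option, Fintype.card_sigma, Fintype.card_fin]; omega) v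
  surj z := by
    have hex := fun j (f : chartRing O w) =>
      exists_series_of_mem (D.ι j) (D.ι_O j) (D.ι_w j) f
    choose ser hser using hex
    have hinj := IsFractionRing.injective O⟦X⟧ (SeriesField O)
    let S : Fin D.r → chartRing O w →+* (ResidueField O)⟦X⟧ := fun j => red.comp
      { toFun := ser j
        map_one' := hinj (by rw [hser]; simp)
        map_zero' := hinj (by rw [hser]; simp)
        map_add' := fun a b => hinj (by rw [map_add, hser, hser, hser]; simp)
        map_mul' := fun a b => hinj (by rw [map_mul, hser, hser, hser]; simp) }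
    have hS : ∀ j (f : chartRing O w) g, D.ι j f = algebraMap O⟦X⟧ (SeriesField O) g →
        S j f = red g := fun j f g hg => by
      show red (ser j f) = red g
      exact congrArg red (hinj ((hser j f).trans hg))
    obtain ⟨f, hf⟩ := surj_of_separated c D.e D.e_pos S
      (fun j a => by
        rw [hS j _ (PowerSeries.C a) (D.ι_O j a), PowerSeries.map_C])
      (fun i j hij => by
        obtain ⟨f, hf, g, g', hg, hg', hne⟩ := D.sep i j hij
        refine ⟨⟨f, hf⟩, ?_⟩
        rwa [hS i _ g hg, hS j _ g' hg', ← PowerSeries.coeff_zero_eq_constantCoeff,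
          PowerSeries.coeff_map, PowerSeries.coeff_map, PowerSeries.coeff_zero_eq_constantCoeff])
      (fun j hj => by
        obtain ⟨f, hf, g, hg, h0, h1⟩ := D.unif j hj
        refine ⟨⟨f, hf⟩, ?_, ?_⟩
        · rwa [hS j _ g hg, ← PowerSeries.coeff_zero_eq_constantCoeff, PowerSeries.coeff_map,
            PowerSeries.coeff_zero_eq_constantCoeff]
        · rwa [hS j _ g hg, PowerSeries.coeff_map]) z
    refine ⟨f, f.2, fun j g hg i => ?_⟩
    rw [← hf j i, hS j f g hg, PowerSeries.coeff_map]

end Mk

end Fermat.Agent.GalRep.Model
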