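/-
The field generated by ratios of division differences over a base ring inside `ℂ`, with its
expansions at all cusps.
-/
import Fermat.Agent.GalRep.Model.DivSeries
import Fermat.Agent.GalRep.Model.SheetsMk
import Fermat.Agent.GalRep.ModFun

set_option autoImplicit false

noncomputable section

namespace Fermat.Agent.GalRep.Model

open UpperHalfPlane CongruenceSubgroup Filter Topology
open scoped MatrixGroups Manifold

variable {M : ℕ} [NeZero M]

/-- Arguments of a ratio of two division differences, the denominator nonvanishing. -/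
structure Quad (M : ℕ) where
  u : ℤ × ℤ
  t : ℤ × ℤ
  u' : ℤ × ℤ
  t' : ℤ × ℤ
  hu : NZ M u
  ht : NZ M t
  hu' : NZ M u'
  ht' : NZ M t'
  hne : ¬ PM M u' t'

/-- The right action on arguments. -/
def Quad.mul (q : Quad M) (g : SL(2, ℤ)) : Quad M :=
  ⟨rowMul q.u g, rowMul q.t g, rowMul q.u' g, rowMul q.t' g, nz_rowMul g q.hu, nz_rowMul g q.ht,
    nz_rowMul g q.hu', nz_rowMul g q.ht', fun h => q.hne ((pm_rowMul_iff g).mp h)⟩

theorem Quad.mul_one (q : Quad M) : q.mul 1 = q := by
  simp [Quad.mul, rowMul_one]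

theorem Quad.mul_mul (q : Quad M) (g h : SL(2, ℤ)) : (q.mul g).mul h = q.mul (g * h) := by
  simp [Quad.mul, rowMul_rowMul]

/-- The ratio as a function. -/
def Quad.fn (q : Quad M) (τ : ℍ) : ℂ := wpDiff M q.u q.t τ / wpDiff M q.u' q.t' τ

theorem Quad.fn_smul (q : Quad M) (g : SL(2, ℤ)) (τ : ℍ) :
    q.fn (g • τ) = (q.mul g).fn τ := by
  have hne : ((g 1 0 : ℂ) * τ + g 1 1) ^ 2 ≠ 0 := by
    refine pow_ne_zero _ ?_
    have := UpperHalfPlane.denom_ne_zero (g : GL (Fin 2) ℝ) τ
    simpa [UpperHalfPlane.denom] using this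
  rw [Quad.fn, Quad.fn, wpDiff_smul, wpDiff_smul, mul_div_mul_left _ _ hne]
  rfl

theorem Quad.fn_mul_of_mem (q : Quad M) {γ : SL(2, ℤ)} (hγ : γ ∈ Gamma M) :
    (q.mul γ).fn = q.fn := by
  funext τ
  rw [Quad.fn, Quad.fn, Quad.mul, wpDiff_congr (rowMul_of_mem_Gamma hγ q.u) (rowMul_of_mem_Gamma hγ q.t),
    wpDiff_congr (rowMul_of_mem_Gamma hγ q.u') (rowMul_of_mem_Gamma hγ q.t')]

theorem Quad.mdifferentiable_fn (q : Quad M) : MDifferentiable 𝓘(ℂ) 𝓘(ℂ) q.fn := by
  refine UpperHalfPlane.mdifferentiable_iff.mpr ?_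
  exact (UpperHalfPlane.mdifferentiable_iff.mp (mdifferentiable_wpDiff q.hu q.ht)).div
    (UpperHalfPlane.mdifferentiable_iff.mp (mdifferentiable_wpDiff q.hu' q.ht'))
    fun z _ => wpDiff_ne_zero q.hu' q.ht' q.hne _

theorem Quad.periodic_fn (q : Quad M) (τ : ℍ) : q.fn ((M : ℝ) +ᵥ τ) = q.fn τ := by
  have hT := ModularGroup_T_pow_mem_Gamma M M dvd_rfl
  have h := q.fn_smul (ModularGroup.T ^ (M : ℤ)) τ
  rw [q.fn_mul_of_mem hT, UpperHalfPlane.modular_T_zpow_smul, Int.cast_natCast] at h
  exact h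

variable {O : Type*} [CommRing O] [IsDomain O] (C : Cyc O M)

/-- Series with coefficients in `O`, as complex Laurent series. -/
def Cyc.gC : PowerSeries O →+* LaurentSeries ℂ :=
  (HahnSeries.ofPowerSeries ℤ ℂ).comp (PowerSeries.map C.φ)

omit [NeZero M] [IsDomain O] in
theorem Cyc.gC_injective : Function.Injective C.gC := fun a b h => by
  simp only [Cyc.gC, RingHom.comp_apply] at h
  exact PowerSeries.map_injective C.φ C.inj (HahnSeries.ofPowerSeries_injective h)

/-- The fraction field of series, as complex Laurent series. -/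
def Cyc.toC : SeriesField O →+* LaurentSeries ℂ := IsFractionRing.lift C.gC_injective

omit [NeZero M] in
theorem Cyc.toC_algebraMap (g : PowerSeries O) :
    C.toC (algebraMap (PowerSeries O) (SeriesField O) g) = C.gC g :=
  IsFractionRing.lift_algebraMap C.gC_injective g

omit [NeZero M] [IsDomain O] in
theorem Cyc.gC_X_pow (n : ℕ) : C.gC (PowerSeries.X ^ n) = HahnSeries.single (n : ℤ) 1 := by
  simp [Cyc.gC, HahnSeries.ofPowerSeries_X_pow]

theorem hasQSeries_num {u t : ℤ × ℤ} (hu : NZ M u) (ht : NZ M t) :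
    HasQSeries M (wpDiff M u t) (C.gC (pO C u - pO C t)) := by
  rw [Cyc.gC, RingHom.comp_apply, map_sub, map_pO, map_pO]
  exact hasQSeries_wpDiff hu ht

/-- The series of a ratio at infinity. -/
def qSer (q : Quad M) : SeriesField O :=
  algebraMap (PowerSeries O) (SeriesField O) (pO C q.u - pO C q.t) /
    algebraMap (PowerSeries O) (SeriesField O) (pO C q.u' - pO C q.t')

/-- The order at infinity of a difference. -/
def pOrd (M : ℕ) (u t : ℤ × ℤ) : ℕ := min (absRes M u.1) (absRes M t.1)

theorem den_ne_zero (q : Quad M) : pO C q.u' - pO C q.t' ≠ 0 := by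
  obtain ⟨U, hU⟩ := exists_lead C q.hu' q.ht' q.hne
  rw [hU]
  exact mul_ne_zero (pow_ne_zero _ PowerSeries.X_ne_zero) U.ne_zero

include C in
theorem exists_hasQSeries_fn (q : Quad M) : ∃ f, HasQSeries M q.fn f := by
  have hM := NeZero.pos M
  obtain ⟨U, hU⟩ := exists_lead C q.hu' q.ht' q.hne
  have hn := hasQSeries_num C q.hu q.ht
  have hd := hasQSeries_num C q.hu' q.ht'
  set o := min (absRes M q.u'.1) (absRes M q.t'.1) with ho
  have hcoef : ∀ (g : PowerSeries O), ∀ m < (0 : ℤ), (C.gC g).coeff m = 0 := fun g m hm => by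
    rw [Cyc.gC, RingHom.comp_apply, HahnSeries.ofPowerSeries_apply,
      HahnSeries.embDomain_of_notMem_range]
    rintro ⟨k, hk⟩
    simp at hk
    omega
  obtain ⟨A, hA⟩ := hn.growth hM (m₀ := 0) (hcoef _)
  have hlo : ∀ m < (o : ℤ), (C.gC (pO C q.u' - pO C q.t')).coeff m = 0 := fun m hm => by
    rw [hU, map_mul, C.gC_X_pow, HahnSeries.coeff_single_mul, one_mul]
    exact hcoef _ _ (by omega)
  have hL : (C.gC (pO C q.u' - pO C q.t')).coeff (o : ℤ) ≠ 0 := by
    rw [hU, map_mul, C.gC_X_pow, HahnSeries.coeff_single_mul, one_mul, sub_self, Cyc.gC,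
      RingHom.comp_apply, show (0 : ℤ) = ((0 : ℕ) : ℤ) from rfl,
      HahnSeries.ofPowerSeries_apply_coeff, PowerSeries.coeff_map,
      PowerSeries.coeff_zero_eq_constantCoeff]
    exact fun h => ((PowerSeries.isUnit_constantCoeff (U : PowerSeries O) U.isUnit).map C.φ).ne_zero h
  have hlim := hd.tendsto_div hM hlo
  set L := (C.gC (pO C q.u' - pO C q.t')).coeff (o : ℤ)
  have hev := hlim.norm.eventually (lt_mem_nhds (half_lt_self (norm_pos_iff.mpr hL)))
  refine (exists_hasQSeries hM q.mdifferentiable_fn q.periodic_fn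
    (C := |A| / (‖L‖ / 2)) (B := o) ?_).imp fun _ h => h.1
  filter_upwards [hA, hev] with τ h1 h2
  rw [norm_div, norm_zpow] at h2
  have hq : 0 < ‖qq M τ‖ := norm_pos_iff.mpr (qq_ne_zero M τ)
  rw [lt_div_iff₀ (zpow_pos hq _)] at h2
  rw [Quad.fn, norm_div, zpow_neg]
  rw [zpow_zero, mul_one] at h1
  calc ‖wpDiff M q.u q.t τ‖ / ‖wpDiff M q.u' q.t' τ‖
      ≤ |A| / (‖L‖ / 2 * ‖qq M τ‖ ^ (o : ℤ)) :=
        div_le_div₀ (abs_nonneg _) (h1.trans (le_abs_self A)) (by positivity) h2.le
    _ = _ := by field_simp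

include C in
theorem isModFun_fn (q : Quad M) : IsModFun (Gamma M) q.fn where
  holo := q.mdifferentiable_fn
  invariant γ hγ τ := by rw [q.fn_smul, q.fn_mul_of_mem hγ]
  cusps δ := by
    obtain ⟨f, hf⟩ := exists_hasQSeries_fn C (q.mul δ)
    exact ⟨M, f, NeZero.pos M, hf.congr (.of_forall fun τ => (q.fn_smul δ τ).symm)⟩

/-- The ratio as a modular function. -/
def ratMF (q : Quad M) : modFuns (Gamma M) := ⟨q.fn, isModFun_fn C q⟩

theorem shift_ratMF (q : Quad M) (g : SL(2, ℤ)) :
    shift M g (ratMF C q) = ratMF C (q.mul g) :=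
  Subtype.ext (funext fun τ => q.fn_smul g τ)

theorem serHom_ratMF (q : Quad M) : serHom M (ratMF C q) = C.toC (qSer C q) := by
  have hd0 : C.gC (pO C q.u' - pO C q.t') ≠ 0 :=
    fun h => den_ne_zero C q (C.gC_injective (by rw [h, map_zero]))
  rw [qSer, map_div₀, C.toC_algebraMap, C.toC_algebraMap, eq_div_iff hd0]
  refine (((hasQSeries_serHom (ratMF C q)).mul (hasQSeries_num C q.hu' q.ht')).congr
    (.of_forall fun τ => ?_)).unique (NeZero.pos M) (hasQSeries_num C q.hu q.ht)
  show q.fn τ * wpDiff M q.u' q.t' τ = wpDiff M q.u q.t τ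
  rw [Quad.fn, div_mul_cancel₀ _ (wpDiff_ne_zero q.hu' q.ht' q.hne τ)]

/-! ## The field -/

/-- The field of modular functions of level `M`. -/
def WFld (M : ℕ) [NeZero M] : Type := FractionRing (modFuns (Gamma M))

instance instFieldWFld : Field (WFld M) := inferInstanceAs (Field (FractionRing (modFuns (Gamma M))))

instance instAlgebraWFld : Algebra (modFuns (Gamma M)) (WFld M) :=
  inferInstanceAs (Algebra (modFuns (Gamma M)) (FractionRing (modFuns (Gamma M))))

instance instIsFractionRingWFld : IsFractionRing (modFuns (Gamma M)) (WFld M) :=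
  inferInstanceAs (IsFractionRing (modFuns (Gamma M)) (FractionRing (modFuns (Gamma M))))

/-- Precomposition as an automorphism. -/
def shiftEquiv (g : SL(2, ℤ)) : modFuns (Gamma M) ≃+* modFuns (Gamma M) where
  toFun := shift M g
  invFun := shift M g⁻¹
  left_inv F := by ext τ; simp
  right_inv F := by ext τ; simp
  map_mul' := map_mul _
  map_add' := map_add _

/-- Precomposition on the field. -/
def wShift (g : SL(2, ℤ)) : WFld M ≃+* WFld M :=
  IsFractionRing.ringEquivOfRingEquiv (K := WFld M) (L := WFld M) (shiftEquiv (M := M) g)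

@[simp] theorem wShift_algebraMap (g : SL(2, ℤ)) (f : modFuns (Gamma M)) :
    wShift g (algebraMap _ (WFld M) f) = algebraMap _ (WFld M) (shift M g f) :=
  IsFractionRing.ringEquivOfRingEquiv_algebraMap _ _

theorem wShift_wShift (g h : SL(2, ℤ)) (x : WFld M) :
    wShift g (wShift h x) = wShift (h * g) x := by
  obtain ⟨a, b, -, rfl⟩ := IsFractionRing.div_surjective (A := modFuns (Gamma M)) x
  simp only [map_div₀, wShift_algebraMap, shift_shift]

theorem wShift_one (x : WFld M) : wShift (1 : SL(2, ℤ)) x = x := by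
  obtain ⟨a, b, -, rfl⟩ := IsFractionRing.div_surjective (A := modFuns (Gamma M)) x
  have h1 : ∀ f : modFuns (Gamma M), shift M 1 f = f := fun f => by ext τ; simp
  simp only [map_div₀, wShift_algebraMap, h1]

theorem wShift_of_mem {γ : SL(2, ℤ)} (hγ : γ ∈ Gamma M) (x : WFld M) : wShift γ x = x := by
  obtain ⟨a, b, -, rfl⟩ := IsFractionRing.div_surjective (A := modFuns (Gamma M)) x
  have h1 : ∀ f : modFuns (Gamma M), shift M γ f = f := fun f => by
    ext τ; exact f.2.invariant γ hγ τ
  simp only [map_div₀, wShift_algebraMap, h1]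

/-- The expansion at infinity on the field. -/
def wSer : WFld M →+* LaurentSeries ℂ := IsFractionRing.lift (serHom_injective M)

@[simp] theorem wSer_algebraMap (f : modFuns (Gamma M)) :
    wSer (algebraMap _ (WFld M) f) = serHom M f :=
  IsFractionRing.lift_algebraMap (serHom_injective M) f

/-- The constants of the base. -/
def cstW : O →+* WFld M :=
  ((algebraMap (modFuns (Gamma M)) (WFld M)).comp (algebraMap ℂ (modFuns (Gamma M)))).comp C.φ

/-- A ratio in the field. -/
def ratW (q : Quad M) : WFld M := algebraMap _ (WFld M) (ratMF C q)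

theorem wShift_cstW (g : SL(2, ℤ)) (a : O) : wShift g (cstW C a) = cstW C a := by
  simp only [cstW, RingHom.comp_apply, wShift_algebraMap, AlgHom.commutes]

theorem wShift_ratW (g : SL(2, ℤ)) (q : Quad M) : wShift g (ratW C q) = ratW C (q.mul g) := by
  simp only [ratW, wShift_algebraMap, shift_ratMF]

/-- The subfield generated by the ratios over the base. -/
def lvlField : Subfield (WFld M) :=
  Subfield.closure (Set.range (cstW C) ∪ Set.range (ratW C))

theorem cstW_mem (a : O) : cstW C a ∈ lvlField C := Subfield.subset_closure (Or.inl ⟨a, rfl⟩)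

theorem ratW_mem (q : Quad M) : ratW C q ∈ lvlField C := Subfield.subset_closure (Or.inr ⟨q, rfl⟩)

theorem wShift_mem (g : SL(2, ℤ)) {x : WFld M} (hx : x ∈ lvlField C) :
    wShift g x ∈ lvlField C := by
  have h : lvlField C ≤ (lvlField C).comap (wShift g).toRingHom := by
    rw [lvlField, Subfield.closure_le]
    rintro _ (⟨a, rfl⟩ | ⟨q, rfl⟩)
    · show wShift g (cstW C a) ∈ lvlField C
      rw [wShift_cstW]; exact cstW_mem C a
    · show wShift g (ratW C q) ∈ lvlField C
      rw [wShift_ratW]; exact ratW_mem C _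
  exact h hx

instance instAlgebraLvl : Algebra O (lvlField C) :=
  ((cstW C).codRestrict (lvlField C) (cstW_mem C)).toAlgebra

theorem coe_algebraMap_lvl (a : O) : ((algebraMap O (lvlField C) a : lvlField C) : WFld M) =
    cstW C a := rfl

/-- A ratio in the subfield. -/
def rat (q : Quad M) : lvlField C := ⟨ratW C q, ratW_mem C q⟩

/-- Precomposition on the subfield. -/
def fShift (g : SL(2, ℤ)) : lvlField C ≃+* lvlField C where
  toFun x := ⟨wShift g x.1, wShift_mem C g x.2⟩
  invFun x := ⟨wShift g⁻¹ x.1, wShift_mem C g⁻¹ x.2⟩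
  left_inv x := Subtype.ext (by simp [wShift_wShift, wShift_one])
  right_inv x := Subtype.ext (by simp [wShift_wShift, wShift_one])
  map_mul' x y := Subtype.ext (map_mul (wShift g) x.1 y.1)
  map_add' x y := Subtype.ext (map_add (wShift g) x.1 y.1)

@[simp] theorem coe_fShift (g : SL(2, ℤ)) (x : lvlField C) :
    ((fShift C g x : lvlField C) : WFld M) = wShift g x := rfl

theorem fShift_rat (g : SL(2, ℤ)) (q : Quad M) : fShift C g (rat C q) = rat C (q.mul g) :=
  Subtype.ext (wShift_ratW C g q)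

theorem fShift_algebraMap (g : SL(2, ℤ)) (a : O) :
    fShift C g (algebraMap O (lvlField C) a) = algebraMap O (lvlField C) a :=
  Subtype.ext (wShift_cstW C g a)

theorem fShift_aeval (g : SL(2, ℤ)) (x : lvlField C) (P : Polynomial O) :
    fShift C g (Polynomial.aeval x P) = Polynomial.aeval (fShift C g x) P := by
  induction P using Polynomial.induction_on' with
  | add p q hp hq => simp [map_add, hp, hq]
  | monomial n a => simp [fShift_algebraMap]

theorem fShift_fShift (g h : SL(2, ℤ)) (x : lvlField C) :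
    fShift C g (fShift C h x) = fShift C (h * g) x :=
  Subtype.ext (wShift_wShift g h x.1)

/-- The expansion at infinity of the subfield. -/
theorem wSer_mem_range {x : WFld M} (hx : x ∈ lvlField C) : wSer x ∈ C.toC.fieldRange := by
  have h : lvlField C ≤ C.toC.fieldRange.comap wSer := by
    rw [lvlField, Subfield.closure_le]
    rintro _ (⟨a, rfl⟩ | ⟨q, rfl⟩)
    · refine ⟨algebraMap (PowerSeries O) (SeriesField O) (PowerSeries.C a), ?_⟩
      rw [C.toC_algebraMap, cstW, RingHom.comp_apply, RingHom.comp_apply, wSer_algebraMap,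
        serHom_algebraMap, Cyc.gC, RingHom.comp_apply, PowerSeries.map_C, HahnSeries.ofPowerSeries_C]
    · exact ⟨qSer C q, by rw [ratW, wSer_algebraMap, serHom_ratMF]⟩
  exact h hx

/-- The expansion at infinity. -/
def serF : lvlField C →+* SeriesField O :=
  (RingEquiv.ofBijective C.toC.rangeRestrictField
      ⟨fun _ _ h => C.toC.injective (congrArg Subtype.val h), fun ⟨_, g, hg⟩ =>
        ⟨g, Subtype.ext hg⟩⟩).symm.toRingHom.comp
    ((wSer.comp (lvlField C).subtype).codRestrict C.toC.fieldRange fun x => wSer_mem_range C x.2)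

theorem toC_serF (x : lvlField C) : C.toC (serF C x) = wSer (x : WFld M) := by
  have := RingEquiv.apply_symm_apply (RingEquiv.ofBijective C.toC.rangeRestrictField
      ⟨fun _ _ h => C.toC.injective (congrArg Subtype.val h), fun ⟨_, g, hg⟩ =>
        ⟨g, Subtype.ext hg⟩⟩)
    ((wSer.comp (lvlField C).subtype).codRestrict C.toC.fieldRange
      (fun x => wSer_mem_range C x.2) x)
  exact congrArg Subtype.val this

/-- The expansion at the cusp `δ ∞`. -/
def serAt (δ : SL(2, ℤ)) : lvlField C →+* SeriesField O :=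
  (serF C).comp (fShift C δ).toRingHom

theorem toC_serAt (δ : SL(2, ℤ)) (x : lvlField C) :
    C.toC (serAt C δ x) = wSer (wShift δ (x : WFld M)) :=
  toC_serF C _

theorem serAt_rat (δ : SL(2, ℤ)) (q : Quad M) : serAt C δ (rat C q) = qSer C (q.mul δ) := by
  apply C.toC.injective
  rw [toC_serAt, rat, wShift_ratW, ratW, wSer_algebraMap, serHom_ratMF]

theorem serAt_algebraMap (δ : SL(2, ℤ)) (a : O) : serAt C δ (algebraMap O (lvlField C) a) =
    algebraMap (PowerSeries O) (SeriesField O) (PowerSeries.C a) := by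
  apply C.toC.injective
  rw [toC_serAt, coe_algebraMap_lvl, wShift_cstW, cstW, RingHom.comp_apply, RingHom.comp_apply,
    wSer_algebraMap, serHom_algebraMap, C.toC_algebraMap, Cyc.gC, RingHom.comp_apply,
    PowerSeries.map_C, HahnSeries.ofPowerSeries_C]

theorem serAt_fShift (δ g : SL(2, ℤ)) (x : lvlField C) :
    serAt C δ (fShift C g x) = serAt C (g * δ) x := by
  simp only [serAt, RingHom.comp_apply, RingEquiv.toRingHom_eq_coe, RingEquiv.coe_toRingHom,
    fShift_fShift]

/-- A ratio with nonvanishing numerator has a unit leading term. -/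
theorem exists_qSer_eq (q : Quad M) (h : ¬ PM M q.u q.t) : ∃ U : (PowerSeries O)ˣ,
    qSer C q * algebraMap (PowerSeries O) (SeriesField O) (PowerSeries.X ^ pOrd M q.u' q.t') =
      algebraMap (PowerSeries O) (SeriesField O)
        (PowerSeries.X ^ pOrd M q.u q.t * (U : PowerSeries O)) := by
  obtain ⟨U, hU⟩ := exists_lead C q.hu q.ht h
  obtain ⟨V, hV⟩ := exists_lead C q.hu' q.ht' q.hne
  refine ⟨U * V⁻¹, ?_⟩
  have hd : algebraMap (PowerSeries O) (SeriesField O) (pO C q.u' - pO C q.t') ≠ 0 := by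
    rw [Ne, map_eq_zero_iff _ (IsFractionRing.injective _ _)]
    exact den_ne_zero C q
  rw [qSer, div_mul_eq_mul_div, div_eq_iff hd, ← map_mul, ← map_mul, hU, hV, Units.val_mul]
  congr 1
  have hVV : ((V⁻¹ : (PowerSeries O)ˣ) : PowerSeries O) * V = 1 := Units.inv_mul V
  simp only [pOrd]
  linear_combination -(PowerSeries.X ^ min (absRes M q.u.1) (absRes M q.t.1) *
    PowerSeries.X ^ min (absRes M q.u'.1) (absRes M q.t'.1) * (U : PowerSeries O)) * hVV

end Fermat.Agent.GalRep.Model
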