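/-
The coordinate of level `2` or `3` inside the field of level `M`: values at the cusps, the group of
automorphisms over it, and invariant functions as polynomials in it.
-/
import Fermat.Agent.GalRep.Model.LevelField

set_option autoImplicit false

noncomputable section

namespace Fermat.Agent.GalRep.Model

open UpperHalfPlane CongruenceSubgroup Filter Topology
open scoped MatrixGroups Manifold ModularForm

/-- A level `M = e * m` with `m = 2` or `3`. -/
structure Lev (M : ℕ) where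
  m : ℕ
  e : ℕ
  hm : m = 2 ∨ m = 3
  eq : M = e * m
  five : 5 ≤ M

variable {M : ℕ} (L : Lev M)

/-- The classes of points of order `m` used. -/
def base : Fin 4 → ℤ × ℤ := ![(1, 0), (1, 1), (0, 1), (1, 2)]

/-- The points of order `m` at level `M`. -/
def Lev.V (i : Fin 4) : ℤ × ℤ := ((L.e : ℤ) * (base i).1, (L.e : ℤ) * (base i).2)

/-- The first coordinate of `base i` moved by `δ`. -/
def Lev.z {M : ℕ} (_L : Lev M) (i : Fin 4) (δ : SL(2, ℤ)) : ℤ := (base i).1 * δ 0 0 + (base i).2 * δ 1 0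

/-- `δ ∞` lies over the cusp of index `i`. -/
def Lev.IsCusp (i : Fin 4) (δ : SL(2, ℤ)) : Prop := (L.m : ℤ) ∣ L.z i δ

/-- The indices in use. -/
def Lev.Valid (i : Fin 4) : Prop := i.val < 3 ∨ L.m = 3

theorem Lev.valid0 : L.Valid 0 := Or.inl (by decide)
theorem Lev.valid1 : L.Valid 1 := Or.inl (by decide)
theorem Lev.valid2 : L.Valid 2 := Or.inl (by decide)

theorem Lev.e_pos : 0 < L.e := by
  have := L.eq; have := L.five
  rcases Nat.eq_zero_or_pos L.e with h | h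
  · simp [h] at *; omega
  · exact h

theorem Lev.m_ne_zero : (L.m : ℤ) ≠ 0 := by rcases L.hm with h | h <;> simp [h]

theorem Lev.dvd_e_mul_iff (a : ℤ) : (M : ℤ) ∣ (L.e : ℤ) * a ↔ (L.m : ℤ) ∣ a := by
  rw [show (M : ℤ) = (L.e : ℤ) * L.m by rw [← Nat.cast_mul, ← L.eq]]
  exact mul_dvd_mul_iff_left (by exact_mod_cast L.e_pos.ne')

theorem Lev.nz_V (i : Fin 4) : NZ M (L.V i) := by
  rw [NZ, Lev.V, L.dvd_e_mul_iff, L.dvd_e_mul_iff]
  rcases L.hm with h | h <;> rw [h] <;> fin_cases i <;> simp [base]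

theorem Lev.pm_V_iff (i j : Fin 4) : PM M (L.V i) (L.V j) ↔
    (((L.m : ℤ) ∣ (base i).1 - (base j).1 ∧ (L.m : ℤ) ∣ (base i).2 - (base j).2) ∨
      ((L.m : ℤ) ∣ (base i).1 + (base j).1 ∧ (L.m : ℤ) ∣ (base i).2 + (base j).2)) := by
  simp only [PM, Lev.V, ← mul_sub, ← mul_add, L.dvd_e_mul_iff]

theorem Lev.not_pm {i j : Fin 4} (hi : L.Valid i) (hj : L.Valid j) (h : i ≠ j) :
    ¬ PM M (L.V i) (L.V j) := by
  rw [L.pm_V_iff]
  rcases L.hm with hm | hm <;> simp only [Lev.Valid, hm] at hi hj <;> rw [hm] <;>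
    fin_cases i <;> fin_cases j <;> simp_all [base]

theorem Lev.rowMul_fst (i : Fin 4) (δ : SL(2, ℤ)) :
    (rowMul (L.V i) δ).1 = (L.e : ℤ) * L.z i δ := by
  simp [rowMul, Lev.V, Lev.z]; ring

theorem Lev.zmod_cast_z (i : Fin 4) (δ : SL(2, ℤ)) : ((L.z i δ : ℤ) : ZMod L.m) =
    ((base i).1 : ZMod L.m) * (δ 0 0 : ZMod L.m) + ((base i).2 : ZMod L.m) * (δ 1 0 : ZMod L.m) := by
  simp [Lev.z]

theorem Lev.col_ne_zero (δ : SL(2, ℤ)) :
    ¬ ((δ 0 0 : ZMod L.m) = 0 ∧ (δ 1 0 : ZMod L.m) = 0) := by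
  rintro ⟨h1, h2⟩
  have hdet := congrArg (Int.cast : ℤ → ZMod L.m) δ.det_coe
  rw [Matrix.det_fin_two] at hdet
  push_cast at hdet
  rw [h1, h2, zero_mul, mul_zero, sub_zero] at hdet
  rcases L.hm with hm | hm
  · haveI : Fact (1 < L.m) := ⟨by omega⟩
    exact zero_ne_one hdet
  · haveI : Fact (1 < L.m) := ⟨by omega⟩
    exact zero_ne_one hdet

theorem cusp_table3 : ∀ x y : ZMod 3, ¬ (x = 0 ∧ y = 0) →
    (∃ i : Fin 4, ((base i).1 : ZMod 3) * x + ((base i).2 : ZMod 3) * y = 0) ∧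
      ∀ i j : Fin 4, ((base i).1 : ZMod 3) * x + ((base i).2 : ZMod 3) * y = 0 →
        ((base j).1 : ZMod 3) * x + ((base j).2 : ZMod 3) * y = 0 → i = j := by
  decide

theorem cusp_table2 : ∀ x y : ZMod 2, ¬ (x = 0 ∧ y = 0) →
    (∃ i : Fin 4, i.val < 3 ∧ ((base i).1 : ZMod 2) * x + ((base i).2 : ZMod 2) * y = 0) ∧
      ∀ i j : Fin 4, i.val < 3 → j.val < 3 →
        ((base i).1 : ZMod 2) * x + ((base i).2 : ZMod 2) * y = 0 →
        ((base j).1 : ZMod 2) * x + ((base j).2 : ZMod 2) * y = 0 → i = j := by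
  decide

theorem Lev.isCusp_iff (i : Fin 4) (δ : SL(2, ℤ)) : L.IsCusp i δ ↔
    ((base i).1 : ZMod L.m) * (δ 0 0 : ZMod L.m) + ((base i).2 : ZMod L.m) * (δ 1 0 : ZMod L.m) = 0 := by
  rw [Lev.IsCusp, ← ZMod.intCast_zmod_eq_zero_iff_dvd, L.zmod_cast_z]

theorem Lev.exists_cusp (δ : SL(2, ℤ)) : ∃ i, L.Valid i ∧ L.IsCusp i δ := by
  obtain ⟨m, e, hm, heq, h5⟩ := L
  have h0 := Lev.col_ne_zero ⟨m, e, hm, heq, h5⟩ δ
  simp only [Lev.isCusp_iff, Lev.Valid] at *
  rcases hm with rfl | rfl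
  · obtain ⟨⟨i, hi, h⟩, -⟩ := cusp_table2 _ _ h0
    exact ⟨i, Or.inl hi, h⟩
  · obtain ⟨⟨i, h⟩, -⟩ := cusp_table3 _ _ h0
    exact ⟨i, Or.inr rfl, h⟩

theorem Lev.cusp_unique {i j : Fin 4} (hi : L.Valid i) (hj : L.Valid j) {δ : SL(2, ℤ)}
    (h : L.IsCusp i δ) (h' : L.IsCusp j δ) : i = j := by
  obtain ⟨m, e, hm, heq, h5⟩ := L
  have h0 := Lev.col_ne_zero ⟨m, e, hm, heq, h5⟩ δ
  simp only [Lev.isCusp_iff, Lev.Valid] at *
  rcases hm with rfl | rfl
  · exact (cusp_table2 _ _ h0).2 i j (hi.resolve_right (by decide)) (hj.resolve_right (by decide)) h h'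
  · exact (cusp_table3 _ _ h0).2 i j h h'

/-- A matrix sending `∞` over the cusp `i`. -/
def cuspMat : Fin 4 → SL(2, ℤ) :=
  ![⟨!![0, -1; 1, 0], by simp [Matrix.det_fin_two]⟩, ⟨!![1, 0; -1, 1], by simp [Matrix.det_fin_two]⟩,
    1, ⟨!![1, 0; 1, 1], by simp [Matrix.det_fin_two]⟩]

theorem Lev.isCusp_cuspMat (i : Fin 4) (hi : L.Valid i) : L.IsCusp i (cuspMat i) := by
  unfold Lev.IsCusp Lev.z
  rcases L.hm with h | h <;> simp only [Lev.Valid, h] at hi <;> rw [h] <;>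
    fin_cases i <;> simp_all [base, cuspMat]

/-- Two matrices over the same cusp differ by `Γ(m)`, a translation and a sign. -/
theorem Lev.exists_decomp {i : Fin 4} (hi : L.Valid i) {δ δ' : SL(2, ℤ)} (h : L.IsCusp i δ)
    (h' : L.IsCusp i δ') : ∃ γ ∈ Gamma L.m, ∃ k : ℤ,
      δ' = γ * δ * ModularGroup.T ^ k ∨ δ' = γ * δ * -(ModularGroup.T ^ k) := by
  obtain ⟨m, e, hm, heq, h5⟩ := L
  simp only [Lev.isCusp_iff] at h h'
  set ε := δ⁻¹ * δ' with hε
  have hδ' : δ' = δ * ε := by rw [hε, mul_inv_cancel_left]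
  have h10 : (ε 1 0 : ZMod m) = 0 := by
    -- the moved point has second coordinate a unit
    have hs : ((base i).1 : ZMod m) * (δ 0 1 : ZMod m) + ((base i).2 : ZMod m) * (δ 1 1 : ZMod m) ≠ 0 := by
      intro hs
      have hdet := congrArg (Int.cast : ℤ → ZMod m) δ.det_coe
      rw [Matrix.det_fin_two] at hdet
      push_cast at hdet
      have e1 : ((base i).1 : ZMod m) = 0 := by
        linear_combination (δ 1 1 : ZMod m) * h - (δ 1 0 : ZMod m) * hs -
          ((base i).1 : ZMod m) * hdet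
      have e2 : ((base i).2 : ZMod m) = 0 := by
        linear_combination -(δ 0 1 : ZMod m) * h + (δ 0 0 : ZMod m) * hs -
          ((base i).2 : ZMod m) * hdet
      rcases hm with rfl | rfl <;> fin_cases i <;> simp_all [base]
    rw [hδ'] at h'
    simp only [Matrix.SpecialLinearGroup.coe_mul, Matrix.mul_apply, Fin.sum_univ_two,
      Int.cast_add, Int.cast_mul] at h'
    have h3 : (((base i).1 : ZMod m) * (δ 0 1 : ZMod m) + ((base i).2 : ZMod m) * (δ 1 1 : ZMod m)) *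
        (ε 1 0 : ZMod m) = 0 := by linear_combination h' - (ε 0 0 : ZMod m) * h
    haveI : Fact m.Prime := ⟨by rcases hm with rfl | rfl <;> norm_num⟩
    exact (mul_eq_zero.mp h3).resolve_left hs
  have hdet := congrArg (Int.cast : ℤ → ZMod m) ε.det_coe
  rw [Matrix.det_fin_two] at hdet
  push_cast at hdet
  rw [h10, mul_zero, sub_zero] at hdet
  have hcases : ((ε 0 0 : ZMod m) = 1 ∧ (ε 1 1 : ZMod m) = 1) ∨
      ((ε 0 0 : ZMod m) = -1 ∧ (ε 1 1 : ZMod m) = -1) := by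
    revert hdet
    generalize (ε 0 0 : ZMod m) = a
    generalize (ε 1 1 : ZMod m) = d
    rcases hm with rfl | rfl <;> revert a d <;> decide
  have key : ∀ ρ' : SL(2, ℤ), ε * ρ'⁻¹ ∈ Gamma m → δ * ε * ρ'⁻¹ * δ⁻¹ ∈ Gamma m ∧
      δ' = δ * ε * ρ'⁻¹ * δ⁻¹ * δ * ρ' := fun ρ' hρ' => by
    refine ⟨?_, by rw [hδ']; group⟩
    have := (Gamma_normal m).conj_mem _ hρ' δ
    simpa [mul_assoc] using this
  rcases hcases with ⟨ha, hd⟩ | ⟨ha, hd⟩
  · obtain ⟨h1, h2⟩ := key (ModularGroup.T ^ (ε 0 1)) (by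
      rw [← zpow_neg, Gamma_mem]
      simp [Matrix.SpecialLinearGroup.coe_mul, Matrix.mul_apply, Fin.sum_univ_two,
        ModularGroup.coe_T_zpow, h10, ha, hd])
    exact ⟨_, h1, _, Or.inl h2⟩
  · obtain ⟨h1, h2⟩ := key (-(ModularGroup.T ^ (-(ε 0 1)))) (by
      rw [inv_neg, ← zpow_neg, neg_neg, mul_neg, Gamma_mem]
      simp [Matrix.SpecialLinearGroup.coe_mul, Matrix.mul_apply, Fin.sum_univ_two,
        ModularGroup.coe_T_zpow, h10, ha, hd])
    exact ⟨_, h1, _, Or.inr h2⟩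

theorem Lev.Gamma_le : Gamma M ≤ Gamma L.m := fun γ hγ => by
  obtain ⟨h1, h2, h3, h4⟩ := Gamma_mem.mp hγ
  have hd : L.m ∣ M := ⟨L.e, L.eq.trans (mul_comm _ _)⟩
  refine Gamma_mem.mpr ⟨?_, ?_, ?_, ?_⟩ <;>
    [have := congrArg (ZMod.castHom hd (ZMod L.m)) h1;
     have := congrArg (ZMod.castHom hd (ZMod L.m)) h2;
     have := congrArg (ZMod.castHom hd (ZMod L.m)) h3;
     have := congrArg (ZMod.castHom hd (ZMod L.m)) h4] <;>
    simpa only [map_intCast, map_one, map_zero] using this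

theorem Lev.rowMul_V_pm {γ : SL(2, ℤ)} (hγ : γ ∈ Gamma L.m) (i : Fin 4) :
    PM M (rowMul (L.V i) γ) (L.V i) := by
  obtain ⟨h1, h2, h3, h4⟩ := Gamma_mem.mp hγ
  refine Or.inl ⟨?_, ?_⟩
  · rw [show (rowMul (L.V i) γ).1 - (L.V i).1 = (L.e : ℤ) *
      ((base i).1 * (γ 0 0 - 1) + (base i).2 * γ 1 0) by simp [rowMul, Lev.V]; ring,
      L.dvd_e_mul_iff, ← ZMod.intCast_zmod_eq_zero_iff_dvd]
    simp [h1, h3]
  · rw [show (rowMul (L.V i) γ).2 - (L.V i).2 = (L.e : ℤ) *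
      ((base i).1 * γ 0 1 + (base i).2 * (γ 1 1 - 1)) by simp [rowMul, Lev.V]; ring,
      L.dvd_e_mul_iff, ← ZMod.intCast_zmod_eq_zero_iff_dvd]
    simp [h2, h4]

variable [NeZero M]

theorem Lev.absRes_V (i : Fin 4) (δ : SL(2, ℤ)) [Decidable (L.IsCusp i δ)] :
    absRes M (rowMul (L.V i) δ).1 = if L.IsCusp i δ then 0 else L.e := by
  rw [L.rowMul_fst]
  split_ifs with h
  · exact absRes_eq_zero_iff.mpr ((L.dvd_e_mul_iff _).mpr h)
  · have h2 : 2 * L.e ≤ M := by
      have h' := L.eq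
      rcases L.hm with hm | hm <;> rw [hm] at h' <;> omega
    refine absRes_unique h2 ?_
    rw [show (L.e : ℤ) * L.z i δ - (L.e : ℕ) = (L.e : ℤ) * (L.z i δ - 1) by ring,
      show (L.e : ℤ) * L.z i δ + (L.e : ℕ) = (L.e : ℤ) * (L.z i δ + 1) by ring,
      L.dvd_e_mul_iff, L.dvd_e_mul_iff]
    unfold Lev.IsCusp at h
    rcases L.hm with hm | hm <;> rw [hm] at h ⊢ <;> omega

theorem Lev.pOrd_V (i j : Fin 4) (δ : SL(2, ℤ)) [Decidable (L.IsCusp i δ ∨ L.IsCusp j δ)] :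
    pOrd M (rowMul (L.V i) δ) (rowMul (L.V j) δ) =
      if L.IsCusp i δ ∨ L.IsCusp j δ then 0 else L.e := by
  classical
  rw [pOrd, L.absRes_V i δ, L.absRes_V j δ]
  by_cases hi : L.IsCusp i δ <;> by_cases hj : L.IsCusp j δ <;> simp [hi, hj]

/-- The ratio of two differences of points of order `m`. -/
def Lev.vq (i j k l : Fin 4) (hk : L.Valid k) (hl : L.Valid l) (hkl : k ≠ l) : Quad M :=
  ⟨L.V i, L.V j, L.V k, L.V l, L.nz_V i, L.nz_V j, L.nz_V k, L.nz_V l, L.not_pm hk hl hkl⟩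

/-! ## Constants -/

/-- A function of level `M` bounded at all cusps is constant. -/
theorem eq_const_of_bounded (f : modFuns (Gamma M))
    (h : ∀ δ : SL(2, ℤ), ∀ k < (0 : ℤ), (serHom M (shift M δ f)).coeff k = 0) :
    ∃ c : ℂ, f = algebraMap ℂ (modFuns (Gamma M)) c := by
  haveI : ((Gamma M).map (Matrix.SpecialLinearGroup.mapGL ℝ)).IsArithmetic := inferInstance
  let F : ModularForm ((Gamma M).map (Matrix.SpecialLinearGroup.mapGL ℝ)) 0 :=
    { toFun := (f : ℍ → ℂ)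
      slash_action_eq' := by
        rintro _ ⟨γ, hγ, rfl⟩
        show (f : ℍ → ℂ) ∣[(0 : ℤ)] γ = (f : ℍ → ℂ)
        funext τ
        rw [ModularForm.SL_slash_apply, f.2.invariant γ hγ, neg_zero, zpow_zero, mul_one]
      holo' := f.2.holo
      bdd_at_cusps' := by
        intro c hc
        rw [Subgroup.IsArithmetic.isCusp_iff_isCusp_SL2Z] at hc
        rw [OnePoint.isBoundedAt_iff_forall_SL2Z hc]
        intro g _
        obtain ⟨A, hA⟩ := (hasQSeries_serHom (shift M g f)).growth (NeZero.pos M) (m₀ := 0) (h g)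
        refine Asymptotics.IsBigO.of_bound A ?_
        filter_upwards [hA] with τ hτ
        rw [ModularForm.SL_slash_apply, neg_zero, zpow_zero, mul_one]
        simpa using hτ }
  obtain ⟨c, hc⟩ := ModularForm.eq_const_of_weight_zero F
  exact ⟨c, Subtype.ext hc⟩

variable {O : Type*} [CommRing O] [IsDomain O] (C : Cyc O M)

theorem rat_congr {q q' : Quad M} (h1 : PM M q.u q'.u) (h2 : PM M q.t q'.t) (h3 : PM M q.u' q'.u')
    (h4 : PM M q.t' q'.t') : rat C q = rat C q' := by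
  refine Subtype.ext (congrArg (algebraMap (modFuns (Gamma M)) (WFld M)) (Subtype.ext ?_))
  show q.fn = q'.fn
  funext τ
  rw [Quad.fn, Quad.fn, wpDiff_congr h1 h2, wpDiff_congr h3 h4]

theorem coeff_gC_neg (g : PowerSeries O) {k : ℤ} (hk : k < 0) : (C.gC g).coeff k = 0 := by
  rw [Cyc.gC, RingHom.comp_apply, HahnSeries.ofPowerSeries_apply,
    HahnSeries.embDomain_of_notMem_range]
  rintro ⟨l, hl⟩
  simp at hl
  omega

theorem coeff_gC_zero (g : PowerSeries O) :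
    (C.gC g).coeff 0 = C.φ (PowerSeries.constantCoeff g) := by
  rw [Cyc.gC, RingHom.comp_apply, show (0 : ℤ) = ((0 : ℕ) : ℤ) from rfl,
    HahnSeries.ofPowerSeries_apply_coeff, PowerSeries.coeff_map,
    PowerSeries.coeff_zero_eq_constantCoeff]

/-- A balanced product of two ratios is a constant unit. -/
theorem exists_const_unit (q q' : Quad M) (h : ¬ PM M q.u q.t) (h' : ¬ PM M q'.u q'.t)
    (hbal : ∀ δ : SL(2, ℤ),
      pOrd M (q.mul δ).u (q.mul δ).t + pOrd M (q'.mul δ).u (q'.mul δ).t =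
        pOrd M (q.mul δ).u' (q.mul δ).t' + pOrd M (q'.mul δ).u' (q'.mul δ).t') :
    ∃ κ : Oˣ, rat C q * rat C q' = algebraMap O (lvlField C) κ := by
  have hser : ∀ δ, ∃ U : (PowerSeries O)ˣ, serAt C δ (rat C q * rat C q') =
      algebraMap (PowerSeries O) (SeriesField O) U := by
    intro δ
    obtain ⟨U, hU⟩ := exists_qSer_eq C (q.mul δ) (fun hh => h ((pm_rowMul_iff δ).mp hh))
    obtain ⟨U', hU'⟩ := exists_qSer_eq C (q'.mul δ) (fun hh => h' ((pm_rowMul_iff δ).mp hh))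
    refine ⟨U * U', ?_⟩
    rw [map_mul, serAt_rat, serAt_rat]
    have hX : algebraMap (PowerSeries O) (SeriesField O) (PowerSeries.X ^
        (pOrd M (q.mul δ).u' (q.mul δ).t' + pOrd M (q'.mul δ).u' (q'.mul δ).t')) ≠ 0 := by
      rw [Ne, map_eq_zero_iff _ (IsFractionRing.injective _ _)]
      exact pow_ne_zero _ PowerSeries.X_ne_zero
    refine mul_right_cancel₀ hX ?_
    rw [pow_add, map_mul, mul_mul_mul_comm, hU, hU', ← map_mul, ← map_mul, Units.val_mul,
      ← map_mul]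
    congr 1
    rw [← pow_add, ← hbal δ, pow_add]
    ring
  set f : modFuns (Gamma M) := ratMF C q * ratMF C q' with hf
  have hf' : ((rat C q * rat C q' : lvlField C) : WFld M) = algebraMap _ (WFld M) f := by
    rw [hf, map_mul]; rfl
  have hsh : ∀ δ, serHom M (shift M δ f) = C.toC (serAt C δ (rat C q * rat C q')) := fun δ => by
    rw [toC_serAt, hf', wShift_algebraMap, wSer_algebraMap]
  obtain ⟨c, hc⟩ := eq_const_of_bounded f fun δ k hk => by
    obtain ⟨U, hU⟩ := hser δ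
    rw [hsh, hU, C.toC_algebraMap]
    exact coeff_gC_neg C _ hk
  obtain ⟨U, hU⟩ := hser 1
  have h1 : C.gC (U : PowerSeries O) = HahnSeries.C c := by
    have := hsh 1
    rw [hU, C.toC_algebraMap, hc, AlgHom.commutes, serHom_algebraMap] at this
    exact this.symm
  have hc' : c = C.φ (PowerSeries.constantCoeff (U : PowerSeries O)) := by
    have := congrArg (fun s : LaurentSeries ℂ => s.coeff 0) h1
    simpa [coeff_gC_zero] using this.symm
  refine ⟨(PowerSeries.isUnit_constantCoeff (U : PowerSeries O) U.isUnit).unit, Subtype.ext ?_⟩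
  rw [hf', hc, coe_algebraMap_lvl, hc']
  rfl

/-- The coordinate. -/
def Lev.w : lvlField C := rat C (L.vq 0 1 0 2 L.valid0 L.valid2 (by decide))

theorem Lev.exists_kappa (h3 : L.m = 3) : ∃ κ : Oˣ, L.w C *
    rat C (L.vq 2 3 1 3 L.valid1 (Or.inr h3) (by decide)) = algebraMap O (lvlField C) κ := by
  classical
  have v3 : L.Valid 3 := Or.inr h3
  refine exists_const_unit C _ _ (L.not_pm L.valid0 L.valid1 (by decide))
    (L.not_pm L.valid2 v3 (by decide)) fun δ => ?_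
  obtain ⟨i, hi, hc⟩ := L.exists_cusp δ
  have hiff : ∀ j, L.IsCusp j δ ↔ i = j := fun j =>
    ⟨fun h => L.cusp_unique hi (Or.inr h3) hc h, fun h => h ▸ hc⟩
  simp only [Quad.mul, Lev.vq, L.pOrd_V, hiff]
  fin_cases i <;> simp

/-- The fourth cusp value. -/
def Lev.kappa : O := if h : L.m = 3 then ((L.exists_kappa C h).choose : O) else 0

/-- The value of `w` over the cusp `i`. -/
def Lev.cval : Fin 4 → O := ![1, 0, 0, L.kappa C]

/-- The finite cusps. -/
def Lev.J : Finset (Fin 4) := if L.m = 3 then {0, 2, 3} else {0, 2}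

theorem Lev.mem_J {i : Fin 4} : i ∈ L.J ↔ L.Valid i ∧ i ≠ 1 := by
  unfold Lev.J Lev.Valid
  split_ifs with h <;> fin_cases i <;> simp [h]

theorem Lev.w_sub_one : L.w C - 1 = rat C (L.vq 2 1 0 2 L.valid0 L.valid2 (by decide)) := by
  refine Subtype.ext ?_
  show algebraMap _ (WFld M) (ratMF C _) - 1 = algebraMap _ (WFld M) (ratMF C _)
  rw [← map_one (algebraMap (modFuns (Gamma M)) (WFld M)), ← map_sub]
  congr 1
  refine Subtype.ext (funext fun τ => ?_)
  show wpDiff M (L.V 0) (L.V 1) τ / wpDiff M (L.V 0) (L.V 2) τ - 1 =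
    wpDiff M (L.V 2) (L.V 1) τ / wpDiff M (L.V 0) (L.V 2) τ
  rw [div_sub_one (wpDiff_ne_zero (L.nz_V 0) (L.nz_V 2) (L.not_pm L.valid0 L.valid2 (by decide)) τ)]
  congr 1
  simp only [wpDiff]
  ring

theorem Lev.w_sub_kappa (h3 : L.m = 3) : L.w C - algebraMap O (lvlField C) (L.kappa C) =
    algebraMap O (lvlField C) (L.kappa C) *
      rat C (L.vq 1 2 2 3 L.valid2 (Or.inr h3) (by decide)) := by
  have hk : algebraMap O (lvlField C) (L.kappa C) =
      L.w C * rat C (L.vq 2 3 1 3 L.valid1 (Or.inr h3) (by decide)) := by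
    rw [Lev.kappa, dif_pos h3]
    exact (L.exists_kappa C h3).choose_spec.symm
  rw [hk]
  refine Subtype.ext ?_
  show algebraMap _ (WFld M) (ratMF C _) - algebraMap _ (WFld M) (ratMF C _) *
      algebraMap _ (WFld M) (ratMF C _) = algebraMap _ (WFld M) (ratMF C _) *
      algebraMap _ (WFld M) (ratMF C _) * algebraMap _ (WFld M) (ratMF C _)
  simp only [← map_mul, ← map_sub]
  congr 1
  refine Subtype.ext (funext fun τ => ?_)
  have h13 := wpDiff_ne_zero (L.nz_V 1) (L.nz_V 3) (L.not_pm L.valid1 (Or.inr h3) (by decide)) τ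
  have h02 := wpDiff_ne_zero (L.nz_V 0) (L.nz_V 2) (L.not_pm L.valid0 L.valid2 (by decide)) τ
  have h23 := wpDiff_ne_zero (L.nz_V 2) (L.nz_V 3) (L.not_pm L.valid2 (Or.inr h3) (by decide)) τ
  show wpDiff M (L.V 0) (L.V 1) τ / wpDiff M (L.V 0) (L.V 2) τ -
      wpDiff M (L.V 0) (L.V 1) τ / wpDiff M (L.V 0) (L.V 2) τ *
        (wpDiff M (L.V 2) (L.V 3) τ / wpDiff M (L.V 1) (L.V 3) τ) =
      wpDiff M (L.V 0) (L.V 1) τ / wpDiff M (L.V 0) (L.V 2) τ *
        (wpDiff M (L.V 2) (L.V 3) τ / wpDiff M (L.V 1) (L.V 3) τ) *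
        (wpDiff M (L.V 1) (L.V 2) τ / wpDiff M (L.V 2) (L.V 3) τ)
  field_simp
  simp only [wpDiff]
  ring

/-- The series of `w` at the cusp `∞` of `w`. -/
theorem Lev.serAt_w_pole {δ : SL(2, ℤ)} (h : L.IsCusp 1 δ) : ∃ U : (PowerSeries O)ˣ,
    serAt C δ (L.w C) * algebraMap (PowerSeries O) (SeriesField O) (PowerSeries.X ^ L.e) =
      algebraMap (PowerSeries O) (SeriesField O) U := by
  classical
  obtain ⟨U, hU⟩ := exists_qSer_eq C ((L.vq 0 1 0 2 L.valid0 L.valid2 (by decide)).mul δ)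
    (fun hh => L.not_pm L.valid0 L.valid1 (by decide) ((pm_rowMul_iff δ).mp hh))
  refine ⟨U, ?_⟩
  have h0 : ¬ L.IsCusp 0 δ := fun h0 => absurd (L.cusp_unique L.valid0 L.valid1 h0 h) (by decide)
  have h2 : ¬ L.IsCusp 2 δ := fun h0 => absurd (L.cusp_unique L.valid2 L.valid1 h0 h) (by decide)
  simp only [Quad.mul, Lev.vq, L.pOrd_V, h, h0, h2, or_true, or_self, if_true, if_false, pow_zero,
    one_mul] at hU
  rw [Lev.w, serAt_rat]
  exact hU

/-- The series of `w` at a finite cusp. -/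
theorem Lev.serAt_w_finite {i : Fin 4} (hi : i ∈ L.J) {δ : SL(2, ℤ)} (h : L.IsCusp i δ) :
    ∃ U : (PowerSeries O)ˣ, serAt C δ (L.w C) = algebraMap (PowerSeries O) (SeriesField O)
      (PowerSeries.C (L.cval C i) + PowerSeries.X ^ L.e * (U : PowerSeries O)) := by
  classical
  obtain ⟨hv, h1⟩ := L.mem_J.mp hi
  have hne : ∀ j, L.Valid j → j ≠ i → ¬ L.IsCusp j δ := fun j hj hji hc =>
    hji (L.cusp_unique hj hv hc h)
  have hn : ∀ (a b c d : Fin 4) (hc : L.Valid c) (hd : L.Valid d) (hcd : c ≠ d)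
      (ha : L.Valid a) (hb : L.Valid b) (hab : a ≠ b) (_ : a ≠ i) (_ : b ≠ i) (_ : c = i ∨ d = i),
      ∃ U : (PowerSeries O)ˣ, serAt C δ (rat C (L.vq a b c d hc hd hcd)) =
        algebraMap (PowerSeries O) (SeriesField O) (PowerSeries.X ^ L.e * (U : PowerSeries O)) := by
    intro a b c d hc hd hcd ha hb hab hai hbi hci
    obtain ⟨U, hU⟩ := exists_qSer_eq C ((L.vq a b c d hc hd hcd).mul δ)
      (fun hh => L.not_pm ha hb hab ((pm_rowMul_iff δ).mp hh))
    refine ⟨U, ?_⟩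
    have hor : L.IsCusp c δ ∨ L.IsCusp d δ := by
      rcases hci with rfl | rfl
      · exact Or.inl h
      · exact Or.inr h
    simp only [Quad.mul, Lev.vq, L.pOrd_V, hne a ha hai, hne b hb hbi, hor, or_self, if_true,
      if_false, pow_zero, map_one, mul_one] at hU
    rw [serAt_rat]
    exact hU
  fin_cases i
  · obtain ⟨U, hU⟩ := hn 2 1 0 2 L.valid0 L.valid2 (by decide) L.valid2 L.valid1 (by decide)
      (by decide) (by decide) (Or.inl rfl)
    refine ⟨U, ?_⟩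
    have hw : L.w C = 1 + rat C (L.vq 2 1 0 2 L.valid0 L.valid2 (by decide)) := by
      rw [← L.w_sub_one C]; ring
    rw [hw, map_add, map_one, hU]
    simp [Lev.cval]
  · exact absurd rfl h1
  · obtain ⟨U, hU⟩ := hn 0 1 0 2 L.valid0 L.valid2 (by decide) L.valid0 L.valid1 (by decide)
      (by decide) (by decide) (Or.inr rfl)
    refine ⟨U, ?_⟩
    rw [Lev.w, hU]
    simp [Lev.cval]
  · have h3 : L.m = 3 := hv.resolve_left (by decide)
    obtain ⟨U, hU⟩ := hn 1 2 2 3 L.valid2 (Or.inr h3) (by decide) L.valid1 L.valid2 (by decide)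
      (by decide) (by decide) (Or.inr rfl)
    have hk : IsUnit (L.kappa C) := by rw [Lev.kappa, dif_pos h3]; exact Units.isUnit _
    refine ⟨Units.map (PowerSeries.C : O →+* PowerSeries O).toMonoidHom hk.unit * U, ?_⟩
    have hw : L.w C = algebraMap O (lvlField C) (L.kappa C) + algebraMap O (lvlField C) (L.kappa C) *
        rat C (L.vq 1 2 2 3 L.valid2 (Or.inr h3) (by decide)) := by
      rw [← L.w_sub_kappa C h3]; ring
    rw [hw, map_add, map_mul, hU, serAt_algebraMap, ← map_mul, ← map_add]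
    congr 1
    simp [Lev.cval]
    ring

theorem Lev.isUnit_cval_sub {i j : Fin 4} (hi : i ∈ L.J) (hj : j ∈ L.J) (h : i ≠ j) :
    IsUnit (L.cval C i - L.cval C j) := by
  classical
  have hk : ∀ h3 : L.m = 3, IsUnit (L.kappa C) ∧ IsUnit (L.kappa C - 1) := by
    intro h3
    refine ⟨by rw [Lev.kappa, dif_pos h3]; exact Units.isUnit _, ?_⟩
    obtain ⟨ν, hν⟩ := exists_const_unit C (L.vq 0 3 0 2 L.valid0 L.valid2 (by decide))
      (L.vq 1 2 1 3 L.valid1 (Or.inr h3) (by decide)) (L.not_pm L.valid0 (Or.inr h3) (by decide))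
      (L.not_pm L.valid1 L.valid2 (by decide)) fun δ => by
        obtain ⟨l, hl, hc⟩ := L.exists_cusp δ
        have hiff : ∀ j, L.IsCusp j δ ↔ l = j := fun j =>
          ⟨fun h => L.cusp_unique hl (Or.inr h3) hc h, fun h => h ▸ hc⟩
        simp only [Quad.mul, Lev.vq, L.pOrd_V, hiff]
        fin_cases l <;> simp
    have heq : L.kappa C - 1 = -(ν : O) := by
      have hinj : Function.Injective (algebraMap O (lvlField C)) := fun a b hab => by
        have := congrArg (serAt C 1) hab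
        rw [serAt_algebraMap, serAt_algebraMap] at this
        simpa using congrArg PowerSeries.constantCoeff (IsFractionRing.injective _ _ this)
      apply hinj
      rw [map_sub, map_one, map_neg, ← hν, Lev.kappa, dif_pos h3,
        ← (L.exists_kappa C h3).choose_spec]
      refine Subtype.ext ?_
      show algebraMap _ (WFld M) (ratMF C _) * algebraMap _ (WFld M) (ratMF C _) - 1 =
        -(algebraMap _ (WFld M) (ratMF C _) * algebraMap _ (WFld M) (ratMF C _))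
      simp only [← map_one (algebraMap (modFuns (Gamma M)) (WFld M)), ← map_mul, ← map_sub,
        ← map_neg]
      congr 1
      refine Subtype.ext (funext fun τ => ?_)
      have h13 := wpDiff_ne_zero (L.nz_V 1) (L.nz_V 3) (L.not_pm L.valid1 (Or.inr h3) (by decide)) τ
      have h02 := wpDiff_ne_zero (L.nz_V 0) (L.nz_V 2) (L.not_pm L.valid0 L.valid2 (by decide)) τ
      show wpDiff M (L.V 0) (L.V 1) τ / wpDiff M (L.V 0) (L.V 2) τ *
          (wpDiff M (L.V 2) (L.V 3) τ / wpDiff M (L.V 1) (L.V 3) τ) - 1 =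
          -(wpDiff M (L.V 0) (L.V 3) τ / wpDiff M (L.V 0) (L.V 2) τ *
          (wpDiff M (L.V 1) (L.V 2) τ / wpDiff M (L.V 1) (L.V 3) τ))
      field_simp
      simp only [wpDiff]
      ring
    rw [heq]
    exact ν.isUnit.neg
  obtain ⟨hiv, hi1⟩ := L.mem_J.mp hi
  obtain ⟨hjv, hj1⟩ := L.mem_J.mp hj
  fin_cases i <;> fin_cases j <;>
    simp_all [Lev.cval, Lev.Valid, IsUnit.neg_iff] <;>
    first
      | exact (neg_sub (L.kappa C) 1) ▸ (hk.2).neg
      | skip

theorem Lev.coe_w : (L.w C : WFld M) =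
    algebraMap _ (WFld M) (ratMF C (L.vq 0 1 0 2 L.valid0 L.valid2 (by decide))) := rfl

theorem Lev.w_invariant {γ : SL(2, ℤ)} (hγ : γ ∈ Gamma L.m) : fShift C γ (L.w C) = L.w C := by
  rw [Lev.w, fShift_rat]
  exact rat_congr C (L.rowMul_V_pm hγ 0) (L.rowMul_V_pm hγ 1) (L.rowMul_V_pm hγ 0)
    (L.rowMul_V_pm hγ 2)

end Fermat.Agent.GalRep.Model
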