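/-
Automorphisms over the coordinate `w`: invariant functions are polynomials in `w` away from the
finite cusps, the fixed elements are rational in `w`, and `w` omits exactly the cusp values.
-/
import Fermat.Agent.GalRep.Model.Hauptmodul

set_option autoImplicit false

noncomputable section

namespace Fermat.Agent.GalRep.Model

open UpperHalfPlane CongruenceSubgroup Filter Topology
open scoped MatrixGroups Manifold

variable {M : ℕ} [NeZero M]

/-! ## Series of translates -/

theorem coeff_serHom_shift_T (f : modFuns (Gamma M)) (k n : ℤ) :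
    (serHom M (shift M (ModularGroup.T ^ k) f)).coeff n =
      (serHom M f).coeff n * zetaC M ^ (k * n) := by
  have hM := NeZero.pos M
  set ζ : ℂˣ := Units.mk0 (Complex.exp (2 * Real.pi * Complex.I * k / (1 * M : ℕ)))
    (Complex.exp_ne_zero _) with hζ
  have h := (hasQSeries_serHom f).comp_affine hM 1 1 one_ne_zero one_pos k
    (fun τ => (k : ℝ) +ᵥ τ) (fun τ => by simp [coe_vadd]; ring) ζ rfl
  rw [mul_one] at h
  have h' : HasQSeries M ((shift M (ModularGroup.T ^ k) f : modFuns (Gamma M)) : ℍ → ℂ)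
      (expand 1 one_ne_zero (twist ζ (serHom M f))) :=
    h.congr (.of_forall fun τ => by rw [shift_apply, modular_T_zpow_smul])
  rw [(hasQSeries_serHom _).unique hM h']
  have e := expand_coeff_mul 1 one_ne_zero (twist ζ (serHom M f)) n
  rw [Nat.cast_one, one_mul] at e
  rw [e, twist_coeff, hζ, Units.val_zpow_eq_zpow_val, Units.val_mk0, zetaC,
    ← Complex.exp_int_mul, ← Complex.exp_int_mul]
  congr 2
  push_cast
  ring

theorem shift_neg (g : SL(2, ℤ)) (f : modFuns (Gamma M)) : shift M (-g) f = shift M g f := by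
  ext τ
  rw [shift_apply, shift_apply, ModularGroup.SL_neg_smul]

theorem shift_of_mem {γ : SL(2, ℤ)} (hγ : γ ∈ Gamma M) (f : modFuns (Gamma M)) :
    shift M γ f = f := Subtype.ext (funext fun τ => f.2.invariant γ hγ τ)

variable (L : Lev M)

/-- Invariant under `Γ(m)`. -/
def Lev.Inv (f : modFuns (Gamma M)) : Prop := ∀ γ ∈ Gamma L.m, shift M γ f = f

theorem Lev.coeff_eq_zero_transfer {f : modFuns (Gamma M)} (hf : L.Inv f) {i : Fin 4}
    (hi : L.Valid i) {δ δ' : SL(2, ℤ)} (h : L.IsCusp i δ) (h' : L.IsCusp i δ') {n : ℤ}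
    (h0 : (serHom M (shift M δ f)).coeff n = 0) : (serHom M (shift M δ' f)).coeff n = 0 := by
  obtain ⟨γ, hγ, k, rfl | rfl⟩ := L.exists_decomp hi h h'
  · rw [← shift_shift, ← shift_shift, hf γ hγ, coeff_serHom_shift_T, h0, zero_mul]
  · rw [mul_neg, shift_neg, ← shift_shift, ← shift_shift, hf γ hγ, coeff_serHom_shift_T, h0,
      zero_mul]

variable {O : Type*} [CommRing O] [IsDomain O] (C : Cyc O M)

/-! ## The automorphisms over `w` -/

/-- The action of `Γ(m)`. -/
def Lev.galHom : Gamma L.m →* RingAut (lvlField C) where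
  toFun γ := fShift C (γ : SL(2, ℤ))⁻¹
  map_one' := RingEquiv.ext fun x => Subtype.ext (by
    rw [OneMemClass.coe_one, inv_one, coe_fShift, wShift_one]; rfl)
  map_mul' γ δ := RingEquiv.ext fun x => by
    show fShift C _ x = fShift C _ (fShift C _ x)
    rw [fShift_fShift, Subgroup.coe_mul, mul_inv_rev]

/-- The group of automorphisms over `w`. -/
def Lev.gal : Subgroup (RingAut (lvlField C)) := (L.galHom C).range

theorem fShift_of_mem {γ : SL(2, ℤ)} (hγ : γ ∈ Gamma M) (x : lvlField C) : fShift C γ x = x :=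
  Subtype.ext (wShift_of_mem hγ x.1)

instance Lev.finite_gal : Finite (L.gal C) := by
  classical
  haveI : (Gamma M).Normal := Gamma_normal M
  haveI : Finite (SL(2, ℤ) ⧸ Gamma M) := Subgroup.finite_quotient_of_finiteIndex
  let F : (SL(2, ℤ) ⧸ Gamma M) → RingAut (lvlField C) := fun q => fShift C q.out
  refine Finite.Set.subset (Set.range F) ?_
  rintro _ ⟨γ, rfl⟩
  refine ⟨(((γ : SL(2, ℤ))⁻¹ : SL(2, ℤ)) : SL(2, ℤ) ⧸ Gamma M), RingEquiv.ext fun x => ?_⟩
  obtain ⟨⟨ε, hε⟩, h⟩ := QuotientGroup.mk_out_eq_mul (Gamma M) ((γ : SL(2, ℤ))⁻¹)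
  show fShift C _ x = fShift C _ x
  rw [h, ← fShift_fShift, fShift_of_mem C hε]

/-- An element of the group over `w`. -/
def Lev.galOf {γ : SL(2, ℤ)} (hγ : γ ∈ Gamma L.m) : L.gal C :=
  ⟨L.galHom C ⟨γ⁻¹, inv_mem hγ⟩, ⟨_, rfl⟩⟩

theorem Lev.galOf_smul {γ : SL(2, ℤ)} (hγ : γ ∈ Gamma L.m) (x : lvlField C) :
    (L.galOf C hγ) • x = fShift C γ x := by
  show fShift C ((γ⁻¹)⁻¹) x = _
  rw [inv_inv]

theorem Lev.exists_eq_galOf (σ : L.gal C) : ∃ (γ : SL(2, ℤ)) (hγ : γ ∈ Gamma L.m),
    σ = L.galOf C hγ := by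
  obtain ⟨⟨γ, hγ⟩, hσ⟩ := σ.2
  refine ⟨γ⁻¹, inv_mem hγ, Subtype.ext ?_⟩
  rw [← hσ]
  simp [Lev.galOf]

theorem Lev.smul_w (σ : L.gal C) : σ • L.w C = L.w C := by
  obtain ⟨γ, hγ, rfl⟩ := L.exists_eq_galOf C σ
  rw [L.galOf_smul, L.w_invariant C hγ]

theorem Lev.smul_algebraMap (σ : L.gal C) (a : O) :
    σ • algebraMap O (lvlField C) a = algebraMap O (lvlField C) a := by
  obtain ⟨γ, hγ, rfl⟩ := L.exists_eq_galOf C σ
  rw [L.galOf_smul, fShift_algebraMap]

theorem Lev.smul_aeval (σ : L.gal C) (P : Polynomial O) :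
    σ • Polynomial.aeval (L.w C) P = Polynomial.aeval (L.w C) P := by
  induction P using Polynomial.induction_on' with
  | add p q hp hq => rw [map_add, smul_add, hp, hq]
  | monomial n a => rw [Polynomial.aeval_monomial, smul_mul', smul_pow', L.smul_algebraMap,
      L.smul_w]

/-! ## Holomorphic elements -/

/-- The element is given by a function holomorphic on the upper half plane. -/
def IsHol (x : lvlField C) : Prop :=
  ∃ f : modFuns (Gamma M), algebraMap (modFuns (Gamma M)) (WFld M) f = (x : WFld M)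

/-- The holomorphic elements. -/
def holRing : Subring (lvlField C) where
  carrier := {x | IsHol C x}
  one_mem' := ⟨1, map_one _⟩
  zero_mem' := ⟨0, map_zero _⟩
  mul_mem' := fun ⟨f, hf⟩ ⟨g, hg⟩ => ⟨f * g, by rw [map_mul, hf, hg]; rfl⟩
  add_mem' := fun ⟨f, hf⟩ ⟨g, hg⟩ => ⟨f + g, by rw [map_add, hf, hg]; rfl⟩
  neg_mem' := fun ⟨f, hf⟩ => ⟨-f, by rw [map_neg, hf]; rfl⟩

theorem algebraMap_mem_holRing (a : O) : algebraMap O (lvlField C) a ∈ holRing C :=
  ⟨algebraMap ℂ _ (C.φ a), rfl⟩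

theorem rat_mem_holRing (q : Quad M) : rat C q ∈ holRing C := ⟨ratMF C q, rfl⟩

theorem fShift_mem_holRing (g : SL(2, ℤ)) {x : lvlField C} (hx : x ∈ holRing C) :
    fShift C g x ∈ holRing C := by
  obtain ⟨f, hf⟩ := hx
  exact ⟨shift M g f, by rw [coe_fShift, ← hf, wShift_algebraMap]⟩

theorem aeval_mem_holRing (P : Polynomial O) {x : lvlField C} (hx : x ∈ holRing C) :
    Polynomial.aeval x P ∈ holRing C := by
  induction P using Polynomial.induction_on' with
  | add p q hp hq => rw [map_add]; exact add_mem hp hq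
  | monomial n a =>
    rw [Polynomial.aeval_monomial]
    exact mul_mem (algebraMap_mem_holRing C a) (pow_mem hx n)

/-- Every element is a quotient of holomorphic ones. -/
theorem exists_hol_div (x : lvlField C) :
    ∃ a ∈ holRing C, ∃ b ∈ holRing C, b ≠ 0 ∧ x * b = a := by
  obtain ⟨y, hy, z, hz, hyz⟩ := Subfield.mem_closure_iff.mp x.2
  have hle : ∀ y ∈ Subring.closure (Set.range (cstW C) ∪ Set.range (ratW C)),
      ∃ h : y ∈ lvlField C, (⟨y, h⟩ : lvlField C) ∈ holRing C := by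
    intro y hy
    induction hy using Subring.closure_induction with
    | mem y hy =>
      rcases hy with ⟨a, rfl⟩ | ⟨q, rfl⟩
      · exact ⟨cstW_mem C a, algebraMap_mem_holRing C a⟩
      · exact ⟨ratW_mem C q, rat_mem_holRing C q⟩
    | zero => exact ⟨zero_mem _, zero_mem (holRing C)⟩
    | one => exact ⟨one_mem _, one_mem (holRing C)⟩
    | add a b _ _ ha hb =>
      obtain ⟨ha, ha'⟩ := ha; obtain ⟨hb, hb'⟩ := hb
      exact ⟨add_mem ha hb, add_mem ha' hb'⟩
    | neg a _ ha =>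
      obtain ⟨ha, ha'⟩ := ha
      exact ⟨neg_mem ha, neg_mem ha'⟩
    | mul a b _ _ ha hb =>
      obtain ⟨ha, ha'⟩ := ha; obtain ⟨hb, hb'⟩ := hb
      exact ⟨mul_mem ha hb, mul_mem ha' hb'⟩
  obtain ⟨hyF, hy'⟩ := hle y hy
  obtain ⟨hzF, hz'⟩ := hle z hz
  rcases eq_or_ne z 0 with rfl | hz0
  · refine ⟨0, zero_mem _, 1, one_mem _, one_ne_zero, ?_⟩
    rw [mul_one]
    exact Subtype.ext (by rw [← hyz, div_zero]; rfl)
  · refine ⟨_, hy', _, hz', fun h => hz0 (congrArg Subtype.val h), Subtype.ext ?_⟩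
    show (x : WFld M) * z = y
    rw [← hyz, div_mul_cancel₀ _ hz0]

theorem serHom_shift_eq {x : lvlField C} {f : modFuns (Gamma M)}
    (hf : algebraMap (modFuns (Gamma M)) (WFld M) f = (x : WFld M)) (δ : SL(2, ℤ)) :
    serHom M (shift M δ f) = C.toC (serAt C δ x) := by
  rw [toC_serAt, ← hf, wShift_algebraMap, wSer_algebraMap]

/-- The function `w`. -/
def Lev.wMF : modFuns (Gamma M) := ratMF C (L.vq 0 1 0 2 L.valid0 L.valid2 (by decide))

theorem Lev.algebraMap_wMF :
    algebraMap (modFuns (Gamma M)) (WFld M) (L.wMF C) = (L.w C : WFld M) := rfl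

theorem Lev.inv_wMF : L.Inv (L.wMF C) := fun γ hγ => by
  refine IsFractionRing.injective (modFuns (Gamma M)) (WFld M) ?_
  rw [← wShift_algebraMap, L.algebraMap_wMF, ← coe_fShift, L.w_invariant C hγ]

theorem Lev.inv_of_fixed {x : lvlField C} (hx : ∀ σ : L.gal C, σ • x = x) {f : modFuns (Gamma M)}
    (hf : algebraMap (modFuns (Gamma M)) (WFld M) f = (x : WFld M)) : L.Inv f := fun γ hγ => by
  refine IsFractionRing.injective (modFuns (Gamma M)) (WFld M) ?_
  rw [← wShift_algebraMap, hf, ← coe_fShift, ← L.galOf_smul C hγ, hx]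

/-- Bounded at the finite cusps. -/
def Lev.BddFin (f : modFuns (Gamma M)) : Prop :=
  ∀ i ∈ L.J, ∀ δ, L.IsCusp i δ → ∀ k < (0 : ℤ), (serHom M (shift M δ f)).coeff k = 0

theorem Lev.serHom_wMF_finite {i : Fin 4} (hi : i ∈ L.J) {δ : SL(2, ℤ)} (h : L.IsCusp i δ) :
    ∃ g : PowerSeries O, serHom M (shift M δ (L.wMF C)) = C.gC g := by
  obtain ⟨U, hU⟩ := L.serAt_w_finite C hi h
  exact ⟨_, by rw [serHom_shift_eq C (L.algebraMap_wMF C), hU, C.toC_algebraMap]⟩

theorem coeff_mul_gC {F : LaurentSeries ℂ} (hF : ∀ k < (0 : ℤ), F.coeff k = 0) (g : PowerSeries O)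
    (k : ℤ) (hk : k < 0) : (F * C.gC g).coeff k = 0 := by
  rw [HahnSeries.coeff_mul]
  refine Finset.sum_eq_zero fun ij hij => ?_
  simp only [Finset.mem_antidiagonal, HahnSeries.mem_support] at hij
  by_cases h : ij.1 < 0
  · rw [hF _ h, zero_mul]
  · exact absurd (coeff_gC_neg C g (show ij.2 < 0 by omega)) hij.2.1

/-- Invariant functions bounded at the finite cusps are polynomials in `w`, with coefficients in
any ring containing the coefficients at the pole of `w`. -/
theorem Lev.exists_poly (R : Subring ℂ) (hR : ∀ a : O, C.φ a ∈ R) {f : modFuns (Gamma M)}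
    (hinv : L.Inv f) (hfin : L.BddFin f)
    (hcoef : ∀ k, (serHom M (shift M (cuspMat 1) f)).coeff k ∈ R) :
    ∃ P : Polynomial ℂ, (∀ k, P.coeff k ∈ R) ∧ f = Polynomial.aeval (L.wMF C) P := by
  classical
  set d := cuspMat 1 with hd
  have hd1 : L.IsCusp 1 d := L.isCusp_cuspMat 1 L.valid1
  obtain ⟨U, hU⟩ := L.serAt_w_pole C hd1
  set e := L.e with he
  -- the expansion of `w` at its pole
  have hW : serHom M (shift M d (L.wMF C)) = HahnSeries.single (-(e : ℤ)) 1 * C.gC (U : PowerSeries O) := by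
    have h := congrArg C.toC hU
    rw [map_mul, C.toC_algebraMap, C.toC_algebraMap, ← serHom_shift_eq C (L.algebraMap_wMF C),
      C.gC_X_pow] at h
    rw [← h, mul_left_comm, HahnSeries.single_mul_single, neg_add_cancel, mul_one,
      show HahnSeries.single (0 : ℤ) (1 : ℂ) = 1 from rfl, mul_one]
  have hWpow : ∀ j : ℕ, serHom M (shift M d (L.wMF C)) ^ j =
      HahnSeries.single (-((e * j : ℕ) : ℤ)) 1 * C.gC ((U : PowerSeries O) ^ j) := fun j => by
    rw [hW, mul_pow, ← map_pow C.gC, HahnSeries.single_pow, one_pow]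
    congr 2
    push_cast
    simp [mul_comm]
  -- invariance under the translation by `m`
  have hstep : ∀ {g : modFuns (Gamma M)}, L.Inv g → ∀ k : ℤ,
      (serHom M (shift M d g)).coeff k ≠ 0 → (e : ℤ) ∣ k := by
    intro g hg k hk
    have hmem : d * ModularGroup.T ^ (L.m : ℤ) * d⁻¹ ∈ Gamma L.m :=
      (Gamma_normal L.m).conj_mem _ (ModularGroup_T_pow_mem_Gamma L.m L.m dvd_rfl) d
    have h1 := congrArg (shift M d) (hg _ hmem)
    rw [shift_shift, inv_mul_cancel_right, ← shift_shift] at h1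
    have h2 := coeff_serHom_shift_T (shift M d g) (L.m : ℤ) k
    rw [h1] at h2
    have h3 : zetaC M ^ ((L.m : ℤ) * k) = 1 := mul_left_cancel₀ hk (by rw [← h2, mul_one])
    rw [zetaC, (Complex.isPrimitiveRoot_exp M (NeZero.ne M)).zpow_eq_one_iff_dvd] at h3
    rw [show (M : ℤ) = (L.m : ℤ) * e by rw [he, ← Nat.cast_mul, mul_comm, ← L.eq]] at h3
    exact (mul_dvd_mul_iff_left L.m_ne_zero).mp h3
  suffices key : ∀ B : ℕ, ∀ g : modFuns (Gamma M), L.Inv g → L.BddFin g →
      (∀ k, (serHom M (shift M d g)).coeff k ∈ R) →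
      (∀ k < -((e * B : ℕ) : ℤ), (serHom M (shift M d g)).coeff k = 0) →
      ∃ P : Polynomial ℂ, (∀ k, P.coeff k ∈ R) ∧ g = Polynomial.aeval (L.wMF C) P by
    set o := (serHom M (shift M d f)).order
    refine key (-o).toNat f hinv hfin hcoef fun k hk =>
      HahnSeries.coeff_eq_zero_of_lt_order (lt_of_lt_of_le hk ?_)
    have := L.e_pos
    have : ((-o).toNat : ℤ) ≤ ((e * (-o).toNat : ℕ) : ℤ) := by
      exact_mod_cast Nat.le_mul_of_pos_left _ L.e_pos
    omega
  intro B
  induction B with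
  | zero =>
    intro g hg hgfin hgcoef hg0
    obtain ⟨c, hc⟩ := eq_const_of_bounded g fun δ k hk => by
      obtain ⟨i, hi, hic⟩ := L.exists_cusp δ
      by_cases h1 : i = 1
      · subst h1
        exact L.coeff_eq_zero_transfer hg L.valid1 hd1 hic (hg0 k (by simpa using hk))
      · exact hgfin i (L.mem_J.mpr ⟨hi, h1⟩) δ hic k hk
    refine ⟨Polynomial.C c, fun k => ?_, by rw [Polynomial.aeval_C, hc]⟩
    have hcR := hgcoef 0
    rw [hc, AlgHom.commutes, serHom_algebraMap] at hcR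
    rw [Polynomial.coeff_C]
    split_ifs
    · simpa using hcR
    · exact zero_mem R
  | succ B ih =>
    intro g hg hgfin hgcoef hg0
    set a := (serHom M (shift M d g)).coeff (-((e * (B + 1) : ℕ) : ℤ)) with ha
    set u : O := (PowerSeries.isUnit_constantCoeff (U : PowerSeries O) U.isUnit).unit⁻¹.val with hu
    set b : ℂ := a * C.φ u ^ (B + 1) with hb
    have hbR : b ∈ R := mul_mem (hgcoef _) (pow_mem (hR u) _)
    set g' := g - algebraMap ℂ _ b * L.wMF C ^ (B + 1) with hg'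
    have hser : serHom M (shift M d g') = serHom M (shift M d g) -
        HahnSeries.single (-((e * (B + 1) : ℕ) : ℤ)) b * C.gC ((U : PowerSeries O) ^ (B + 1)) := by
      rw [hg', map_sub, map_sub, map_mul, map_mul, AlgHom.commutes, serHom_algebraMap, map_pow,
        map_pow, hWpow, ← mul_assoc, HahnSeries.C_apply, HahnSeries.single_mul_single, zero_add,
        mul_one]
    have hcoef' : ∀ k, (serHom M (shift M d g')).coeff k =
        (serHom M (shift M d g)).coeff k -
          b * (C.gC ((U : PowerSeries O) ^ (B + 1))).coeff (k + ((e * (B + 1) : ℕ) : ℤ)) := fun k => by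
      rw [hser, HahnSeries.coeff_sub, HahnSeries.coeff_single_mul]
      ring_nf
    have hinv' : L.Inv g' := fun γ hγ => by
      rw [hg', map_sub, map_mul, map_pow, AlgHom.commutes, hg γ hγ, L.inv_wMF C γ hγ]
    obtain ⟨P, hP, hPg⟩ := ih g' hinv' (fun i hi δ hδ k hk => by
        obtain ⟨w0, hw0⟩ := L.serHom_wMF_finite C hi hδ
        rw [hg', map_sub, map_sub, HahnSeries.coeff_sub, hgfin i hi δ hδ k hk, map_mul, map_mul,
          AlgHom.commutes, serHom_algebraMap, map_pow, map_pow, hw0, ← map_pow,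
          HahnSeries.C_apply, HahnSeries.coeff_single_zero_mul, coeff_gC_neg C _ hk, mul_zero,
          sub_zero])
      (fun k => by
        rw [hcoef']
        refine sub_mem (hgcoef k) (mul_mem hbR ?_)
        rcases le_or_gt 0 (k + ((e * (B + 1) : ℕ) : ℤ)) with h | h
        · obtain ⟨l, hl⟩ := Int.eq_ofNat_of_zero_le h
          rw [hl, Cyc.gC, RingHom.comp_apply, HahnSeries.ofPowerSeries_apply_coeff,
            PowerSeries.coeff_map]
          exact hR _
        · rw [coeff_gC_neg C _ h]; exact zero_mem R)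
      (fun k hk => by
        rw [hcoef']
        rcases lt_trichotomy k (-((e * (B + 1) : ℕ) : ℤ)) with h | h | h
        · rw [hg0 k h, coeff_gC_neg C _ (by omega), mul_zero, sub_zero]
        · subst h
          rw [neg_add_cancel, coeff_gC_zero, map_pow, map_pow, hb, hu, mul_assoc, ← mul_pow,
            ← map_mul C.φ]
          have : ((PowerSeries.isUnit_constantCoeff (U : PowerSeries O) U.isUnit).unit⁻¹ : Oˣ).val *
              PowerSeries.constantCoeff (U : PowerSeries O) = 1 := IsUnit.val_inv_mul _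
          rw [this, map_one, one_pow, mul_one, ← ha, sub_self]
        · -- strictly between two multiples of `e`
          by_contra hne
          rw [← hcoef'] at hne
          obtain ⟨q, hq⟩ := hstep hinv' k hne
          subst hq
          have he0 : (0 : ℤ) < e := by exact_mod_cast L.e_pos
          push_cast at hk h
          rcases le_or_gt q (-(B : ℤ) - 1) with h' | h'
          · nlinarith
          · nlinarith)
    refine ⟨P + Polynomial.monomial (B + 1) b, fun k => ?_, ?_⟩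
    · rw [Polynomial.coeff_add, Polynomial.coeff_monomial]
      split_ifs
      · exact add_mem (hP k) hbR
      · simpa using hP k
    · rw [map_add, ← hPg, Polynomial.aeval_monomial, hg', sub_add_cancel]

/-- The product of the finite cusp factors. -/
def Lev.cuspPoly : Polynomial O := ∏ i ∈ L.J, (Polynomial.X - Polynomial.C (L.cval C i))

theorem Lev.serAt_cuspPoly {i : Fin 4} (hi : i ∈ L.J) {δ : SL(2, ℤ)} (h : L.IsCusp i δ) :
    ∃ V : (PowerSeries O)ˣ, serAt C δ (Polynomial.aeval (L.w C) (L.cuspPoly C)) =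
      algebraMap (PowerSeries O) (SeriesField O) (PowerSeries.X ^ L.e * (V : PowerSeries O)) := by
  classical
  obtain ⟨U, hU⟩ := L.serAt_w_finite C hi h
  set g := PowerSeries.C (L.cval C i) + PowerSeries.X ^ L.e * (U : PowerSeries O) with hg
  have hpr : IsUnit ((U : PowerSeries O) *
      ∏ j ∈ L.J.erase i, (g - PowerSeries.C (L.cval C j))) := by
    refine U.isUnit.mul (IsUnit.prod_iff.mpr fun j hj => PowerSeries.isUnit_iff_constantCoeff.mpr ?_)
    obtain ⟨hji, hjJ⟩ := Finset.mem_erase.mp hj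
    simpa [hg, zero_pow L.e_pos.ne'] using L.isUnit_cval_sub C hi hjJ (Ne.symm hji)
  refine ⟨hpr.unit, ?_⟩
  rw [Lev.cuspPoly, map_prod, map_prod, ← Finset.mul_prod_erase _ _ hi, IsUnit.unit_spec]
  simp only [map_sub, Polynomial.aeval_X, Polynomial.aeval_C, map_sub, serAt_algebraMap, hU]
  rw [← map_sub, hg, add_sub_cancel_left]
  simp only [map_mul, map_prod, map_sub, map_pow]
  ring

theorem Lev.coe_aeval_w (P : Polynomial O) :
    ((Polynomial.aeval (L.w C) P : lvlField C) : WFld M) =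
      algebraMap (modFuns (Gamma M)) (WFld M) (Polynomial.aeval (L.wMF C) (P.map C.φ)) := by
  rw [Polynomial.aeval_def, Polynomial.aeval_def, Polynomial.eval₂_map]
  rw [show ((Polynomial.eval₂ (algebraMap O (lvlField C)) (L.w C) P : lvlField C) : WFld M) =
    (lvlField C).subtype (Polynomial.eval₂ (algebraMap O (lvlField C)) (L.w C) P) from rfl,
    Polynomial.hom_eval₂, Polynomial.hom_eval₂]
  rfl

/-- Clearing the poles at the finite cusps. -/
theorem Lev.exists_bddFin (f : modFuns (Gamma M)) :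
    ∃ K : ℕ, ∀ K' ≥ K, L.BddFin (f * Polynomial.aeval (L.wMF C)
      ((L.cuspPoly C ^ K').map C.φ)) := by
  classical
  haveI : (Gamma M).Normal := Gamma_normal M
  haveI : Finite (SL(2, ℤ) ⧸ Gamma M) := Subgroup.finite_quotient_of_finiteIndex
  haveI := Fintype.ofFinite (SL(2, ℤ) ⧸ Gamma M)
  let K := Finset.univ.sup fun q : SL(2, ℤ) ⧸ Gamma M =>
    (-(serHom M (shift M q.out f)).order).toNat
  refine ⟨K, fun K' hK i hi δ hδ k hk => ?_⟩
  obtain ⟨⟨ε, hε⟩, h⟩ := QuotientGroup.mk_out_eq_mul (Gamma M) δ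
  have hout : shift M (δ : SL(2, ℤ) ⧸ Gamma M).out f = shift M δ f := by
    have hc : δ * ε * δ⁻¹ ∈ Gamma M := (Gamma_normal M).conj_mem ε hε δ
    rw [h, show δ * ε = δ * ε * δ⁻¹ * δ by group, ← shift_shift, shift_of_mem hc]
  have hpoly : algebraMap (modFuns (Gamma M)) (WFld M)
      (Polynomial.aeval (L.wMF C) ((L.cuspPoly C ^ K').map C.φ)) =
      ((Polynomial.aeval (L.w C) (L.cuspPoly C) ^ K' : lvlField C) : WFld M) := by
    rw [← map_pow, L.coe_aeval_w]
  obtain ⟨V, hV⟩ := L.serAt_cuspPoly C hi hδ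
  rw [map_mul, map_mul, serHom_shift_eq C hpoly, map_pow, hV, ← map_pow, C.toC_algebraMap, mul_pow,
    ← pow_mul, map_mul, C.gC_X_pow, mul_comm, mul_assoc, HahnSeries.coeff_single_mul, one_mul,
    mul_comm]
  by_cases hlt : k - ((L.e * K' : ℕ) : ℤ) < (serHom M (shift M δ f)).order
  · rw [HahnSeries.coeff_mul]
    refine Finset.sum_eq_zero fun ij hij => ?_
    simp only [Finset.mem_antidiagonal, HahnSeries.mem_support] at hij
    by_cases h2 : ij.1 < (serHom M (shift M δ f)).order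
    · rw [HahnSeries.coeff_eq_zero_of_lt_order h2, zero_mul]
    · exact absurd (coeff_gC_neg C _ (show ij.2 < 0 by omega)) hij.2.1
  · exfalso
    have h1 := Finset.le_sup (f := fun q : SL(2, ℤ) ⧸ Gamma M =>
      (-(serHom M (shift M q.out f)).order).toNat) (Finset.mem_univ (δ : SL(2, ℤ) ⧸ Gamma M))
    simp only [hout] at h1
    have h2 : K' ≤ L.e * K' := Nat.le_mul_of_pos_left _ L.e_pos
    omega

theorem Lev.surjective_w {c : ℂ} (hc : ∀ i ∈ L.J, c ≠ C.φ (L.cval C i)) :
    ∃ τ : ℍ, ((L.wMF C : modFuns (Gamma M)) : ℍ → ℂ) τ = c := by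
  by_contra hno
  push Not at hno
  set W : ℍ → ℂ := ((L.wMF C : modFuns (Gamma M)) : ℍ → ℂ) with hWdef
  have hne : ∀ τ, W τ - c ≠ 0 := fun τ => sub_ne_zero.mpr (hno τ)
  have hholo : MDifferentiable 𝓘(ℂ) 𝓘(ℂ) (fun τ => (W τ - c)⁻¹) := by
    refine UpperHalfPlane.mdifferentiable_iff.mpr ?_
    exact ((UpperHalfPlane.mdifferentiable_iff.mp (L.wMF C).2.holo).sub_const c).inv
      fun z _ => hne _
  have hbd : ∀ δ : SL(2, ℤ), ∃ B : ℝ, ∀ᶠ τ in atImInfty, ‖(W (δ • τ) - c)⁻¹‖ ≤ B := by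
    intro δ
    obtain ⟨i, hi, hic⟩ := L.exists_cusp δ
    have hser := hasQSeries_serHom (shift M δ (L.wMF C))
    by_cases h1 : i = 1
    · subst h1
      refine ⟨1, ?_⟩
      obtain ⟨U, hU⟩ := L.serAt_w_pole C hic
      have h := congrArg C.toC hU
      rw [map_mul, C.toC_algebraMap, C.toC_algebraMap, ← serHom_shift_eq C (L.algebraMap_wMF C),
        C.gC_X_pow] at h
      have hP := hser.mul (HasQSeries.single M (L.e : ℤ) 1)
      rw [h] at hP
      have hlim := hP.tendsto_div (NeZero.pos M) (m₀ := 0) (fun k hk => coeff_gC_neg C _ hk)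
      rw [coeff_gC_zero] at hlim
      have hU0 : C.φ (PowerSeries.constantCoeff (U : PowerSeries O)) ≠ 0 :=
        ((PowerSeries.isUnit_constantCoeff (U : PowerSeries O) U.isUnit).map C.φ).ne_zero
      have hev := hlim.norm.eventually (lt_mem_nhds (half_lt_self (norm_pos_iff.mpr hU0)))
      have hq := ((tendsto_zero_iff_norm_tendsto_zero.mp (tendsto_qq M (NeZero.pos M))).pow L.e).eventually
        (gt_mem_nhds (show ((0 : ℝ)) ^ L.e < ‖C.φ (PowerSeries.constantCoeff (U : PowerSeries O))‖ / 2 /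
          (‖c‖ + 1) by rw [zero_pow L.e_pos.ne']; positivity))
      filter_upwards [hev, hq] with τ h2 h3
      simp only [zpow_zero, div_one, Pi.mul_apply, shift_apply, one_mul, zpow_natCast, norm_mul,
        norm_pow] at h2
      have hW : ‖W (δ • τ)‖ ≥ ‖c‖ + 1 := by
        by_contra hlt
        push Not at hlt
        rw [lt_div_iff₀ (by positivity)] at h3
        have : ‖W (δ • τ)‖ * ‖qq M τ‖ ^ L.e ≤ (‖c‖ + 1) * ‖qq M τ‖ ^ L.e :=
          mul_le_mul_of_nonneg_right hlt.le (by positivity)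
        linarith [hWdef ▸ h2]
      rw [norm_inv]
      refine inv_le_one_of_one_le₀ ?_
      linarith [norm_sub_norm_le (W (δ • τ)) c]
    · obtain ⟨U, hU⟩ := L.serAt_w_finite C (L.mem_J.mpr ⟨hi, h1⟩) hic
      have hlim := hser.tendsto_div (NeZero.pos M) (m₀ := 0) (fun k hk => by
        rw [serHom_shift_eq C (L.algebraMap_wMF C), hU, C.toC_algebraMap]
        exact coeff_gC_neg C _ hk)
      rw [serHom_shift_eq C (L.algebraMap_wMF C), hU, C.toC_algebraMap, coeff_gC_zero] at hlim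
      simp [zero_pow L.e_pos.ne'] at hlim
      have hne0 : C.φ (L.cval C i) - c ≠ 0 :=
        sub_ne_zero.mpr (hc i (L.mem_J.mpr ⟨hi, h1⟩)).symm
      refine ⟨‖(C.φ (L.cval C i) - c)⁻¹‖ + 1, ?_⟩
      exact (((hlim.sub_const c).inv₀ hne0).norm.eventually (eventually_le_nhds (lt_add_one _)))
  have hinv : ∀ γ ∈ Gamma M, ∀ τ, (W (γ • τ) - c)⁻¹ = (W τ - c)⁻¹ := fun γ hγ τ => by
    rw [hWdef, (L.wMF C).2.invariant γ hγ τ]
  have hexist : ∀ δ : SL(2, ℤ), ∃ g, HasQSeries M (fun τ => (W (δ • τ) - c)⁻¹) g ∧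
      ∀ k < (0 : ℤ), g.coeff k = 0 := by
    intro δ
    obtain ⟨B, hB⟩ := hbd δ
    obtain ⟨g, hg, hg0⟩ := exists_hasQSeries (NeZero.pos M) (mdifferentiable_comp_smul hholo δ)
      (fun τ => by
        have hT := (Gamma_normal M).conj_mem _ (ModularGroup_T_pow_mem_Gamma M M dvd_rfl) δ
        have h := hinv _ hT (δ • τ)
        rw [mul_smul, mul_smul, inv_smul_smul, modular_T_zpow_smul, Int.cast_natCast] at h
        exact h)
      (C := B) (B := 0) (by simpa using hB)
    exact ⟨g, hg, fun k hk => hg0 k (by simpa using hk)⟩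
  let G : modFuns (Gamma M) := ⟨fun τ => (W τ - c)⁻¹, hholo, hinv, fun δ => by
    obtain ⟨g, hg, -⟩ := hexist δ
    exact ⟨M, g, NeZero.pos M, hg⟩⟩
  obtain ⟨b, hb⟩ := eq_const_of_bounded G fun δ k hk => by
    obtain ⟨g, hg, hg0⟩ := hexist δ
    have : serHom M (shift M δ G) = g := (hasQSeries_serHom _).unique (NeZero.pos M) hg
    rw [this]; exact hg0 k hk
  -- `w` would be constant
  have hconst : L.wMF C = algebraMap ℂ (modFuns (Gamma M)) (b⁻¹ + c) := by
    refine Subtype.ext (funext fun τ => ?_)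
    have h := congrFun (congrArg Subtype.val hb) τ
    change (W τ - c)⁻¹ = b at h
    show W τ = b⁻¹ + c
    rw [← h, inv_inv, sub_add_cancel]
  obtain ⟨U, hU⟩ := L.serAt_w_finite C (L.mem_J.mpr ⟨L.valid2, by decide⟩)
    (L.isCusp_cuspMat 2 L.valid2)
  have h := serHom_shift_eq C (L.algebraMap_wMF C) (cuspMat 2)
  rw [hconst, AlgHom.commutes, serHom_algebraMap, hU, C.toC_algebraMap] at h
  have h2 := congrArg (fun s : LaurentSeries ℂ => s.coeff (((L.e : ℕ) : ℤ))) h
  simp only [HahnSeries.C_apply, Cyc.gC, RingHom.comp_apply,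
    HahnSeries.ofPowerSeries_apply_coeff, PowerSeries.coeff_map] at h2
  rw [HahnSeries.coeff_single_of_ne (by exact_mod_cast L.e_pos.ne'), map_add, PowerSeries.coeff_C,
    if_neg L.e_pos.ne', zero_add, PowerSeries.coeff_X_pow_mul', if_pos le_rfl, Nat.sub_self,
    PowerSeries.coeff_zero_eq_constantCoeff] at h2
  exact ((PowerSeries.isUnit_constantCoeff (U : PowerSeries O) U.isUnit).map C.φ).ne_zero h2.symm

theorem Lev.w_ne_cval {i : Fin 4} (hi : i ∈ L.J) (τ : ℍ) :
    ((L.wMF C : modFuns (Gamma M)) : ℍ → ℂ) τ ≠ C.φ (L.cval C i) := by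
  obtain ⟨hv, h1⟩ := L.mem_J.mp hi
  intro h
  have hne : ∀ {k l : Fin 4}, L.Valid k → L.Valid l → k ≠ l →
      wpDiff M (L.V k) (L.V l) τ ≠ 0 :=
    fun hk hl hkl => wpDiff_ne_zero (L.nz_V _) (L.nz_V _) (L.not_pm hk hl hkl) τ
  change wpDiff M (L.V 0) (L.V 1) τ / wpDiff M (L.V 0) (L.V 2) τ = _ at h
  fin_cases i
  · simp only [Lev.cval, Fin.zero_eta, Matrix.cons_val_zero, map_one] at h
    rw [div_eq_one_iff_eq (hne L.valid0 L.valid2 (by decide))] at h
    refine hne L.valid2 L.valid1 (by decide) ?_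
    rw [show wpDiff M (L.V 2) (L.V 1) τ =
      wpDiff M (L.V 0) (L.V 1) τ - wpDiff M (L.V 0) (L.V 2) τ by simp only [wpDiff]; ring, h,
      sub_self]
  · exact absurd rfl h1
  · simp only [Lev.cval] at h
    simp at h
    rcases h with h | h
    · exact hne L.valid0 L.valid1 (by decide) h
    · exact hne L.valid0 L.valid2 (by decide) h
  · have h3 : L.m = 3 := hv.resolve_left (by decide)
    have hk := congrArg (fun x : lvlField C => (x : WFld M)) (L.w_sub_kappa C h3)
    have hfun : L.wMF C - algebraMap ℂ _ (C.φ (L.kappa C)) = algebraMap ℂ _ (C.φ (L.kappa C)) *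
        ratMF C (L.vq 1 2 2 3 L.valid2 (Or.inr h3) (by decide)) :=
      IsFractionRing.injective (modFuns (Gamma M)) (WFld M) (by rw [map_sub, map_mul]; exact hk)
    have h2 := congrFun (congrArg Subtype.val hfun) τ
    change wpDiff M (L.V 0) (L.V 1) τ / wpDiff M (L.V 0) (L.V 2) τ - C.φ (L.kappa C) =
      C.φ (L.kappa C) * (wpDiff M (L.V 1) (L.V 2) τ / wpDiff M (L.V 2) (L.V 3) τ) at h2
    rw [show C.φ (L.kappa C) = C.φ (L.cval C 3) from by simp [Lev.cval]] at h2
    simp only [Fin.reduceFinMk] at h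
    rw [h, sub_self, eq_comm, mul_eq_zero, div_eq_zero_iff] at h2
    have hk0 : IsUnit (L.cval C 3) := by
      have : IsUnit (L.kappa C) := by rw [Lev.kappa, dif_pos h3]; exact Units.isUnit _
      simpa [Lev.cval] using this
    rcases h2 with h2 | h2 | h2
    · exact (hk0.map C.φ).ne_zero h2
    · exact hne L.valid1 L.valid2 (by decide) h2
    · exact hne L.valid2 (Or.inr h3) (by decide) h2

theorem Lev.aeval_w_injective : Function.Injective (Polynomial.aeval (R := O) (L.w C)) := by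
  rw [injective_iff_map_eq_zero]
  intro P hP
  have hval : ∀ c : ℂ, (∀ i ∈ L.J, c ≠ C.φ (L.cval C i)) → (P.map C.φ).eval c = 0 := by
    intro c hc
    obtain ⟨τ, hτ⟩ := L.surjective_w C hc
    have h1 : Polynomial.aeval (L.wMF C) (P.map C.φ) = 0 := by
      refine IsFractionRing.injective (modFuns (Gamma M)) (WFld M) ?_
      rw [map_zero, Polynomial.aeval_def, Polynomial.eval₂_map, Polynomial.hom_eval₂]
      have h2 := congrArg (lvlField C).subtype hP
      rw [map_zero, Polynomial.aeval_def, Polynomial.hom_eval₂] at h2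
      exact h2
    have h3 := congrArg (fun f : modFuns (Gamma M) =>
      ((Pi.evalAlgHom ℂ (fun _ : ℍ => ℂ) τ).comp (modFuns (Gamma M)).val) f) h1
    simp only [← Polynomial.aeval_algHom_apply, map_zero] at h3
    simpa [hτ, Polynomial.coe_aeval_eq_eval] using h3
  have hfin : ({c : ℂ | ∃ i ∈ L.J, c = C.φ (L.cval C i)}).Finite :=
    ((L.J.finite_toSet).image fun i => C.φ (L.cval C i)).subset
      (by rintro c ⟨i, hi, rfl⟩; exact ⟨i, hi, rfl⟩)
  have h0 : P.map C.φ = 0 := Polynomial.eq_zero_of_infinite_isRoot _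
    (hfin.infinite_compl.mono (fun c (hc : ¬ ∃ i ∈ L.J, c = C.φ (L.cval C i)) =>
      hval c fun i hi he => hc ⟨i, hi, he⟩))
  exact Polynomial.map_injective _ C.inj (by rw [h0, Polynomial.map_zero])

/-- The field generated in `ℂ` by the base. -/
def Cyc.kC : Subfield ℂ := Subfield.closure (Set.range C.φ)

theorem coeff_toC_mem (x : SeriesField O) (k : ℤ) : (C.toC x).coeff k ∈ C.kC := by
  let ι : C.kC →+* ℂ := C.kC.subtype
  let lift' : LaurentSeries C.kC →+* LaurentSeries ℂ :=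
    { toFun := fun f => f.map ι
      map_one' := by ext; simp [HahnSeries.coeff_one, apply_ite ι]
      map_zero' := by ext; simp
      map_add' := fun f g => by ext; simp
      map_mul' := fun f g => HahnSeries.map_mul ι.toNonUnitalRingHom }
  have hg : ∀ g : PowerSeries O, C.gC g ∈ lift'.fieldRange := fun g => by
    refine ⟨HahnSeries.ofPowerSeries ℤ _ (PowerSeries.mk fun n =>
      (⟨C.φ (PowerSeries.coeff n g), Subfield.subset_closure ⟨_, rfl⟩⟩ : C.kC)), ?_⟩
    ext l
    rcases le_or_gt 0 l with hl | hl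
    · obtain ⟨n, rfl⟩ := Int.eq_ofNat_of_zero_le hl
      simp [lift', ι, Cyc.gC, HahnSeries.ofPowerSeries_apply_coeff]
    · rw [coeff_gC_neg C g hl]
      simp only [lift', ι, RingHom.coe_mk, MonoidHom.coe_mk, OneHom.coe_mk, HahnSeries.map_coeff]
      rw [HahnSeries.ofPowerSeries_apply, HahnSeries.embDomain_of_notMem_range (by
        rintro ⟨n, hn⟩; simp at hn; omega), map_zero]
  obtain ⟨a, b, -, rfl⟩ := IsFractionRing.div_surjective (A := PowerSeries O) x
  obtain ⟨y, hy⟩ : C.toC (algebraMap _ _ a / algebraMap _ _ b) ∈ lift'.fieldRange := by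
    rw [map_div₀, C.toC_algebraMap, C.toC_algebraMap]
    exact div_mem (hg a) (hg b)
  rw [← hy]
  exact (y.coeff k).2

theorem Cyc.exists_frac_kC {x : ℂ} (hx : x ∈ C.kC) : ∃ a b : O, b ≠ 0 ∧ x * C.φ b = C.φ a := by
  obtain ⟨y, hy, z, hz, rfl⟩ := Subfield.mem_closure_iff.mp hx
  rw [← RingHom.coe_range C.φ, Subring.closure_eq] at hy hz
  obtain ⟨a, rfl⟩ := hy
  obtain ⟨b, rfl⟩ := hz
  rcases eq_or_ne b 0 with rfl | hb
  · exact ⟨0, 1, one_ne_zero, by simp⟩
  · exact ⟨a, b, hb, div_mul_cancel₀ _ ((map_ne_zero_iff _ C.inj).mpr hb)⟩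

/-- Invariant holomorphic functions bounded at the finite cusps, with integral expansion at the
pole of `w`, are polynomials in `w`. -/
theorem Lev.exists_aeval_integral {y : lvlField C} (hy : y ∈ holRing C)
    (hfix : ∀ σ : L.gal C, σ • y = y)
    (hfin : ∀ i ∈ L.J, ∀ δ, L.IsCusp i δ → ∃ g : PowerSeries O,
      serAt C δ y = algebraMap (PowerSeries O) (SeriesField O) g)
    (hint : ∃ (K : ℕ) (g : PowerSeries O),
      serAt C (cuspMat 1) y * algebraMap (PowerSeries O) (SeriesField O) (PowerSeries.X ^ K) =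
        algebraMap (PowerSeries O) (SeriesField O) g) :
    ∃ P : Polynomial O, y = Polynomial.aeval (L.w C) P := by
  obtain ⟨f, hf⟩ := hy
  obtain ⟨K, g, hg⟩ := hint
  have hser := congrArg C.toC hg
  rw [map_mul, C.toC_algebraMap, C.toC_algebraMap, ← serHom_shift_eq C hf, C.gC_X_pow] at hser
  obtain ⟨P, hP, hPf⟩ := L.exists_poly C C.φ.range (fun a => ⟨a, rfl⟩) (L.inv_of_fixed C hfix hf)
    (fun i hi δ hδ k hk => by
      obtain ⟨g, hg⟩ := hfin i hi δ hδ
      rw [serHom_shift_eq C hf, hg, C.toC_algebraMap]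
      exact coeff_gC_neg C g hk)
    (fun k => by
      have h1 := congrArg (fun s : LaurentSeries ℂ => s.coeff (k + K)) hser
      rw [HahnSeries.coeff_mul_single_add, mul_one] at h1
      rw [h1]
      rcases le_or_gt 0 (k + K) with h | h
      · obtain ⟨l, hl⟩ := Int.eq_ofNat_of_zero_le h
        rw [hl, Cyc.gC, RingHom.comp_apply, HahnSeries.ofPowerSeries_apply_coeff,
          PowerSeries.coeff_map]
        exact ⟨_, rfl⟩
      · rw [coeff_gC_neg C g h]; exact zero_mem _)
  obtain ⟨Q, hQ⟩ := (Polynomial.mem_lifts P).mp ((Polynomial.lifts_iff_coeff_lifts P).mpr hP)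
  refine ⟨Q, Subtype.ext ?_⟩
  rw [L.coe_aeval_w, hQ, ← hf, hPf]

/-- Invariant holomorphic functions bounded at the finite cusps are polynomials in `w`, up to a
constant. -/
theorem Lev.exists_aeval_bdd {y : lvlField C} (hy : y ∈ holRing C)
    (hfix : ∀ σ : L.gal C, σ • y = y)
    (hfin : ∀ i ∈ L.J, ∀ δ, L.IsCusp i δ → ∀ k < (0 : ℤ), (C.toC (serAt C δ y)).coeff k = 0) :
    ∃ (s : O) (P : Polynomial O), s ≠ 0 ∧
      algebraMap O (lvlField C) s * y = Polynomial.aeval (L.w C) P := by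
  classical
  obtain ⟨f, hf⟩ := hy
  obtain ⟨P, hP, hPf⟩ := L.exists_poly C C.kC.toSubring (fun a => Subfield.subset_closure ⟨a, rfl⟩)
    (L.inv_of_fixed C hfix hf)
    (fun i hi δ hδ k hk => by rw [serHom_shift_eq C hf]; exact hfin i hi δ hδ k hk)
    (fun k => by rw [serHom_shift_eq C hf]; exact coeff_toC_mem C _ k)
  choose a b hb hab using fun k => C.exists_frac_kC (hP k)
  set s := ∏ k ∈ P.support, b k with hs
  have hs0 : s ≠ 0 := Finset.prod_ne_zero_iff.mpr fun k _ => hb k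
  have hlift : Polynomial.C (C.φ s) * P ∈ Polynomial.lifts C.φ := by
    refine (Polynomial.lifts_iff_coeff_lifts _).mpr fun k => ?_
    rw [Polynomial.coeff_C_mul]
    by_cases hk : k ∈ P.support
    · refine ⟨a k * ∏ l ∈ P.support.erase k, b l, ?_⟩
      rw [map_mul, ← hab, hs, ← Finset.mul_prod_erase _ _ hk, map_mul]
      ring
    · rw [Polynomial.notMem_support_iff.mp hk, mul_zero]; exact ⟨0, map_zero _⟩
  obtain ⟨Q, hQ⟩ := (Polynomial.mem_lifts _).mp hlift
  refine ⟨s, Q, hs0, Subtype.ext ?_⟩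
  rw [L.coe_aeval_w, hQ, map_mul, Polynomial.aeval_C, map_mul, ← hPf, hf]
  rfl

/-- Invariant holomorphic functions are polynomials in `w` up to a constant and powers of the cusp
factors. -/
theorem Lev.exists_aeval {y : lvlField C} (hy : y ∈ holRing C)
    (hfix : ∀ σ : L.gal C, σ • y = y) :
    ∃ (s : O) (K : ℕ) (P : Polynomial O), s ≠ 0 ∧
      algebraMap O (lvlField C) s * (y * Polynomial.aeval (L.w C) (L.cuspPoly C ^ K)) =
        Polynomial.aeval (L.w C) P := by
  have hy' := hy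
  obtain ⟨f, hf⟩ := hy'
  obtain ⟨K, hK⟩ := L.exists_bddFin C f
  obtain ⟨s, P, hs, hP⟩ := L.exists_aeval_bdd C
    (y := y * Polynomial.aeval (L.w C) (L.cuspPoly C ^ K))
    (mul_mem hy (aeval_mem_holRing C _ (rat_mem_holRing C _)))
    (fun σ => by rw [smul_mul', hfix, L.smul_aeval])
    (fun i hi δ hδ k hk => by
      have hf' : algebraMap (modFuns (Gamma M)) (WFld M) (f * Polynomial.aeval (L.wMF C)
          ((L.cuspPoly C ^ K).map C.φ)) =
          ((y * Polynomial.aeval (L.w C) (L.cuspPoly C ^ K) : lvlField C) : WFld M) := by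
        rw [map_mul, hf, ← L.coe_aeval_w]; rfl
      rw [← serHom_shift_eq C hf']
      exact hK K le_rfl i hi δ hδ k hk)
  exact ⟨s, K, P, hs, hP⟩

/-- Elements fixed by the group are rational functions of `w`. -/
theorem Lev.fixedRational : FixedRational O (L.gal C) (L.w C) := by
  classical
  haveI := Fintype.ofFinite (L.gal C)
  intro x hx
  obtain ⟨a, ha, b, hb, hb0, hxb⟩ := exists_hol_div C x
  have hsmulmem : ∀ (σ : L.gal C) {y : lvlField C}, y ∈ holRing C → σ • y ∈ holRing C := by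
    intro σ y hy
    obtain ⟨γ, hγ, rfl⟩ := L.exists_eq_galOf C σ
    rw [L.galOf_smul]; exact fShift_mem_holRing C γ hy
  set B : lvlField C := ∏ σ : L.gal C, σ • b with hB
  set A : lvlField C := a * ∏ σ ∈ Finset.univ.erase (1 : L.gal C), σ • b with hA
  have hBhol : B ∈ holRing C := Subring.prod_mem _ fun σ _ => hsmulmem σ hb
  have hAhol : A ∈ holRing C := mul_mem ha (Subring.prod_mem _ fun σ _ => hsmulmem σ hb)
  have hBfix : ∀ σ : L.gal C, σ • B = B := fun σ => by
    rw [hB, Finset.smul_prod']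
    exact Fintype.prod_equiv (Equiv.mulLeft σ) _ _ fun τ => by simp [mul_smul]
  have hAB : x * B = A := by
    rw [hA, ← hxb, hB, ← Finset.mul_prod_erase _ _ (Finset.mem_univ (1 : L.gal C)), one_smul,
      mul_assoc]
  have hAfix : ∀ σ : L.gal C, σ • A = A := fun σ => by
    rw [← hAB, smul_mul', hx, hBfix]
  have hB0 : B ≠ 0 := Finset.prod_ne_zero_iff.mpr fun σ _ => (smul_ne_zero_iff_ne σ).mpr hb0
  have hinj := L.aeval_w_injective C
  have hQ0 : L.cuspPoly C ≠ 0 := Finset.prod_ne_zero_iff.mpr fun i _ => Polynomial.X_sub_C_ne_zero _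
  obtain ⟨s₁, K₁, P₁, hs₁, h1⟩ := L.exists_aeval C hAhol hAfix
  obtain ⟨s₂, K₂, P₂, hs₂, h2⟩ := L.exists_aeval C hBhol hBfix
  refine ⟨Polynomial.C s₂ * L.cuspPoly C ^ K₂ * P₁, Polynomial.C s₁ * L.cuspPoly C ^ K₁ * P₂, ?_, ?_⟩
  · rw [map_mul, map_mul, Polynomial.aeval_C, ← h2]
    have hc : ∀ s : O, s ≠ 0 → algebraMap O (lvlField C) s ≠ 0 := fun s hs h => by
      rw [← Polynomial.aeval_C (R := O) (L.w C), map_eq_zero_iff _ hinj, Polynomial.C_eq_zero] at h
      exact hs h
    have hQ : ∀ K : ℕ, Polynomial.aeval (L.w C) (L.cuspPoly C ^ K) ≠ 0 := fun K h => by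
      rw [map_eq_zero_iff _ hinj] at h
      exact pow_ne_zero K hQ0 h
    exact mul_ne_zero (mul_ne_zero (hc _ hs₁) (hQ _)) (mul_ne_zero (hc _ hs₂) (mul_ne_zero hB0 (hQ _)))
  · rw [map_mul, map_mul, map_mul, map_mul, Polynomial.aeval_C, Polynomial.aeval_C, ← h1, ← h2, ← hAB]
    ring

end Fermat.Agent.GalRep.Model
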