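/-
Functions with integral expansions: integrality over the coordinate `w`, the finite family of
roots generating the field, and nonvanishing of their differences modulo the maximal ideal.
-/
import Fermat.Agent.GalRep.Model.Invariants

set_option autoImplicit false

noncomputable section

namespace Fermat.Agent.GalRep.Model

open UpperHalfPlane CongruenceSubgroup Polynomial
open scoped MatrixGroups

variable {M : ℕ} [NeZero M] (L : Lev M) {O : Type*} [CommRing O] [IsDomain O] (C : Cyc O M)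

local notation "al" => algebraMap (PowerSeries O) (SeriesField O)

theorem Lev.isCusp_mul_iff {γ : SL(2, ℤ)} (hγ : γ ∈ Gamma L.m) (i : Fin 4) (δ : SL(2, ℤ)) :
    L.IsCusp i (γ * δ) ↔ L.IsCusp i δ := by
  obtain ⟨h1, h2, h3, h4⟩ := Gamma_mem.mp hγ
  rw [L.isCusp_iff, L.isCusp_iff]
  simp [Matrix.SpecialLinearGroup.coe_mul, Matrix.mul_apply, Fin.sum_univ_two, h1, h2, h3, h4]

theorem Lev.serAt_smul {γ : SL(2, ℤ)} (hγ : γ ∈ Gamma L.m) (δ : SL(2, ℤ)) (x : lvlField C) :
    serAt C δ (L.galOf C hγ • x) = serAt C (γ * δ) x := by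
  rw [L.galOf_smul, serAt_fShift]

/-- Holomorphic with integral expansions: no poles at finite cusps, any pole at the others. -/
def Lev.intRing : Subring (lvlField C) where
  carrier := {y | y ∈ holRing C ∧
    (∀ i ∈ L.J, ∀ δ, L.IsCusp i δ → serAt C δ y ∈ (al).range) ∧
    ∀ δ, L.IsCusp 1 δ → ∃ K : ℕ, serAt C δ y * al (PowerSeries.X ^ K) ∈ (al).range}
  one_mem' := ⟨one_mem _, fun i _ δ _ => by rw [map_one]; exact one_mem _,
    fun δ _ => ⟨0, by rw [map_one, one_mul]; exact ⟨_, rfl⟩⟩⟩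
  zero_mem' := ⟨zero_mem _, fun i _ δ _ => by rw [map_zero]; exact zero_mem _,
    fun δ _ => ⟨0, by rw [map_zero, zero_mul]; exact zero_mem _⟩⟩
  mul_mem' := fun {a b} ha hb => ⟨mul_mem ha.1 hb.1,
    fun i hi δ hδ => by rw [map_mul]; exact mul_mem (ha.2.1 i hi δ hδ) (hb.2.1 i hi δ hδ),
    fun δ hδ => by
      obtain ⟨K, hK⟩ := ha.2.2 δ hδ
      obtain ⟨K', hK'⟩ := hb.2.2 δ hδ
      refine ⟨K + K', ?_⟩
      rw [map_mul, pow_add, map_mul, mul_mul_mul_comm]
      exact mul_mem hK hK'⟩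
  add_mem' := fun {a b} ha hb => ⟨add_mem ha.1 hb.1,
    fun i hi δ hδ => by rw [map_add]; exact add_mem (ha.2.1 i hi δ hδ) (hb.2.1 i hi δ hδ),
    fun δ hδ => by
      obtain ⟨K, hK⟩ := ha.2.2 δ hδ
      obtain ⟨K', hK'⟩ := hb.2.2 δ hδ
      refine ⟨K + K', ?_⟩
      rw [map_add, add_mul, pow_add, map_mul, ← mul_assoc,
        mul_left_comm (serAt C δ b) (al (PowerSeries.X ^ K)) (al (PowerSeries.X ^ K'))]
      exact add_mem (mul_mem hK ⟨_, rfl⟩) (mul_mem ⟨_, rfl⟩ hK')⟩
  neg_mem' := fun {a} ha => ⟨neg_mem ha.1,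
    fun i hi δ hδ => by rw [map_neg]; exact neg_mem (ha.2.1 i hi δ hδ),
    fun δ hδ => by
      obtain ⟨K, hK⟩ := ha.2.2 δ hδ
      exact ⟨K, by rw [map_neg, neg_mul]; exact neg_mem hK⟩⟩

theorem Lev.algebraMap_mem_intRing (a : O) : algebraMap O (lvlField C) a ∈ L.intRing C :=
  ⟨algebraMap_mem_holRing C a, fun i _ δ _ => ⟨_, (serAt_algebraMap C δ a).symm⟩,
    fun δ _ => ⟨0, PowerSeries.C a * 1, by rw [serAt_algebraMap, map_mul, pow_zero]⟩⟩

theorem Lev.w_mem_intRing : L.w C ∈ L.intRing C := by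
  refine ⟨rat_mem_holRing C _, fun i hi δ hδ => ?_, fun δ hδ => ?_⟩
  · obtain ⟨U, hU⟩ := L.serAt_w_finite C hi hδ
    exact ⟨_, hU.symm⟩
  · obtain ⟨U, hU⟩ := L.serAt_w_pole C hδ
    exact ⟨L.e, _, hU.symm⟩

theorem Lev.aeval_mem_intRing (P : O[X]) : Polynomial.aeval (L.w C) P ∈ L.intRing C := by
  induction P using Polynomial.induction_on' with
  | add p q hp hq => rw [map_add]; exact add_mem hp hq
  | monomial n a =>
    rw [Polynomial.aeval_monomial]
    exact mul_mem (L.algebraMap_mem_intRing C a) (pow_mem (L.w_mem_intRing C) n)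

theorem Lev.smul_mem_intRing (σ : L.gal C) {y : lvlField C} (hy : y ∈ L.intRing C) :
    σ • y ∈ L.intRing C := by
  obtain ⟨γ, hγ, rfl⟩ := L.exists_eq_galOf C σ
  refine ⟨?_, fun i hi δ hδ => ?_, fun δ hδ => ?_⟩
  · rw [L.galOf_smul]; exact fShift_mem_holRing C γ hy.1
  · rw [L.serAt_smul]; exact hy.2.1 i hi _ ((L.isCusp_mul_iff hγ i δ).mpr hδ)
  · rw [L.serAt_smul]; exact hy.2.2 _ ((L.isCusp_mul_iff hγ 1 δ).mpr hδ)

theorem Lev.exists_aeval_of_fixed {y : lvlField C} (hy : y ∈ L.intRing C)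
    (hfix : ∀ σ : L.gal C, σ • y = y) : ∃ P : O[X], y = Polynomial.aeval (L.w C) P := by
  refine L.exists_aeval_integral C hy.1 hfix (fun i hi δ hδ => ?_) ?_
  · obtain ⟨g, hg⟩ := hy.2.1 i hi δ hδ
    exact ⟨g, hg.symm⟩
  · obtain ⟨K, g, hg⟩ := hy.2.2 _ (L.isCusp_cuspMat 1 L.valid1)
    exact ⟨K, g, hg.symm⟩

/-- The product over the orbit. -/
def Lev.orbitProd [Fintype (L.gal C)] (y : lvlField C) : (lvlField C)[X] :=
  ∏ σ : L.gal C, (Polynomial.X - Polynomial.C (σ • y))

theorem Lev.exists_orbit_poly [Fintype (L.gal C)] {y : lvlField C} (hy : y ∈ L.intRing C) (k : ℕ) :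
    ∃ P : O[X], (L.orbitProd C y).coeff k = Polynomial.aeval (L.w C) P := by
  refine L.exists_aeval_of_fixed C ?_ fun τ => ?_
  · have h : L.orbitProd C y ∈ Polynomial.lifts (L.intRing C).subtype := by
      refine Subsemiring.prod_mem _ fun σ _ => ?_
      rw [Polynomial.lifts_iff_coeff_lifts]
      intro n
      rw [Polynomial.coeff_sub, Polynomial.coeff_X, Polynomial.coeff_C]
      refine ⟨⟨_, sub_mem ?_ ?_⟩, rfl⟩
      · split_ifs
        · exact one_mem _
        · exact zero_mem _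
      · split_ifs
        · exact L.smul_mem_intRing C σ hy
        · exact zero_mem _
    obtain ⟨⟨z, hz⟩, hzc⟩ := (Polynomial.lifts_iff_coeff_lifts _).mp h k
    rw [← hzc]
    exact hz
  · have h : τ • L.orbitProd C y = L.orbitProd C y := by
      rw [Lev.orbitProd, Finset.smul_prod']
      refine Fintype.prod_equiv (Equiv.mulLeft τ) _ _ fun σ => ?_
      simp [smul_sub, mul_smul]
    conv_rhs => rw [← h]
    rfl

/-- Functions with integral expansions are integral over `O[w]`. -/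
theorem Lev.mem_chartRing {y : lvlField C} (hy : y ∈ L.intRing C) :
    y ∈ chartRing O (L.w C) := by
  classical
  haveI := Fintype.ofFinite (L.gal C)
  show IsIntegral _ _
  rw [isIntegral_adjoin_iff]
  have hm : (L.orbitProd C y).Monic :=
    Polynomial.monic_prod_of_monic _ _ fun σ _ => Polynomial.monic_X_sub_C _
  have hl : L.orbitProd C y ∈ Polynomial.lifts (Polynomial.aeval (L.w C) : O[X] →ₐ[O] lvlField C).toRingHom := by
    rw [Polynomial.lifts_iff_coeff_lifts]
    intro k
    obtain ⟨P, hP⟩ := L.exists_orbit_poly C hy k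
    exact ⟨P, hP.symm⟩
  obtain ⟨P, hP, -, hPm⟩ := Polynomial.lifts_and_natDegree_eq_and_monic hl hm
  refine ⟨P, hPm, ?_⟩
  rw [← Polynomial.eval_map, hP, Lev.orbitProd, Polynomial.eval_prod]
  exact Finset.prod_eq_zero (Finset.mem_univ (1 : L.gal C)) (by simp)

/-- The expansion of a polynomial in `w` at its pole. -/
theorem Lev.serAt_aeval_pole (P : O[X]) : ∃ (g : PowerSeries O) (u : O), IsUnit u ∧
    serAt C (cuspMat 1) (Polynomial.aeval (L.w C) P) * al (PowerSeries.X ^ (L.e * P.natDegree)) =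
      al g ∧ PowerSeries.constantCoeff g = P.leadingCoeff * u := by
  obtain ⟨U, hU⟩ := L.serAt_w_pole C (L.isCusp_cuspMat 1 L.valid1)
  set n := P.natDegree
  have hpow : ∀ k ≤ n, serAt C (cuspMat 1) (L.w C) ^ k * al (PowerSeries.X ^ (L.e * n)) =
      al ((U : PowerSeries O) ^ k * PowerSeries.X ^ (L.e * (n - k))) := by
    intro k hk
    rw [show L.e * n = L.e * k + L.e * (n - k) by rw [← mul_add, Nat.add_sub_cancel' hk], pow_add,
      map_mul, ← mul_assoc, pow_mul, map_pow, ← mul_pow, hU, ← map_pow, ← map_mul]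
  refine ⟨∑ k ∈ Finset.range (n + 1),
    PowerSeries.C (P.coeff k) * ((U : PowerSeries O) ^ k * PowerSeries.X ^ (L.e * (n - k))),
    PowerSeries.constantCoeff (U : PowerSeries O) ^ n,
    (PowerSeries.isUnit_constantCoeff (U : PowerSeries O) U.isUnit).pow n, ?_, ?_⟩
  · rw [Polynomial.aeval_eq_sum_range, map_sum, Finset.sum_mul, map_sum]
    refine Finset.sum_congr rfl fun k hk => ?_
    rw [Algebra.smul_def, map_mul, map_mul, serAt_algebraMap, map_pow, mul_assoc,
      hpow k (Nat.lt_succ_iff.mp (Finset.mem_range.mp hk))]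
  · rw [map_sum, Finset.sum_range_succ, Finset.sum_eq_zero, zero_add, Nat.sub_self, mul_zero,
      pow_zero, mul_one, map_mul, PowerSeries.constantCoeff_C, map_pow]
    · rfl
    intro k hk
    rw [Finset.mem_range] at hk
    rw [map_mul, map_mul, map_pow, map_pow, PowerSeries.constantCoeff_X,
      zero_pow (Nat.mul_ne_zero L.e_pos.ne' (by omega)), mul_zero, mul_zero]

/-- The order of a polynomial in `w` at its pole. -/
theorem Lev.natDegree_le_of_pole {P : O[X]} {B : ℕ}
    (h : serAt C (cuspMat 1) (Polynomial.aeval (L.w C) P) *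
      al (PowerSeries.X ^ (L.e * B)) ∈ (al).range) : P.natDegree ≤ B := by
  by_contra hlt
  push Not at hlt
  obtain ⟨g, hg⟩ := h
  obtain ⟨g', u, hu, hg', hc⟩ := L.serAt_aeval_pole C P
  have h1 := congrArg (fun z => z * al (PowerSeries.X ^ (L.e * B))) hg'
  rw [mul_right_comm, ← hg, ← map_mul, ← map_mul] at h1
  have h2 := congrArg (PowerSeries.coeff (L.e * B)) (IsFractionRing.injective _ _ h1)
  rw [PowerSeries.coeff_mul_X_pow', PowerSeries.coeff_mul_X_pow', if_pos le_rfl, Nat.sub_self,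
    if_neg (by nlinarith [L.e_pos]), PowerSeries.coeff_zero_eq_constantCoeff, hc, eq_comm,
    mul_eq_zero, Polynomial.leadingCoeff_eq_zero] at h2
  rcases h2 with h2 | h2
  · rw [h2, Polynomial.natDegree_zero] at hlt
    omega
  · exact hu.ne_zero h2

/-- Integrality over `O[w⁻¹]` after dividing by the pole bound. -/
theorem Lev.inv_pow_mul_mem {y : lvlField C} (hy : y ∈ L.intRing C) {B : ℕ}
    (hB : ∀ δ, L.IsCusp 1 δ → serAt C δ y * al (PowerSeries.X ^ (L.e * B)) ∈ (al).range) :
    (L.w C)⁻¹ ^ B * y ∈ chartRing O (L.w C)⁻¹ := by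
  classical
  haveI := Fintype.ofFinite (L.gal C)
  set w := L.w C with hwdef
  have hw : w ≠ 0 := fun h => by
    have := L.aeval_w_injective C (a₁ := Polynomial.X) (a₂ := 0) (by simpa [hwdef] using h)
    exact Polynomial.X_ne_zero this
  set r := Fintype.card (L.gal C)
  set d := cuspMat 1
  have hdeg : (L.orbitProd C y).natDegree = r := by
    rw [Lev.orbitProd, Polynomial.natDegree_prod_of_monic _ _ fun σ _ => Polynomial.monic_X_sub_C _]
    simp [r]
  -- bound on the series of the coefficients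
  have hcoef : ∀ (s : Finset (L.gal C)) (k : ℕ),
      serAt C d ((∏ σ ∈ s, (Polynomial.X - Polynomial.C (σ • y))).coeff k) *
        al (PowerSeries.X ^ (L.e * (B * (s.card - k)))) ∈ (al).range := by
    intro s
    induction s using Finset.induction with
    | empty =>
      intro k
      rw [Finset.prod_empty, Polynomial.coeff_one]
      split_ifs with h
      · rw [map_one, one_mul]; exact ⟨_, rfl⟩
      · rw [map_zero, zero_mul]; exact zero_mem _
    | insert σ s hσ ih =>
      intro k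
      rw [Finset.prod_insert hσ, Finset.card_insert_of_notMem hσ, sub_mul, Polynomial.coeff_sub,
        Polynomial.coeff_C_mul, map_sub, sub_mul, map_mul]
      refine sub_mem ?_ ?_
      · rcases k with _ | k
        · rw [Polynomial.coeff_X_mul_zero, map_zero, zero_mul]; exact zero_mem _
        · rw [Polynomial.coeff_X_mul, show s.card + 1 - (k + 1) = s.card - k by omega]
          exact ih k
      · rcases le_or_gt k s.card with hk | hk
        · rw [show L.e * (B * (s.card + 1 - k)) = L.e * B + L.e * (B * (s.card - k)) by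
            rw [show s.card + 1 - k = (s.card - k) + 1 by omega]; ring, pow_add, map_mul,
            mul_mul_mul_comm]
          refine mul_mem ?_ (ih k)
          obtain ⟨γ, hγ, rfl⟩ := L.exists_eq_galOf C σ
          rw [L.serAt_smul]
          exact hB _ ((L.isCusp_mul_iff hγ 1 d).mpr (L.isCusp_cuspMat 1 L.valid1))
        · rw [Polynomial.coeff_eq_zero_of_natDegree_lt, map_zero, mul_zero, zero_mul]
          · exact zero_mem _
          · rw [Polynomial.natDegree_prod_of_monic _ _ fun σ _ => Polynomial.monic_X_sub_C _]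
            simpa using hk
  have hP : ∀ k, ∃ P : O[X], (L.orbitProd C y).coeff k = Polynomial.aeval w P ∧
      P.natDegree ≤ B * (r - k) := fun k => by
    obtain ⟨P, hP⟩ := L.exists_orbit_poly C hy k
    refine ⟨P, hP, L.natDegree_le_of_pole C ?_⟩
    rw [← hP]
    exact hcoef Finset.univ k
  choose P hP hPdeg using hP
  let R : O[X][X] := Polynomial.monomial r 1 +
    ∑ k ∈ Finset.range r, Polynomial.monomial k ((P k).reflect (B * (r - k)))
  have hRdeg : (∑ k ∈ Finset.range r, Polynomial.monomial k ((P k).reflect (B * (r - k))) :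
      O[X][X]).degree < (r : WithBot ℕ) :=
    lt_of_le_of_lt (Polynomial.degree_sum_le _ _) ((Finset.sup_lt_iff (WithBot.bot_lt_coe r)).mpr
      fun k hk => lt_of_le_of_lt (Polynomial.degree_monomial_le _ _)
        (WithBot.coe_lt_coe.mpr (Finset.mem_range.mp hk)))
  show IsIntegral _ _
  rw [isIntegral_adjoin_iff]
  refine ⟨R, ?_, ?_⟩
  · refine Polynomial.Monic.add_of_left ?_ ?_
    · rw [← Polynomial.X_pow_eq_monomial]; exact Polynomial.monic_X_pow r
    · rwa [Polynomial.degree_monomial _ one_ne_zero]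
  have hpoly : y ^ r + ∑ k ∈ Finset.range r, Polynomial.aeval w (P k) * y ^ k = 0 := by
    have h0 : (L.orbitProd C y).eval y = 0 := by
      rw [Lev.orbitProd, Polynomial.eval_prod]
      exact Finset.prod_eq_zero (Finset.mem_univ (1 : L.gal C)) (by simp)
    rw [Polynomial.eval_eq_sum_range, hdeg, Finset.sum_range_succ] at h0
    have hlc : (L.orbitProd C y).coeff r = 1 := by
      rw [← hdeg]
      exact Polynomial.monic_prod_of_monic _ _ fun σ _ => Polynomial.monic_X_sub_C _
    simp only [hP] at h0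
    rw [← hP r, hlc, one_mul] at h0
    rw [add_comm]; exact h0
  have hrefl : ∀ k, Polynomial.aeval w⁻¹ ((P k).reflect (B * (r - k))) =
      w⁻¹ ^ (B * (r - k)) * Polynomial.aeval w (P k) := by
    intro k
    haveI : Invertible w := invertibleOfNonzero hw
    have h3 := Polynomial.eval₂_reflect_mul_pow (algebraMap O (lvlField C)) w (B * (r - k)) (P k)
      (hPdeg k)
    rw [invOf_eq_inv] at h3
    rw [Polynomial.aeval_def, Polynomial.aeval_def, ← h3, mul_comm (w⁻¹ ^ _), mul_assoc, inv_pow,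
      mul_inv_cancel₀ (pow_ne_zero _ hw), mul_one]
  simp only [R, Polynomial.eval₂_add, Polynomial.eval₂_finsetSum, Polynomial.eval₂_monomial,
    map_one, one_mul, AlgHom.toRingHom_eq_coe, RingHom.coe_coe, hrefl]
  have hmul := congrArg (fun z => w⁻¹ ^ (B * r) * z) hpoly
  simp only [mul_zero, mul_add, Finset.mul_sum] at hmul
  rw [← hmul, mul_pow, ← pow_mul]
  congr 1
  refine Finset.sum_congr rfl fun k hk => ?_
  rw [Finset.mem_range] at hk
  rw [mul_pow, ← pow_mul, show B * r = B * (r - k) + B * k by rw [← mul_add, Nat.sub_add_cancel hk.le],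
    pow_add]
  ring

/-! ## The generating family -/

/-- Representatives of the nonzero classes. -/
def repVec (p : {p : ZMod M × ZMod M // p ≠ 0}) : ℤ × ℤ := ((p.1.1.val : ℤ), (p.1.2.val : ℤ))

theorem nz_repVec (p : {p : ZMod M × ZMod M // p ≠ 0}) : NZ M (repVec p) := by
  rw [nz_iff]
  simpa [repVec, Prod.ext_iff] using p.2

/-- The class of a vector. -/
def classOf {u : ℤ × ℤ} (hu : NZ M u) : {p : ZMod M × ZMod M // p ≠ 0} :=
  ⟨((u.1 : ZMod M), (u.2 : ZMod M)), fun h => (nz_iff.mp hu) ⟨congrArg Prod.fst h, congrArg Prod.snd h⟩⟩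

theorem pm_classOf {u : ℤ × ℤ} (hu : NZ M u) : PM M u (repVec (classOf hu)) :=
  pm_iff.mpr (Or.inl ⟨by simp [repVec, classOf], by simp [repVec, classOf]⟩)

/-- The generators. -/
def Lev.gen (p : {p : ZMod M × ZMod M // p ≠ 0}) : lvlField C :=
  rat C ⟨repVec p, L.V 0, L.V 1, L.V 0, nz_repVec p, L.nz_V 0, L.nz_V 1, L.nz_V 0,
    L.not_pm L.valid1 L.valid0 (by decide)⟩

/-- The roots of the basic equation. -/
def Lev.genSet : Finset (lvlField C) := by
  classical
  exact Finset.univ.image (L.gen C)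

theorem Lev.mem_genSet {y : lvlField C} : y ∈ L.genSet C ↔ ∃ p, L.gen C p = y := by
  classical
  simp [Lev.genSet]

theorem Lev.gen_sub (p p' : {p : ZMod M × ZMod M // p ≠ 0}) :
    L.gen C p - L.gen C p' = rat C ⟨repVec p, repVec p', L.V 1, L.V 0, nz_repVec p, nz_repVec p',
      L.nz_V 1, L.nz_V 0, L.not_pm L.valid1 L.valid0 (by decide)⟩ := by
  refine Subtype.ext ?_
  show algebraMap _ (WFld M) (ratMF C _) - algebraMap _ (WFld M) (ratMF C _) =
    algebraMap _ (WFld M) (ratMF C _)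
  rw [← map_sub]
  congr 1
  refine Subtype.ext (funext fun τ => ?_)
  show wpDiff M (repVec p) (L.V 0) τ / wpDiff M (L.V 1) (L.V 0) τ -
      wpDiff M (repVec p') (L.V 0) τ / wpDiff M (L.V 1) (L.V 0) τ =
    wpDiff M (repVec p) (repVec p') τ / wpDiff M (L.V 1) (L.V 0) τ
  rw [← sub_div]
  congr 1
  simp only [wpDiff]
  ring

theorem Lev.gen_eq_of_pm {p p' : {p : ZMod M × ZMod M // p ≠ 0}}
    (h : PM M (repVec p) (repVec p')) : L.gen C p = L.gen C p' :=
  rat_congr C h (PM.refl _) (PM.refl _) (PM.refl _)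

theorem Lev.smul_gen_mem (σ : L.gal C) {y : lvlField C} (hy : y ∈ L.genSet C) :
    σ • y ∈ L.genSet C := by
  obtain ⟨p, rfl⟩ := (L.mem_genSet C).mp hy
  obtain ⟨γ, hγ, rfl⟩ := L.exists_eq_galOf C σ
  refine (L.mem_genSet C).mpr ⟨classOf (nz_rowMul γ (nz_repVec p)), ?_⟩
  rw [L.galOf_smul, Lev.gen, Lev.gen, fShift_rat]
  exact rat_congr C (pm_classOf _).symm (L.rowMul_V_pm hγ 0).symm (L.rowMul_V_pm hγ 1).symm
    (L.rowMul_V_pm hγ 0).symm

/-- Scaled generators. -/
def Lev.sgen (y : lvlField C) : lvlField C := y * Polynomial.aeval (L.w C) (L.cuspPoly C)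

theorem serAt_cuspPoly_pole (δ : SL(2, ℤ)) (hδ : L.IsCusp 1 δ) : ∃ V : (PowerSeries O)ˣ,
    serAt C δ (Polynomial.aeval (L.w C) (L.cuspPoly C)) * al (PowerSeries.X ^ (L.e * L.J.card)) =
      al V := by
  classical
  obtain ⟨U, hU⟩ := L.serAt_w_pole C hδ
  have hu : IsUnit (∏ i ∈ L.J, ((U : PowerSeries O) -
      PowerSeries.C (L.cval C i) * PowerSeries.X ^ L.e)) :=
    IsUnit.prod_iff.mpr fun i _ => PowerSeries.isUnit_iff_constantCoeff.mpr (by
      simpa [zero_pow L.e_pos.ne'] using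
        PowerSeries.isUnit_constantCoeff (U : PowerSeries O) U.isUnit)
  refine ⟨hu.unit, ?_⟩
  rw [IsUnit.unit_spec, Lev.cuspPoly, map_prod, map_prod, map_prod, pow_mul, map_pow,
    ← Finset.prod_const, ← Finset.prod_mul_distrib]
  refine Finset.prod_congr rfl fun i _ => ?_
  rw [map_sub, Polynomial.aeval_X, Polynomial.aeval_C, map_sub, serAt_algebraMap, sub_mul, hU,
    map_sub, map_mul]

/-- A ratio with small denominators, scaled, has integral expansions, with a pole bound. -/
theorem Lev.rat_mul_cuspPoly (q : Quad M) (hu : ∀ δ, L.IsCusp 1 δ ∨ (∃ i ∈ L.J, L.IsCusp i δ) →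
      pOrd M (q.mul δ).u' (q.mul δ).t' ≤ L.e) :
    rat C q * Polynomial.aeval (L.w C) (L.cuspPoly C) ∈ L.intRing C ∧
      ∀ δ, L.IsCusp 1 δ → serAt C δ (rat C q * Polynomial.aeval (L.w C) (L.cuspPoly C)) *
        al (PowerSeries.X ^ (L.e * (L.J.card + 1))) ∈ (al).range := by
  classical
  have hrat : ∀ δ, pOrd M (q.mul δ).u' (q.mul δ).t' ≤ L.e →
      serAt C δ (rat C q) * al (PowerSeries.X ^ L.e) ∈ (al).range := by
    intro δ hle
    obtain ⟨V, hV⟩ := exists_lead C (q.mul δ).hu' (q.mul δ).ht' (q.mul δ).hne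
    obtain ⟨a, ha⟩ := Nat.exists_eq_add_of_le hle
    refine ⟨(pO C (q.mul δ).u - pO C (q.mul δ).t) * PowerSeries.X ^ a *
      ((V⁻¹ : (PowerSeries O)ˣ) : PowerSeries O), ?_⟩
    rw [serAt_rat, qSer, div_mul_eq_mul_div, eq_div_iff (by
      rw [Ne, map_eq_zero_iff _ (IsFractionRing.injective _ _)]; exact den_ne_zero C _),
      ← map_mul, ← map_mul, hV, ha, pow_add]
    congr 1
    have hVV : ((V⁻¹ : (PowerSeries O)ˣ) : PowerSeries O) * V = 1 := Units.inv_mul V
    simp only [pOrd]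
    linear_combination ((pO C (q.mul δ).u - pO C (q.mul δ).t) * PowerSeries.X ^ a *
      PowerSeries.X ^ min (absRes M (q.mul δ).u'.1) (absRes M (q.mul δ).t'.1)) * hVV
  have hpole : ∀ δ, L.IsCusp 1 δ → serAt C δ (rat C q * Polynomial.aeval (L.w C) (L.cuspPoly C)) *
      al (PowerSeries.X ^ (L.e * (L.J.card + 1))) ∈ (al).range := fun δ hδ => by
    obtain ⟨V, hV⟩ := serAt_cuspPoly_pole L C δ hδ
    rw [show serAt C δ (rat C q * Polynomial.aeval (L.w C) (L.cuspPoly C)) *
        al (PowerSeries.X ^ (L.e * (L.J.card + 1))) =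
        serAt C δ (rat C q) * al (PowerSeries.X ^ L.e) *
          (serAt C δ (Polynomial.aeval (L.w C) (L.cuspPoly C)) *
            al (PowerSeries.X ^ (L.e * L.J.card))) by
      rw [map_mul, Nat.mul_succ, pow_add, map_mul]; ring, hV]
    exact mul_mem (hrat δ (hu δ (Or.inl hδ))) ⟨_, rfl⟩
  refine ⟨⟨mul_mem (rat_mem_holRing C _) (aeval_mem_holRing C _ (rat_mem_holRing C _)),
    fun i hi δ hδ => ?_, fun δ hδ => ⟨_, hpole δ hδ⟩⟩, hpole⟩
  obtain ⟨V, hV⟩ := L.serAt_cuspPoly C hi hδ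
  rw [map_mul, hV, map_mul, ← mul_assoc]
  exact mul_mem (hrat δ (hu δ (Or.inr ⟨i, hi, hδ⟩))) ⟨_, rfl⟩

theorem Lev.sgen_mem {y : lvlField C} (hy : y ∈ L.genSet C) : L.sgen C y ∈ L.intRing C := by
  classical
  obtain ⟨p, rfl⟩ := (L.mem_genSet C).mp hy
  refine (L.rat_mul_cuspPoly C _ fun δ _ => ?_).1
  simp only [Quad.mul, L.pOrd_V]
  split_ifs <;> omega

theorem Lev.sgen_injective : Function.Injective (L.sgen C) := fun a b h => by
  refine mul_right_cancel₀ (fun h0 => ?_) h
  rw [map_eq_zero_iff _ (L.aeval_w_injective C)] at h0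
  exact Finset.prod_ne_zero_iff.mpr (fun i _ => Polynomial.X_sub_C_ne_zero _) h0

/-- Differences of distinct roots are invertible away from the cusps, uniformly. -/
theorem Lev.exists_disc : ∃ D : O[X],
    (∏ p ∈ (L.genSet C).offDiag, (L.sgen C p.1 - L.sgen C p.2)) = Polynomial.aeval (L.w C) D ∧
      ∀ c : O, (∀ i ∈ L.J, IsUnit (c - L.cval C i)) → IsUnit (D.eval c) := by
  classical
  set z := ∏ p ∈ (L.genSet C).offDiag, (L.sgen C p.1 - L.sgen C p.2) with hz
  have hzint : z ∈ L.intRing C := Subring.prod_mem _ fun p hp => by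
    obtain ⟨h1, h2, -⟩ := Finset.mem_offDiag.mp hp
    exact sub_mem (L.sgen_mem C h1) (L.sgen_mem C h2)
  obtain ⟨D, hD⟩ := L.exists_aeval_of_fixed C hzint fun σ => by
    rw [hz, Finset.smul_prod']
    refine Finset.prod_bij' (fun p _ => (σ • p.1, σ • p.2)) (fun p _ => (σ⁻¹ • p.1, σ⁻¹ • p.2))
      (fun p hp => ?_) (fun p hp => ?_) (by simp) (by simp) (fun p _ => ?_)
    · obtain ⟨h1, h2, h3⟩ := Finset.mem_offDiag.mp hp
      exact Finset.mem_offDiag.mpr ⟨L.smul_gen_mem C σ h1, L.smul_gen_mem C σ h2,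
        fun h => h3 (smul_left_cancel σ h)⟩
    · obtain ⟨h1, h2, h3⟩ := Finset.mem_offDiag.mp hp
      exact Finset.mem_offDiag.mpr ⟨L.smul_gen_mem C σ⁻¹ h1, L.smul_gen_mem C σ⁻¹ h2,
        fun h => h3 (smul_left_cancel σ⁻¹ h)⟩
    · simp only [Lev.sgen, smul_sub, smul_mul', L.smul_aeval]
  refine ⟨D, hD, ?_⟩
  -- each factor is a ratio with unit leading coefficient times the cusp factors
  have hfac : ∀ p ∈ (L.genSet C).offDiag, ∃ q : Quad M, ¬ PM M q.u q.t ∧
      L.sgen C p.1 - L.sgen C p.2 = rat C q * Polynomial.aeval (L.w C) (L.cuspPoly C) := by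
    intro p hp
    obtain ⟨h1, h2, h3⟩ := Finset.mem_offDiag.mp hp
    obtain ⟨a, ha⟩ := (L.mem_genSet C).mp h1
    obtain ⟨b, hb⟩ := (L.mem_genSet C).mp h2
    refine ⟨_, fun h => h3 ?_, by
      rw [Lev.sgen, Lev.sgen, ← sub_mul, ← ha, ← hb, L.gen_sub]⟩
    rw [← ha, ← hb]
    exact L.gen_eq_of_pm C h
  -- the zeros of `D`
  have hroot : ∀ r : ℂ, (D.map C.φ).IsRoot r → ∃ i ∈ L.J, r = C.φ (L.cval C i) := by
    intro r hr
    by_contra hno
    push Not at hno
    obtain ⟨τ, hτ⟩ := L.surjective_w C hno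
    let ev := (Pi.evalAlgHom ℂ (fun _ : ℍ => ℂ) τ).comp (modFuns (Gamma M)).val
    have hval : ∀ P : O[X], ∀ f : modFuns (Gamma M), algebraMap _ (WFld M) f =
        ((Polynomial.aeval (L.w C) P : lvlField C) : WFld M) → ev f = (P.map C.φ).eval r := by
      intro P f hf
      rw [L.coe_aeval_w] at hf
      rw [IsFractionRing.injective (modFuns (Gamma M)) (WFld M) hf, ← Polynomial.aeval_algHom_apply,
        Polynomial.coe_aeval_eq_eval]
      congr 1
    choose q hq hqe using hfac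
    let f : modFuns (Gamma M) := ∏ p : (L.genSet C).offDiag,
      ratMF C (q p.1 p.2) * Polynomial.aeval (L.wMF C) ((L.cuspPoly C).map C.φ)
    have hf : algebraMap _ (WFld M) f = ((Polynomial.aeval (L.w C) D : lvlField C) : WFld M) := by
      rw [← hD, hz, ← Finset.prod_coe_sort, show ∀ x : lvlField C, (x : WFld M) =
        (lvlField C).subtype x from fun _ => rfl, map_prod]
      simp only [f, map_prod]
      refine Finset.prod_congr rfl fun p _ => ?_
      rw [hqe p.1 p.2, map_mul, ← L.coe_aeval_w]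
      rfl
    have h0 := hval D f hf
    rw [hr] at h0
    simp only [f, map_prod, Finset.prod_eq_zero_iff] at h0
    obtain ⟨p, -, hp⟩ := h0
    rw [map_mul, mul_eq_zero] at hp
    rcases hp with hp | hp
    · refine div_ne_zero (wpDiff_ne_zero (q p.1 p.2).hu (q p.1 p.2).ht (hq p.1 p.2) τ)
        (wpDiff_ne_zero (q p.1 p.2).hu' (q p.1 p.2).ht' (q p.1 p.2).hne τ) hp
    · rw [hval (L.cuspPoly C) _ (L.coe_aeval_w C _).symm, Lev.cuspPoly, Polynomial.map_prod,
        Polynomial.eval_prod, Finset.prod_eq_zero_iff] at hp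
      obtain ⟨i, hi, hp⟩ := hp
      simp [sub_eq_zero] at hp
      exact hno i hi hp
  -- the leading coefficient
  have hlead : ∀ S ⊆ (L.genSet C).offDiag, ∃ (a b : ℕ) (V : (PowerSeries O)ˣ),
      serAt C (cuspMat 1) (∏ p ∈ S, (L.sgen C p.1 - L.sgen C p.2)) * al (PowerSeries.X ^ a) =
        al (PowerSeries.X ^ b * (V : PowerSeries O)) := by
    intro S
    induction S using Finset.induction with
    | empty => exact fun _ => ⟨0, 0, 1, by simp⟩
    | insert p S hp ih =>
      intro hS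
      rw [Finset.insert_subset_iff] at hS
      obtain ⟨a, b, V, hV⟩ := ih hS.2
      obtain ⟨q, hq, hqe⟩ := hfac p hS.1
      obtain ⟨U, hU⟩ := exists_qSer_eq C (q.mul (cuspMat 1)) fun h => hq ((pm_rowMul_iff _).mp h)
      obtain ⟨W, hW⟩ := serAt_cuspPoly_pole L C _ (L.isCusp_cuspMat 1 L.valid1)
      refine ⟨pOrd M (q.mul (cuspMat 1)).u' (q.mul (cuspMat 1)).t' + L.e * L.J.card + a,
        pOrd M (q.mul (cuspMat 1)).u (q.mul (cuspMat 1)).t + b, U * W * V, ?_⟩
      rw [Finset.prod_insert hp, map_mul, pow_add, map_mul, mul_mul_mul_comm, hV, hqe, map_mul,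
        serAt_rat, pow_add, map_mul, mul_mul_mul_comm, hU, hW, ← map_mul, ← map_mul]
      congr 1
      push_cast
      ring
  obtain ⟨a, b, V, hV⟩ := hlead _ subset_rfl
  rw [← hz, hD] at hV
  have hD0 : D ≠ 0 := by
    rintro rfl
    rw [map_zero, map_zero, zero_mul, eq_comm,
      map_eq_zero_iff _ (IsFractionRing.injective _ _)] at hV
    exact mul_ne_zero (pow_ne_zero _ PowerSeries.X_ne_zero) V.ne_zero hV
  have hlc : IsUnit D.leadingCoeff := by
    obtain ⟨g, u, hu, hg, hgc⟩ := L.serAt_aeval_pole C D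
    set n := L.e * D.natDegree
    have h1 : al (g * PowerSeries.X ^ a) = al (PowerSeries.X ^ (b + n) * (V : PowerSeries O)) := by
      rw [map_mul, ← hg, mul_right_comm, hV, pow_add, map_mul, map_mul, map_mul]; ring
    have h2 := IsFractionRing.injective _ _ h1
    rcases lt_trichotomy a (b + n) with h | h | h
    · have h3 := congrArg (PowerSeries.coeff a) h2
      rw [PowerSeries.coeff_mul_X_pow', if_pos le_rfl, Nat.sub_self, PowerSeries.coeff_X_pow_mul',
        if_neg (by omega), PowerSeries.coeff_zero_eq_constantCoeff, hgc, mul_eq_zero,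
        Polynomial.leadingCoeff_eq_zero] at h3
      rcases h3 with h3 | h3
      · exact absurd h3 hD0
      · exact absurd h3 hu.ne_zero
    · have h3 := congrArg (PowerSeries.coeff a) h2
      rw [PowerSeries.coeff_mul_X_pow', if_pos le_rfl, Nat.sub_self, PowerSeries.coeff_X_pow_mul',
        if_pos h.ge, h, Nat.sub_self, PowerSeries.coeff_zero_eq_constantCoeff, hgc] at h3
      exact isUnit_of_mul_isUnit_left (h3 ▸ PowerSeries.isUnit_constantCoeff _ V.isUnit)
    · have h3 := congrArg (PowerSeries.coeff (b + n)) h2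
      rw [PowerSeries.coeff_mul_X_pow', if_neg (by omega), PowerSeries.coeff_X_pow_mul',
        if_pos le_rfl, Nat.sub_self, PowerSeries.coeff_zero_eq_constantCoeff] at h3
      exact absurd h3.symm (PowerSeries.isUnit_constantCoeff _ V.isUnit).ne_zero
  intro c hc
  have hroot' : ∀ r : (D.map C.φ).roots.toFinset, ∃ i ∈ L.J, (r : ℂ) = C.φ (L.cval C i) := fun r =>
    hroot r (Polynomial.isRoot_of_mem_roots (Multiset.mem_toFinset.mp r.2))
  choose idx hidx hidxe using hroot'
  have heval : D.eval c = D.leadingCoeff *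
      ((D.map C.φ).roots.attach.map fun r =>
        c - L.cval C (idx ⟨r.1, Multiset.mem_toFinset.mpr r.2⟩)).prod := by
    apply C.inj
    rw [map_mul, map_multiset_prod, Multiset.map_map, ← Polynomial.eval₂_at_apply,
      ← Polynomial.eval_map]
    nth_rewrite 1 [(IsAlgClosed.splits (D.map C.φ)).eq_prod_roots]
    rw [Polynomial.eval_mul, Polynomial.eval_C, Polynomial.leadingCoeff_map_of_injective C.inj,
      Polynomial.eval_multiset_prod, Multiset.map_map, ← Multiset.attach_map_val' (D.map C.φ).roots]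
    congr 2
    refine Multiset.map_congr rfl fun r _ => ?_
    simp [← hidxe ⟨r.1, Multiset.mem_toFinset.mpr r.2⟩]
  rw [heval]
  refine hlc.mul (Submonoid.multiset_prod_mem (IsUnit.submonoid O) _ fun x hx => ?_)
  obtain ⟨r, -, rfl⟩ := Multiset.mem_map.mp hx
  exact hc _ (hidx _)

end Fermat.Agent.GalRep.Model
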