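/-
Sheets of the level field over a point of the special line away from the cusps.
-/
import Fermat.Agent.GalRep.Model.IntegralFuns

set_option autoImplicit false

noncomputable section

namespace Fermat.Agent.GalRep.Model

open UpperHalfPlane CongruenceSubgroup Polynomial IsLocalRing
open scoped MatrixGroups

section Hensel

variable {O : Type*} [CommRing O] [IsDomain O] [IsLocalRing O]

theorem constantCoeff_aeval_shift (c : O) (P : O[X]) :
    PowerSeries.constantCoeff (Polynomial.aeval (PowerSeries.C c + PowerSeries.X) P) = P.eval c := by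
  induction P using Polynomial.induction_on' with
  | add p q hp hq => simp [hp, hq]
  | monomial n a => simp [Polynomial.aeval_monomial, PowerSeries.algebraMap_apply]

omit [IsLocalRing O] in
theorem aeval_shift_injective (c : O) : Function.Injective
    (Polynomial.aeval (R := O) (PowerSeries.C c + PowerSeries.X : PowerSeries O)) := by
  have h : ∀ P : O[X], Polynomial.aeval (PowerSeries.C c + PowerSeries.X : PowerSeries O) P =
      ((Polynomial.taylor c P : O[X]) : PowerSeries O) := by
    intro P
    induction P using Polynomial.induction_on' with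
    | add p q hp hq => simp [hp, hq]
    | monomial n a =>
      simp [Polynomial.aeval_monomial, Polynomial.taylor_monomial, PowerSeries.algebraMap_apply,
        add_comm]
  intro P Q hPQ
  rw [h, h] at hPQ
  exact Polynomial.taylor_injective c (Polynomial.coe_inj.mp hPQ)

/-- A polynomial over the series ring, separable modulo the maximal ideal, has all its roots in
the series ring, with distinct residues. -/
theorem exists_roots_of_separable [IsAdicComplete (maximalIdeal O) O]
    [IsAlgClosed (ResidueField O)] (f : (PowerSeries O)[X]) (hf : f.Monic)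
    (hsep : (f.map ((residue O).comp (PowerSeries.constantCoeff (R := O)))).Separable) :
    (f.map (algebraMap (PowerSeries O) (SeriesField O))).Splits ∧
      ∀ x x' : SeriesField O, (f.map (algebraMap (PowerSeries O) (SeriesField O))).IsRoot x →
        (f.map (algebraMap (PowerSeries O) (SeriesField O))).IsRoot x' → x ≠ x' →
        ∃ g g' : PowerSeries O, x = algebraMap (PowerSeries O) (SeriesField O) g ∧
          x' = algebraMap (PowerSeries O) (SeriesField O) g' ∧
          residue O (PowerSeries.constantCoeff g) ≠ residue O (PowerSeries.constantCoeff g') := by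
  classical
  set ρ := (residue O).comp (PowerSeries.constantCoeff (R := O)) with hρ
  set al := algebraMap (PowerSeries O) (SeriesField O)
  set fb := f.map ρ with hfb
  have hfb1 : fb.Monic := hf.map ρ
  have hlift : ∀ a : fb.roots.toFinset, ∃ y : PowerSeries O, f.IsRoot y ∧ ρ y = a := by
    rintro ⟨a, ha⟩
    rw [Multiset.mem_toFinset, Polynomial.mem_roots hfb1.ne_zero, Polynomial.IsRoot] at ha
    obtain ⟨o, rfl⟩ := residue_surjective a
    set f0 := f.map (PowerSeries.constantCoeff (R := O)) with hf0
    have hfb0 : fb = f0.map (residue O) := by rw [hfb, hf0, hρ, Polynomial.map_map]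
    have hd : residue O (f0.derivative.eval o) ≠ 0 := by
      have := (hsep.eval₂_derivative_ne_zero (RingHom.id _) (x := residue O o) (by
        simpa [Polynomial.eval₂_id] using ha))
      rw [Polynomial.eval₂_id, hfb0, Polynomial.derivative_map, Polynomial.eval_map,
        Polynomial.eval₂_at_apply] at this
      exact this
    rw [hfb0, Polynomial.eval_map, Polynomial.eval₂_at_apply] at ha
    obtain ⟨r, hr, hro⟩ := HenselianRing.is_henselian (I := maximalIdeal O) f0 (hf.map _) o
      ((residue_eq_zero_iff _).mp ha) ((residue_ne_zero_iff_isUnit _ |>.mp hd).map _)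
    have hres : residue O r = residue O o := by
      rw [← sub_eq_zero, ← map_sub, residue_eq_zero_iff]; exact hro
    have hd' : IsUnit (f0.derivative.eval r) := by
      rw [← residue_ne_zero_iff_isUnit] at *
      rw [← Polynomial.eval₂_at_apply, hres, Polynomial.eval₂_at_apply]
      exact hd
    have hcc : ∀ P : (PowerSeries O)[X], PowerSeries.constantCoeff (P.eval (PowerSeries.C r)) =
        (P.map (PowerSeries.constantCoeff (R := O))).eval r := fun P => by
      rw [Polynomial.eval_map, ← Polynomial.eval₂_at_apply, PowerSeries.constantCoeff_C]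
    obtain ⟨y, hy, hy'⟩ := HenselianRing.is_henselian
      (I := Ideal.span {(PowerSeries.X : PowerSeries O)}) f hf (PowerSeries.C r)
      (Ideal.mem_span_singleton.mpr (PowerSeries.X_dvd_iff.mpr ((hcc f).trans hr)))
      ((PowerSeries.isUnit_iff_constantCoeff.mpr (by
        rw [hcc, ← Polynomial.derivative_map]; exact hd')).map _)
    refine ⟨y, hy, ?_⟩
    have h1 := PowerSeries.X_dvd_iff.mp (Ideal.mem_span_singleton.mp hy')
    rw [map_sub, PowerSeries.constantCoeff_C, sub_eq_zero] at h1
    rw [hρ, RingHom.comp_apply, h1, hres]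
  choose Y hY hYa using hlift
  have hinj : Function.Injective fun a => al (Y a) := fun a b hab =>
    Subtype.ext (by rw [← hYa a, ← hYa b, IsFractionRing.injective _ _ hab])
  have hmem : ∀ a, al (Y a) ∈ (f.map al).roots := fun a =>
    (Polynomial.mem_roots (hf.map al).ne_zero).mpr ((hY a).map)
  have hcard : fb.roots.toFinset.card = f.natDegree := by
    rw [Multiset.toFinset_card_of_nodup (Polynomial.nodup_roots hsep),
      ← (IsAlgClosed.splits fb).natDegree_eq_card_roots, hfb, hf.natDegree_map]
  have hsub : Finset.univ.image (fun a => al (Y a)) ⊆ (f.map al).roots.toFinset := fun x hx => by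
    obtain ⟨a, -, rfl⟩ := Finset.mem_image.mp hx
    exact Multiset.mem_toFinset.mpr (hmem a)
  have hc1 : (Finset.univ.image fun a => al (Y a)).card = f.natDegree := by
    rw [Finset.card_image_of_injective _ hinj, Finset.card_univ, Fintype.card_coe, hcard]
  have hc2 : Multiset.card (f.map al).roots ≤ (f.map al).natDegree := Polynomial.card_roots' _
  have hc3 := (f.map al).roots.toFinset_card_le
  have hc4 := Finset.card_le_card hsub
  rw [hf.natDegree_map] at hc2
  have heq := Finset.eq_of_subset_of_card_le hsub (by omega)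
  refine ⟨Polynomial.splits_iff_card_roots.mpr (by rw [hf.natDegree_map]; omega),
    fun x x' hx hx' hne => ?_⟩
  have hex : ∀ z, (f.map al).IsRoot z → ∃ a, al (Y a) = z := fun z hz => by
    have : z ∈ Finset.univ.image fun a => al (Y a) := by
      rw [heq, Multiset.mem_toFinset, Polynomial.mem_roots (hf.map al).ne_zero]; exact hz
    obtain ⟨a, -, ha⟩ := Finset.mem_image.mp this
    exact ⟨a, ha⟩
  obtain ⟨a, rfl⟩ := hex x hx
  obtain ⟨a', rfl⟩ := hex x' hx'
  refine ⟨_, _, rfl, rfl, fun h => hne ?_⟩
  have ha := hYa a; have ha' := hYa a'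
  rw [hρ, RingHom.comp_apply] at ha ha'
  rw [Subtype.ext (ha.symm.trans (h.trans ha'))]

/-- A polynomial whose roots upstairs differ by elements outside a maximal ideal is separable
modulo the maximal ideal below. -/
theorem separable_map_of_integral {R S k : Type*} [CommRing R] [CommRing S] [Field k] (ev : R →+* k)
    (hev : Function.Surjective ev) (η : R →+* S) (hη : Function.Injective η) (hint : η.IsIntegral)
    (P : R[X]) {ι : Type*} [DecidableEq ι] (s : Finset ι) (a : ι → S)
    (hP : P.map η = ∏ i ∈ s, (Polynomial.X - Polynomial.C (a i))) (D : R)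
    (hD : η D = ∏ p ∈ s.offDiag, (a p.1 - a p.2)) (hD0 : ev D ≠ 0) : (P.map ev).Separable := by
  letI := η.toAlgebra
  haveI : Algebra.IsIntegral R S := ⟨hint⟩
  haveI : (RingHom.ker ev).IsMaximal := RingHom.ker_isMaximal_of_surjective ev hev
  obtain ⟨Q, hQ, hQI⟩ := Ideal.exists_ideal_over_maximal_of_isIntegral (S := S) (RingHom.ker ev)
    (fun r hr => by rw [hη ((RingHom.mem_ker.mp hr).trans (map_zero η).symm)]; exact zero_mem _)
  haveI := hQ
  have hmem : ∀ r, η r ∈ Q ↔ ev r = 0 := fun r => by
    rw [← RingHom.mem_ker, ← hQI]; rfl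
  obtain ⟨K, _, ψ, hψ⟩ : ∃ (K : Type _) (_ : Field K) (ψ : S →+* K), ∀ x, ψ x = 0 ↔ x ∈ Q :=
    ⟨S ⧸ Q, Ideal.Quotient.field Q, Ideal.Quotient.mk Q, fun _ => Ideal.Quotient.eq_zero_iff_mem⟩
  let θ : k →+* K := (ev.liftOfRightInverse (Function.surjInv hev) (Function.surjInv_eq hev))
    ⟨ψ.comp η, fun r hr => (hψ _).mpr ((hmem r).mpr hr)⟩
  have hθ : θ.comp ev = ψ.comp η := RingHom.liftOfRightInverse_comp ev _ _ _
  rw [← Polynomial.separable_map θ, Polynomial.map_map, hθ, ← Polynomial.map_map, hP,
    Polynomial.map_prod]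
  simp only [Polynomial.map_sub, Polynomial.map_X, Polynomial.map_C]
  rw [Polynomial.separable_prod_X_sub_C_iff']
  intro x hx y hy hxy
  by_contra hne
  refine hD0 ((hmem D).mp ((hψ _).mp ?_))
  rw [hD, map_prod]
  exact Finset.prod_eq_zero (i := (x, y)) (Finset.mem_offDiag.mpr ⟨hx, hy, hne⟩)
    (by rw [map_sub]; exact sub_eq_zero.mpr hxy)

end Hensel

variable {M : ℕ} [NeZero M] (L : Lev M) {O : Type*} [CommRing O] [IsDomain O]
  [IsDiscreteValuationRing O] (C : Cyc O M)

omit [IsDiscreteValuationRing O] in
/-- The family generates. -/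
theorem Lev.subfield_eq_top (S : Subfield (lvlField C))
    (ha : ∀ a : O, algebraMap O (lvlField C) a ∈ S) (hg : ∀ y ∈ L.genSet C, y ∈ S) : S = ⊤ := by
  have hrat : ∀ q : Quad M, rat C q ∈ S := fun q => by
    have hmem : ∀ {u : ℤ × ℤ} (hu : NZ M u), L.gen C (classOf hu) ∈ S := fun hu =>
      hg _ ((L.mem_genSet C).mpr ⟨_, rfl⟩)
    have hq : rat C q = (L.gen C (classOf q.hu) - L.gen C (classOf q.ht)) /
        (L.gen C (classOf q.hu') - L.gen C (classOf q.ht')) := by
      have hne : ¬ PM M (L.V 1) (L.V 0) := L.not_pm L.valid1 L.valid0 (by decide)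
      rw [L.gen_sub, L.gen_sub,
        rat_congr C (q := ⟨repVec (classOf q.hu), repVec (classOf q.ht), L.V 1, L.V 0,
          nz_repVec _, nz_repVec _, L.nz_V 1, L.nz_V 0, hne⟩)
          (q' := ⟨q.u, q.t, L.V 1, L.V 0, q.hu, q.ht, L.nz_V 1, L.nz_V 0, hne⟩)
          (pm_classOf q.hu).symm (pm_classOf q.ht).symm (PM.refl _) (PM.refl _),
        rat_congr C (q := ⟨repVec (classOf q.hu'), repVec (classOf q.ht'), L.V 1, L.V 0,
          nz_repVec _, nz_repVec _, L.nz_V 1, L.nz_V 0, hne⟩)
          (q' := ⟨q.u', q.t', L.V 1, L.V 0, q.hu', q.ht', L.nz_V 1, L.nz_V 0, hne⟩)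
          (pm_classOf q.hu').symm (pm_classOf q.ht').symm (PM.refl _) (PM.refl _)]
      set b : Quad M := ⟨q.u', q.t', L.V 1, L.V 0, q.hu', q.ht', L.nz_V 1, L.nz_V 0, hne⟩
      have hb : ∀ τ, b.fn τ ≠ 0 := fun τ => div_ne_zero (wpDiff_ne_zero q.hu' q.ht' q.hne τ)
        (wpDiff_ne_zero (L.nz_V 1) (L.nz_V 0) hne τ)
      rw [eq_div_iff fun h => hb UpperHalfPlane.I (congrArg
        (fun f : modFuns (Gamma M) => (f : ℍ → ℂ) UpperHalfPlane.I)
        (IsFractionRing.injective (modFuns (Gamma M)) (WFld M) (a₁ := ratMF C b) (a₂ := 0)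
          (by rw [map_zero]; exact congrArg Subtype.val h)))]
      refine Subtype.ext ?_
      show algebraMap _ (WFld M) (ratMF C q) * algebraMap _ (WFld M) (ratMF C b) =
        algebraMap _ (WFld M) (ratMF C _)
      rw [← map_mul]
      congr 1
      refine Subtype.ext (funext fun τ => ?_)
      have h1 := wpDiff_ne_zero q.hu' q.ht' q.hne τ
      have h2 := wpDiff_ne_zero (L.nz_V 1) (L.nz_V 0) hne τ
      show wpDiff M q.u q.t τ / wpDiff M q.u' q.t' τ *
          (wpDiff M q.u' q.t' τ / wpDiff M (L.V 1) (L.V 0) τ) =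
        wpDiff M q.u q.t τ / wpDiff M (L.V 1) (L.V 0) τ
      field_simp
    rw [hq]
    exact div_mem (sub_mem (hmem _) (hmem _)) (sub_mem (hmem _) (hmem _))
  have hle : lvlField C ≤ S.map (lvlField C).subtype := by
    conv_lhs => rw [lvlField]
    rw [Subfield.closure_le]
    rintro _ (⟨a, rfl⟩ | ⟨q, rfl⟩)
    · exact ⟨_, ha a, rfl⟩
    · exact ⟨_, hrat q, rfl⟩
  refine eq_top_iff.mpr fun x _ => ?_
  obtain ⟨y, hy, hyx⟩ := hle x.2
  rwa [← Subtype.ext hyx]

omit [IsDiscreteValuationRing O] in
theorem Lev.aeval_cuspPoly_ne_zero : Polynomial.aeval (L.w C) (L.cuspPoly C) ≠ 0 := by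
  rw [Ne, map_eq_zero_iff _ (L.aeval_w_injective C)]
  exact Finset.prod_ne_zero_iff.mpr fun i _ => Polynomial.X_sub_C_ne_zero _

omit [IsDiscreteValuationRing O] in
theorem Lev.gal_eq_of_smul_eq {σ σ' : L.gal C}
    (h : ∀ y : lvlField C, y ∈ L.genSet C → σ • y = σ' • y) : σ = σ' := by
  refine FaithfulSMul.eq_of_smul_eq_smul fun x : lvlField C => ?_
  have := L.subfield_eq_top C (RingHom.eqLocusField (MulSemiringAction.toRingHom (L.gal C) (lvlField C) σ)
    (MulSemiringAction.toRingHom (L.gal C) (lvlField C) σ')) (fun a => by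
      show σ • algebraMap O (lvlField C) a = σ' • algebraMap O (lvlField C) a
      rw [L.smul_algebraMap, L.smul_algebraMap]) h
  exact this.ge (Subfield.mem_top x)

omit [IsDiscreteValuationRing O] in
/-- The equation of the family. -/
theorem Lev.exists_genPoly : ∃ P0 : O[X][X], P0.Monic ∧
    P0.map (Polynomial.aeval (L.w C) : O[X] →ₐ[O] lvlField C).toRingHom =
      ∏ y ∈ L.genSet C, (Polynomial.X - Polynomial.C (L.sgen C y)) := by
  classical
  set P := ∏ y ∈ L.genSet C, (Polynomial.X - Polynomial.C (L.sgen C y)) with hP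
  have hint : P ∈ Polynomial.lifts (L.intRing C).subtype :=
    Subsemiring.prod_mem _ fun y hy => ⟨Polynomial.X - Polynomial.C ⟨_, L.sgen_mem C hy⟩, by simp⟩
  have hfix : ∀ σ : L.gal C, σ • P = P := fun σ => by
    rw [hP, Finset.smul_prod']
    refine Finset.prod_bij' (fun y _ => σ • y) (fun y _ => σ⁻¹ • y)
      (fun y hy => L.smul_gen_mem C σ hy) (fun y hy => L.smul_gen_mem C σ⁻¹ hy)
      (fun y _ => inv_smul_smul σ y) (fun y _ => smul_inv_smul σ y) (fun y _ => ?_)
    simp [smul_sub, Lev.sgen, smul_mul', L.smul_aeval]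
  have hl : P ∈ Polynomial.lifts (Polynomial.aeval (L.w C) : O[X] →ₐ[O] lvlField C).toRingHom := by
    rw [Polynomial.lifts_iff_coeff_lifts]
    intro k
    obtain ⟨z, hz⟩ := (Polynomial.lifts_iff_coeff_lifts _).mp hint k
    obtain ⟨Q, hQ⟩ := L.exists_aeval_of_fixed C (y := P.coeff k) (hz ▸ z.2) fun σ => by
      conv_rhs => rw [← hfix σ]
      rfl
    exact ⟨Q, hQ.symm⟩
  obtain ⟨Q, hQ, -, hQm⟩ := Polynomial.lifts_and_natDegree_eq_and_monic hl
    (Polynomial.monic_prod_of_monic _ _ fun y _ => Polynomial.monic_X_sub_C _)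
  exact ⟨Q, hQm, hQ⟩

/-- The sheets over a point away from the cusps. -/
theorem Lev.exists_noncusp [IsAdicComplete (maximalIdeal O) O] [IsAlgClosed (ResidueField O)]
    (c : O) (hc : ∀ i ∈ L.J, IsUnit (c - L.cval C i)) :
    ∃ D : SheetData (L.w C) c, Nat.card (L.gal C) ≤ ∑ j, D.e j ∧
      ∀ j, D.ι j (L.w C) = algebraMap (PowerSeries O) (SeriesField O)
        (PowerSeries.C c + PowerSeries.X) := by
  classical
  set w := L.w C
  set φc : O[X] →+* PowerSeries O :=
    (Polynomial.aeval (PowerSeries.C c + PowerSeries.X : PowerSeries O)).toRingHom with hφc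
  set al := algebraMap (PowerSeries O) (SeriesField O)
  obtain ⟨P0, hP0, hP0e⟩ := L.exists_genPoly C
  obtain ⟨D0, hD0, hD0u⟩ := L.exists_disc C
  have hcomp : (Polynomial.aeval w : O[X] →ₐ[O] lvlField C).toRingHom =
      (chartRing O w).val.toRingHom.comp
        (Polynomial.aeval (R := O) (⟨w, self_mem_chartRing w⟩ : chartRing O w)).toRingHom :=
    RingHom.ext fun P => (coe_polyVal w P).symm
  -- separability at `c`
  set ev : O[X] →+* ResidueField O := (residue O).comp (Polynomial.evalRingHom c) with hev
  have hρ : ((residue O).comp (PowerSeries.constantCoeff (R := O))).comp φc = ev :=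
    RingHom.ext fun P => congrArg (residue O) (constantCoeff_aeval_shift c P)
  have hsepk : (P0.map ev).Separable := by
    refine separable_map_of_integral ev (fun a => ?_)
      (Polynomial.aeval (R := O) (⟨w, self_mem_chartRing w⟩ : chartRing O w)).toRingHom
      (fun P Q h => L.aeval_w_injective C ?_) (fun x => ?_) P0 (L.genSet C)
      (fun y => if hy : y ∈ L.genSet C then ⟨L.sgen C y, L.mem_chartRing C (L.sgen_mem C hy)⟩
        else 0) ?_ D0 ?_ ((residue_ne_zero_iff_isUnit _).mpr (hD0u c hc))
    · obtain ⟨o, rfl⟩ := residue_surjective a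
      exact ⟨Polynomial.C o, by simp [hev]⟩
    · exact (coe_polyVal w P).symm.trans ((congrArg Subtype.val h).trans (coe_polyVal w Q))
    · obtain ⟨P, hP, hPs⟩ := (isIntegral_adjoin_iff (O := O) w (x : lvlField C)).mp
        (mem_chartRing_iff.mp x.2)
      refine ⟨P, hP, Subtype.val_injective ?_⟩
      show (chartRing O w).val.toRingHom (P.eval₂ _ x) = 0
      rw [Polynomial.hom_eval₂, ← hcomp]
      exact hPs
    · apply Polynomial.map_injective (chartRing O w).val.toRingHom Subtype.val_injective
      rw [Polynomial.map_map, ← hcomp, hP0e, Polynomial.map_prod]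
      refine Finset.prod_congr rfl fun y hy => ?_
      simp [dif_pos hy]
    · refine Subtype.val_injective ((coe_polyVal w D0).trans ?_)
      rw [← hD0]
      show _ = (chartRing O w).val.toRingHom _
      rw [map_prod]
      refine Finset.prod_congr rfl fun p hp => ?_
      obtain ⟨h1, h2, -⟩ := Finset.mem_offDiag.mp hp
      simp [dif_pos h1, dif_pos h2]
  obtain ⟨hspl, hroots⟩ := exists_roots_of_separable (P0.map φc) (hP0.map φc)
    (by rwa [Polynomial.map_map, hρ])
  -- the embedding
  have hinj : Function.Injective (al.comp φc) :=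
    (IsFractionRing.injective _ _).comp (aeval_shift_injective c)
  letI : Algebra O[X] (lvlField C) := (Polynomial.aeval w).toRingHom.toAlgebra
  letI : Algebra (FractionRing O[X]) (lvlField C) :=
    (IsFractionRing.lift (g := (Polynomial.aeval (R := O) w).toRingHom)
      (L.aeval_w_injective C)).toAlgebra
  letI : Algebra (FractionRing O[X]) (SeriesField O) :=
    (IsFractionRing.lift (g := al.comp φc) hinj).toAlgebra
  set K := FractionRing O[X]
  have hKF : ∀ P : O[X], algebraMap K (lvlField C) (algebraMap O[X] K P) = Polynomial.aeval w P :=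
    fun P => IsFractionRing.lift_algebraMap (g := (Polynomial.aeval (R := O) w).toRingHom)
      (L.aeval_w_injective C) P
  have hKS : ∀ P : O[X], algebraMap K (SeriesField O) (algebraMap O[X] K P) = al (φc P) :=
    fun P => IsFractionRing.lift_algebraMap (g := al.comp φc) hinj P
  have hroot0 : ∀ y ∈ L.genSet C,
      ((P0.map (algebraMap O[X] K)).map (algebraMap K (lvlField C))).IsRoot (L.sgen C y) := by
    intro y hy
    rw [Polynomial.map_map, show (algebraMap K (lvlField C)).comp (algebraMap O[X] K) =
      (Polynomial.aeval w : O[X] →ₐ[O] lvlField C).toRingHom from RingHom.ext hKF, hP0e,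
      Polynomial.IsRoot, Polynomial.eval_prod]
    exact Finset.prod_eq_zero hy (by simp)
  have hmapS : (P0.map (algebraMap O[X] K)).map (algebraMap K (SeriesField O)) =
      (P0.map φc).map al := by
    rw [Polynomial.map_map, Polynomial.map_map]
    exact congrArg P0.map (RingHom.ext hKS)
  have hgen : IntermediateField.adjoin K
      ((L.genSet C).image (L.sgen C) : Set (lvlField C)) = ⊤ := by
    set E := IntermediateField.adjoin K ((L.genSet C).image (L.sgen C) : Set (lvlField C))
    have hK : ∀ P : O[X], Polynomial.aeval w P ∈ E := fun P => hKF P ▸ E.algebraMap_mem _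
    have := L.subfield_eq_top C E.toSubfield
      (fun a => by simpa using hK (Polynomial.C a)) fun y hy => by
      have h2 : L.sgen C y ∈ E :=
        IntermediateField.subset_adjoin _ _ (Finset.mem_coe.mpr (Finset.mem_image_of_mem _ hy))
      have : y = L.sgen C y / Polynomial.aeval w (L.cuspPoly C) := by
        rw [Lev.sgen, mul_div_cancel_right₀ _ (L.aeval_cuspPoly_ne_zero C)]
      rw [this]
      exact div_mem (show L.sgen C y ∈ E.toSubfield from h2) (hK _)
    exact IntermediateField.toSubfield_injective (this.trans IntermediateField.top_toSubfield.symm)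
  obtain ⟨φ⟩ := IntermediateField.nonempty_algHom_of_adjoin_splits (K := SeriesField O)
    (fun s hs => by
      obtain ⟨y, hy, rfl⟩ := Finset.mem_image.mp (Finset.mem_coe.mp hs)
      have hr := hroot0 y hy
      refine ⟨⟨P0.map (algebraMap O[X] K), hP0.map _, by rwa [← Polynomial.eval_map]⟩, ?_⟩
      have h1 : minpoly K (L.sgen C y) ∣ P0.map (algebraMap O[X] K) :=
        minpoly.dvd _ _ (by rwa [Polynomial.aeval_def, ← Polynomial.eval_map])
      refine Polynomial.Splits.of_dvd (hmapS ▸ hspl) ?_ (Polynomial.map_dvd _ h1)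
      exact ((hP0.map _).map _).ne_zero) hgen
  let ι0 : lvlField C →+* SeriesField O := φ.toRingHom
  have hι0 : ∀ P, ι0 (Polynomial.aeval w P) = al (φc P) := fun P => by
    rw [← hKF, ← hKS]; exact φ.commutes _
  let g := (Finite.equivFin (L.gal C)).symm
  let ι : Fin (Nat.card (L.gal C)) → lvlField C →+* SeriesField O := fun j =>
    ι0.comp (MulSemiringAction.toRingHom (L.gal C) (lvlField C) (g j))
  have hιw : ∀ j, ι j w = al (PowerSeries.C c + PowerSeries.X) := fun j => by
    show ι0 ((g j) • w) = _
    rw [L.smul_w]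
    simpa [hφc] using hι0 Polynomial.X
  have hιO : ∀ j a, ι j (algebraMap O (lvlField C) a) = al (PowerSeries.C a) := fun j a => by
    show ι0 ((g j) • _) = _
    rw [L.smul_algebraMap]
    simpa [hφc, PowerSeries.algebraMap_apply] using hι0 (Polynomial.C a)
  refine ⟨{ r := Nat.card (L.gal C), e := fun _ => 1, e_pos := fun _ => one_pos, r_pos := Nat.card_pos,
            unit := fun _ => 1, ι := ι, ι_O := hιO,
            ι_w := fun j => by rw [hιw]; simp [al],
            sep := ?_, unif := fun j h => absurd h (lt_irrefl 1) }, by simp, hιw⟩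
  intro i j hij
  obtain ⟨y, hy, hne⟩ : ∃ y ∈ L.genSet C, g i • y ≠ g j • y := by
    by_contra h
    push Not at h
    exact hij (g.injective (L.gal_eq_of_smul_eq C h))
  have hval : ∀ k, ι k (L.sgen C y) = ι0 (L.sgen C (g k • y)) := fun k => by
    show ι0 (g k • L.sgen C y) = _
    rw [Lev.sgen, smul_mul', L.smul_aeval]; rfl
  have hisroot : ∀ k, ((P0.map φc).map al).IsRoot (ι k (L.sgen C y)) := fun k => by
    rw [hval, ← hmapS, Polynomial.IsRoot, Polynomial.eval_map, ← φ.comp_algebraMap]
    show Polynomial.eval₂ (ι0.comp (algebraMap K (lvlField C))) (ι0 _) _ = 0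
    rw [← Polynomial.hom_eval₂, ← Polynomial.eval_map, hroot0 _ (L.smul_gen_mem C _ hy), map_zero]
  obtain ⟨a, a', ha, ha', hres⟩ := hroots _ _ (hisroot i) (hisroot j)
    (by rw [hval, hval]; exact fun h => hne (L.sgen_injective C (ι0.injective h)))
  exact ⟨_, L.mem_chartRing C (L.sgen_mem C hy), a, a', ha, ha', hres⟩

end Fermat.Agent.GalRep.Model
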