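/-
Functions of the level with algebraic series coefficients lie in the level field over a number
field.
-/
import Fermat.Agent.GalRep.Model.SheetsNoncusp

set_option autoImplicit false

noncomputable section

namespace Fermat.Agent.GalRep.Model

open UpperHalfPlane CongruenceSubgroup Polynomial
open scoped MatrixGroups

variable {M : ℕ} [NeZero M]

local notation "Q̄" => AlgebraicClosure ℚ

/-- Complex coefficients. -/
def cycComplex (M : ℕ) [NeZero M] : Cyc ℂ M :=
  ⟨RingHom.id ℂ, Function.injective_id, zetaC M, rfl, (Nat.cast_ne_zero.mpr (NeZero.ne M)).isUnit⟩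

theorem wShift_neg (g : SL(2, ℤ)) (x : WFld M) : wShift (-g) x = wShift g x := by
  obtain ⟨a, b, -, rfl⟩ := IsFractionRing.div_surjective (A := modFuns (Gamma M)) x
  simp only [map_div₀, wShift_algebraMap, shift_neg]

theorem algebraMap_cst_mem (c : ℂ) :
    algebraMap (modFuns (Gamma M)) (WFld M) (algebraMap ℂ _ c) ∈ lvlField (cycComplex M) :=
  cstW_mem (cycComplex M) c

/-- The automorphisms of the whole field over `w`. -/
def Lev.wHom (L : Lev M) : Gamma L.m →* RingAut (WFld M) where
  toFun γ := wShift (γ : SL(2, ℤ))⁻¹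
  map_one' := RingEquiv.ext fun x => by rw [OneMemClass.coe_one, inv_one, wShift_one]; rfl
  map_mul' γ δ := RingEquiv.ext fun x => by
    show wShift _ x = wShift _ (wShift _ x)
    rw [wShift_wShift, Subgroup.coe_mul, mul_inv_rev]

variable (L : Lev M)

instance Lev.finite_wGal : Finite L.wHom.range := by
  classical
  haveI : (Gamma M).Normal := Gamma_normal M
  haveI : Finite (SL(2, ℤ) ⧸ Gamma M) := Subgroup.finite_quotient_of_finiteIndex
  let F : (SL(2, ℤ) ⧸ Gamma M) → RingAut (WFld M) := fun q => wShift q.out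
  refine Finite.Set.subset (Set.range F) ?_
  rintro _ ⟨γ, rfl⟩
  refine ⟨(((γ : SL(2, ℤ))⁻¹ : SL(2, ℤ)) : SL(2, ℤ) ⧸ Gamma M), RingEquiv.ext fun x => ?_⟩
  obtain ⟨⟨ε, hε⟩, h⟩ := QuotientGroup.mk_out_eq_mul (Gamma M) ((γ : SL(2, ℤ))⁻¹)
  show wShift _ x = wShift _ x
  rw [h, ← wShift_wShift, wShift_of_mem hε]

theorem Lev.exists_eq_wShift (σ : L.wHom.range) : ∃ γ ∈ Gamma L.m,
    ∀ x : WFld M, σ • x = wShift γ x := by
  obtain ⟨⟨γ, hγ⟩, hσ⟩ := σ.2
  refine ⟨γ⁻¹, inv_mem hγ, fun x => ?_⟩
  show (σ : RingAut (WFld M)) x = _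
  rw [← hσ]
  rfl

/-- A shift fixing all the generators is trivial. -/
theorem Lev.wShift_eq_of_fixes {γ : SL(2, ℤ)} (hγ : γ ∈ Gamma L.m)
    (h : ∀ p, wShift γ ((L.gen (cycComplex M) p : lvlField (cycComplex M)) : WFld M) =
      (L.gen (cycComplex M) p : lvlField (cycComplex M))) (x : WFld M) : wShift γ x = x := by
  set C := cycComplex M
  have hpm : ∀ {u : ℤ × ℤ}, NZ M u → PM M (rowMul u γ) u := by
    intro u hu
    have hru := nz_rowMul γ hu
    have h1 : L.gen C (classOf hru) = L.gen C (classOf hu) := by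
      have h2 : fShift C γ (L.gen C (classOf hu)) = L.gen C (classOf hu) :=
        Subtype.ext (h (classOf hu))
      rw [← h2, Lev.gen, Lev.gen, fShift_rat]
      exact rat_congr C (((pm_classOf hru).symm).trans (rowMul_congr γ (pm_classOf hu)))
        (L.rowMul_V_pm hγ 0).symm (L.rowMul_V_pm hγ 1).symm (L.rowMul_V_pm hγ 0).symm
    by_contra hne
    have h2 : ¬ PM M (repVec (classOf hru)) (repVec (classOf hu)) := fun hh =>
      hne (((pm_classOf hru).trans hh).trans (pm_classOf hu).symm)
    have h3 := sub_eq_zero.mpr h1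
    rw [L.gen_sub] at h3
    have h4 := IsFractionRing.injective (modFuns (Gamma M)) (WFld M) (a₂ := 0)
      ((congrArg Subtype.val h3).trans (map_zero _).symm)
    exact div_ne_zero (wpDiff_ne_zero (nz_repVec _) (nz_repVec _) h2 UpperHalfPlane.I)
      (wpDiff_ne_zero (L.nz_V 1) (L.nz_V 0) (L.not_pm L.valid1 L.valid0 (by decide))
        UpperHalfPlane.I)
      (congrArg (fun f : modFuns (Gamma M) => (f : ℍ → ℂ) UpperHalfPlane.I) h4)
  have hM : ¬ (M : ℤ) ∣ 1 := fun h' => by
    have := Int.le_of_dvd one_pos h'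
    have := L.five
    omega
  have h10 := hpm (u := (1, 0)) (by simp [NZ, hM])
  have h01 := hpm (u := (0, 1)) (by simp [NZ, hM])
  have h11 := hpm (u := (1, 1)) (by simp [NZ, hM])
  simp only [PM, rowMul, one_mul, zero_mul, add_zero, zero_add, sub_zero] at h10 h01 h11
  have hcast : ∀ a : ℤ, (M : ℤ) ∣ a ↔ (a : ZMod M) = 0 := fun a =>
    (ZMod.intCast_zmod_eq_zero_iff_dvd a M).symm
  simp only [hcast, Int.cast_add, Int.cast_sub, Int.cast_one, sub_eq_zero,
    add_eq_zero_iff_eq_neg] at h10 h01 h11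
  haveI : Fact (1 < M) := ⟨by have := L.five; omega⟩
  have h2 : (2 : ZMod M) ≠ 0 := by
    rw [show (2 : ZMod M) = ((2 : ℕ) : ZMod M) by norm_num, Ne, ZMod.natCast_eq_zero_iff]
    intro h'
    have := Nat.le_of_dvd two_pos h'
    have := L.five
    omega
  have key : γ ∈ Gamma M ∨ -γ ∈ Gamma M := by
    rcases h10 with ⟨a, b⟩ | ⟨a, b⟩ <;> rcases h01 with ⟨c, d⟩ | ⟨c, d⟩
    · exact Or.inl (Gamma_mem.mpr ⟨a, b, c, d⟩)
    · exfalso
      simp only [a, b, c, d, add_zero, zero_add] at h11
      rcases h11 with ⟨e, f⟩ | ⟨e, f⟩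
      · exact h2 (by linear_combination -f)
      · exact h2 (by linear_combination e)
    · exfalso
      simp only [a, b, c, d, add_zero, zero_add] at h11
      rcases h11 with ⟨e, f⟩ | ⟨e, f⟩
      · exact h2 (by linear_combination -e)
      · exact h2 (by linear_combination f)
    · refine Or.inr (Gamma_mem.mpr ?_)
      simp [a, b, c, d]
  rcases key with hk | hk
  · exact wShift_of_mem hk x
  · rw [← wShift_neg]; exact wShift_of_mem hk x

/-- The fixed elements lie in the field of ratios. -/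
theorem Lev.mem_of_fixed {x : WFld M} (hx : ∀ σ : L.wHom.range, σ • x = x) :
    x ∈ lvlField (cycComplex M) := by
  classical
  haveI := Fintype.ofFinite L.wHom.range
  set C := cycComplex M
  obtain ⟨a, b, hb, rfl⟩ := IsFractionRing.div_surjective (A := modFuns (Gamma M)) x
  choose γ hγ hγe using L.exists_eq_wShift
  set B := ∏ σ : L.wHom.range, shift M (γ σ) b
  set A := a * ∏ σ ∈ Finset.univ.erase (1 : L.wHom.range), shift M (γ σ) b
  set am := algebraMap (modFuns (Gamma M)) (WFld M)
  have hb0 : b ≠ 0 := nonZeroDivisors.ne_zero hb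
  have hBv : am B = ∏ σ : L.wHom.range, σ • am b := by
    rw [map_prod]
    exact Finset.prod_congr rfl fun σ _ => by rw [hγe, wShift_algebraMap]
  have hBfix : ∀ τ : L.wHom.range, τ • am B = am B := fun τ => by
    rw [hBv, Finset.smul_prod']
    exact Fintype.prod_equiv (Equiv.mulLeft τ) _ _ fun σ => by simp [mul_smul]
  have hinj := IsFractionRing.injective (modFuns (Gamma M)) (WFld M)
  have hBne : am B ≠ 0 := by
    rw [hBv]
    exact Finset.prod_ne_zero_iff.mpr fun σ _ => (smul_ne_zero_iff_ne σ).mpr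
      (fun h => hb0 (hinj (h.trans (map_zero _).symm)))
  have hA : am A = am a / am b * am B := by
    have h1 : am b ≠ 0 := fun h => hb0 (hinj (h.trans (map_zero _).symm))
    rw [hBv, ← Finset.mul_prod_erase _ _ (Finset.mem_univ (1 : L.wHom.range)), one_smul,
      ← mul_assoc, div_mul_cancel₀ _ h1, map_mul, map_prod]
    congr 1
    exact Finset.prod_congr rfl fun σ _ => by rw [hγe, wShift_algebraMap]
  have hAfix : ∀ τ : L.wHom.range, τ • am A = am A := fun τ => by
    rw [hA, smul_mul', hBfix, hx]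
  have hinv : ∀ f : modFuns (Gamma M), (∀ τ : L.wHom.range, τ • am f = am f) → L.Inv f := by
    intro f hf g hg
    have h1 := hf ⟨L.wHom ⟨g⁻¹, inv_mem hg⟩, ⟨_, rfl⟩⟩
    have h2 : wShift ((g⁻¹)⁻¹) (am f) = am f := h1
    rw [inv_inv, wShift_algebraMap] at h2
    exact hinj h2
  have hpoly : ∀ f : modFuns (Gamma M), L.Inv f → am f ∈ lvlField C := by
    intro f hf
    obtain ⟨K, hK⟩ := L.exists_bddFin C f
    obtain ⟨P, -, hP⟩ := L.exists_poly C ⊤ (fun _ => trivial)
      (f := f * Polynomial.aeval (L.wMF C) ((L.cuspPoly C ^ K).map C.φ))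
      (fun g hg => by
        rw [map_mul, hf g hg]
        congr 1
        exact (Polynomial.aeval_algHom_apply _ _ _).symm.trans (by rw [L.inv_wMF C g hg]))
      (hK K le_rfl) (fun _ => trivial)
    have hid : ∀ Q : ℂ[X], am (Polynomial.aeval (L.wMF C) Q) =
        ((Polynomial.aeval (L.w C) Q : lvlField C) : WFld M) := fun Q => by
      rw [L.coe_aeval_w, show Q.map C.φ = Q from Polynomial.map_id]
    have hne : ((Polynomial.aeval (L.w C) (L.cuspPoly C ^ K) : lvlField C) : WFld M) ≠ 0 := fun h => by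
      rw [map_pow] at h
      exact pow_ne_zero K (L.aeval_cuspPoly_ne_zero C) (Subtype.ext h)
    have h1 := congrArg am hP
    rw [map_mul, show (L.cuspPoly C ^ K).map C.φ = L.cuspPoly C ^ K from Polynomial.map_id, hid,
      hid] at h1
    rw [← eq_div_iff hne] at h1
    rw [h1]
    exact div_mem (SetLike.coe_mem _) (SetLike.coe_mem _)
  have : am a / am b = am A / am B := by rw [hA, mul_div_assoc, div_self hBne, mul_one]
  rw [this]
  exact div_mem (hpoly A (hinv A hAfix)) (hpoly B (hinv B hBfix))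

include L in
/-- Ratios generate the whole field over `ℂ`. -/
theorem Lev.mem_lvlField_complex (x : WFld M) : x ∈ lvlField (cycComplex M) := by
  classical
  haveI := Fintype.ofFinite L.wHom.range
  set C := cycComplex M
  let k := Fintype.card {p : ZMod M × ZMod M // p ≠ 0}
  let en : Fin k ≃ {p : ZMod M × ZMod M // p ≠ 0} := (Fintype.equivFin _).symm
  let g : Fin k → WFld M := fun i => (L.gen C (en i) : lvlField C)
  let ξ : ℕ → WFld M := fun t => ∑ i : Fin k, (t : WFld M) ^ (i : ℕ) * g i
  haveI : CharZero (WFld M) := charZero_of_injective_ringHom ((algebraMap (modFuns (Gamma M)) (WFld M)).comp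
    (algebraMap ℂ (modFuns (Gamma M)))).injective
  -- a separating combination
  have hsep : ∃ t : ℕ, ∀ σ : L.wHom.range, σ • ξ t = ξ t → σ = 1 := by
    by_contra hno
    push Not at hno
    choose S hS hS1 using hno
    obtain ⟨σ, hσ⟩ := Finite.exists_infinite_fiber S
    obtain ⟨t0, ht0⟩ := (Set.infinite_coe_iff.mp hσ).nonempty
    refine (ht0 ▸ hS1 t0) (FaithfulSMul.eq_of_smul_eq_smul fun y : WFld M => ?_)
    obtain ⟨γ, hγ, hγe⟩ := L.exists_eq_wShift σ
    have hQ : (∑ i : Fin k, Polynomial.C (σ • g i - g i) * Polynomial.X ^ (i : ℕ)) = 0 := by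
      refine Polynomial.eq_zero_of_infinite_isRoot _ (Set.Infinite.mono (s := Nat.cast '' (S ⁻¹' {σ}))
        ?_ ((Set.infinite_coe_iff.mp hσ).image Nat.cast_injective.injOn))
      rintro _ ⟨t, ht, rfl⟩
      show Polynomial.IsRoot _ _
      have h := hS t
      rw [show S t = σ from ht] at h
      have hcast : σ • (t : WFld M) = t :=
        map_natCast (MulSemiringAction.toRingHom L.wHom.range (WFld M) σ) t
      simp only [ξ, Finset.smul_sum, smul_mul', smul_pow', hcast] at h
      simp [Polynomial.eval_finsetSum, sub_mul, Finset.sum_sub_distrib, mul_comm (g _),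
        mul_comm (σ • g _), h]
    rw [one_smul, hγe]
    refine L.wShift_eq_of_fixes hγ (fun p => ?_) y
    have hi := congrArg (fun q : (WFld M)[X] => q.coeff ((en.symm p : Fin k) : ℕ)) hQ
    simp only [Polynomial.finsetSum_coeff, Polynomial.coeff_C_mul_X_pow, Fin.val_inj,
      Finset.sum_ite_eq, Finset.mem_univ, if_true, Polynomial.coeff_zero, sub_eq_zero, g,
      Equiv.apply_symm_apply, hγe] at hi
    exact hi
  obtain ⟨t, ht⟩ := hsep
  set v : L.wHom.range → WFld M := fun σ => σ • ξ t
  have hv : Set.InjOn v ((Finset.univ : Finset L.wHom.range) : Set L.wHom.range) := fun a _ b _ h => by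
    have h1 : (b⁻¹ * a) • ξ t = ξ t := by
      rw [mul_smul, show a • ξ t = b • ξ t from h, inv_smul_smul]
    exact (inv_mul_eq_one.mp (ht _ h1)).symm
  set P := Lagrange.interpolate Finset.univ v fun σ => σ • x with hP
  have hcoef : ∀ n, P.coeff n ∈ lvlField C := by
    intro n
    refine L.mem_of_fixed fun τ => ?_
    have hPfix : τ • P = P := by
      refine Lagrange.eq_interpolate_of_eval_eq _ hv ?_ fun σ _ => ?_
      · refine lt_of_le_of_lt (le_of_eq ?_) (Lagrange.degree_interpolate_lt (fun σ => σ • x) hv)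
        exact (Polynomial.smul_eq_map (R := WFld M) (M := L.wHom.range) τ) ▸
          Polynomial.degree_map_eq_of_injective (p := P)
            (f := MulSemiringAction.toRingHom L.wHom.range (WFld M) τ) fun _ _ h => smul_left_cancel τ h
      · show (τ • P).eval (v σ) = σ • x
        have h1 : v σ = τ • v (τ⁻¹ * σ) := by simp [v, mul_smul]
        rw [h1, Polynomial.smul_eval_smul, hP,
          Lagrange.eval_interpolate_at_node _ hv (Finset.mem_univ _)]
        simp [mul_smul]
    conv_rhs => rw [← hPfix]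
    rfl
  have hξ : ξ t ∈ lvlField C := Subfield.sum_mem _ fun i _ =>
    mul_mem (pow_mem (natCast_mem _ _) _) (SetLike.coe_mem _)
  have hx1 : P.eval (ξ t) = x := by
    have := Lagrange.eval_interpolate_at_node (fun σ : L.wHom.range => σ • x) hv
      (Finset.mem_univ (1 : L.wHom.range))
    simpa [v, hP] using this
  rw [← hx1, Polynomial.eval_eq_sum_range]
  exact Subfield.sum_mem _ fun i _ => mul_mem (hcoef i) (pow_mem hξ i)

/-! ## Algebraic coefficients -/

/-- The field grows with the coefficients. -/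
theorem lvlField_mono {O O' : Type*} [CommRing O] [IsDomain O] [CommRing O'] [IsDomain O']
    (C : Cyc O M) (C' : Cyc O' M) (h : ∀ a, C'.φ a ∈ C.kC) : lvlField C' ≤ lvlField C := by
  conv_lhs => rw [lvlField]
  rw [Subfield.closure_le]
  rintro _ (⟨a, rfl⟩ | ⟨q, rfl⟩)
  · obtain ⟨p, q, hq, hpq⟩ := C.exists_frac_kC (h a)
    have hq' : cstW C q ≠ 0 := by
      have hinj : Function.Injective (cstW C : O →+* WFld M) := fun x y hxy => C.inj
        (((algebraMap (modFuns (Gamma M)) (WFld M)).comp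
          (algebraMap ℂ (modFuns (Gamma M)))).injective hxy)
      rw [Ne, map_eq_zero_iff _ hinj]
      exact hq
    have h1 : cstW C' a = cstW C p / cstW C q := by
      rw [eq_div_iff hq', cstW, cstW, RingHom.comp_apply, RingHom.comp_apply, RingHom.comp_apply,
        RingHom.comp_apply, RingHom.comp_apply, RingHom.comp_apply, ← map_mul, ← map_mul, hpq]
    rw [h1]
    exact div_mem (cstW_mem C p) (cstW_mem C q)
  · exact ratW_mem C q

/-- Coefficients in `ℚ̄`. -/
def cycBar (M : ℕ) [NeZero M] : Cyc Q̄ M :=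
  let h := IsAlgClosed.exists_aeval_eq_zero Q̄ (Polynomial.cyclotomic M ℚ)
    (by rw [Polynomial.degree_cyclotomic]; exact_mod_cast (Nat.totient_pos.mpr (NeZero.pos M)).ne')
  have hz : ∃ z : Q̄, qbarToC z = zetaC M := by
    obtain ⟨z, hz⟩ := h
    rw [Polynomial.aeval_def, ← Polynomial.eval_map, Polynomial.map_cyclotomic] at hz
    have hpr := ((Polynomial.isRoot_cyclotomic_iff (R := Q̄)).mp hz).map_of_injective
      (RingHom.injective qbarToC)
    haveI : NeZero M := inferInstance
    obtain ⟨i, -, hi⟩ := hpr.eq_pow_of_pow_eq_one (ξ := zetaC M)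
      ((Complex.isPrimitiveRoot_exp M (NeZero.ne M)).pow_eq_one)
    exact ⟨z ^ i, by rw [map_pow, hi]⟩
  ⟨qbarToC, RingHom.injective _, hz.choose, hz.choose_spec,
    (Nat.cast_ne_zero.mpr (NeZero.ne M)).isUnit⟩

theorem mem_kC_cycBar {x : ℂ} (hx : x ∈ (cycBar M).kC) : x ∈ qbarToC.fieldRange := by
  refine (Subfield.closure_le.mpr ?_) hx
  rintro _ ⟨a, rfl⟩
  exact ⟨a, rfl⟩

include L in
/-- A function with algebraic series coefficients lies in the field over a number field. -/
theorem Lev.exists_descent (f : modFuns (Gamma M))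
    (hf : ∀ k, (serHom M f).coeff k ∈ qbarToC.fieldRange) :
    ∃ S : Finset Q̄, ∀ (O : Type) [CommRing O] [IsDomain O] (C : Cyc O M),
      (∀ s ∈ S, qbarToC s ∈ C.kC) → algebraMap (modFuns (Gamma M)) (WFld M) f ∈ lvlField C := by
  classical
  set F := algebraMap (modFuns (Gamma M)) (WFld M) f
  letI : Algebra ℂ (WFld M) :=
    ((algebraMap (modFuns (Gamma M)) (WFld M)).comp (algebraMap ℂ (modFuns (Gamma M)))).toAlgebra
  set Cb := cycBar M
  let mon : Submonoid (WFld M) := Submonoid.closure (Set.range (ratW (cycComplex M)))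
  have hmon : ∀ m ∈ mon, ∀ (O : Type) [CommRing O] [IsDomain O] (C : Cyc O M), m ∈ lvlField C := by
    intro m hm O _ _ C
    induction hm using Submonoid.closure_induction with
    | mem y hy => obtain ⟨q, rfl⟩ := hy; exact ratW_mem C q
    | one => exact one_mem _
    | mul _ _ _ _ h1 h2 => exact mul_mem h1 h2
  have hmser : ∀ m ∈ mon, ∀ k, (wSer m).coeff k ∈ qbarToC.fieldRange := by
    intro m hm k
    have h1 := toC_serF Cb ⟨m, hmon m hm Q̄ Cb⟩
    rw [← show Cb.toC (serF Cb ⟨m, hmon m hm Q̄ Cb⟩) = wSer m from h1]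
    exact mem_kC_cycBar (coeff_toC_mem Cb _ k)
  have hrep : ∀ y ∈ Subring.closure (Set.range (cstW (cycComplex M)) ∪ Set.range (ratW (cycComplex M))),
      ∃ (n : ℕ) (c : Fin n → ℂ) (m : Fin n → mon), y = ∑ i, c i • (m i : WFld M) := by
    intro y hy
    have h1 : Subring.closure (Set.range (cstW (cycComplex M)) ∪ Set.range (ratW (cycComplex M))) ≤
        (Algebra.adjoin ℂ (Set.range (ratW (cycComplex M)))).toSubring := by
      rw [Subring.closure_le]
      rintro _ (⟨a, rfl⟩ | ⟨q, rfl⟩)
      · exact Subalgebra.algebraMap_mem (Algebra.adjoin ℂ (Set.range (ratW (cycComplex M)))) a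
      · exact Algebra.subset_adjoin ⟨q, rfl⟩
    have h2 : y ∈ Subalgebra.toSubmodule (Algebra.adjoin ℂ (Set.range (ratW (cycComplex M)))) := h1 hy
    rw [Algebra.adjoin_eq_span] at h2
    obtain ⟨n, c, m, hm⟩ := Submodule.mem_span_set'.mp h2
    exact ⟨n, c, m, hm.symm⟩
  obtain ⟨y, hy, z, hz, hyz⟩ := Subfield.mem_closure_iff.mp (L.mem_lvlField_complex F)
  by_cases hF : F = 0
  · exact ⟨∅, fun O _ _ C _ => by rw [hF]; exact zero_mem _⟩
  have hz0 : z ≠ 0 := fun h => hF (by rw [← hyz, h, div_zero])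
  obtain ⟨n₁, c, m, rfl⟩ := hrep y hy
  obtain ⟨n₂, d, m', rfl⟩ := hrep z hz
  have hsmul : ∀ (a : ℂ) (w : WFld M), wSer (a • w) = HahnSeries.C a * wSer w := fun a w => by
    rw [Algebra.smul_def, map_mul]
    congr 1
    show wSer (algebraMap _ _ (algebraMap ℂ (modFuns (Gamma M)) a)) = _
    rw [wSer_algebraMap, serHom_algebraMap]
  have hcoefmul : ∀ m : mon, ∀ k, (wSer (F * (m : WFld M))).coeff k ∈ qbarToC.fieldRange := by
    intro m k
    rw [map_mul, wSer_algebraMap, HahnSeries.coeff_mul]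
    exact Subfield.sum_mem _ fun ij _ => mul_mem (hf _) (hmser _ m.2 _)
  have heq : F * (∑ i, d i • (m' i : WFld M)) = ∑ i, c i • (m i : WFld M) := by
    rw [← hyz, div_mul_cancel₀ _ hz0]
  obtain ⟨k0, hk0⟩ : ∃ k, (wSer (∑ i, d i • (m' i : WFld M))).coeff k ≠ 0 := by
    by_contra h
    push Not at h
    refine hz0 ((wSer (M := M)).injective ?_)
    rw [map_zero]
    exact HahnSeries.ext (funext fun k => h k)
  -- a linear form defined over the algebraic numbers
  letI : Algebra Q̄ ℂ := qbarToC.toAlgebra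
  set z0 := (wSer (∑ i, d i • (m' i : WFld M))).coeff k0 with hz0def
  obtain ⟨lam, hlam⟩ := LinearMap.exists_leftInverse_of_injective (LinearMap.toSpanSingleton Q̄ ℂ z0)
    (LinearMap.ker_eq_bot.mpr fun a b h => by
      simp only [LinearMap.toSpanSingleton_apply, Algebra.smul_def] at h
      exact RingHom.injective qbarToC (mul_right_cancel₀ hk0 h))
  have hlam1 : lam z0 = 1 := by
    simpa using LinearMap.congr_fun hlam 1
  have hlin : ∀ (a : ℂ) {b : ℂ}, b ∈ qbarToC.fieldRange → qbarToC (lam (a * b)) = qbarToC (lam a) * b := by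
    rintro a _ ⟨b, rfl⟩
    rw [show a * qbarToC b = b • a by rw [Algebra.smul_def, mul_comm]; rfl, map_smul, smul_eq_mul,
      map_mul, mul_comm]
  let d' : Fin n₂ → ℂ := fun i => qbarToC (lam (d i))
  let c' : Fin n₁ → ℂ := fun i => qbarToC (lam (c i))
  have happly : ∀ (n : ℕ) (a : Fin n → ℂ) (w : Fin n → WFld M),
      (∀ i k, (wSer (w i)).coeff k ∈ qbarToC.fieldRange) → ∀ k,
      qbarToC (lam ((wSer (∑ i, a i • w i)).coeff k)) =
        (wSer (∑ i, qbarToC (lam (a i)) • w i)).coeff k := by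
    intro n a w hw k
    simp only [map_sum, HahnSeries.coeff_sum, hsmul, HahnSeries.C_apply,
      HahnSeries.coeff_single_zero_mul]
    exact Finset.sum_congr rfl fun i _ => hlin _ (hw i k)
  have hnew : F * (∑ i, d' i • (m' i : WFld M)) = ∑ i, c' i • (m i : WFld M) := by
    refine (wSer (M := M)).injective (HahnSeries.ext (funext fun k => ?_))
    rw [← happly n₁ c _ (fun i k => hmser _ (m i).2 k) k, ← heq, Finset.mul_sum, Finset.mul_sum]
    simp only [mul_smul_comm]
    rw [← happly n₂ d _ (fun i k => hcoefmul (m' i) k) k]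
  have hd'0 : ∑ i, d' i • (m' i : WFld M) ≠ 0 := by
    intro h
    have h1 := happly n₂ d _ (fun i k => hmser _ (m' i).2 k) k0
    rw [← hz0def, hlam1, map_one, h, map_zero, HahnSeries.coeff_zero] at h1
    exact one_ne_zero h1
  refine ⟨Finset.univ.image (fun i => lam (c i)) ∪ Finset.univ.image (fun i => lam (d i)),
    fun O _ _ C hS => ?_⟩
  have hmem : ∀ (a : Q̄) (w : mon), qbarToC a ∈ C.kC → qbarToC a • (w : WFld M) ∈ lvlField C := by
    intro a w ha
    rw [Algebra.smul_def]
    refine mul_mem ?_ (hmon _ w.2 O C)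
    obtain ⟨p, q, hq, hpq⟩ := C.exists_frac_kC ha
    have h1 : algebraMap ℂ (WFld M) (qbarToC a) = cstW C p / cstW C q := by
      rw [show cstW C p = algebraMap ℂ (WFld M) (C.φ p) from rfl,
        show cstW C q = algebraMap ℂ (WFld M) (C.φ q) from rfl, eq_div_iff, ← map_mul, hpq]
      rw [Ne, map_eq_zero, map_eq_zero_iff _ C.inj]
      exact hq
    rw [h1]
    exact div_mem (cstW_mem C p) (cstW_mem C q)
  rw [show F = (∑ i, c' i • (m i : WFld M)) / ∑ i, d' i • (m' i : WFld M) from
    eq_div_iff hd'0 |>.mpr hnew]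
  exact div_mem (Subfield.sum_mem _ fun i _ => hmem _ _ (hS _ (by simp)))
    (Subfield.sum_mem _ fun i _ => hmem _ _ (hS _ (by simp)))

end Fermat.Agent.GalRep.Model
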