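/-
Sheets of the level field over the cusps, and sheets in the inverse coordinate.
-/
import Fermat.Agent.GalRep.Model.SheetsNoncusp

set_option autoImplicit false

noncomputable section

namespace Fermat.Agent.GalRep.Model

open UpperHalfPlane CongruenceSubgroup Polynomial IsLocalRing
open scoped MatrixGroups

section Inv

variable {O : Type*} [CommRing O] [IsDomain O] [IsDiscreteValuationRing O]
variable {F : Type*} [Field F] [Algebra O F] {w : F}

omit [IsDomain O] [IsDiscreteValuationRing O] in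
theorem aeval_reflect_inv (hw : w ≠ 0) {N : ℕ} (Q : O[X]) (hQ : Q.natDegree ≤ N) :
    Polynomial.aeval w (Q.reflect N) = w ^ N * Polynomial.aeval w⁻¹ Q := by
  haveI : Invertible w⁻¹ := invertibleOfNonzero (inv_ne_zero hw)
  have h3 := Polynomial.eval₂_reflect_mul_pow (algebraMap O F) w⁻¹ N Q hQ
  rw [invOf_eq_inv, inv_inv] at h3
  rw [Polynomial.aeval_def, Polynomial.aeval_def, ← h3, inv_pow]
  field_simp

omit [IsDomain O] [IsDiscreteValuationRing O] in
theorem aeval_inv_injective (hw : w ≠ 0)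
    (htr : Function.Injective (Polynomial.aeval (R := O) w)) :
    Function.Injective (Polynomial.aeval (R := O) w⁻¹) := by
  rw [injective_iff_map_eq_zero]
  intro Q hQ
  have h := aeval_reflect_inv hw Q le_rfl
  rw [hQ, mul_zero, map_eq_zero_iff _ htr] at h
  exact Polynomial.reflect_eq_zero_iff.mp h

omit [IsDiscreteValuationRing O] in
theorem FixedRational.inv {G : Type*} [Group G] [MulSemiringAction G F] (hw : w ≠ 0)
    (hfix : FixedRational O G w) : FixedRational O G w⁻¹ := by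
  intro x hx
  obtain ⟨P, Q, hQ, hPQ⟩ := hfix x hx
  set N := max P.natDegree Q.natDegree
  have h : ∀ R : O[X], R.natDegree ≤ N →
      Polynomial.aeval w⁻¹ (R.reflect N) = w⁻¹ ^ N * Polynomial.aeval w R := fun R hR => by
    simpa using aeval_reflect_inv (inv_ne_zero hw) R hR
  refine ⟨P.reflect N, Q.reflect N, ?_, ?_⟩
  · rw [h Q (le_max_right _ _)]
    exact mul_ne_zero (pow_ne_zero _ (inv_ne_zero hw)) hQ
  · rw [h Q (le_max_right _ _), h P (le_max_left _ _), ← hPQ]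
    ring

/-- The same sheets seen in the inverse coordinate. -/
theorem SheetData.exists_inv (hw : w ≠ 0) {c c' : O} (D : SheetData w c) (hc : c * c' = 1) :
    ∃ D' : SheetData w⁻¹ c', (∑ j, D'.e j = ∑ j, D.e j) ∧
      ∀ j, ∃ j', D'.ι j = D.ι j' := by
  have hcu : IsUnit c := IsUnit.of_mul_eq_one _ hc
  set al := algebraMap (PowerSeries O) (SeriesField O)
  have hu : ∀ j, ∃ W : (PowerSeries O)ˣ,
      (W : PowerSeries O) * (PowerSeries.C c + PowerSeries.X ^ D.e j * (D.unit j : PowerSeries O)) = 1 :=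
    fun j => by
      obtain ⟨T, hT⟩ : IsUnit (PowerSeries.C c + PowerSeries.X ^ D.e j * (D.unit j : PowerSeries O)) :=
        PowerSeries.isUnit_iff_constantCoeff.mpr (by simp [zero_pow (D.e_pos j).ne', hcu])
      exact ⟨T⁻¹, by rw [← hT]; exact Units.inv_mul T⟩
  choose W hW using hu
  have hι : ∀ j, D.ι j w⁻¹ = al (W j : PowerSeries O) := fun j => by
    rw [map_inv₀]
    refine inv_eq_of_mul_eq_one_left ?_
    rw [D.ι_w, ← map_mul, hW, map_one]
  have hshift : ∀ j (f : F) (E : ℕ) (g : PowerSeries O), D.ι j f = al g →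
      D.ι j (w⁻¹ ^ E * f) = al ((W j : PowerSeries O) ^ E * g) := fun j f E g hg => by
    rw [map_mul, map_pow, hι, hg, map_mul, map_pow]
  have hres : ∀ j, residue O (PowerSeries.constantCoeff (W j : PowerSeries O)) = residue O c' := fun j => by
    have h := congrArg PowerSeries.constantCoeff (hW j)
    rw [map_mul, map_add, PowerSeries.constantCoeff_C, map_mul, map_pow,
      PowerSeries.constantCoeff_X, zero_pow (D.e_pos j).ne', zero_mul, add_zero, map_one] at h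
    congr 1
    calc _ = PowerSeries.constantCoeff (W j : PowerSeries O) * (c * c') := by rw [hc, mul_one]
      _ = c' := by rw [← mul_assoc, h, one_mul]
  have hc' : residue O c' ≠ 0 := (residue_ne_zero_iff_isUnit _).mpr (IsUnit.of_mul_eq_one_right _ hc)
  refine ⟨{ r := D.r, e := D.e, e_pos := D.e_pos, r_pos := D.r_pos,
            unit := fun j => -(D.unit j * W j *
              (IsUnit.map (PowerSeries.C (R := O)) (IsUnit.of_mul_eq_one_right _ hc)).unit),
            ι := D.ι, ι_O := D.ι_O, ι_w := fun j => ?_, sep := ?_, unif := ?_ }, rfl,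
          fun j => ⟨j, rfl⟩⟩
  · rw [hι]
    congr 1
    have h1 : PowerSeries.C c * PowerSeries.C c' = (1 : PowerSeries O) := by
      rw [← map_mul, hc, map_one]
    simp only [Units.val_neg, Units.val_mul, IsUnit.unit_spec]
    linear_combination PowerSeries.C c' * hW j - (W j : PowerSeries O) * h1
  · intro i j hij
    obtain ⟨f, hf, g, g', hg, hg', hne⟩ := D.sep i j hij
    obtain ⟨E, hE⟩ := exists_inv_pow_mul_mem hw ⟨f, hf⟩
    refine ⟨w⁻¹ ^ E * f, hE, _, _, hshift i f E g hg, hshift j f E g' hg', ?_⟩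
    simp only [map_mul, map_pow, hres]
    exact fun h => hne (mul_left_cancel₀ (pow_ne_zero _ hc') h)
  · intro j hj
    obtain ⟨f, hf, g, hg, h0, h1⟩ := D.unif j hj
    obtain ⟨E, hE⟩ := exists_inv_pow_mul_mem hw ⟨f, hf⟩
    refine ⟨w⁻¹ ^ E * f, hE, _, hshift j f E g hg, by simp [h0], ?_⟩
    rw [PowerSeries.coeff_mul, Finset.Nat.sum_antidiagonal_succ, Finset.Nat.antidiagonal_zero,
      Finset.sum_singleton]
    simp only [PowerSeries.coeff_zero_eq_constantCoeff, map_add, map_mul, map_pow, hres, h0,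
      zero_add, mul_zero, add_zero]
    exact mul_ne_zero (pow_ne_zero _ hc') h1

end Inv

variable {M : ℕ} [NeZero M] (L : Lev M) {O : Type*} [CommRing O] [IsDomain O] (C : Cyc O M)

local notation "al" => algebraMap (PowerSeries O) (SeriesField O)

include L in
/-- The two numerators separating the classes at a cusp. -/
theorem Lev.exists_numer (g : SL(2, ℤ))
    (hg : ¬ ((M : ℤ) ∣ g 1 0 ∧ (((M : ℤ) ∣ g 0 0 - 1 ∧ (M : ℤ) ∣ g 1 1 - 1) ∨
      ((M : ℤ) ∣ g 0 0 + 1 ∧ (M : ℤ) ∣ g 1 1 + 1)))) :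
    ∃ a b : ℤ × ℤ, NZ M a ∧ NZ M b ∧ IsUnit (PowerSeries.constantCoeff (pO C a - pO C b) -
      PowerSeries.constantCoeff (pO C (rowMul a g) - pO C (rowMul b g))) := by
  have h5 : (5 : ℤ) ≤ M := by exact_mod_cast L.five
  have hsmall : ∀ t : ℤ, 0 < t → t < M → ¬ (M : ℤ) ∣ t := fun t h0 h1 h =>
    absurd (Int.le_of_dvd h0 h) (by omega)
  have hone : ¬ (M : ℤ) ∣ 1 := hsmall 1 one_pos (by omega)
  by_cases h10 : (M : ℤ) ∣ g 1 0
  · have hdet := g.det_coe
    rw [Matrix.det_fin_two] at hdet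
    have h00 : ¬ (M : ℤ) ∣ g 0 0 := fun h => hone (by
      rw [← hdet]; exact dvd_sub (h.mul_right _) (h10.mul_left _))
    have h11 : ¬ (M : ℤ) ∣ g 1 1 := fun h => hone (by
      rw [← hdet]; exact dvd_sub (h.mul_left _) (h10.mul_left _))
    refine ⟨(0, 1), (1, 0), by simp [NZ, hone], by simp [NZ, hone], ?_⟩
    simp only [map_sub, constantCoeff_pO, rowMul, dvd_zero, if_true, zero_mul, one_mul, zero_add,
      add_zero, hone, h00, h10, if_false, sub_zero]
    refine isUnit_fVal_sub C hone h11 (fun h => hg ⟨h10, Or.inl ⟨?_, h⟩⟩)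
      (fun h => hg ⟨h10, Or.inr ⟨?_, by rwa [add_comm] at h⟩⟩)
    · rw [show g 0 0 - 1 = g 0 1 * g 1 0 - g 0 0 * (g 1 1 - 1) by linear_combination hdet]
      exact dvd_sub (h10.mul_left _) (h.mul_left _)
    · rw [show g 0 0 + 1 = g 0 0 * (1 + g 1 1) - g 0 1 * g 1 0 by linear_combination -hdet]
      exact dvd_sub (h.mul_left _) (h10.mul_left _)
  · obtain ⟨t, ht2, ht3, htg⟩ : ∃ t : ℤ, 2 ≤ t ∧ t ≤ 3 ∧ ¬ (M : ℤ) ∣ t * g 1 0 := by
      by_cases h2 : (M : ℤ) ∣ 2 * g 1 0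
      · refine ⟨3, by norm_num, le_rfl, fun h3 => h10 ?_⟩
        rw [show g 1 0 = 3 * g 1 0 - 2 * g 1 0 by ring]
        exact dvd_sub h3 h2
      · exact ⟨2, le_rfl, by norm_num, h2⟩
    have htM := hsmall t (by omega) (by omega)
    refine ⟨(0, 1), (0, t), by simp [NZ, hone], by simp [NZ, htM], ?_⟩
    simp only [map_sub, constantCoeff_pO, rowMul, dvd_zero, if_true, zero_mul, one_mul, zero_add,
      h10, htg, if_false, sub_zero]
    refine isUnit_fVal_sub C hone htM (hsmall _ (by omega) (by omega)) fun h => ?_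
    have := Int.le_of_dvd (by omega) h
    omega

theorem fShift_neg (g : SL(2, ℤ)) (x : lvlField C) : fShift C (-g) x = fShift C g x := by
  refine Subtype.ext ?_
  show (wShift (M := M) (-g)).toRingHom x.1 = (wShift (M := M) g).toRingHom x.1
  refine RingHom.congr_fun ?_ x.1
  refine IsLocalization.ringHom_ext (nonZeroDivisors (modFuns (Gamma M))) ?_
  ext f
  simp [wShift_algebraMap, shift_neg]

theorem fShift_one (x : lvlField C) : fShift C 1 x = x := Subtype.ext (wShift_one x.1)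

theorem Lev.conj_mem (δ : SL(2, ℤ)) : δ * ModularGroup.T ^ (L.m : ℤ) * δ⁻¹ ∈ Gamma L.m := by
  refine (Gamma_normal L.m).conj_mem _ ?_ δ
  rw [Gamma_mem, ModularGroup.coe_T_zpow]
  simp

/-- The generator of the stabiliser of a cusp. -/
def Lev.tau (δ : SL(2, ℤ)) : L.gal C := L.galOf C (L.conj_mem δ)

theorem Lev.tau_zpow_smul (δ : SL(2, ℤ)) (j : ℤ) (x : lvlField C) :
    L.tau C δ ^ j • x = fShift C (δ * ModularGroup.T ^ ((L.m : ℤ) * j) * δ⁻¹) x := by
  show ((((L.tau C δ) ^ j : L.gal C) : RingAut (lvlField C)) x) = _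
  rw [SubgroupClass.coe_zpow]
  show (L.galHom C _ ^ j) x = _
  rw [← map_zpow]
  show fShift C ((((⟨_, _⟩ : Gamma L.m) ^ j : Gamma L.m) : SL(2, ℤ))⁻¹) x = _
  rw [SubgroupClass.coe_zpow]
  show fShift C (((δ * ModularGroup.T ^ (L.m : ℤ) * δ⁻¹)⁻¹ ^ j)⁻¹) x = _
  rw [inv_zpow, inv_inv, conj_zpow, ← zpow_mul]

theorem Lev.tau_pow_e (δ : SL(2, ℤ)) : L.tau C δ ^ L.e = 1 := by
  refine FaithfulSMul.eq_of_smul_eq_smul fun x : lvlField C => ?_
  rw [one_smul, ← zpow_natCast, L.tau_zpow_smul]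
  refine fShift_of_mem C ((Gamma_normal M).conj_mem _ ?_ δ) x
  rw [show (L.m : ℤ) * (L.e : ℤ) = (M : ℤ) by rw [← Nat.cast_mul, mul_comm, ← L.eq], Gamma_mem,
    ModularGroup.coe_T_zpow]
  simp

theorem Lev.exists_coset {γ γ' δ : SL(2, ℤ)} (hγ : γ ∈ Gamma L.m) (hγ' : γ' ∈ Gamma L.m)
    (h10 : (M : ℤ) ∣ ((γ * δ)⁻¹ * (γ' * δ)) 1 0)
    (h : ((M : ℤ) ∣ ((γ * δ)⁻¹ * (γ' * δ)) 0 0 - 1 ∧ (M : ℤ) ∣ ((γ * δ)⁻¹ * (γ' * δ)) 1 1 - 1) ∨
      ((M : ℤ) ∣ ((γ * δ)⁻¹ * (γ' * δ)) 0 0 + 1 ∧ (M : ℤ) ∣ ((γ * δ)⁻¹ * (γ' * δ)) 1 1 + 1)) :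
    ∃ j : ℤ, L.galOf C hγ' = L.tau C δ ^ j * L.galOf C hγ := by
  set g := (γ * δ)⁻¹ * (γ' * δ) with hg
  have hgm : g ∈ Gamma L.m := by
    have := (Gamma_normal L.m).conj_mem _ (mul_mem (inv_mem hγ) hγ') δ⁻¹
    convert this using 1
    rw [hg]; group
  obtain ⟨j, hj⟩ : (L.m : ℤ) ∣ g 0 1 :=
    (ZMod.intCast_zmod_eq_zero_iff_dvd _ _).mp (Gamma_mem.mp hgm).2.1
  have hmem : ∃ s : SL(2, ℤ), ∃ k : ℤ, (s = ModularGroup.T ^ ((L.m : ℤ) * k) ∨
      s = -ModularGroup.T ^ ((L.m : ℤ) * k)) ∧ s⁻¹ * g ∈ Gamma M := by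
    have c10 := (ZMod.intCast_zmod_eq_zero_iff_dvd _ _).mpr h10
    rcases h with ⟨h0, h1⟩ | ⟨h0, h1⟩
    · have c00 := (ZMod.intCast_zmod_eq_zero_iff_dvd _ _).mpr h0
      have c11 := (ZMod.intCast_zmod_eq_zero_iff_dvd _ _).mpr h1
      push_cast at c00 c11
      rw [sub_eq_zero] at c00 c11
      refine ⟨_, j, Or.inl rfl, ?_⟩
      rw [← zpow_neg, Gamma_mem]
      simp [Matrix.SpecialLinearGroup.coe_mul, Matrix.mul_apply, Fin.sum_univ_two,
        ModularGroup.coe_T_zpow, c10, c00, c11, hj]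
    · have c00 := (ZMod.intCast_zmod_eq_zero_iff_dvd _ _).mpr h0
      have c11 := (ZMod.intCast_zmod_eq_zero_iff_dvd _ _).mpr h1
      push_cast at c00 c11
      rw [add_eq_zero_iff_eq_neg] at c00 c11
      refine ⟨_, -j, Or.inr rfl, ?_⟩
      rw [inv_neg, ← zpow_neg, Gamma_mem]
      simp [Matrix.SpecialLinearGroup.coe_mul, Matrix.mul_apply, Matrix.vecMul, dotProduct,
        Fin.sum_univ_two, ModularGroup.coe_T_zpow, c10, c00, c11, hj]
  obtain ⟨s, k, hs, hε⟩ := hmem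
  refine ⟨k, FaithfulSMul.eq_of_smul_eq_smul fun x : lvlField C => ?_⟩
  rw [mul_smul, L.tau_zpow_smul, L.galOf_smul, L.galOf_smul]
  have hdec : γ' = γ * (δ * s * δ⁻¹) * (δ * (s⁻¹ * g) * δ⁻¹) := by rw [hg]; group
  rw [hdec, ← fShift_fShift C (δ * (s⁻¹ * g) * δ⁻¹) (γ * (δ * s * δ⁻¹)),
    fShift_of_mem C ((Gamma_normal M).conj_mem _ hε δ), ← fShift_fShift C (δ * s * δ⁻¹) γ]
  rcases hs with rfl | rfl
  · rfl
  · rw [mul_neg, neg_mul, fShift_neg]

theorem Lev.qSer_mul_den {i j : Fin 4} (hi : L.Valid i) (hj : L.Valid j) (hij : i ≠ j)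
    {δ : SL(2, ℤ)} (hiδ : L.IsCusp i δ) {γ : SL(2, ℤ)} (hγ : γ ∈ Gamma L.m) (q : Quad M)
    (hu : q.u' = L.V i) (ht : q.t' = L.V j) :
    ∃ D : (PowerSeries O)ˣ, (D : PowerSeries O) = pO C (rowMul (L.V i) δ) - pO C (rowMul (L.V j) δ) ∧
      serAt C (γ * δ) (rat C q) * al (D : PowerSeries O) =
        al (pO C (rowMul q.u (γ * δ)) - pO C (rowMul q.t (γ * δ))) := by
  classical
  obtain ⟨D, hD⟩ := exists_lead C (nz_rowMul δ (L.nz_V i)) (nz_rowMul δ (L.nz_V j))
    (fun h => L.not_pm hi hj hij ((pm_rowMul_iff δ).mp h))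
  rw [L.absRes_V i δ, if_pos hiδ, Nat.zero_min, pow_zero, one_mul] at hD
  refine ⟨D, hD.symm, ?_⟩
  have h2 : ∀ k, pO C (rowMul (L.V k) (γ * δ)) = pO C (rowMul (L.V k) δ) := fun k => by
    rw [← rowMul_rowMul]
    exact pO_congr C (rowMul_congr δ (L.rowMul_V_pm hγ k))
  rw [serAt_rat, qSer]
  simp only [Quad.mul, hu, ht, h2]
  rw [hD, div_mul_cancel₀]
  rw [Ne, map_eq_zero_iff _ (IsFractionRing.injective _ _)]
  exact D.ne_zero

variable [IsDiscreteValuationRing O]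

/-- The sheets over a cusp. -/
theorem Lev.exists_cuspData (u : lvlField C) (hu : ∀ σ : L.gal C, σ • u = u) (c : O) (δ : SL(2, ℤ))
    {i j : Fin 4} (hi : L.Valid i) (hj : L.Valid j) (hij : i ≠ j) (hiδ : L.IsCusp i δ)
    (U : (PowerSeries O)ˣ)
    (hU : serAt C δ u = al (PowerSeries.C c + PowerSeries.X ^ L.e * (U : PowerSeries O)))
    (E : lvlField C) (hEfix : ∀ σ : L.gal C, σ • E = E) (V : (PowerSeries O)ˣ)
    (hE : serAt C δ E = al (V : PowerSeries O))
    (hmem : ∀ q : Quad M, q.u' = L.V i → q.t' = L.V j → rat C q * E ∈ chartRing O u) :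
    ∃ D : SheetData u c, Nat.card (L.gal C) ≤ ∑ k, D.e k ∧ (∀ k, ∃ δ', D.ι k = serAt C δ') ∧
      ∃ k, D.ι k = serAt C δ := by
  classical
  set H := Subgroup.zpowers (L.tau C δ)
  let rep : L.gal C ⧸ H → L.gal C := fun q => if q = ((1 : L.gal C) : L.gal C ⧸ H) then 1 else q.out
  have hrep : ∀ q, ((rep q : L.gal C) : L.gal C ⧸ H) = q := fun q => by
    simp only [rep]
    split_ifs with h
    · exact h.symm
    · exact QuotientGroup.out_eq' q
  let g := (Finite.equivFin (L.gal C ⧸ H)).symm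
  let ι : Fin (Nat.card (L.gal C ⧸ H)) → lvlField C →+* SeriesField O := fun k =>
    (serAt C δ).comp (MulSemiringAction.toRingHom (L.gal C) (lvlField C) (rep (g k))⁻¹)
  have hιw : ∀ k, ι k u = al (PowerSeries.C c + PowerSeries.X ^ L.e * (U : PowerSeries O)) := fun k => by
    show serAt C δ ((rep (g k))⁻¹ • u) = _
    rw [hu, hU]
  have hιO : ∀ k a, ι k (algebraMap O (lvlField C) a) = al (PowerSeries.C a) := fun k a => by
    show serAt C δ ((rep (g k))⁻¹ • algebraMap O (lvlField C) a) = _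
    rw [L.smul_algebraMap, serAt_algebraMap]
  have hch : ∀ k, ∃ (γ : SL(2, ℤ)) (hγ : γ ∈ Gamma L.m), (rep (g k))⁻¹ = L.galOf C hγ := fun k =>
    L.exists_eq_galOf C _
  choose γ hγ hγe using hch
  have hι : ∀ k x, ι k x = serAt C (γ k * δ) x := fun k x => by
    show serAt C δ ((rep (g k))⁻¹ • x) = _
    rw [hγe, L.serAt_smul]
  have hval : ∀ k (q : Quad M), q.u' = L.V i → q.t' = L.V j → ∃ D : (PowerSeries O)ˣ,
      (D : PowerSeries O) = pO C (rowMul (L.V i) δ) - pO C (rowMul (L.V j) δ) ∧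
      ι k (rat C q * E) = al ((pO C (rowMul q.u (γ k * δ)) - pO C (rowMul q.t (γ k * δ))) *
        ((D⁻¹ : (PowerSeries O)ˣ) : PowerSeries O) * V) := fun k q h1 h2 => by
    obtain ⟨D, hD, hq⟩ := L.qSer_mul_den C hi hj hij hiδ (hγ k) q h1 h2
    refine ⟨D, hD, ?_⟩
    have hEk : serAt C (γ k * δ) E = al (V : PowerSeries O) := by
      rw [← L.serAt_smul C (hγ k), hEfix, hE]
    rw [hι, map_mul, hEk, map_mul, map_mul, ← hq, mul_assoc (serAt C _ _) (al _) (al _), ← map_mul,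
      Units.mul_inv, map_one, mul_one]
  have hcardH : Nat.card H ≤ L.e := by
    rw [Nat.card_zpowers]
    exact orderOf_le_of_pow_eq_one L.e_pos (L.tau_pow_e C δ)
  refine ⟨{ r := Nat.card (L.gal C ⧸ H), e := fun _ => L.e, e_pos := fun _ => L.e_pos,
            r_pos := Nat.card_pos, unit := fun _ => U, ι := ι, ι_O := hιO, ι_w := hιw,
            sep := ?_, unif := ?_ }, ?_, fun k => ⟨γ k * δ, RingHom.ext (hι k)⟩, ?_⟩
  · intro k l hkl
    set x := γ k * δ
    set d := x⁻¹ * (γ l * δ)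
    have hxd : γ l * δ = x * d := by simp [d]
    have hne : ¬ ((M : ℤ) ∣ d 1 0 ∧ (((M : ℤ) ∣ d 0 0 - 1 ∧ (M : ℤ) ∣ d 1 1 - 1) ∨
        ((M : ℤ) ∣ d 0 0 + 1 ∧ (M : ℤ) ∣ d 1 1 + 1))) := by
      rintro ⟨h10, h⟩
      refine hkl (g.injective ?_)
      obtain ⟨n, hn⟩ := L.exists_coset C (hγ k) (hγ l) h10 h
      rw [← hγe, ← hγe] at hn
      rw [← hrep (g k), ← hrep (g l), QuotientGroup.eq]
      have : (rep (g k))⁻¹ * rep (g l) = (L.tau C δ ^ n)⁻¹ := by
        rw [← inv_inv (rep (g l)), hn, mul_inv_rev, inv_inv, inv_mul_cancel_left]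
      rw [this]
      exact inv_mem (Subgroup.zpow_mem_zpowers _ n)
    obtain ⟨a, b, ha, hb, hab⟩ := L.exists_numer C d hne
    let q : Quad M := ⟨rowMul a x⁻¹, rowMul b x⁻¹, L.V i, L.V j, nz_rowMul _ ha, nz_rowMul _ hb,
      L.nz_V i, L.nz_V j, L.not_pm hi hj hij⟩
    obtain ⟨D, hD, hk⟩ := hval k q rfl rfl
    obtain ⟨D', hD', hl⟩ := hval l q rfl rfl
    rw [show D' = D from Units.ext (hD'.trans hD.symm)] at hl
    refine ⟨_, hmem q rfl rfl, _, _, hk, hl, fun h => ?_⟩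
    simp only [q, rowMul_rowMul, hxd, ← mul_assoc, inv_mul_cancel, one_mul, rowMul_one, map_mul,
      show γ k * δ = x from rfl] at h
    have h' := mul_right_cancel₀ (((residue_ne_zero_iff_isUnit _).mpr
      (PowerSeries.isUnit_constantCoeff _ V.isUnit))) h
    have h'' := mul_right_cancel₀ (((residue_ne_zero_iff_isUnit _).mpr
      (PowerSeries.isUnit_constantCoeff _ (D⁻¹).isUnit))) h'
    rw [← sub_eq_zero, ← map_sub] at h''
    exact (residue_ne_zero_iff_isUnit _).mpr hab h''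
  · intro k hk
    set x := γ k * δ
    have h5 : (5 : ℤ) ≤ M := by exact_mod_cast L.five
    have h1 : ∀ t : ℤ, 0 < t → t < M → ¬ (M : ℤ) ∣ t := fun t h0 h1 h =>
      absurd (Int.le_of_dvd h0 h) (by omega)
    have hM := L.five
    have ha1 : absRes M 1 = 1 := absRes_unique (by omega) (Or.inl (by simp))
    have ha2 : absRes M 2 = 2 := absRes_unique (by omega) (Or.inl (by simp))
    have hnp : ¬ PM M ((1 : ℤ), (0 : ℤ)) (2, 0) := fun h => by
      have := absRes_congr h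
      rw [ha1, ha2] at this; omega
    let q : Quad M := ⟨rowMul (1, 0) x⁻¹, rowMul (2, 0) x⁻¹, L.V i, L.V j,
      nz_rowMul _ (by simp [NZ, h1 1 one_pos (by omega)]),
      nz_rowMul _ (by simp [NZ, h1 2 two_pos (by omega)]),
      L.nz_V i, L.nz_V j, L.not_pm hi hj hij⟩
    obtain ⟨D, hD, hq⟩ := hval k q rfl rfl
    obtain ⟨N, hN⟩ := exists_lead C (u := (1, 0)) (t := (2, 0))
      (by simp [NZ, h1 1 one_pos (by omega)]) (by simp [NZ, h1 2 two_pos (by omega)]) hnp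
    simp only [q, rowMul_rowMul, x, inv_mul_cancel, rowMul_one, hN, ha1, ha2, min_eq_left one_le_two,
      pow_one] at hq
    refine ⟨_, hmem q rfl rfl, _, hq, by simp, ?_⟩
    simp only [mul_assoc]
    rw [PowerSeries.coeff_succ_X_mul, PowerSeries.coeff_zero_eq_constantCoeff,
      residue_ne_zero_iff_isUnit]
    exact PowerSeries.isUnit_constantCoeff _ (N.isUnit.mul ((D⁻¹).isUnit.mul V.isUnit))
  · simp only [Finset.sum_const, Finset.card_univ, Fintype.card_fin, smul_eq_mul]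
    rw [Subgroup.card_eq_card_quotient_mul_card_subgroup H]
    exact Nat.mul_le_mul le_rfl hcardH
  · refine ⟨g.symm ((1 : L.gal C) : L.gal C ⧸ H), RingHom.ext fun x => ?_⟩
    show serAt C δ ((rep (g (g.symm _)))⁻¹ • x) = _
    rw [Equiv.apply_symm_apply]
    simp [rep]

end Fermat.Agent.GalRep.Model
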