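/-
The model of the level field over the line: two charts with sheets over every point of the special
fibre.
-/
import Fermat.Agent.GalRep.Model.SheetsCusp

set_option autoImplicit false

noncomputable section

namespace Fermat.Agent.GalRep.Model

open UpperHalfPlane CongruenceSubgroup Polynomial IsLocalRing
open scoped MatrixGroups

variable {M : ℕ} [NeZero M] (L : Lev M) {O : Type*} [CommRing O] [IsDomain O] (C : Cyc O M)

local notation "al" => algebraMap (PowerSeries O) (SeriesField O)

theorem serAt_rat_mul_X_pow (δ : SL(2, ℤ)) (q : Quad M) :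
    serAt C δ (rat C q) * al (PowerSeries.X ^ pOrd M (q.mul δ).u' (q.mul δ).t') ∈ (al).range := by
  obtain ⟨V, hV⟩ := exists_lead C (q.mul δ).hu' (q.mul δ).ht' (q.mul δ).hne
  refine ⟨(pO C (q.mul δ).u - pO C (q.mul δ).t) * ((V⁻¹ : (PowerSeries O)ˣ) : PowerSeries O), ?_⟩
  rw [serAt_rat, qSer, div_mul_eq_mul_div, eq_div_iff (by
    rw [Ne, map_eq_zero_iff _ (IsFractionRing.injective _ _)]; exact den_ne_zero C _),
    ← map_mul, ← map_mul, hV]
  congr 1
  have hVV : ((V⁻¹ : (PowerSeries O)ˣ) : PowerSeries O) * V = 1 := Units.inv_mul V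
  simp only [pOrd]
  linear_combination ((pO C (q.mul δ).u - pO C (q.mul δ).t) *
    PowerSeries.X ^ min (absRes M (q.mul δ).u'.1) (absRes M (q.mul δ).t'.1)) * hVV

theorem Lev.rat_mul_prod_mem {i : Fin 4} (hi : i ∈ L.J) (q : Quad M) (hu : q.u' = L.V i)
    (ht : q.t' = L.V 1) : rat C q * Polynomial.aeval (L.w C)
      (∏ k ∈ L.J.erase i, (Polynomial.X - Polynomial.C (L.cval C k))) ∈ L.intRing C := by
  classical
  set P := ∏ k ∈ L.J.erase i, (Polynomial.X - Polynomial.C (L.cval C k))
  have hP := L.aeval_mem_intRing C P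
  have hord : ∀ δ, pOrd M (q.mul δ).u' (q.mul δ).t' =
      if L.IsCusp i δ ∨ L.IsCusp 1 δ then 0 else L.e := fun δ => by
    simp only [Quad.mul, hu, ht, L.pOrd_V]
  refine ⟨mul_mem (rat_mem_holRing C _) hP.1, fun k hk δ hδ => ?_, fun δ hδ => ?_⟩
  · have hrat := serAt_rat_mul_X_pow C δ q
    rw [hord δ] at hrat
    by_cases hki : k = i
    · subst hki
      rw [if_pos (Or.inl hδ), pow_zero, map_one, mul_one] at hrat
      rw [map_mul]
      exact mul_mem hrat (hP.2.1 k hk δ hδ)
    · obtain ⟨hkv, hk1⟩ := L.mem_J.mp hk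
      rw [if_neg (by
        rintro (h | h)
        · exact hki (L.cusp_unique hkv (L.mem_J.mp hi).1 hδ h)
        · exact hk1 (L.cusp_unique hkv L.valid1 hδ h))] at hrat
      obtain ⟨U, hU⟩ := L.serAt_w_finite C hk hδ
      have hsplit : serAt C δ (rat C q * Polynomial.aeval (L.w C) P) =
          serAt C δ (rat C q) * al (PowerSeries.X ^ L.e) * (al (U : PowerSeries O) *
            serAt C δ (Polynomial.aeval (L.w C)
              (∏ l ∈ (L.J.erase i).erase k, (Polynomial.X - Polynomial.C (L.cval C l))))) := by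
        simp only [P]
        have he : ∀ c : O, Polynomial.aeval (L.w C) (Polynomial.X - Polynomial.C c) =
            L.w C - algebraMap O (lvlField C) c := fun c => by simp
        rw [← Finset.mul_prod_erase _ _ (Finset.mem_erase.mpr ⟨hki, hk⟩), map_mul, map_mul, he, map_mul,
          map_sub, serAt_algebraMap, hU, map_add, add_sub_cancel_left, map_mul]
        ring
      rw [hsplit]
      exact mul_mem hrat (mul_mem ⟨_, rfl⟩ ((L.aeval_mem_intRing C _).2.1 k hk δ hδ))
  · have hrat := serAt_rat_mul_X_pow C δ q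
    rw [hord δ, if_pos (Or.inr hδ), pow_zero, map_one, mul_one] at hrat
    obtain ⟨K, hK⟩ := hP.2.2 δ hδ
    refine ⟨K, ?_⟩
    rw [map_mul, mul_assoc]
    exact mul_mem hrat hK

theorem Lev.rat_mul_cuspPoly_inv_mem (q : Quad M) (hu : q.u' = L.V 1) (ht : q.t' = L.V 0) :
    (L.w C)⁻¹ ^ L.J.card * (rat C q * Polynomial.aeval (L.w C) (L.cuspPoly C)) ∈
      chartRing O (L.w C)⁻¹ := by
  classical
  refine L.inv_pow_mul_mem C (L.rat_mul_cuspPoly C q fun δ _ => ?_).1 fun δ hδ => ?_
  · simp only [Quad.mul, hu, ht, L.pOrd_V]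
    split_ifs <;> omega
  · have hrat := serAt_rat_mul_X_pow C δ q
    simp only [Quad.mul, hu, ht, L.pOrd_V] at hrat
    rw [if_pos (Or.inl hδ), pow_zero, map_one, mul_one] at hrat
    obtain ⟨V, hV⟩ := serAt_cuspPoly_pole L C δ hδ
    rw [map_mul, mul_assoc, hV]
    exact mul_mem hrat ⟨_, rfl⟩

theorem Lev.w_ne_zero : L.w C ≠ 0 := fun h => Polynomial.X_ne_zero
  (L.aeval_w_injective C (a₁ := Polynomial.X) (a₂ := 0) (by simpa using h))

variable [IsDiscreteValuationRing O]

/-- The point is away from the cusps. -/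
def Lev.Noncusp (c : O) : Prop := ∀ i ∈ L.J, IsUnit (c - L.cval C i)

/-- An expansion at a cusp, or at a point away from the cusps. -/
def Lev.IsSheet (ι : lvlField C →+* SeriesField O) : Prop :=
  (∃ δ, ι = serAt C δ) ∨ ∃ c, L.Noncusp C c ∧
    ι (L.w C) = al (PowerSeries.C c + PowerSeries.X) ∧
    ∀ a, ι (algebraMap O (lvlField C) a) = al (PowerSeries.C a)

open scoped Classical in
/-- The representatives in the chart of `w`. -/
def Lev.rep0 (c : O) : O :=
  if h : ∃ i ∈ L.J, ¬ IsUnit (c - L.cval C i) then L.cval C h.choose else c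

theorem Lev.residue_rep0 (c : O) : residue O (L.rep0 C c) = residue O c := by
  unfold Lev.rep0
  split_ifs with h
  · rw [eq_comm, ← sub_eq_zero, ← map_sub, residue_eq_zero_iff]
    exact h.choose_spec.2
  · rfl

theorem Lev.rep0_zero : L.rep0 C 0 = 0 := by
  unfold Lev.rep0
  split_ifs with h
  · by_cases h2 : h.choose = 2
    · rw [h2]; rfl
    · refine absurd ?_ h.choose_spec.2
      have := L.isUnit_cval_sub C (L.mem_J.mpr ⟨L.valid2, by decide⟩) h.choose_spec.1 (Ne.symm h2)
      simpa [Lev.cval] using this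
  · rfl

variable [IsAdicComplete (maximalIdeal O) O] [IsAlgClosed (ResidueField O)]

theorem Lev.exists_data0 (c : O) : ∃ D : SheetData (L.w C) (L.rep0 C c),
    Nat.card (L.gal C) ≤ ∑ k, D.e k ∧ (∀ k, L.IsSheet C (D.ι k)) ∧
      (c = 0 → ∃ k, D.ι k = serAt C 1) := by
  classical
  by_cases h : ∃ i ∈ L.J, ¬ IsUnit (c - L.cval C i)
  · rw [Lev.rep0, dif_pos h]
    set i := h.choose with hidef
    obtain ⟨hiJ, hiu⟩ := h.choose_spec
    obtain ⟨hiv, hi1⟩ := L.mem_J.mp hiJ
    obtain ⟨U, hU⟩ := L.serAt_w_finite C hiJ (L.isCusp_cuspMat i hiv)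
    set P := ∏ k ∈ L.J.erase i, (Polynomial.X - Polynomial.C (L.cval C k))
    obtain ⟨V, hV⟩ : IsUnit (Polynomial.aeval
        (PowerSeries.C (L.cval C i) + PowerSeries.X ^ L.e * (U : PowerSeries O)) P) := by
      simp only [P, map_prod]
      refine IsUnit.prod_iff.mpr fun k hk => PowerSeries.isUnit_iff_constantCoeff.mpr ?_
      obtain ⟨hki, hkJ⟩ := Finset.mem_erase.mp hk
      simpa [PowerSeries.algebraMap_apply, zero_pow L.e_pos.ne'] using
        L.isUnit_cval_sub C hiJ hkJ (Ne.symm hki)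
    obtain ⟨D, hD, hs, k, hk⟩ := L.exists_cuspData C (L.w C) (L.smul_w C) (L.cval C i) (cuspMat i)
      hiv L.valid1 hi1 (L.isCusp_cuspMat i hiv) U hU (Polynomial.aeval (L.w C) P)
      (fun σ => L.smul_aeval C σ P) V
      (by rw [ι_aeval_of _ (serAt_algebraMap C _) hU, hV])
      (fun q h1 h2 => L.mem_chartRing C (L.rat_mul_prod_mem C hiJ q h1 h2))
    refine ⟨D, hD, fun k => Or.inl (hs k), fun hc => ⟨k, ?_⟩⟩
    have h2 : i = 2 := by
      by_contra h2
      refine hiu ?_
      have := L.isUnit_cval_sub C (L.mem_J.mpr ⟨L.valid2, by decide⟩) hiJ (Ne.symm h2)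
      simpa [hc, Lev.cval] using this
    rw [hk, h2]
    rfl
  · rw [Lev.rep0, dif_neg h]
    push Not at h
    obtain ⟨D, hD, hw⟩ := L.exists_noncusp C c h
    refine ⟨D, hD, fun k => Or.inr ⟨c, h, hw k, D.ι_O k⟩, fun hc => absurd (h 2 ?_) ?_⟩
    · exact L.mem_J.mpr ⟨L.valid2, by decide⟩
    · simp [hc, Lev.cval]

open scoped Classical in
/-- The representatives in the chart of `w⁻¹`. -/
def Lev.rep1 (c : O) : O := if IsUnit c then Ring.inverse (L.rep0 C (Ring.inverse c)) else 0

omit [IsAdicComplete (maximalIdeal O) O] [IsAlgClosed (ResidueField O)] in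
theorem Lev.isUnit_rep0_inverse {c : O} (h : IsUnit c) : IsUnit (L.rep0 C (Ring.inverse c)) := by
  rw [← residue_ne_zero_iff_isUnit, L.residue_rep0, residue_ne_zero_iff_isUnit]
  exact h.ringInverse

omit [IsAdicComplete (maximalIdeal O) O] [IsAlgClosed (ResidueField O)] in
theorem Lev.residue_rep1 (c : O) : residue O (L.rep1 C c) = residue O c := by
  unfold Lev.rep1
  split_ifs with h
  · have h1 : residue O (Ring.inverse (L.rep0 C (Ring.inverse c))) *
        residue O (L.rep0 C (Ring.inverse c)) = 1 := by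
      rw [← map_mul, Ring.inverse_mul_cancel _ (L.isUnit_rep0_inverse C h), map_one]
    rw [L.residue_rep0] at h1
    have h2 : residue O c * residue O (Ring.inverse c) = 1 := by
      rw [← map_mul, Ring.mul_inverse_cancel _ h, map_one]
    exact mul_right_cancel₀ (right_ne_zero_of_mul_eq_one h2) (h1.trans h2.symm)
  · rw [map_zero, eq_comm, residue_eq_zero_iff]
    exact h

theorem Lev.exists_data1 (c : O) : ∃ D : SheetData (L.w C)⁻¹ (L.rep1 C c),
    Nat.card (L.gal C) ≤ ∑ k, D.e k ∧ ∀ k, L.IsSheet C (D.ι k) := by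
  classical
  by_cases h : IsUnit c
  · rw [Lev.rep1, if_pos h]
    obtain ⟨D, hD, hs, -⟩ := L.exists_data0 C (Ring.inverse c)
    obtain ⟨D', hsum, hι⟩ := D.exists_inv (L.w_ne_zero C)
      (Ring.mul_inverse_cancel _ (L.isUnit_rep0_inverse C h))
    refine ⟨D', hsum ▸ hD, fun k => ?_⟩
    obtain ⟨k', hk⟩ := hι k
    exact hk ▸ hs k'
  · rw [Lev.rep1, if_neg h]
    have h1 := L.isCusp_cuspMat 1 L.valid1
    obtain ⟨U, hU⟩ := L.serAt_w_pole C h1
    obtain ⟨V, hV⟩ := serAt_cuspPoly_pole L C _ h1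
    have hinv : serAt C (cuspMat 1) (L.w C)⁻¹ =
        al (PowerSeries.X ^ L.e * ((U⁻¹ : (PowerSeries O)ˣ) : PowerSeries O)) := by
      rw [map_inv₀]
      refine inv_eq_of_mul_eq_one_right ?_
      rw [map_mul, ← mul_assoc, hU, ← map_mul, Units.mul_inv, map_one]
    obtain ⟨D, hD, hs, -⟩ := L.exists_cuspData C (L.w C)⁻¹
      (fun σ => by rw [smul_inv'', L.smul_w]) 0 (cuspMat 1) L.valid1 L.valid0 (by decide) h1 U⁻¹
      (by rw [hinv, map_zero, zero_add])
      ((L.w C)⁻¹ ^ L.J.card * Polynomial.aeval (L.w C) (L.cuspPoly C))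
      (fun σ => by rw [smul_mul', smul_pow', smul_inv'', L.smul_w, L.smul_aeval])
      (U⁻¹ ^ L.J.card * V)
      (by
        rw [map_mul, map_pow, hinv, ← map_pow, mul_pow, ← pow_mul, map_mul, mul_right_comm,
          mul_comm (al _) (serAt C _ _), hV, Units.val_mul, Units.val_pow_eq_pow_val, map_mul,
          mul_comm])
      (fun q h1 h2 => by
        rw [mul_left_comm]; exact L.rat_mul_cuspPoly_inv_mem C q h1 h2)
    exact ⟨D, hD, fun k => Or.inl (hs k)⟩

/-- The model. -/
def Lev.model : TwoChart O (L.w C) :=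
  haveI : CharZero O := C.φ.charZero
  haveI : CharZero (lvlField C) :=
    (algebraMap O (lvlField C)).charZero_iff (fun a b h => by
      have h' := congrArg (serAt C 1) h
      rw [serAt_algebraMap, serAt_algebraMap] at h'
      simpa using congrArg PowerSeries.constantCoeff (IsFractionRing.injective _ _ h')) |>.mp
      inferInstance
  { chart0 :=
      { rep := L.rep0 C
        residue_rep := L.residue_rep0 C
        rep_zero := L.rep0_zero C
        sheets := fun c => (L.exists_data0 C c).choose.toSheets (L.fixedRational C)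
          (L.exists_data0 C c).choose_spec.1
        r_pos := fun c => (L.exists_data0 C c).choose.r_pos }
    chart1 :=
      { rep := L.rep1 C
        residue_rep := L.residue_rep1 C
        rep_zero := if_neg not_isUnit_zero
        sheets := fun c => (L.exists_data1 C c).choose.toSheets
          ((L.fixedRational C).inv (L.w_ne_zero C)) (L.exists_data1 C c).choose_spec.1
        r_pos := fun c => (L.exists_data1 C c).choose.r_pos }
    fg0 := fg_chartRing (L.w C) (L.aeval_w_injective C) (L.fixedRational C)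
    fg1 := fg_chartRing (L.w C)⁻¹ (aeval_inv_injective (L.w_ne_zero C) (L.aeval_w_injective C))
      ((L.fixedRational C).inv (L.w_ne_zero C)) }

theorem Lev.isSheet_model0 (c : O) (j : Fin ((L.model C).chart0.sheets c).r) :
    L.IsSheet C (((L.model C).chart0.sheets c).ι j) :=
  (L.exists_data0 C c).choose_spec.2.1 j

theorem Lev.isSheet_model1 (c : O) (j : Fin ((L.model C).chart1.sheets c).r) :
    L.IsSheet C (((L.model C).chart1.sheets c).ι j) :=
  (L.exists_data1 C c).choose_spec.2 j

theorem Lev.exists_sheet_one :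
    ∃ j, ((L.model C).chart0.sheets (0 : O)).ι j = serAt C 1 :=
  (L.exists_data0 C 0).choose_spec.2.2 rfl

end Fermat.Agent.GalRep.Model
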