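/-
Holomorphic elements with integral series lie in the chart ring; reductions on all sheets of an
element nonzero on the special fibre.
-/
import Fermat.Agent.GalRep.Model.ModularModel
import Fermat.Agent.GalRep.Model.Root

set_option autoImplicit false

noncomputable section

namespace Fermat.Agent.GalRep.Model

open UpperHalfPlane CongruenceSubgroup Polynomial IsLocalRing
open scoped MatrixGroups PowerSeries

section Generic

variable {O : Type*} [CommRing O] [IsDomain O] [IsDiscreteValuationRing O]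
  [IsAdicComplete (maximalIdeal O) O] [IsAlgClosed (ResidueField O)]
variable {F : Type*} [Field F] [Algebra O F] {w : F} (T : TwoChart O w) {π : O} (hπ : Irreducible π)

include T hπ in
theorem TwoChart.red_ser_ne_zero_of_not_dvd (a : chartRing O w)
    (ha : ¬ algebraMap O (chartRing O w) π ∣ a) (c : O) (j : Fin (T.chart0.sheets c).r) :
    red ((T.chart0.sheets c).ser j a) ≠ 0 := fun h =>
  ha (T.pi_dvd_of_red_ser_eq_zero hπ c j a h)

include T hπ in
/-- On the sheets of the second chart. -/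
theorem TwoChart.exists_red_ser1_ne_zero (a : chartRing O w)
    (ha : ¬ algebraMap O (chartRing O w) π ∣ a) : ∃ E, ∀ (c : O) (j : Fin (T.chart1.sheets c).r),
    ∃ g : PowerSeries O, (T.chart1.sheets c).ι j (w⁻¹ ^ E * (a : F)) =
      algebraMap (PowerSeries O) (SeriesField O) g ∧ red g ≠ 0 := by
  have hm := hπ.maximalIdeal_eq
  obtain ⟨u, G, hG, v, hv⟩ := T.chart0.exists_mul_eq_poly hm 0 a
    (T.red_ser_ne_zero_of_not_dvd hπ a ha 0)
  obtain ⟨Ea, hEa⟩ := T.exists_pow_mul_mem_inv a
  obtain ⟨Eu, hEu⟩ := T.exists_pow_mul_mem_inv u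
  obtain ⟨Ev, hEv⟩ := T.exists_pow_mul_mem_inv v
  set E := Ea + Eu + Ev + G.natDegree
  refine ⟨E, fun c j => ?_⟩
  let S := T.chart1.sheets c
  let a' : chartRing O w⁻¹ := ⟨_, hEa E (by omega)⟩
  let u' : chartRing O w⁻¹ := ⟨_, hEu E (by omega)⟩
  let v' : chartRing O w⁻¹ := ⟨_, hEv (E + E) (by omega)⟩
  refine ⟨S.ser j a', (S.algebraMap_ser j a').symm, fun h0 => ?_⟩
  have hrefl : Polynomial.aeval w⁻¹ (G.reflect (E + E)) = w⁻¹ ^ (E + E) * Polynomial.aeval w G := by
    simpa using aeval_reflect_inv (inv_ne_zero T.w_ne_zero) (N := E + E) G (by omega)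
  have hG' : ¬ Polynomial.C π ∣ G.reflect (E + E) := fun h => hG (by
    rw [Polynomial.C_dvd_iff_dvd_coeff] at h ⊢
    intro i
    have := h (Polynomial.revAt (E + E) i)
    rwa [Polynomial.coeff_reflect, Polynomial.revAt_invol] at this)
  refine S.red_ser_polyVal_ne_zero hm j hG' ?_
  have heq : a' * u' - polyVal w⁻¹ (G.reflect (E + E)) = algebraMap O (chartRing O w⁻¹) π * v' := by
    refine Subtype.ext ?_
    have h1 := congrArg (fun z : chartRing O w => w⁻¹ ^ (E + E) * (z : F)) hv
    simp only [AddSubgroupClass.coe_sub, MulMemClass.coe_mul, coe_polyVal, Subalgebra.coe_algebraMap,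
      a', u', v', hrefl, pow_add] at h1 ⊢
    linear_combination h1
  have h2 := congrArg (fun z => red (S.ser j z)) heq
  simp only [map_sub, map_mul, h0, zero_mul, zero_sub] at h2
  rw [← map_mul, ← map_mul, S.red_ser_pi_mul hm j v', neg_eq_zero] at h2
  exact h2

end Generic

variable {M : ℕ} [NeZero M] (L : Lev M) {O : Type*} [CommRing O] [IsDomain O] (C : Cyc O M)

local notation "al" => algebraMap (PowerSeries O) (SeriesField O)

/-- Holomorphic, and bounded at the finite cusps. -/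
def Lev.bddRing : Subring (lvlField C) where
  carrier := {y | y ∈ holRing C ∧ ∀ i ∈ L.J, ∀ δ, L.IsCusp i δ →
    C.toC (serAt C δ y) ∈ (HahnSeries.ofPowerSeries ℤ ℂ).range}
  one_mem' := ⟨one_mem _, fun i _ δ _ => by rw [map_one, map_one]; exact one_mem _⟩
  zero_mem' := ⟨zero_mem _, fun i _ δ _ => by rw [map_zero, map_zero]; exact zero_mem _⟩
  mul_mem' := fun {a b} ha hb => ⟨mul_mem ha.1 hb.1, fun i hi δ hδ => by
    rw [map_mul, map_mul]; exact mul_mem (ha.2 i hi δ hδ) (hb.2 i hi δ hδ)⟩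
  add_mem' := fun {a b} ha hb => ⟨add_mem ha.1 hb.1, fun i hi δ hδ => by
    rw [map_add, map_add]; exact add_mem (ha.2 i hi δ hδ) (hb.2 i hi δ hδ)⟩
  neg_mem' := fun {a} ha => ⟨neg_mem ha.1, fun i hi δ hδ => by
    rw [map_neg, map_neg]; exact neg_mem (ha.2 i hi δ hδ)⟩

theorem mem_range_ofPowerSeries_iff (f : LaurentSeries ℂ) :
    f ∈ (HahnSeries.ofPowerSeries ℤ ℂ).range ↔ ∀ k < (0 : ℤ), f.coeff k = 0 := by
  constructor
  · rintro ⟨g, rfl⟩ k hk
    rw [HahnSeries.ofPowerSeries_apply, HahnSeries.embDomain_of_notMem_range]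
    rintro ⟨l, hl⟩
    simp at hl
    omega
  · intro h
    refine ⟨PowerSeries.mk fun i => f.coeff i, ?_⟩
    ext k
    rcases lt_or_ge k 0 with hk | hk
    · rw [h k hk, HahnSeries.ofPowerSeries_apply, HahnSeries.embDomain_of_notMem_range]
      rintro ⟨l, hl⟩
      simp at hl
      omega
    · obtain ⟨l, rfl⟩ := Int.eq_ofNat_of_zero_le hk
      rw [HahnSeries.ofPowerSeries_apply_coeff, PowerSeries.coeff_mk]

theorem Lev.smul_mem_bddRing (σ : L.gal C) {y : lvlField C} (hy : y ∈ L.bddRing C) :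
    σ • y ∈ L.bddRing C := by
  obtain ⟨γ, hγ, rfl⟩ := L.exists_eq_galOf C σ
  refine ⟨by rw [L.galOf_smul]; exact fShift_mem_holRing C γ hy.1, fun i hi δ hδ => ?_⟩
  rw [L.serAt_smul]
  exact hy.2 i hi _ ((L.isCusp_mul_iff hγ i δ).mpr hδ)

/-- A multiple of an element bounded at the finite cusps is integral over `O[w]`. -/
theorem Lev.exists_smul_mem_chartRing {y : lvlField C} (hy : y ∈ L.bddRing C) :
    ∃ s : O, s ≠ 0 ∧ algebraMap O (lvlField C) s * y ∈ chartRing O (L.w C) := by
  classical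
  haveI := Fintype.ofFinite (L.gal C)
  set P := L.orbitProd C y with hP
  have hm : P.Monic := Polynomial.monic_prod_of_monic _ _ fun σ _ => Polynomial.monic_X_sub_C _
  have hmem : P ∈ Polynomial.lifts (L.bddRing C).subtype :=
    Subsemiring.prod_mem _ fun σ _ =>
      ⟨Polynomial.X - Polynomial.C ⟨_, L.smul_mem_bddRing C σ hy⟩, by simp⟩
  have hfix : ∀ τ : L.gal C, τ • P = P := fun τ => by
    rw [hP, Lev.orbitProd, Finset.smul_prod']
    refine Fintype.prod_equiv (Equiv.mulLeft τ) _ _ fun σ => ?_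
    simp [smul_sub, mul_smul]
  have hcoef : ∀ k, ∃ (s : O) (Q : O[X]), s ≠ 0 ∧
      algebraMap O (lvlField C) s * P.coeff k = Polynomial.aeval (L.w C) Q := fun k => by
    obtain ⟨⟨z, hz⟩, hzk⟩ := (Polynomial.lifts_iff_coeff_lifts _).mp hmem k
    refine L.exists_aeval_bdd C (hzk ▸ hz.1) (fun τ => ?_) fun i hi δ hδ =>
      (mem_range_ofPowerSeries_iff _).mp (hzk ▸ hz.2 i hi δ hδ)
    conv_rhs => rw [← hfix τ]
    rfl
  choose s Q hs hQ using hcoef
  set r := P.natDegree
  set S := ∏ k ∈ Finset.range r, s k with hS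
  refine ⟨S, Finset.prod_ne_zero_iff.mpr fun k _ => hs k, ?_⟩
  show IsIntegral _ _
  rw [isIntegral_adjoin_iff]
  set Pr := Polynomial.scaleRoots P (algebraMap O (lvlField C) S) with hPr
  have hl : Pr ∈ Polynomial.lifts (Polynomial.aeval (L.w C) : O[X] →ₐ[O] lvlField C).toRingHom := by
    rw [Polynomial.lifts_iff_coeff_lifts]
    intro k
    rw [hPr, Polynomial.coeff_scaleRoots]
    rcases lt_trichotomy k r with hk | hk | hk
    · obtain ⟨d, hd⟩ : s k ∣ S := Finset.dvd_prod_of_mem _ (Finset.mem_range.mpr hk)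
      obtain ⟨l, hl⟩ : ∃ l, r - k = l + 1 := ⟨r - k - 1, by omega⟩
      refine ⟨Q k * Polynomial.C (d * S ^ l), ?_⟩
      show Polynomial.aeval (L.w C) (Q k * Polynomial.C (d * S ^ l)) = _
      rw [map_mul, Polynomial.aeval_C, ← hQ, hl, pow_succ]
      nth_rewrite 3 [hd]
      simp only [map_mul, map_pow]
      ring
    · refine ⟨1, ?_⟩
      subst hk
      show Polynomial.aeval (L.w C) (1 : O[X]) = _
      rw [Nat.sub_self, pow_zero, mul_one, map_one]
      exact hm.coeff_natDegree.symm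
    · exact ⟨0, by rw [Polynomial.coeff_eq_zero_of_natDegree_lt hk, zero_mul, map_zero]⟩
  obtain ⟨R, hR, -, hRm⟩ := Polynomial.lifts_and_natDegree_eq_and_monic hl
    ((Polynomial.monic_scaleRoots_iff _).mpr hm)
  refine ⟨R, hRm, ?_⟩
  rw [← Polynomial.eval_map, hR]
  have h0 : Polynomial.eval₂ (RingHom.id _) y P = 0 := by
    rw [Polynomial.eval₂_id, hP, Lev.orbitProd, Polynomial.eval_prod]
    exact Finset.prod_eq_zero (Finset.mem_univ (1 : L.gal C)) (by simp)
  have := Polynomial.scaleRoots_eval₂_eq_zero (RingHom.id _) (s := algebraMap O (lvlField C) S) h0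
  rw [Polynomial.eval₂_id] at this
  simpa using this

variable [IsDiscreteValuationRing O] [IsAdicComplete (maximalIdeal O) O]
  [IsAlgClosed (ResidueField O)]

/-- Holomorphic elements with integral series at infinity, times the cusp factors, lie in the chart
ring. -/
theorem Lev.exists_mem_chartRing {x : lvlField C} (hx : x ∈ holRing C) {K0 : ℕ}
    (hint : serAt C 1 x * al (PowerSeries.X ^ K0) ∈ (al).range) :
    ∃ K, ∀ K', K ≤ K' →
      x * Polynomial.aeval (L.w C) (L.cuspPoly C ^ K') ∈ chartRing O (L.w C) := by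
  classical
  obtain ⟨f, hf⟩ := id hx
  obtain ⟨K1, hK1⟩ := L.exists_bddFin C f
  refine ⟨K0 + K1, fun K' hK' => ?_⟩
  set y := x * Polynomial.aeval (L.w C) (L.cuspPoly C ^ K') with hy
  have hbd : y ∈ L.bddRing C := by
    refine ⟨mul_mem hx (aeval_mem_holRing C _ (rat_mem_holRing C _)), fun i hi δ hδ => ?_⟩
    rw [mem_range_ofPowerSeries_iff]
    intro k hk
    have hf' : algebraMap (modFuns (Gamma M)) (WFld M) (f * Polynomial.aeval (L.wMF C)
        ((L.cuspPoly C ^ K').map C.φ)) = (y : WFld M) := by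
      rw [map_mul, hf, ← L.coe_aeval_w]; rfl
    rw [← serHom_shift_eq C hf']
    exact hK1 K' (by omega) i hi δ hδ k hk
  obtain ⟨s, hs, hsy⟩ := L.exists_smul_mem_chartRing C hbd
  -- integrality at infinity
  have hone : L.IsCusp 2 (1 : SL(2, ℤ)) := by
    simpa [cuspMat] using L.isCusp_cuspMat 2 L.valid2
  obtain ⟨V, hV⟩ := L.serAt_cuspPoly C (L.mem_J.mpr ⟨L.valid2, by decide⟩) hone
  obtain ⟨g0, hg0⟩ := hint
  obtain ⟨d, hd⟩ : ∃ d, L.e * K' = K0 + d :=
    Nat.exists_eq_add_of_le (le_trans (by omega) (Nat.le_mul_of_pos_left K' L.e_pos))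
  have hser : serAt C 1 y = al (g0 * (PowerSeries.X ^ d * (V : PowerSeries O) ^ K')) := by
    rw [hy, map_pow, map_mul, map_pow, hV, ← map_pow, mul_pow, ← pow_mul, hd, pow_add, mul_assoc,
      map_mul, ← mul_assoc, ← hg0, ← map_mul]
  obtain ⟨π, hπ⟩ := IsDiscreteValuationRing.exists_irreducible O
  obtain ⟨k, u, rfl⟩ := IsDiscreteValuationRing.eq_unit_mul_pow_irreducible hs hπ
  have hk : algebraMap O (lvlField C) (π ^ k) * y ∈ chartRing O (L.w C) := by
    have h := mul_mem (Subalgebra.algebraMap_mem (chartRing O (L.w C)) ((u⁻¹ : Oˣ) : O)) hsy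
    rwa [← mul_assoc (algebraMap O (lvlField C) _), ← map_mul, Units.inv_mul_cancel_left] at h
  clear hsy hs u
  obtain ⟨j, hj⟩ := L.exists_sheet_one C (O := O)
  induction k with
  | zero => simpa using hk
  | succ k ih =>
    refine ih ?_
    set z : chartRing O (L.w C) := ⟨_, hk⟩
    have hred : red (((L.model C).chart0.sheets (0 : O)).ser j z) = 0 := by
      have h1 : ((L.model C).chart0.sheets (0 : O)).ser j z = PowerSeries.C (π ^ (k + 1)) *
          (g0 * (PowerSeries.X ^ d * (V : PowerSeries O) ^ K')) := by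
        apply IsFractionRing.injective (PowerSeries O) (SeriesField O)
        rw [Sheets.algebraMap_ser, hj, map_mul]
        rw [serAt_algebraMap, hser, ← map_mul]
      rw [h1, map_mul, PowerSeries.map_C, map_pow, (residue_eq_zero_iff π).mpr hπ.not_isUnit,
        zero_pow (Nat.succ_ne_zero k), map_zero, zero_mul]
    obtain ⟨v, hv⟩ := (L.model C).pi_dvd_of_red_ser_eq_zero hπ 0 j z hred
    have hv' : algebraMap O (lvlField C) (π ^ (k + 1)) * y = algebraMap O (lvlField C) π * v :=
      congrArg (fun t : chartRing O (L.w C) => (t : lvlField C)) hv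
    have hπ0 : algebraMap O (lvlField C) π ≠ 0 := fun h =>
      hπ.ne_zero ((L.model C).algebraMap_injective (h.trans (map_zero _).symm))
    rw [pow_succ', map_mul, mul_assoc] at hv'
    rw [mul_left_cancel₀ hπ0 hv']
    exact v.2

end Fermat.Agent.GalRep.Model
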