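/-
The coordinate has nonvanishing derivative on the upper half plane.
-/
import Fermat.Agent.GalRep.Model.IntegralFuns
import Mathlib.NumberTheory.ModularForms.Derivative

set_option autoImplicit false

noncomputable section

namespace Fermat.Agent.GalRep.Model

open UpperHalfPlane CongruenceSubgroup Filter Topology Derivative
open scoped MatrixGroups Manifold ModularForm Real

variable {M : ℕ} [NeZero M]

theorem norm_qq_zpow (τ : ℍ) (k : ℤ) :
    ‖qq M τ‖ ^ k = Real.exp (-(2 * π * k * τ.im / M)) := by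
  rw [qq, Complex.norm_exp, ← Real.rpow_intCast, ← Real.exp_mul]
  congr 1
  simp [Complex.div_natCast_re, Complex.mul_re, Complex.mul_im]
  ring

/-- A growth bound passes to the derivative. -/
theorem exists_deriv_bound {G : ℍ → ℂ} (hG : MDifferentiable 𝓘(ℂ) 𝓘(ℂ) G) {A : ℝ} {k : ℤ}
    (hA : ∀ᶠ τ in atImInfty, ‖G τ‖ ≤ A * ‖qq M τ‖ ^ k) :
    ∃ B : ℝ, ∀ᶠ τ in atImInfty, ‖D G τ‖ ≤ B * ‖qq M τ‖ ^ k := by
  obtain ⟨T, hT⟩ := (UpperHalfPlane.atImInfty_mem _).mp hA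
  refine ⟨‖((2 * π * Complex.I : ℂ))⁻¹‖ * (|A| * Real.exp (2 * π * |(k : ℝ)| / M)), ?_⟩
  refine (UpperHalfPlane.atImInfty_mem _).mpr ⟨max T 1 + 1, fun τ hτ => ?_⟩
  have h1 : ∀ z : ℂ, ‖z - (τ : ℂ)‖ ≤ 1 → 0 < z.im ∧ T ≤ z.im ∧ |z.im - τ.im| ≤ 1 := fun z hz => by
    have h := (Complex.abs_im_le_norm (z - (τ : ℂ))).trans hz
    rw [Complex.sub_im, UpperHalfPlane.coe_im] at h
    obtain ⟨h2, h3⟩ := abs_le.mp h
    have := le_max_left T 1
    have := le_max_right T 1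
    exact ⟨by linarith, by linarith, h⟩
  have hsph : ∀ z ∈ Metric.sphere (τ : ℂ) 1,
      ‖(G ∘ ofComplex) z‖ ≤ |A| * Real.exp (2 * π * |(k : ℝ)| / M) * ‖qq M τ‖ ^ k := by
    intro z hz
    obtain ⟨hz0, hzT, hzd⟩ := h1 z (by
      rw [← dist_eq_norm]; exact le_of_eq (Metric.mem_sphere.mp hz))
    have := hT ⟨z, hz0⟩ hzT
    simp only [Set.mem_setOf_eq] at this
    rw [Function.comp_apply, ofComplex_apply_of_im_pos hz0]
    refine this.trans ((mul_le_mul_of_nonneg_right (le_abs_self A) (by positivity)).trans ?_)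
    rw [mul_assoc]
    refine mul_le_mul_of_nonneg_left ?_ (abs_nonneg A)
    rw [norm_qq_zpow, norm_qq_zpow, ← Real.exp_add, Real.exp_le_exp]
    show -(2 * π * k * z.im / M) ≤ _
    have hb : (k : ℝ) * (τ.im - z.im) ≤ |(k : ℝ)| := by
      refine (le_abs_self _).trans ?_
      rw [abs_mul, abs_sub_comm]
      exact mul_le_of_le_one_right (abs_nonneg _) hzd
    have hM : (0 : ℝ) < M := by exact_mod_cast NeZero.pos M
    rw [← sub_nonneg, show 2 * π * |(k : ℝ)| / M + -(2 * π * k * τ.im / M) - -(2 * π * k * z.im / M) =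
      2 * π * (|(k : ℝ)| - k * (τ.im - z.im)) / M by ring]
    have : 0 ≤ |(k : ℝ)| - k * (τ.im - z.im) := sub_nonneg.mpr hb
    positivity
  have hd : DiffContOnCl ℂ (G ∘ ofComplex) (Metric.ball (τ : ℂ) 1) := by
    refine DifferentiableOn.diffContOnCl ((UpperHalfPlane.mdifferentiable_iff.mp hG).mono ?_)
    rw [closure_ball _ one_ne_zero]
    intro z hz
    exact (h1 z (by rw [← dist_eq_norm]; exact Metric.mem_closedBall.mp hz)).1
  have := Complex.norm_deriv_le_of_forall_mem_sphere_norm_le one_pos hd hsph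
  rw [div_one] at this
  show ‖D G τ‖ ≤ _
  rw [normalizedDerivOfComplex, norm_mul]
  exact (mul_le_mul_of_nonneg_left this (norm_nonneg _)).trans_eq (by ring)

variable (L : Lev M) {O : Type*} [CommRing O] [IsDomain O] (C : Cyc O M)

theorem serAt_aeval {δ : SL(2, ℤ)} {x : lvlField C} {t : PowerSeries O}
    (h : serAt C δ x = algebraMap (PowerSeries O) (SeriesField O) t) (P : Polynomial O) :
    serAt C δ (Polynomial.aeval x P) =
      algebraMap (PowerSeries O) (SeriesField O) (Polynomial.aeval t P) := by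
  rw [Polynomial.aeval_def, Polynomial.aeval_def, Polynomial.hom_eval₂, Polynomial.hom_eval₂, h]
  congr 1
  ext a
  simp [serAt_algebraMap, PowerSeries.algebraMap_apply]

/-- `dw / (difference of two division values)`. -/
def Lev.wRatio (τ : ℍ) : ℂ :=
  D ((L.wMF C : modFuns (Gamma M)) : ℍ → ℂ) τ / wpDiff M (L.V 0) (L.V 1) τ

theorem Lev.mdifferentiable_wRatio : MDifferentiable 𝓘(ℂ) 𝓘(ℂ) (L.wRatio C) := by
  have h1 := normalizedDerivOfComplex_mdifferentiable (L.wMF C).2.holo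
  have h2 : MDifferentiable 𝓘(ℂ) 𝓘(ℂ) (wpDiff M (L.V 0) (L.V 1)) :=
    mdifferentiable_wpDiff (L.nz_V 0) (L.nz_V 1)
  rw [UpperHalfPlane.mdifferentiable_iff] at h1 h2 ⊢
  exact h1.div h2 fun z _ =>
    wpDiff_ne_zero (L.nz_V 0) (L.nz_V 1) (L.not_pm L.valid0 L.valid1 (by decide)) _

theorem Lev.wRatio_smul (δ : SL(2, ℤ)) (τ : ℍ) :
    L.wRatio C (δ • τ) = D ((shift M δ (L.wMF C) : modFuns (Gamma M)) : ℍ → ℂ) τ /
      wpDiff M (rowMul (L.V 0) δ) (rowMul (L.V 1) δ) τ := by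
  have hW := (L.wMF C).2.holo
  have h0 : ((shift M δ (L.wMF C) : modFuns (Gamma M)) : ℍ → ℂ) =
      ((L.wMF C : modFuns (Gamma M)) : ℍ → ℂ) ∣[(0 : ℤ)] δ := by
    funext z
    rw [ModularForm.SL_slash_apply, neg_zero, zpow_zero, mul_one]
    rfl
  rw [h0, normalizedDerivOfComplex_SL_slash hW]
  simp only [Pi.sub_apply, Int.cast_zero, zero_mul, sub_zero, zero_add]
  rw [ModularForm.SL_slash_apply, Lev.wRatio, wpDiff_smul, ModularGroup.denom_apply]
  have hj : ((δ 1 0 : ℤ) : ℂ) * τ + (δ 1 1 : ℤ) ≠ 0 := by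
    have := denom_ne_zero (δ : GL (Fin 2) ℝ) τ
    rwa [ModularGroup.denom_apply] at this
  rw [zpow_neg, zpow_ofNat]
  field_simp

theorem Lev.wRatio_invariant {γ : SL(2, ℤ)} (hγ : γ ∈ Gamma L.m) (τ : ℍ) :
    L.wRatio C (γ • τ) = L.wRatio C τ := by
  rw [L.wRatio_smul, L.inv_wMF C γ hγ, Lev.wRatio,
    wpDiff_congr (L.rowMul_V_pm hγ 0) (L.rowMul_V_pm hγ 1)]

/-- The bound of `dw / …` at a cusp from that of `w - c`. -/
theorem Lev.exists_wRatio_bound (δ : SL(2, ℤ)) (c : ℂ) {k : ℤ}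
    (hk : ∀ j < k, (serHom M (shift M δ (L.wMF C - algebraMap ℂ _ c))).coeff j = 0) :
    ∃ B : ℝ, ∀ᶠ τ in atImInfty, ‖L.wRatio C (δ • τ)‖ ≤
      B * ‖qq M τ‖ ^ (k - (pOrd M (rowMul (L.V 0) δ) (rowMul (L.V 1) δ) : ℤ)) := by
  obtain ⟨A, hA⟩ := (hasQSeries_serHom (shift M δ (L.wMF C - algebraMap ℂ _ c))).growth
    (NeZero.pos M) hk
  obtain ⟨B, hB⟩ := exists_deriv_bound (shift M δ (L.wMF C - algebraMap ℂ _ c)).2.holo hA
  have hD : D ((shift M δ (L.wMF C - algebraMap ℂ _ c) : modFuns (Gamma M)) : ℍ → ℂ) =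
      D ((shift M δ (L.wMF C) : modFuns (Gamma M)) : ℍ → ℂ) := by
    rw [map_sub, AlgHom.commutes]
    show D (_ - fun _ => c) = _
    rw [normalizedDerivOfComplex_sub _ _ (shift M δ (L.wMF C)).2.holo mdifferentiable_const,
      normalizedDerivOfComplex_const, sub_zero]
  rw [hD] at hB
  set o := pOrd M (rowMul (L.V 0) δ) (rowMul (L.V 1) δ)
  have hd := hasQSeries_num C (nz_rowMul δ (L.nz_V 0)) (nz_rowMul δ (L.nz_V 1))
  obtain ⟨U, hU⟩ := exists_lead C (nz_rowMul δ (L.nz_V 0)) (nz_rowMul δ (L.nz_V 1))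
    (fun h => L.not_pm L.valid0 L.valid1 (by decide) ((pm_rowMul_iff δ).mp h))
  have hlo : ∀ m < (o : ℤ), (C.gC (pO C (rowMul (L.V 0) δ) - pO C (rowMul (L.V 1) δ))).coeff m = 0 :=
    fun m hm => by
      rw [hU, map_mul, C.gC_X_pow, HahnSeries.coeff_single_mul, one_mul]
      exact coeff_gC_neg C _ (sub_neg.mpr hm)
  have hlim := hd.tendsto_div (NeZero.pos M) hlo
  set l := (C.gC (pO C (rowMul (L.V 0) δ) - pO C (rowMul (L.V 1) δ))).coeff (o : ℤ)
  have hl : l ≠ 0 := by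
    simp only [l, hU, map_mul, C.gC_X_pow, HahnSeries.coeff_single_mul, one_mul]
    rw [show (o : ℤ) - (min (absRes M (rowMul (L.V 0) δ).1) (absRes M (rowMul (L.V 1) δ).1) : ℕ) = 0
      by simp [o, pOrd], coeff_gC_zero]
    exact ((PowerSeries.isUnit_constantCoeff (U : PowerSeries O) U.isUnit).map C.φ).ne_zero
  have hev := hlim.norm.eventually (lt_mem_nhds (half_lt_self (norm_pos_iff.mpr hl)))
  refine ⟨|B| / (‖l‖ / 2), ?_⟩
  filter_upwards [hB, hev] with τ h1 h2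
  rw [norm_div, norm_zpow] at h2
  have hq : 0 < ‖qq M τ‖ := norm_pos_iff.mpr (qq_ne_zero M τ)
  rw [lt_div_iff₀ (zpow_pos hq _)] at h2
  rw [L.wRatio_smul, norm_div]
  calc _ ≤ |B| * ‖qq M τ‖ ^ k / (‖l‖ / 2 * ‖qq M τ‖ ^ (o : ℤ)) :=
        div_le_div₀ (by positivity) (h1.trans (by gcongr; exact le_abs_self B)) (by positivity) h2.le
    _ = _ := by rw [zpow_sub₀ hq.ne']; field_simp

omit [NeZero M] in
theorem cusp_pOrd_le (L : Lev M) [NeZero M] (δ : SL(2, ℤ)) :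
    pOrd M (rowMul (L.V 0) δ) (rowMul (L.V 1) δ) ≤ L.e := by
  classical
  rw [L.pOrd_V]; split_ifs <;> omega

include C in
theorem Lev.exists_wRatio_series (δ : SL(2, ℤ)) :
    ∃ f, HasQSeries M (fun τ => L.wRatio C (δ • τ)) f ∧
      (¬ L.IsCusp 1 δ → ∀ j < (0 : ℤ), f.coeff j = 0) ∧
      (L.IsCusp 1 δ → ∀ j < -(L.e : ℤ), f.coeff j = 0) ∧
      (L.IsCusp 0 δ → ∀ j < (L.e : ℤ), f.coeff j = 0) := by
  classical
  have hper : ∀ τ : ℍ, L.wRatio C (δ • ((M : ℝ) +ᵥ τ)) = L.wRatio C (δ • τ) := fun τ => by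
    have hT := (Gamma_normal M).conj_mem _ (ModularGroup_T_pow_mem_Gamma M M dvd_rfl) δ
    have h := L.wRatio_invariant C (L.Gamma_le hT) (δ • τ)
    rw [mul_smul, mul_smul, inv_smul_smul, modular_T_zpow_smul, Int.cast_natCast] at h
    exact h
  have hhol := mdifferentiable_comp_smul (L.mdifferentiable_wRatio C) δ
  obtain ⟨i, hi, hic⟩ := L.exists_cusp δ
  have h0iff : L.IsCusp 0 δ → i = 0 := fun h => L.cusp_unique hi L.valid0 hic h
  have h1iff : L.IsCusp 1 δ → i = 1 := fun h => L.cusp_unique hi L.valid1 hic h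
  set o := pOrd M (rowMul (L.V 0) δ) (rowMul (L.V 1) δ) with ho
  have ho' : (L.IsCusp 0 δ ∨ L.IsCusp 1 δ) → o = 0 := fun h => by rw [ho, L.pOrd_V, if_pos h]
  obtain ⟨c, k, hk, hko, hk0, hk1⟩ : ∃ (c : ℂ) (k : ℤ),
      (∀ j < k, (serHom M (shift M δ (L.wMF C - algebraMap ℂ _ c))).coeff j = 0) ∧
        -(L.e : ℤ) ≤ k - o ∧ (i ≠ 1 → 0 ≤ k - o) ∧ (L.IsCusp 0 δ → (L.e : ℤ) ≤ k - o) := by
    by_cases h1 : i = 1
    · subst h1
      refine ⟨0, -(L.e : ℤ), fun j hj => ?_, by rw [ho' (Or.inr hic)]; simp, fun h => absurd rfl h,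
        fun h => absurd (h0iff h) (by decide)⟩
      obtain ⟨U, hU⟩ := L.serAt_w_pole C hic
      have h := congrArg C.toC hU
      rw [map_mul, C.toC_algebraMap, C.toC_algebraMap, ← serHom_shift_eq C (L.algebraMap_wMF C),
        C.gC_X_pow] at h
      have h2 := congrArg (fun s : LaurentSeries ℂ => s.coeff (j + L.e)) h
      simp only [HahnSeries.coeff_mul_single, mul_one, add_sub_cancel_right] at h2
      rw [map_zero, sub_zero, h2]
      exact coeff_gC_neg C _ (by omega)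
    · obtain ⟨U, hU⟩ := L.serAt_w_finite C (L.mem_J.mpr ⟨hi, h1⟩) hic
      have hle : (o : ℤ) ≤ L.e := by exact_mod_cast cusp_pOrd_le L δ
      refine ⟨C.φ (L.cval C i), (L.e : ℤ), fun j hj => ?_, by omega, fun _ => by omega,
        fun h => by rw [ho' (Or.inl h)]; simp⟩
      rw [map_sub, map_sub, AlgHom.commutes, serHom_algebraMap,
        serHom_shift_eq C (L.algebraMap_wMF C), hU, C.toC_algebraMap, map_add, HahnSeries.coeff_sub,
        HahnSeries.coeff_add, map_mul, C.gC_X_pow, HahnSeries.coeff_single_mul, one_mul,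
        coeff_gC_neg C _ (show j - ((L.e : ℕ) : ℤ) < 0 by omega), add_zero,
        show C.gC (PowerSeries.C (L.cval C i)) = HahnSeries.C (C.φ (L.cval C i)) by
          rw [Cyc.gC, RingHom.comp_apply, PowerSeries.map_C, HahnSeries.ofPowerSeries_C],
        sub_self]
  obtain ⟨B, hB⟩ := L.exists_wRatio_bound C δ c hk
  rw [← ho] at hB
  obtain ⟨f, hf, -⟩ := exists_hasQSeries (NeZero.pos M) hhol hper (C := |B|) (B := L.e) (by
    filter_upwards [hB] with τ h
    refine h.trans ((mul_le_mul_of_nonneg_right (le_abs_self B) (by positivity)).trans ?_)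
    exact mul_le_mul_of_nonneg_left (zpow_le_zpow_right_of_le_one₀
      (norm_pos_iff.mpr (qq_ne_zero M τ)) (norm_qq_lt_one M (NeZero.pos M) τ).le hko) (abs_nonneg B))
  have hz : ∀ j < k - o, f.coeff j = 0 := fun j hj =>
    hf.coeff_eq_zero_of_growth (NeZero.pos M) hB hj
  refine ⟨f, hf, fun h j hj => hz j ?_, fun _ j hj => hz j (by omega), fun h j hj =>
    hz j (by have := hk0 (by rw [h0iff h]; decide); have := hk1 h; omega)⟩
  have := hk0 (fun h1 => h (h1 ▸ hic))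
  omega

/-- `dw / …` as a function of the level. -/
def Lev.wRatioMF : modFuns (Gamma M) :=
  ⟨L.wRatio C, L.mdifferentiable_wRatio C,
    fun γ hγ τ => L.wRatio_invariant C (L.Gamma_le hγ) τ, fun δ => by
      obtain ⟨f, hf, -⟩ := L.exists_wRatio_series C δ
      exact ⟨M, f, NeZero.pos M, hf⟩⟩

/-- The derivative of `w` does not vanish. -/
theorem Lev.deriv_w_ne_zero (τ : ℍ) :
    deriv (((L.wMF C : modFuns (Gamma M)) : ℍ → ℂ) ∘ ofComplex) (τ : ℂ) ≠ 0 := by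
  classical
  let Cℂ : Cyc ℂ M := ⟨RingHom.id ℂ, Function.injective_id, zetaC M, rfl,
    (Nat.cast_ne_zero.mpr (NeZero.ne M)).isUnit⟩
  set g := L.wRatioMF Cℂ
  have hser : ∀ δ f, HasQSeries M (fun τ => L.wRatio Cℂ (δ • τ)) f → serHom M (shift M δ g) = f :=
    fun δ f hf => (hasQSeries_serHom _).unique (NeZero.pos M) hf
  have hinv : L.Inv g := fun γ hγ => Subtype.ext (funext fun z => L.wRatio_invariant Cℂ hγ z)
  have hfin : L.BddFin g := fun i hi δ hδ k hk => by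
    obtain ⟨f, hf, h1, -⟩ := L.exists_wRatio_series Cℂ δ
    rw [hser δ f hf]
    exact h1 (fun h => (L.mem_J.mp hi).2 (L.cusp_unique (L.mem_J.mp hi).1 L.valid1 hδ h)) k hk
  obtain ⟨P, -, hP⟩ := L.exists_poly Cℂ ⊤ (fun _ => trivial) hinv hfin (fun _ => trivial)
  obtain ⟨y, hy⟩ : ∃ y : lvlField Cℂ, y = Polynomial.aeval (L.w Cℂ) P := ⟨_, rfl⟩
  have hyg : algebraMap (modFuns (Gamma M)) (WFld M) g = (y : WFld M) := by
    rw [hy, L.coe_aeval_w, hP]
    congr 2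
    exact Polynomial.map_id.symm
  have hdeg : P.natDegree ≤ 1 := by
    refine L.natDegree_le_of_pole Cℂ ?_
    obtain ⟨f, hf, -, h1, -⟩ := L.exists_wRatio_series Cℂ (cuspMat 1)
    have h2 := serHom_shift_eq Cℂ hyg (cuspMat 1)
    rw [hser _ f hf] at h2
    refine ⟨PowerSeries.mk fun n => f.coeff ((n : ℤ) - L.e), Cℂ.toC.injective ?_⟩
    rw [← hy, Cℂ.toC_algebraMap, map_mul, Cℂ.toC_algebraMap, ← h2, Cℂ.gC_X_pow, mul_one]
    ext j
    rw [HahnSeries.coeff_mul_single, mul_one]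
    rcases lt_or_ge j 0 with hj | hj
    · rw [coeff_gC_neg Cℂ _ hj, h1 (L.isCusp_cuspMat 1 L.valid1) _ (by omega)]
    · obtain ⟨l, rfl⟩ := Int.eq_ofNat_of_zero_le hj
      rw [Cyc.gC, RingHom.comp_apply, HahnSeries.ofPowerSeries_apply_coeff, PowerSeries.coeff_map,
        PowerSeries.coeff_mk]
      rfl
  have h1 : P.eval 1 = 0 := by
    obtain ⟨f, hf, -, -, h0⟩ := L.exists_wRatio_series Cℂ (cuspMat 0)
    have hc := L.isCusp_cuspMat 0 L.valid0
    have h2 := serHom_shift_eq Cℂ hyg (cuspMat 0)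
    rw [hser _ f hf, hy] at h2
    obtain ⟨U, hU⟩ := L.serAt_w_finite Cℂ (L.mem_J.mpr ⟨L.valid0, by decide⟩) hc
    rw [serAt_aeval Cℂ hU, Cℂ.toC_algebraMap] at h2
    have h3 := congrArg (fun s : LaurentSeries ℂ => s.coeff 0) h2
    simp only [coeff_gC_zero] at h3
    rw [h0 hc 0 (by exact_mod_cast L.e_pos), Polynomial.aeval_def, Polynomial.hom_eval₂,
      Polynomial.hom_eval₂] at h3
    have hcomp : (Cℂ.φ.comp (PowerSeries.constantCoeff (R := ℂ))).comp
        (algebraMap ℂ (PowerSeries ℂ)) = RingHom.id ℂ :=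
      RingHom.ext fun x => by simp [Cℂ, PowerSeries.algebraMap_apply]
    rw [← RingHom.comp_assoc, hcomp] at h3
    simpa [Cℂ, Lev.cval, zero_pow L.e_pos.ne', Polynomial.eval₂_id] using h3.symm
  intro hd
  have hval : Polynomial.eval ((L.wMF Cℂ : ℍ → ℂ) τ) P = 0 := by
    have h2 : ((g : modFuns (Gamma M)) : ℍ → ℂ) τ = 0 := by
      show D (L.wMF Cℂ : ℍ → ℂ) τ / _ = 0
      rw [normalizedDerivOfComplex, show deriv ((L.wMF Cℂ : ℍ → ℂ) ∘ ofComplex) (τ : ℂ) = 0 from hd,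
        mul_zero, zero_div]
    rw [hP] at h2
    have h3 := Polynomial.aeval_algHom_apply
      ((Pi.evalAlgHom ℂ (fun _ : ℍ => ℂ) τ).comp (modFuns (Gamma M)).val) (L.wMF Cℂ) P
    simp only [AlgHom.comp_apply, Pi.evalAlgHom_apply, Subalgebra.coe_val] at h3
    rw [h2, Polynomial.coe_aeval_eq_eval] at h3
    exact h3
  rw [Polynomial.eq_X_add_C_of_natDegree_le_one hdeg] at hval h1
  simp only [Polynomial.eval_add, Polynomial.eval_mul, Polynomial.eval_C, Polynomial.eval_X] at hval h1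
  have hne : (L.wMF Cℂ : ℍ → ℂ) τ ≠ 1 := by
    have := L.w_ne_cval Cℂ (L.mem_J.mpr ⟨L.valid0, by decide⟩) τ
    simpa [Lev.cval, Cℂ] using this
  have ha : P.coeff 1 = 0 := by
    have : P.coeff 1 * ((L.wMF Cℂ : ℍ → ℂ) τ - 1) = 0 := by linear_combination hval - h1
    exact (mul_eq_zero.mp this).resolve_right (sub_ne_zero.mpr hne)
  -- the function would be constant
  have hg0 : ∀ z : ℍ, D (L.wMF Cℂ : ℍ → ℂ) z = 0 := fun z => by
    have h2 : ((g : modFuns (Gamma M)) : ℍ → ℂ) z = 0 := by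
      rw [ha, mul_one, zero_add] at h1
      rw [hP, Polynomial.eq_X_add_C_of_natDegree_le_one hdeg, ha, h1]
      simp
    have := div_eq_zero_iff.mp (show D (L.wMF Cℂ : ℍ → ℂ) z / wpDiff M (L.V 0) (L.V 1) z = 0 from h2)
    exact this.resolve_right
      (wpDiff_ne_zero (L.nz_V 0) (L.nz_V 1) (L.not_pm L.valid0 L.valid1 (by decide)) z)
  have hconst : ∀ z : ℍ, (L.wMF Cℂ : ℍ → ℂ) z = (L.wMF Cℂ : ℍ → ℂ) τ := by
    intro z
    have hdo : DifferentiableOn ℂ ((L.wMF Cℂ : ℍ → ℂ) ∘ ofComplex) upperHalfPlaneSet :=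
      UpperHalfPlane.mdifferentiable_iff.mp (L.wMF Cℂ).2.holo
    have h2 := isOpen_upperHalfPlaneSet.is_const_of_deriv_eq_zero
      (convex_halfSpace_im_gt 0).isPreconnected hdo (fun x hx => by
        have h3 := hg0 ⟨x, hx⟩
        rw [normalizedDerivOfComplex, mul_eq_zero] at h3
        exact h3.resolve_left (by simp [Real.pi_ne_zero]))
      (show (z : ℂ) ∈ upperHalfPlaneSet from z.im_pos) (show (τ : ℂ) ∈ _ from τ.im_pos)
    simpa [ofComplex_apply] using h2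
  obtain ⟨c, hc⟩ := ((L.J.image fun i => Cℂ.φ (L.cval Cℂ i)) ∪
    {(L.wMF Cℂ : ℍ → ℂ) τ}).exists_notMem
  simp only [Finset.mem_union, Finset.mem_image, Finset.mem_singleton, not_or, not_exists, not_and] at hc
  obtain ⟨z, hz⟩ := L.surjective_w Cℂ (c := c) fun i hi => Ne.symm (hc.1 i hi)
  exact hc.2 (hz.symm.trans (hconst z))

end Fermat.Agent.GalRep.Model
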