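/-
Values of holomorphic elements of the level field at points of the upper half plane.
-/
import Fermat.Agent.GalRep.Model.SheetsNoncusp
import Fermat.Agent.GalRep.Model.WDeriv

set_option autoImplicit false

noncomputable section

namespace Fermat.Agent.GalRep.Model

open UpperHalfPlane CongruenceSubgroup Polynomial
open scoped MatrixGroups

variable {M : ℕ} [NeZero M] (L : Lev M) {O : Type*} [CommRing O] [IsDomain O] (C : Cyc O M)

/-- The function of a holomorphic element. -/
def toMF : holRing C →+* modFuns (Gamma M) where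
  toFun y := y.2.choose
  map_one' := IsFractionRing.injective (modFuns (Gamma M)) (WFld M) (by
    rw [(1 : holRing C).2.choose_spec, map_one]; rfl)
  map_zero' := IsFractionRing.injective (modFuns (Gamma M)) (WFld M) (by
    rw [(0 : holRing C).2.choose_spec, map_zero]; rfl)
  map_mul' a b := IsFractionRing.injective (modFuns (Gamma M)) (WFld M) (by
    rw [(a * b).2.choose_spec, map_mul, a.2.choose_spec, b.2.choose_spec]; rfl)
  map_add' a b := IsFractionRing.injective (modFuns (Gamma M)) (WFld M) (by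
    rw [(a + b).2.choose_spec, map_add, a.2.choose_spec, b.2.choose_spec]; rfl)

theorem algebraMap_toMF (y : holRing C) :
    algebraMap (modFuns (Gamma M)) (WFld M) (toMF C y) = ((y : lvlField C) : WFld M) :=
  y.2.choose_spec

theorem toMF_eq {y : holRing C} {f : modFuns (Gamma M)}
    (h : algebraMap (modFuns (Gamma M)) (WFld M) f = ((y : lvlField C) : WFld M)) : toMF C y = f :=
  IsFractionRing.injective (modFuns (Gamma M)) (WFld M) ((algebraMap_toMF C y).trans h.symm)

theorem toMF_injective : Function.Injective (toMF C) := fun a b h => by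
  have := congrArg (algebraMap (modFuns (Gamma M)) (WFld M)) h
  rw [algebraMap_toMF, algebraMap_toMF] at this
  exact Subtype.ext (Subtype.ext this)

/-- The value at a point. -/
def valAt (τ : ℍ) : holRing C →+* ℂ :=
  ((Pi.evalRingHom (fun _ : ℍ => ℂ) τ).comp (modFuns (Gamma M)).val.toRingHom).comp (toMF C)

theorem valAt_apply (τ : ℍ) (y : holRing C) : valAt C τ y = (toMF C y : ℍ → ℂ) τ := rfl

theorem valAt_algebraMap (τ : ℍ) (a : O) :
    valAt C τ ⟨_, algebraMap_mem_holRing C a⟩ = C.φ a := by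
  rw [valAt_apply, toMF_eq C (f := algebraMap ℂ _ (C.φ a)) rfl]
  rfl

theorem Lev.valAt_w (τ : ℍ) :
    valAt C τ ⟨L.w C, rat_mem_holRing C _⟩ = ((L.wMF C : modFuns (Gamma M)) : ℍ → ℂ) τ := by
  rw [valAt_apply, toMF_eq C (f := L.wMF C) (L.algebraMap_wMF C)]

theorem valAt_fShift (g : SL(2, ℤ)) (τ : ℍ) (y : holRing C) :
    valAt C τ ⟨fShift C g y, fShift_mem_holRing C g y.2⟩ = valAt C (g • τ) y := by
  rw [valAt_apply, valAt_apply, toMF_eq C (f := shift M g (toMF C y))
    (by rw [← wShift_algebraMap, algebraMap_toMF]; rfl)]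
  rfl

/-- The inclusion of the functions with integral expansions. -/
def Lev.intToHol : L.intRing C →+* holRing C :=
  Subring.inclusion fun _ hy => hy.1

/-- `w` with integral expansions. -/
def Lev.wI : L.intRing C := ⟨L.w C, L.w_mem_intRing C⟩

/-- Constants with integral expansions. -/
def Lev.cI : O →+* L.intRing C :=
  (algebraMap O (lvlField C)).codRestrict (L.intRing C) (L.algebraMap_mem_intRing C)

/-- Polynomials in `w` with integral expansions. -/
def Lev.pI : O[X] →+* L.intRing C := Polynomial.eval₂RingHom (L.cI C) (L.wI C)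

theorem Lev.coe_pI (P : O[X]) : ((L.pI C P : L.intRing C) : lvlField C) = Polynomial.aeval (L.w C) P := by
  show (L.intRing C).subtype (Polynomial.eval₂ (L.cI C) (L.wI C) P) = _
  rw [Polynomial.hom_eval₂, Polynomial.aeval_def]
  rfl

theorem Lev.comp_pI {R : Type*} [CommSemiring R] (f : L.intRing C →+* R) {φ : O →+* R} {r : R}
    (hc : ∀ a, f (L.cI C a) = φ a) (hw : f (L.wI C) = r) :
    f.comp (L.pI C) = Polynomial.eval₂RingHom φ r :=
  Polynomial.ringHom_ext (fun a => by simp [Lev.pI, hc]) (by simp [Lev.pI, hw])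

/-- The scaled generators with integral expansions. -/
def Lev.sgI (y : L.genSet C) : L.intRing C := ⟨L.sgen C y, L.sgen_mem C y.2⟩

/-- A homomorphism to `ℂ` over a value away from the cusps agrees on the generators with the values
at some point. -/
theorem Lev.exists_point (ψ : L.intRing C →+* ℂ) (hc : ∀ a, ψ (L.cI C a) = C.φ a)
    (hne : ∀ i ∈ L.J, ψ (L.wI C) ≠ C.φ (L.cval C i)) :
    ∃ τ : ℍ, ((L.wMF C : modFuns (Gamma M)) : ℍ → ℂ) τ = ψ (L.wI C) ∧
      ∀ y : L.genSet C, ψ (L.sgI C y) = valAt C τ (L.intToHol C (L.sgI C y)) := by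
  classical
  obtain ⟨τ', hτ'⟩ := L.surjective_w C hne
  set E := (valAt C τ').comp (L.intToHol C)
  have hE : ∀ a, E (L.cI C a) = C.φ a := fun a => valAt_algebraMap C τ' a
  have hEw : E (L.wI C) = ψ (L.wI C) := (L.valAt_w C τ').trans hτ'
  have hagree : ψ.comp (L.pI C) = E.comp (L.pI C) := by
    rw [L.comp_pI C ψ hc rfl, L.comp_pI C E hE hEw]
  haveI := Fintype.ofFinite (L.gal C)
  let k := Fintype.card (L.genSet C)
  let en : Fin k ≃ L.genSet C := (Fintype.equivFin _).symm
  let sm : L.gal C → L.intRing C → L.intRing C := fun σ y =>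
    ⟨σ • (y : lvlField C), L.smul_mem_intRing C σ y.2⟩
  have hsm : ∀ σ, ∃ f : L.intRing C →+* L.intRing C, ∀ y, f y = sm σ y := fun σ =>
    ⟨((MulSemiringAction.toRingHom (L.gal C) (lvlField C) σ).comp (L.intRing C).subtype).codRestrict
      (L.intRing C) (fun y => L.smul_mem_intRing C σ y.2), fun y => rfl⟩
  choose f hf using hsm
  let ξ : ℕ → L.intRing C := fun t => ∑ i : Fin k, (t : L.intRing C) ^ (i : ℕ) * L.sgI C (en i)
  have hkey : ∀ t, ∃ σ, ψ (ξ t) = E (f σ (ξ t)) := by
    intro t
    set Q0 : (L.intRing C)[X] := ∏ σ : L.gal C, (Polynomial.X - Polynomial.C (f σ (ξ t)))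
    have hmap : Q0.map (L.intRing C).subtype = L.orbitProd C (ξ t : lvlField C) := by
      simp only [Q0, Lev.orbitProd, Polynomial.map_prod, Polynomial.map_sub, Polynomial.map_X,
        Polynomial.map_C, hf]
      rfl
    have heq : Q0.map ψ = Q0.map E := by
      ext j
      obtain ⟨P, hP⟩ := L.exists_orbit_poly C (ξ t).2 j
      have h1 : Q0.coeff j = L.pI C P := Subtype.ext (by
        rw [L.coe_pI, ← hP, ← hmap, Polynomial.coeff_map]; rfl)
      rw [Polynomial.coeff_map, Polynomial.coeff_map, h1]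
      exact RingHom.congr_fun hagree P
    have h0 : (Q0.map ψ).eval (ψ (ξ t)) = 0 := by
      rw [Polynomial.eval_map, Polynomial.eval₂_at_apply, Polynomial.eval_prod,
        Finset.prod_eq_zero (Finset.mem_univ (1 : L.gal C)), map_zero]
      rw [Polynomial.eval_sub, Polynomial.eval_X, Polynomial.eval_C, hf, sub_eq_zero]
      exact Subtype.ext (one_smul _ _).symm
    rw [heq, Polynomial.map_prod, Polynomial.eval_prod, Finset.prod_eq_zero_iff] at h0
    obtain ⟨σ, -, hσ⟩ := h0
    exact ⟨σ, by simpa [sub_eq_zero] using hσ⟩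
  choose S hS using hkey
  obtain ⟨σ, hσ⟩ := Finite.exists_infinite_fiber S
  obtain ⟨γ, hγ, hσe⟩ := L.exists_eq_galOf C σ
  refine ⟨γ • τ', ?_, fun y => ?_⟩
  · have := congrFun (congrArg Subtype.val (L.inv_wMF C γ hγ)) τ'
    rw [shift_apply] at this
    rw [this, hτ']
  have hQ : (∑ i : Fin k, Polynomial.C (ψ (L.sgI C (en i)) - E (f σ (L.sgI C (en i)))) *
      Polynomial.X ^ (i : ℕ)) = 0 := by
    refine Polynomial.eq_zero_of_infinite_isRoot _ (Set.Infinite.mono (s := Nat.cast '' (S ⁻¹' {σ}))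
      ?_ ((Set.infinite_coe_iff.mp hσ).image Nat.cast_injective.injOn))
    rintro _ ⟨t, ht, rfl⟩
    show Polynomial.IsRoot _ _
    have h := hS t
    rw [show S t = σ from ht] at h
    simp only [ξ, map_sum, map_mul, map_pow, map_natCast] at h
    simp [Polynomial.eval_finsetSum, sub_mul, Finset.sum_sub_distrib, mul_comm (ψ _), mul_comm (E _),
      h]
  have hi := congrArg (fun p : ℂ[X] => p.coeff ((en.symm y : Fin k) : ℕ)) hQ
  simp only [Polynomial.finsetSum_coeff, Polynomial.coeff_C_mul_X_pow, Fin.val_inj,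
    Finset.sum_ite_eq, Finset.mem_univ, if_true, Polynomial.coeff_zero, Equiv.apply_symm_apply,
    sub_eq_zero] at hi
  rw [hi, hf, ← valAt_fShift C γ τ']
  exact congrArg (valAt C τ') (Subtype.ext (by
    show σ • ((L.sgI C y : L.intRing C) : lvlField C) = _
    rw [hσe, L.galOf_smul]
    rfl))

/-- The values of the scaled generators are distinct away from the cusps. -/
theorem Lev.valAt_sgI_injective (τ : ℍ) :
    Function.Injective fun y : L.genSet C => valAt C τ (L.intToHol C (L.sgI C y)) := by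
  classical
  rintro ⟨a, ha⟩ ⟨b, hb⟩ h
  refine Subtype.ext ?_
  show a = b
  by_contra hne
  obtain ⟨p, hp⟩ := (L.mem_genSet C).mp ha
  obtain ⟨p', hp'⟩ := (L.mem_genSet C).mp hb
  set q : Quad M := ⟨repVec p, repVec p', L.V 1, L.V 0, nz_repVec p, nz_repVec p',
      L.nz_V 1, L.nz_V 0, L.not_pm L.valid1 L.valid0 (by decide)⟩ with hq
  have hnp : ¬ PM M (repVec p) (repVec p') := fun hh =>
    hne (hp ▸ hp' ▸ L.gen_eq_of_pm C hh)
  have hkey : valAt C τ (L.intToHol C (L.sgI C ⟨a, ha⟩) - L.intToHol C (L.sgI C ⟨b, hb⟩)) =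
      q.fn τ * valAt C τ (L.intToHol C (L.pI C (L.cuspPoly C))) := by
    rw [show q.fn τ = valAt C τ ⟨rat C q, rat_mem_holRing C q⟩ by
      rw [valAt_apply, toMF_eq C (f := ratMF C q) rfl]; rfl, ← map_mul]
    congr 1
    refine Subtype.ext ?_
    show L.sgen C a - L.sgen C b = rat C q * ((L.pI C (L.cuspPoly C) : L.intRing C) : lvlField C)
    rw [Lev.sgen, Lev.sgen, ← sub_mul, ← hp, ← hp', L.gen_sub, L.coe_pI]
  rw [map_sub, sub_eq_zero.mpr h, eq_comm, mul_eq_zero] at hkey
  rcases hkey with h0 | h0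
  · exact div_ne_zero (wpDiff_ne_zero q.hu q.ht hnp τ) (wpDiff_ne_zero q.hu' q.ht' q.hne τ) h0
  · have := RingHom.congr_fun (L.comp_pI C ((valAt C τ).comp (L.intToHol C))
      (fun a => valAt_algebraMap C τ a) (L.valAt_w C τ)) (L.cuspPoly C)
    simp only [RingHom.comp_apply] at this
    rw [this, Polynomial.coe_eval₂RingHom, Lev.cuspPoly, Polynomial.eval₂_finsetProd,
      Finset.prod_eq_zero_iff] at h0
    obtain ⟨i, hi, h0⟩ := h0
    rw [Polynomial.eval₂_sub, Polynomial.eval₂_X, Polynomial.eval₂_C, sub_eq_zero] at h0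
    exact L.w_ne_cval C hi τ h0

/-- The ring generated by constants, `w` and the scaled generators. -/
def Lev.genRing : Subring (L.intRing C) :=
  Subring.closure (Set.range (L.cI C) ∪ {L.wI C} ∪ Set.range (L.sgI C))

theorem Lev.exists_genRing_div (x : lvlField C) : ∃ a ∈ L.genRing C, ∃ b ∈ L.genRing C,
    (b : lvlField C) ≠ 0 ∧ x * (b : lvlField C) = a := by
  set R := (L.genRing C).map (L.intRing C).subtype
  set S := Subfield.closure (R : Set (lvlField C))
  have hmem : ∀ {u : L.intRing C}, u ∈ L.genRing C → (u : lvlField C) ∈ S := fun {u} hu =>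
    Subfield.subset_closure ⟨u, hu, rfl⟩
  have hc : ∀ a, L.cI C a ∈ L.genRing C := fun a => Subring.subset_closure (Or.inl (Or.inl ⟨a, rfl⟩))
  have hQ : L.pI C (L.cuspPoly C) ∈ L.genRing C := by
    induction L.cuspPoly C using Polynomial.induction_on' with
    | add p q hp hq => rw [map_add]; exact add_mem hp hq
    | monomial n a =>
      simp only [Lev.pI, Polynomial.coe_eval₂RingHom, Polynomial.eval₂_monomial]
      exact mul_mem (hc a) (pow_mem (show L.wI C ∈ L.genRing C from Subring.subset_closure (Or.inl (Or.inr rfl))) n)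
  have htop := L.subfield_eq_top C S (fun a => hmem (hc a)) fun y hy => by
    have h1 := hmem (u := L.sgI C ⟨y, hy⟩) (Subring.subset_closure (Or.inr ⟨⟨y, hy⟩, rfl⟩))
    have h2 := hmem hQ
    rw [L.coe_pI] at h2
    have := div_mem h1 h2
    rwa [show ((L.sgI C ⟨y, hy⟩ : L.intRing C) : lvlField C) = y * Polynomial.aeval (L.w C)
      (L.cuspPoly C) from rfl, mul_div_cancel_right₀ _ (L.aeval_cuspPoly_ne_zero C)] at this
  obtain ⟨a, ha, b, hb, hab⟩ := Subfield.mem_closure_iff.mp (htop.ge (Subfield.mem_top x))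
  rw [Subring.closure_eq] at ha hb
  obtain ⟨a', ha', rfl⟩ := ha
  obtain ⟨b', hb', rfl⟩ := hb
  by_cases h0 : (b' : lvlField C) = 0
  · refine ⟨0, zero_mem _, 1, one_mem _, by simp, ?_⟩
    have : x = 0 := by rw [← hab]; exact div_eq_zero_iff.mpr (Or.inr h0)
    simp [this]
  · exact ⟨a', ha', b', hb', h0, by rw [← hab]; exact div_mul_cancel₀ _ h0⟩

end Fermat.Agent.GalRep.Model
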