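/-
Roots of series over a complete discrete valuation ring: units, and the criterion by the
multiplicities of the zeros in the open disc; truncated expansion at such a zero.
-/
import Fermat.Agent.GalRep.Model.Sheets

set_option autoImplicit false

noncomputable section

namespace Fermat.Agent.GalRep.Model

open IsLocalRing Polynomial
open scoped PowerSeries

variable {O : Type*} [CommRing O] [IsDomain O] [IsDiscreteValuationRing O]
  [IsAdicComplete (maximalIdeal O) O]

/-- Units of the series ring are `n`-th powers. -/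
theorem exists_pow_eq_of_isUnit [IsAlgClosed (ResidueField O)] {n : ℕ} (hn : IsUnit (n : O))
    {u : PowerSeries O} (hu : IsUnit u) : ∃ v : PowerSeries O, v ^ n = u := by
  have hn0 : 0 < n := Nat.pos_of_ne_zero fun h => not_isUnit_zero (M₀ := O) (by simpa [h] using hn)
  set c := PowerSeries.constantCoeff u
  have hc : IsUnit c := PowerSeries.isUnit_constantCoeff u hu
  obtain ⟨a, ha⟩ := IsAlgClosed.exists_pow_nat_eq (residue O c) hn0
  obtain ⟨o, rfl⟩ := residue_surjective a
  have ho : IsUnit o := by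
    rw [← residue_ne_zero_iff_isUnit]
    exact fun h => (residue_ne_zero_iff_isUnit c).mpr hc (by rw [← ha, h, zero_pow hn0.ne'])
  obtain ⟨r, hr, hro⟩ := HenselianRing.is_henselian (I := maximalIdeal O)
    (Polynomial.X ^ n - Polynomial.C c) (Polynomial.monic_X_pow_sub_C c hn0.ne') o
    (by rw [← residue_eq_zero_iff]; simp [ha])
    (IsUnit.map _ (by simpa [Polynomial.derivative_X_pow] using hn.mul (ho.pow (n - 1))))
  have hr0 : r ^ n = c := by simpa [sub_eq_zero] using hr
  have hru : IsUnit r := (isUnit_pow_iff hn0.ne').mp (hr0.symm ▸ hc)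
  obtain ⟨y, hy, -⟩ := HenselianRing.is_henselian
    (I := Ideal.span {(PowerSeries.X : PowerSeries O)})
    (Polynomial.X ^ n - Polynomial.C u) (Polynomial.monic_X_pow_sub_C u hn0.ne') (PowerSeries.C r)
    (Ideal.mem_span_singleton.mpr (PowerSeries.X_dvd_iff.mpr (by simp [hr0, c])))
    (IsUnit.map _ (by
      simpa [Polynomial.derivative_X_pow] using
        ((hn.map (PowerSeries.C (R := O))).mul ((hru.map (PowerSeries.C (R := O))).pow (n - 1)))))
  exact ⟨y, by simpa [sub_eq_zero] using hy⟩

omit [IsDiscreteValuationRing O] [IsAdicComplete (maximalIdeal O) O] [IsDomain O] in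
theorem eq_of_pow_eq_pow_series {k : Type*} [Field k] {n : ℕ} (hn : (n : k) ≠ 0)
    {a b : PowerSeries k} (ha : PowerSeries.constantCoeff a = 1)
    (hb : PowerSeries.constantCoeff b = 1) (h : a ^ n = b ^ n) : a = b := by
  have h1 := geom_sum₂_mul a b n
  rw [h, sub_self, mul_eq_zero] at h1
  refine sub_eq_zero.mp (h1.resolve_left fun h0 => hn ?_)
  simpa [ha, hb] using congrArg PowerSeries.constantCoeff h0

omit [IsAdicComplete (maximalIdeal O) O] [IsDiscreteValuationRing O] in
theorem coe_reverse_eq_of_monic {k : Type*} [Field k] {Q : k[X]} (hQ : Q.Monic) :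
    PowerSeries.constantCoeff (Q.reverse : PowerSeries k) = 1 := by
  simp [Polynomial.constantCoeff_coe, Polynomial.coeff_zero_reverse, hQ.leadingCoeff]

omit [IsDomain O] [IsDiscreteValuationRing O] [IsAdicComplete (maximalIdeal O) O] in
theorem reverse_pow {k : Type*} [Field k] (Q : k[X]) (m : ℕ) :
    (Q ^ m).reverse = Q.reverse ^ m := by
  induction m with
  | zero => rw [pow_zero, pow_zero, ← Polynomial.C_1, Polynomial.reverse_C]
  | succ m ih => rw [pow_succ, pow_succ, Polynomial.reverse_mul_of_domain, ih]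

/-- A monic polynomial with all multiplicities divisible by `n` is an `n`-th power. -/
theorem exists_monic_root [IsAlgClosed (ResidueField O)] {n : ℕ} (hn : IsUnit (n : O))
    (φ : O →+* ℂ) (hφ : Function.Injective φ) {P : O[X]} (hP : P.Monic)
    (hdiv : ∀ z : ℂ, n ∣ (P.map φ).rootMultiplicity z) : ∃ Q : O[X], Q ^ n = P := by
  classical
  set Pc := P.map φ
  have hsp : Pc.Splits := IsAlgClosed.splits Pc
  have hPc : Pc.Monic := hP.map φ
  set Q : ℂ[X] := ∏ z ∈ Pc.roots.toFinset, (Polynomial.X - Polynomial.C z) ^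
    (Pc.rootMultiplicity z / n) with hQ
  have hQm : Q.Monic := Polynomial.monic_prod_of_monic _ _ fun z _ => (Polynomial.monic_X_sub_C z).pow _
  have hQn : Q ^ n = Pc := by
    conv_rhs => rw [hsp.eq_prod_roots_of_monic hPc, Finset.prod_multiset_map_count]
    rw [hQ, ← Finset.prod_pow]
    refine Finset.prod_congr rfl fun z _ => ?_
    rw [← pow_mul, Nat.div_mul_cancel (hdiv z), Polynomial.count_roots]
  have hn0 : (n : ℂ) ≠ 0 := by
    have := hn.map φ
    rw [map_natCast] at this
    exact this.ne_zero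
  have hu : IsUnit (P.reverse : PowerSeries O) := PowerSeries.isUnit_iff_constantCoeff.mpr (by
    simp [Polynomial.constantCoeff_coe, Polynomial.coeff_zero_reverse, hP.leadingCoeff])
  obtain ⟨v, hv⟩ := exists_pow_eq_of_isUnit hn hu
  have hrev : (Pc.reverse : PowerSeries ℂ) = PowerSeries.map φ (P.reverse : PowerSeries O) := by
    rw [← Polynomial.polynomial_map_coe, Polynomial.reverse, Polynomial.reverse,
      ← Polynomial.reflect_map, hP.natDegree_map]
  -- normalise the constant term
  set c := PowerSeries.constantCoeff v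
  have hc : c ^ n = 1 := by
    have := congrArg PowerSeries.constantCoeff hv
    simpa [Polynomial.constantCoeff_coe, Polynomial.coeff_zero_reverse, hP.leadingCoeff] using this
  have hcu : IsUnit c :=
    (isUnit_pow_iff (fun h => hn0 (by simp [h]))).mp (hc ▸ isUnit_one)
  set v' := PowerSeries.C (Ring.inverse c) * v
  have hv'n : v' ^ n = (P.reverse : PowerSeries O) := by
    rw [mul_pow, hv, ← map_pow, ← one_mul (Ring.inverse c ^ n), ← hc, ← mul_pow,
      Ring.mul_inverse_cancel c hcu, one_pow, map_one, one_mul]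
  have hv'0 : PowerSeries.constantCoeff v' = 1 := by
    simp [v', c, Ring.inverse_mul_cancel c hcu]
  have heq : (Q.reverse : PowerSeries ℂ) = PowerSeries.map φ v' := by
    refine eq_of_pow_eq_pow_series hn0 (coe_reverse_eq_of_monic hQm) ?_ ?_
    · rw [← PowerSeries.coeff_zero_eq_constantCoeff, PowerSeries.coeff_map,
        PowerSeries.coeff_zero_eq_constantCoeff, hv'0, map_one]
    · rw [← map_pow, hv'n, ← hrev, ← hQn, ← Polynomial.coe_pow]
      rw [reverse_pow]
  have hlift : Q ∈ Polynomial.lifts φ := by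
    rw [Polynomial.lifts_iff_coeff_lifts]
    intro i
    rcases le_or_gt i Q.natDegree with hi | hi
    · refine ⟨PowerSeries.coeff (Q.natDegree - i) v', ?_⟩
      rw [← PowerSeries.coeff_map, ← heq, Polynomial.coeff_coe, Polynomial.coeff_reverse,
        Polynomial.revAt_le (Nat.sub_le _ _), Nat.sub_sub_self hi]
    · exact ⟨0, by rw [map_zero, Polynomial.coeff_eq_zero_of_natDegree_lt hi]⟩
  obtain ⟨Q0, hQ0⟩ := (Polynomial.mem_lifts Q).mp hlift
  refine ⟨Q0, Polynomial.map_injective φ hφ ?_⟩
  rw [Polynomial.map_pow, hQ0, hQn]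

/-- Truncated series over `ℂ`. -/
abbrev Jet (N : ℕ) : Type := PowerSeries ℂ ⧸ Ideal.span {(PowerSeries.X : PowerSeries ℂ) ^ N}

/-- The map `O[X] → ℂ⟦T⟧` sending `X` to `z + T`. -/
def polyShift (φ : O →+* ℂ) (z : ℂ) : O[X] →+* PowerSeries ℂ :=
  Polynomial.eval₂RingHom ((PowerSeries.C (R := ℂ)).comp φ) (PowerSeries.C z + PowerSeries.X)

omit [IsDomain O] [IsDiscreteValuationRing O] [IsAdicComplete (maximalIdeal O) O] in
theorem polyShift_eq (φ : O →+* ℂ) (z : ℂ) (p : O[X]) :
    polyShift φ z p = ((Polynomial.taylor z (p.map φ) : ℂ[X]) : PowerSeries ℂ) := by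
  induction p using Polynomial.induction_on' with
  | add a b ha hb => simp [ha, hb]
  | monomial m a =>
    simp [polyShift, Polynomial.taylor_monomial, add_comm (PowerSeries.C z)]

omit [IsDomain O] [IsDiscreteValuationRing O] [IsAdicComplete (maximalIdeal O) O] in
theorem constantCoeff_polyShift (φ : O →+* ℂ) (z : ℂ) (p : O[X]) :
    PowerSeries.constantCoeff (polyShift φ z p) = (p.map φ).eval z := by
  rw [polyShift_eq, Polynomial.constantCoeff_coe, Polynomial.taylor_coeff_zero]

omit [IsDomain O] [IsDiscreteValuationRing O] [IsAdicComplete (maximalIdeal O) O] in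
theorem coeff_one_polyShift (φ : O →+* ℂ) (z : ℂ) (p : O[X]) :
    PowerSeries.coeff 1 (polyShift φ z p) = (p.derivative.map φ).eval z := by
  rw [polyShift_eq, Polynomial.coeff_coe, Polynomial.taylor_coeff_one, Polynomial.derivative_map]

/-- A distinguished polynomial with a chosen zero in the disc. -/
structure DiscZero (O : Type*) [CommRing O] [IsLocalRing O] (φ : O →+* ℂ) where
  P : O[X]
  dist : P.IsDistinguishedAt (maximalIdeal O)
  z : ℂ
  root : (P.map φ).IsRoot z

namespace DiscZero

variable {φ : O →+* ℂ} (Z : DiscZero O φ) (N : ℕ)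

include Z in
theorem dist_pow : (Z.P ^ (N + 1)).IsDistinguishedAt (maximalIdeal O) := by
  induction N with
  | zero => simpa using Z.dist
  | succ k ih => rw [pow_succ]; exact ih.mul Z.dist

theorem X_pow_dvd_shift : (PowerSeries.X : PowerSeries ℂ) ^ (N + 1) ∣ polyShift φ Z.z (Z.P ^ (N + 1)) := by
  rw [map_pow]
  refine pow_dvd_pow_of_dvd (PowerSeries.X_dvd_iff.mpr ?_) _
  rw [constantCoeff_polyShift]
  exact Z.root

/-- Truncated expansion of series at the zero. -/
def ev : PowerSeries O →+* Jet (N + 1) :=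
  ((Ideal.Quotient.lift (Ideal.span {Z.P ^ (N + 1)})
      ((Ideal.Quotient.mk _).comp (polyShift φ Z.z)) fun a ha => by
        obtain ⟨b, rfl⟩ := Ideal.mem_span_singleton.mp ha
        rw [RingHom.comp_apply, Ideal.Quotient.eq_zero_iff_mem, map_mul]
        exact Ideal.mem_span_singleton.mpr ((Z.X_pow_dvd_shift N).mul_right _)).comp
    (Z.dist_pow N).algEquivQuotient.symm.toRingEquiv.toRingHom).comp (Ideal.Quotient.mk _)

theorem ev_coe (p : O[X]) : Z.ev N (p : PowerSeries O) = Ideal.Quotient.mk _ (polyShift φ Z.z p) := by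
  have h : (Z.dist_pow N).algEquivQuotient.symm (Ideal.Quotient.mk _ (p : PowerSeries O)) =
      Ideal.Quotient.mk _ p := by
    rw [AlgEquiv.symm_apply_eq]
    simp [Polynomial.IsDistinguishedAt.algEquivQuotient_apply]
  simp only [ev, RingHom.comp_apply, AlgEquiv.toRingEquiv_eq_coe, RingEquiv.toRingHom_eq_coe,
    RingEquiv.coe_toRingHom, AlgEquiv.coe_ringEquiv]
  rw [h, Ideal.Quotient.lift_mk]
  rfl

theorem ev_C (a : O) : Z.ev N (PowerSeries.C a) = Ideal.Quotient.mk _ (PowerSeries.C (φ a)) := by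
  rw [← Polynomial.coe_C, ev_coe]
  simp [polyShift]

theorem ev_X : Z.ev N PowerSeries.X = Ideal.Quotient.mk _ (PowerSeries.C Z.z + PowerSeries.X) := by
  rw [← Polynomial.coe_X (R := O), ev_coe]
  simp [polyShift]

theorem exists_poly (f : PowerSeries O) :
    ∃ r : O[X], ((Z.P ^ (N + 1) : O[X]) : PowerSeries O) ∣ f - (r : PowerSeries O) := by
  have hne : (((Z.P ^ (N + 1) : O[X]) : PowerSeries O)).map (residue O) ≠ 0 := by
    rw [← Polynomial.polynomial_map_coe]
    exact fun h => ((Z.dist_pow N).monic.map (residue O)).ne_zero (Polynomial.coe_inj.mp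
      (h.trans Polynomial.coe_zero.symm))
  obtain ⟨q, r, h⟩ := PowerSeries.exists_isWeierstrassDivision f hne
  exact ⟨r, q, by rw [h.eq_mul_add]; ring⟩

theorem ev_eq_of_dvd {f : PowerSeries O} {r : O[X]}
    (h : ((Z.P ^ (N + 1) : O[X]) : PowerSeries O) ∣ f - (r : PowerSeries O)) :
    Z.ev N f = Ideal.Quotient.mk _ (polyShift φ Z.z r) := by
  obtain ⟨q, hq⟩ := h
  rw [sub_eq_iff_eq_add] at hq
  rw [hq, map_add, map_mul, ev_coe, ev_coe, Ideal.Quotient.eq_zero_iff_mem.mpr
    (Ideal.mem_span_singleton.mpr (Z.X_pow_dvd_shift N)), zero_mul, zero_add]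

end DiscZero

/-- The coefficient of degree `i < N` of a truncated series. -/
def Jet.coef {N : ℕ} (i : ℕ) (hi : i < N) : Jet N →+ ℂ :=
  QuotientAddGroup.lift _ (PowerSeries.coeff i).toAddMonoidHom fun f hf => by
    exact PowerSeries.X_pow_dvd_iff.mp (Ideal.mem_span_singleton.mp hf) i hi

theorem Jet.coef_mk {N : ℕ} {i : ℕ} (hi : i < N) (f : PowerSeries ℂ) :
    Jet.coef i hi (Ideal.Quotient.mk _ f) = PowerSeries.coeff i f := rfl

/-- The constant term of a truncated series. -/
def Jet.const (N : ℕ) : Jet (N + 1) →+* ℂ :=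
  Ideal.Quotient.lift _ (PowerSeries.constantCoeff (R := ℂ)) fun f hf => by
    rw [← PowerSeries.coeff_zero_eq_constantCoeff]
    exact PowerSeries.X_pow_dvd_iff.mp (Ideal.mem_span_singleton.mp hf) 0 (Nat.succ_pos N)

theorem Jet.const_mk {N : ℕ} (f : PowerSeries ℂ) :
    Jet.const N (Ideal.Quotient.mk _ f) = PowerSeries.constantCoeff f := rfl

theorem Jet.isUnit_iff {N : ℕ} {x : Jet (N + 1)} : IsUnit x ↔ Jet.const N x ≠ 0 := by
  refine ⟨fun h => (h.map (Jet.const N)).ne_zero, fun h => ?_⟩
  obtain ⟨f, rfl⟩ := Ideal.Quotient.mk_surjective x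
  exact (PowerSeries.isUnit_iff_constantCoeff.mpr (isUnit_iff_ne_zero.mpr h)).map _

/-- The derivative gives the linear coefficient. -/
theorem DiscZero.coef_one_ev {φ : O →+* ℂ} (Z : DiscZero O φ) (N : ℕ) (f : PowerSeries O) :
    Jet.coef 1 (by omega) (Z.ev (N + 1) f) = Jet.const (N + 1) (Z.ev (N + 1) (d⁄dX O f)) := by
  obtain ⟨r, q, hq⟩ := Z.exists_poly (N + 1) f
  rw [Z.ev_eq_of_dvd (N + 1) ⟨q, hq⟩, Jet.coef_mk, coeff_one_polyShift]
  have h : d⁄dX O f = ((r.derivative + (Z.P ^ (N + 1 + 1)).derivative * 0 : O[X]) : PowerSeries O) +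
      (((Z.P ^ (N + 1 + 1)).derivative : O[X]) : PowerSeries O) * q +
      ((Z.P ^ (N + 1 + 1) : O[X]) : PowerSeries O) * d⁄dX O q := by
    rw [sub_eq_iff_eq_add.mp hq, map_add, Derivation.leibniz, PowerSeries.derivative_coe,
      PowerSeries.derivative_coe]
    simp [smul_eq_mul]
    ring
  have hz : (Z.P.map φ).eval Z.z = 0 := Z.root
  rw [h, map_add, map_add, map_mul, map_mul, map_add, map_add, map_mul, map_mul, DiscZero.ev_coe,
    DiscZero.ev_coe, DiscZero.ev_coe, Jet.const_mk, Jet.const_mk, Jet.const_mk,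
    constantCoeff_polyShift, constantCoeff_polyShift, constantCoeff_polyShift]
  simp [Polynomial.derivative_pow, hz]

end Fermat.Agent.GalRep.Model
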