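/-
Expansions at the zeros in the disc of a sheet are expansions at points of the upper half plane:
multiplicities of the zeros are analytic orders.
-/
import Fermat.Agent.GalRep.Model.PointEval
import Fermat.Agent.GalRep.Model.SeriesPow
import Fermat.Agent.GalRep.Embeddings

set_option autoImplicit false

noncomputable section

namespace Fermat.Agent.GalRep.Model

open UpperHalfPlane CongruenceSubgroup Polynomial IsLocalRing Filter Topology
open scoped MatrixGroups PowerSeries

section Jets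

theorem taylorSeries_eval (t : ℂ[X]) : GalRep.taylorSeries (fun u => t.eval u) = (t : PowerSeries ℂ) := by
  induction t using Polynomial.induction_on' with
  | add p q hp hq =>
    rw [show (fun u => (p + q).eval u) = (fun u => p.eval u) + fun u => q.eval u from
      funext fun u => Polynomial.eval_add, taylorSeries_add
        ((p.differentiable.differentiableOn.analyticOnNhd isOpen_univ) 0 trivial)
        ((q.differentiable.differentiableOn.analyticOnNhd isOpen_univ) 0 trivial), hp, hq,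
      Polynomial.coe_add]
  | monomial n a =>
    have h1 : taylorHom (⟨fun _ => a, analyticAt_const⟩ * ⟨id, analyticAt_id⟩ ^ n : germs) =
        PowerSeries.C a * PowerSeries.X ^ n := by
      rw [map_mul, map_pow]
      show GalRep.taylorSeries (fun _ => a) * GalRep.taylorSeries id ^ n = _
      rw [taylorSeries_const, taylorSeries_id]
    rw [Polynomial.coe_monomial, PowerSeries.monomial_eq_C_mul_X_pow, ← h1]
    show _ = GalRep.taylorSeries _
    congr 1
    funext u
    simp

theorem Jet.mk_eq_mk_iff {N : ℕ} (f g : PowerSeries ℂ) :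
    (Ideal.Quotient.mk _ f : Jet N) = Ideal.Quotient.mk _ g ↔ PowerSeries.X ^ N ∣ f - g := by
  rw [Ideal.Quotient.eq, Ideal.mem_span_singleton]

/-- A root of a polynomial with invertible derivative is determined by its constant term. -/
theorem Jet.eq_of_root {N : ℕ} (P : (Jet (N + 1))[X]) {r r' : Jet (N + 1)} (hr : P.eval r = 0)
    (hr' : P.eval r' = 0) (hc : Jet.const N r = Jet.const N r')
    (hd : Jet.const N (P.derivative.eval r) ≠ 0) : r = r' := by
  obtain ⟨k, hk⟩ := Polynomial.binomExpansion P r (r' - r)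
  rw [add_sub_cancel, hr', hr, zero_add] at hk
  have hu : IsUnit (P.derivative.eval r + k * (r' - r)) := Jet.isUnit_iff.mpr (by
    rw [map_add, map_mul, map_sub, hc, sub_self, mul_zero, add_zero]; exact hd)
  have h0 : (P.derivative.eval r + k * (r' - r)) * (r' - r) = 0 := by rw [hk]; ring
  exact (sub_eq_zero.mp (hu.mul_right_eq_zero.mp h0)).symm

end Jets

variable {O : Type*} [CommRing O] [IsDomain O] [IsDiscreteValuationRing O]
  [IsAdicComplete (maximalIdeal O) O]

/-- Hom into jets of series allowing powers of a denominator. -/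
theorem exists_jetHom {F : Type*} [Field F] (ι : F →+* SeriesField O) {φ : O →+* ℂ}
    (Z : DiscZero O φ) (N : ℕ) (Dn : PowerSeries O) (hDn : IsUnit (Z.ev N Dn)) (S : Subring F)
    (hS : ∀ y ∈ S, ∃ (K : ℕ) (g : PowerSeries O), ι y * algebraMap _ (SeriesField O) (Dn ^ K) =
      algebraMap _ (SeriesField O) g) :
    ∃ Ψ : S →+* Jet (N + 1), ∀ (y : S) (K : ℕ) (g : PowerSeries O),
      ι y * algebraMap _ (SeriesField O) (Dn ^ K) = algebraMap _ (SeriesField O) g →
        Ψ y * Z.ev N Dn ^ K = Z.ev N g := by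
  set al := algebraMap (PowerSeries O) (SeriesField O)
  haveI : Nontrivial (Jet (N + 1)) := (Jet.const N).domain_nontrivial
  choose K g hg using fun y : S => hS y y.2
  have key : ∀ (y : S) (K' : ℕ) (g' : PowerSeries O), ι y * al (Dn ^ K') = al g' →
      Z.ev N (g y) * Z.ev N Dn ^ K' = Z.ev N g' * Z.ev N Dn ^ K y := by
    intro y K' g' h
    rw [← map_pow, ← map_pow, ← map_mul, ← map_mul]
    congr 1
    apply IsFractionRing.injective (PowerSeries O) (SeriesField O)
    rw [map_mul, map_mul, ← hg y, ← h]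
    ring
  let v : (Jet (N + 1))ˣ := hDn.unit⁻¹
  have hv : (v : Jet (N + 1)) * Z.ev N Dn = 1 := IsUnit.val_inv_mul hDn
  let Ψf : S → Jet (N + 1) := fun y => Z.ev N (g y) * (v : Jet (N + 1)) ^ K y
  have spec : ∀ (y : S) (K' : ℕ) (g' : PowerSeries O), ι y * al (Dn ^ K') = al g' →
      Ψf y * Z.ev N Dn ^ K' = Z.ev N g' := fun y K' g' h => by
    show Z.ev N (g y) * _ * _ = _
    rw [mul_right_comm, key y K' g' h, mul_assoc, ← mul_pow, mul_comm (Z.ev N Dn), hv, one_pow,
      mul_one]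
  have cancel : ∀ {a b : Jet (N + 1)} (k : ℕ), a * Z.ev N Dn ^ k = b * Z.ev N Dn ^ k → a = b :=
    fun k h => (hDn.pow k).mul_right_cancel h
  refine ⟨
    { toFun := Ψf
      map_one' := cancel 0 (by rw [spec 1 0 1 (by simp)]; simp)
      map_zero' := cancel 0 (by rw [spec 0 0 0 (by simp)]; simp)
      map_add' := fun a b => cancel (K a + K b) (by
        rw [spec (a + b) (K a + K b) (g a * Dn ^ K b + g b * Dn ^ K a) (by
          rw [Subring.coe_add, map_add ι, pow_add, map_mul, map_add, map_mul, map_mul, ← hg, ← hg]; ring),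
          map_add, map_mul, map_mul, map_pow, map_pow, ← spec a (K a) _ (hg a),
          ← spec b (K b) _ (hg b), pow_add (Z.ev N Dn)]
        ring)
      map_mul' := fun a b => cancel (K a + K b) (by
        rw [spec (a * b) (K a + K b) (g a * g b) (by
          rw [Subring.coe_mul, map_mul ι, pow_add, map_mul, map_mul, ← hg, ← hg]; ring),
          map_mul, ← spec a (K a) _ (hg a), ← spec b (K b) _ (hg b), pow_add (Z.ev N Dn)]
        ring) }, spec⟩

variable {M : ℕ} [NeZero M] (L : Lev M) (C : Cyc O M)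

local notation "al" => algebraMap (PowerSeries O) (SeriesField O)

/-- At a zero in the disc away from the cusps the multiplicity is an analytic order. -/
theorem Lev.dvd_rootMultiplicity (ι : lvlField C →+* SeriesField O)
    (hO : ∀ a, ι (algebraMap O (lvlField C) a) = al (PowerSeries.C a))
    (Z : DiscZero O C.φ) (Dn : PowerSeries O) (hDn : ∀ N, IsUnit (Z.ev N Dn))
    (hint : ∀ y ∈ L.intRing C, ∃ K g, ι y * al (Dn ^ K) = al g)
    (hcusp : ∀ i ∈ L.J, ∃ K g, ι (L.w C - algebraMap O (lvlField C) (L.cval C i)) * al (Dn ^ K) =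
      al g ∧ ∀ N, IsUnit (Z.ev N g))
    (hder : ∃ g, (ι (L.w C) = al g ∨ ι (L.w C)⁻¹ = al g) ∧ ∀ N, IsUnit (Z.ev N (d⁄dX O g)))
    (x : holRing C) (Kx : ℕ) (h : PowerSeries O) (hh : IsUnit h)
    (hx : ι (x : lvlField C) * al (Dn ^ Kx) = al ((Z.P : PowerSeries O) * h))
    {n : ℕ} (hord : ∀ τ : ℍ,
      n ∣ (analyticOrderAt ((toMF C x : ℍ → ℂ) ∘ ofComplex) (τ : ℂ)).toNat) :
    n ∣ (Z.P.map C.φ).rootMultiplicity Z.z := by
  classical
  set m := (Z.P.map C.φ).rootMultiplicity Z.z
  -- the subring of elements with expansions on the sheet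
  let T : Subring (lvlField C) :=
    { carrier := {y | ∃ K g, ι y * al (Dn ^ K) = al g}
      one_mem' := ⟨0, 1, by simp⟩
      zero_mem' := ⟨0, 0, by simp⟩
      mul_mem' := fun {a b} ⟨K, g, hg⟩ ⟨K', g', hg'⟩ => ⟨K + K', g * g', by
        rw [map_mul, pow_add, map_mul, map_mul, ← hg, ← hg']; ring⟩
      add_mem' := fun {a b} ⟨K, g, hg⟩ ⟨K', g', hg'⟩ => ⟨K + K', g * Dn ^ K' + g' * Dn ^ K, by
        rw [map_add, pow_add, map_mul, map_add, map_mul, map_mul, ← hg, ← hg']; ring⟩
      neg_mem' := fun {a} ⟨K, g, hg⟩ => ⟨K, -g, by rw [map_neg, neg_mul, hg, map_neg]⟩ }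
  obtain ⟨gd, hgd, hgdu⟩ := hder
  let S := T ⊓ holRing C
  have hwT : L.w C ∈ T := hint _ (L.w_mem_intRing C)
  have hIS : L.intRing C ≤ S := fun y hy => ⟨hint y hy, hy.1⟩
  have hxS : (x : lvlField C) ∈ S := ⟨⟨Kx, _, hx⟩, x.2⟩
  choose Ψ hΨ using fun N => exists_jetHom ι Z N Dn (hDn N) T fun y hy => hy
  let toT : L.intRing C →+* T := Subring.inclusion fun y hy => hint y hy
  have hΨc : ∀ N a, Ψ N (toT (L.cI C a)) = Ideal.Quotient.mk _ (PowerSeries.C (C.φ a)) := fun N a => by
    have := hΨ N (toT (L.cI C a)) 0 (PowerSeries.C a) (by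
      rw [pow_zero, map_one, mul_one]; exact hO a)
    rwa [pow_zero, mul_one, DiscZero.ev_C] at this
  -- the constant term does not depend on the truncation
  have hconst : ∀ N (y : T), Jet.const N (Ψ N y) = Jet.const 0 (Ψ 0 y) := by
    intro N y
    obtain ⟨K, g, hg⟩ := y.2
    have hev : ∀ f : PowerSeries O, Jet.const N (Z.ev N f) = Jet.const 0 (Z.ev 0 f) := fun f => by
      obtain ⟨r, hr⟩ := Z.exists_poly N f
      have hr0 : ((Z.P ^ (0 + 1) : O[X]) : PowerSeries O) ∣ f - (r : PowerSeries O) := by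
        refine dvd_trans ?_ hr
        rw [zero_add, pow_one, Polynomial.coe_pow]
        exact dvd_pow_self _ (Nat.succ_ne_zero N)
      rw [Z.ev_eq_of_dvd N hr, Z.ev_eq_of_dvd 0 hr0, Jet.const_mk, Jet.const_mk]
    have h1 := congrArg (Jet.const N) (hΨ N y K g hg)
    have h2 := congrArg (Jet.const 0) (hΨ 0 y K g hg)
    rw [map_mul, map_pow, hev, hev] at h1
    rw [map_mul, map_pow] at h2
    exact mul_right_cancel₀ (pow_ne_zero _ (Jet.isUnit_iff.mp (hDn 0))) (h1.trans h2.symm)
  set ψ : L.intRing C →+* ℂ := (Jet.const 0).comp ((Ψ 0).comp toT) with hψ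
  have hψc : ∀ a, ψ (L.cI C a) = C.φ a := fun a => by
    rw [hψ, RingHom.comp_apply, RingHom.comp_apply, hΨc, Jet.const_mk, PowerSeries.constantCoeff_C]
  have hψne : ∀ i ∈ L.J, ψ (L.wI C) ≠ C.φ (L.cval C i) := by
    intro i hi heq
    obtain ⟨K, g, hg, hgu⟩ := hcusp i hi
    have h1 := congrArg (Jet.const 0) (hΨ 0 (toT (L.wI C - L.cI C (L.cval C i))) K g hg)
    rw [map_mul, map_sub, map_sub, map_sub] at h1
    rw [show Jet.const 0 (Ψ 0 (toT (L.wI C))) = ψ (L.wI C) from rfl,
      show Jet.const 0 (Ψ 0 (toT (L.cI C (L.cval C i)))) = ψ (L.cI C (L.cval C i)) from rfl,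
      hψc, heq, sub_self, zero_mul] at h1
    exact Jet.isUnit_iff.mp (hgu 0) h1.symm
  obtain ⟨τ, hτw, hτy⟩ := L.exists_point C ψ hψc hψne
  -- a local coordinate in which `w` is the identity
  set W : ℍ → ℂ := ((L.wMF C : modFuns (Gamma M)) : ℍ → ℂ) with hW
  have hWa := analyticAt_comp_ofComplex (L.wMF C).2.holo τ
  have hWord : analyticOrderAt (fun z => (W ∘ ofComplex) z - (W ∘ ofComplex) (τ : ℂ)) (τ : ℂ) = 1 :=
    hWa.analyticOrderAt_sub_eq_one_of_deriv_ne_zero (L.deriv_w_ne_zero C τ)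
  obtain ⟨ψl, hψl, hψl0, hψld, hψlev⟩ := exists_local_coord hWa one_pos (by exact_mod_cast hWord)
  -- decomposition of `x`
  obtain ⟨a, ha, b, hb, hb0, hab⟩ := L.exists_genRing_div C (x : lvlField C)
  set fb := toMF C (L.intToHol C b)
  have hfb : (fb : ℍ → ℂ) ≠ 0 := fun h0 => hb0 (by
    have h1 : toMF C (L.intToHol C b) = 0 := Subtype.ext h0
    rw [← map_zero (toMF C)] at h1
    exact congrArg (fun z : holRing C => (z : lvlField C)) (toMF_injective C h1))
  obtain ⟨β, hβ⟩ := ENat.ne_top_iff_exists.mp (analyticOrderAt_modFun_ne_top fb.2.holo hfb τ.im_pos)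
  set N := m + β + 1 with hN
  -- the expansion of `w`
  obtain ⟨A0, hA0⟩ := Ideal.Quotient.mk_surjective (Ψ N ⟨L.w C, hwT⟩)
  have hA00 : PowerSeries.constantCoeff A0 = W τ := by
    rw [← Jet.const_mk (N := N), hA0, hconst N ⟨L.w C, hwT⟩, hτw]
    rfl
  have hA01 : PowerSeries.coeff 1 A0 ≠ 0 := by
    have hgd' : Jet.coef 1 (by omega) (Z.ev N gd) ≠ 0 := by
      rw [show Jet.coef 1 _ (Z.ev N gd) = _ from Z.coef_one_ev (m + β) gd]
      exact Jet.isUnit_iff.mp (hgdu _)
    rcases hgd with hg | hg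
    · have := hΨ N ⟨L.w C, hwT⟩ 0 gd (by rw [pow_zero, map_one, mul_one]; exact hg)
      rw [pow_zero, mul_one, ← hA0] at this
      rwa [← this, Jet.coef_mk] at hgd'
    · have hwi : (L.w C)⁻¹ ∈ T := ⟨0, gd, by rw [pow_zero, map_one, mul_one, hg]⟩
      have h1 := hΨ N ⟨_, hwi⟩ 0 gd (by rw [pow_zero, map_one, mul_one]; exact hg)
      rw [pow_zero, mul_one] at h1
      obtain ⟨B0, hB0⟩ := Ideal.Quotient.mk_surjective (Z.ev N gd)
      rw [← hB0, Jet.coef_mk] at hgd'
      have hw0 : L.w C ≠ 0 := fun h0 => Polynomial.X_ne_zero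
        (L.aeval_w_injective C (a₁ := Polynomial.X) (a₂ := 0) (by simpa using h0))
      have hmul : (Ideal.Quotient.mk _ (A0 * B0) : Jet (N + 1)) = Ideal.Quotient.mk _ 1 := by
        rw [map_mul, hA0, hB0, ← h1, ← map_mul, map_one]
        convert map_one (Ψ N)
        exact Subtype.ext (mul_inv_cancel₀ hw0)
      rw [Jet.mk_eq_mk_iff] at hmul
      have hc0 := PowerSeries.X_pow_dvd_iff.mp hmul 0 (Nat.succ_pos N)
      have hc1 := PowerSeries.X_pow_dvd_iff.mp hmul 1 (by omega)
      rw [map_sub, PowerSeries.coeff_mul, PowerSeries.coeff_one, if_pos rfl,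
        Finset.Nat.antidiagonal_zero, Finset.sum_singleton, sub_eq_zero] at hc0
      rw [map_sub, PowerSeries.coeff_mul, PowerSeries.coeff_one, if_neg one_ne_zero,
        Finset.Nat.sum_antidiagonal_succ, Finset.Nat.antidiagonal_zero, Finset.sum_singleton,
        sub_zero] at hc1
      intro h0
      simp only [zero_add] at hc1
      rw [h0, zero_mul, add_zero, mul_eq_zero] at hc1
      rcases hc1 with hc1 | hc1
      · rw [hc1, zero_mul] at hc0; exact zero_ne_one hc0
      · exact hgd' hc1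
  set t : ℂ[X] := PowerSeries.trunc (N + 1) A0 with ht
  have ht0 : t.eval 0 = W τ := by
    rw [← Polynomial.coeff_zero_eq_eval_zero, ht, PowerSeries.coeff_trunc, if_pos (Nat.succ_pos N),
      PowerSeries.coeff_zero_eq_constantCoeff, hA00]
  set ψ1 : ℂ → ℂ := fun u => ψl (t.eval u - W τ) with hψ1
  have htan : AnalyticAt ℂ (fun u => t.eval u - W τ) 0 :=
    ((t.differentiable.differentiableOn.analyticOnNhd isOpen_univ) 0 trivial).sub analyticAt_const
  have hψ1a : AnalyticAt ℂ ψ1 0 := by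
    refine AnalyticAt.comp ?_ htan
    rw [ht0, sub_self]; exact hψl
  have hψ10 : ψ1 0 = (τ : ℂ) := by rw [hψ1]; simp only; rw [ht0, sub_self, hψl0]
  have hψ1d : deriv ψ1 0 ≠ 0 := by
    have h1 : HasDerivAt (fun u => t.eval u - W τ) (t.derivative.eval 0) 0 :=
      (t.hasDerivAt 0).sub_const _
    have h2 : HasDerivAt ψl (deriv ψl 0) (t.eval 0 - W τ) := by
      rw [ht0, sub_self]; exact hψl.differentiableAt.hasDerivAt
    rw [show ψ1 = ψl ∘ fun u => t.eval u - W τ from rfl, (h2.comp 0 h1).deriv]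
    refine mul_ne_zero hψld ?_
    rw [← Polynomial.coeff_zero_eq_eval_zero, Polynomial.coeff_derivative, ht,
      PowerSeries.coeff_trunc, if_pos (by omega)]
    simpa using hA01
  have hh0 : ψ1 0 ∈ upperHalfPlaneSet := hψ10 ▸ τ.im_pos
  let Θ : holRing C →+* Jet (N + 1) :=
    (Ideal.Quotient.mk _).comp ((localAlg M hψ1a hh0).toRingHom.comp (toMF C))
  have hΘw : Θ ⟨L.w C, rat_mem_holRing C _⟩ = Ψ N ⟨L.w C, hwT⟩ := by
    have hloc : localAlg M hψ1a hh0 (L.wMF C) = (t : PowerSeries ℂ) := by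
      rw [localAlg_apply, ← taylorSeries_eval]
      refine taylorSeries_congr ?_
      have h1 : Tendsto (fun u => t.eval u - W τ) (𝓝 0) (𝓝 0) := by
        have := htan.continuousAt.tendsto
        rwa [ht0, sub_self] at this
      filter_upwards [h1.eventually hψlev] with u hu
      simp only [Function.comp, hψ1]
      simp only [Function.comp, pow_one] at hu
      rw [hu, ofComplex_apply]
      exact add_sub_cancel _ _
    show Ideal.Quotient.mk _ (localAlg M hψ1a hh0 (toMF C _)) = _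
    rw [toMF_eq C (f := L.wMF C) (L.algebraMap_wMF C), hloc, ← hA0, Jet.mk_eq_mk_iff,
      PowerSeries.X_pow_dvd_iff]
    intro i hi
    rw [map_sub, Polynomial.coeff_coe, ht, PowerSeries.coeff_trunc, if_pos hi, sub_self]
  let ΘI : L.intRing C →+* Jet (N + 1) := Θ.comp (L.intToHol C)
  let ΨI : L.intRing C →+* Jet (N + 1) := (Ψ N).comp toT
  have hΘc : ∀ a, ΘI (L.cI C a) = Ideal.Quotient.mk _ (PowerSeries.C (C.φ a)) := fun a => by
    show Ideal.Quotient.mk _ (localAlg M hψ1a hh0 (toMF C _)) = _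
    rw [toMF_eq C (f := algebraMap ℂ _ (C.φ a)) rfl, AlgHom.commutes]
    rfl
  have hpI : ΘI.comp (L.pI C) = ΨI.comp (L.pI C) := by
    rw [L.comp_pI C ΘI (φ := (Ideal.Quotient.mk _).comp ((PowerSeries.C (R := ℂ)).comp C.φ)) hΘc
        (hΘw : ΘI (L.wI C) = _),
      L.comp_pI C ΨI (φ := (Ideal.Quotient.mk _).comp ((PowerSeries.C (R := ℂ)).comp C.φ))
        (fun a => hΨc N a) rfl]
    rfl
  -- agreement on the scaled generators
  obtain ⟨P0, hP0, hP0e⟩ := L.exists_genPoly C
  set Q0 : (L.intRing C)[X] := P0.map (L.pI C) with hQ0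
  have hQ0e : Q0 = ∏ y : L.genSet C, (Polynomial.X - Polynomial.C (L.sgI C y)) := by
    apply Polynomial.map_injective (L.intRing C).subtype Subtype.val_injective
    rw [hQ0, Polynomial.map_map, show (L.intRing C).subtype.comp (L.pI C) =
      (Polynomial.aeval (L.w C) : O[X] →ₐ[O] lvlField C).toRingHom from
        RingHom.ext (L.coe_pI C), hP0e, Polynomial.map_prod, ← Finset.prod_coe_sort]
    refine Finset.prod_congr rfl fun y _ => ?_
    simp [Lev.sgI]
  have hagree : ∀ y, ΨI (L.sgI C y) = ΘI (L.sgI C y) := by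
    intro y
    have hmapeq : Q0.map ΨI = Q0.map ΘI := by rw [hQ0, Polynomial.map_map, Polynomial.map_map, hpI]
    have hr : Q0.eval (L.sgI C y) = 0 := by
      rw [hQ0e, Polynomial.eval_prod]
      exact Finset.prod_eq_zero (Finset.mem_univ y) (by simp)
    have hconstI : ∀ z, Jet.const N (ΨI z) = ψ z := fun z => hconst N (toT z)
    refine Jet.eq_of_root (Q0.map ΨI) ?_ ?_ ?_ ?_
    · rw [Polynomial.eval_map, Polynomial.eval₂_at_apply, hr, map_zero]
    · rw [hmapeq, Polynomial.eval_map, Polynomial.eval₂_at_apply, hr, map_zero]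
    · rw [hconstI, hτy y]
      show _ = Jet.const N (Ideal.Quotient.mk _ (localAlg M hψ1a hh0 (toMF C _)))
      rw [Jet.const_mk, localAlg_apply, valAt_apply, ← PowerSeries.coeff_zero_eq_constantCoeff,
        GalRep.taylorSeries, PowerSeries.coeff_mk]
      simp [hψ10]
    · rw [Polynomial.derivative_map, Polynomial.eval_map, Polynomial.eval₂_at_apply, hconstI,
        hQ0e, ← Lagrange.nodal, Lagrange.eval_nodal_derivative_eval_node_eq (Finset.mem_univ y),
        Lagrange.eval_nodal, map_prod, Finset.prod_ne_zero_iff]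
      intro y' hy'
      rw [map_sub, sub_ne_zero, hτy, hτy]
      exact fun hv => (Finset.mem_erase.mp hy').1 (L.valAt_sgI_injective C τ hv).symm
  have hgen : ∀ u ∈ L.genRing C, ΨI u = ΘI u := by
    intro u hu
    induction hu using Subring.closure_induction with
    | mem z hz =>
      rcases hz with (⟨a, rfl⟩ | hz) | ⟨y, rfl⟩
      · rw [hΘc]; exact hΨc N a
      · rw [Set.mem_singleton_iff.mp hz]; exact hΘw.symm
      · exact hagree y
    | zero => simp
    | one => simp
    | add _ _ _ _ h1 h2 => rw [map_add, map_add, h1, h2]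
    | neg _ _ h1 => rw [map_neg, map_neg, h1]
    | mul _ _ _ _ h1 h2 => rw [map_mul, map_mul, h1, h2]
  -- compare on `x`
  set xT : T := ⟨_, hxS.1⟩
  have h1 : Ψ N xT * ΨI b = ΨI a := by
    show _ * Ψ N (toT b) = Ψ N (toT a)
    rw [← map_mul]; exact congrArg (Ψ N) (Subtype.ext hab)
  have h2 : Θ x * ΘI b = ΘI a := by
    show _ * Θ (L.intToHol C b) = Θ (L.intToHol C a)
    rw [← map_mul]; exact congrArg Θ (Subtype.ext hab)
  rw [hgen b hb, hgen a ha, ← h2] at h1
  set Bb := localAlg M hψ1a hh0 fb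
  set Bx := localAlg M hψ1a hh0 (toMF C x) with hBx
  have hordb : Bb.order = β := by
    rw [hβ, order_localAlg hψ1a hh0 hψ1d, hψ10]
  obtain ⟨Ax, hAx⟩ := Ideal.Quotient.mk_surjective (Ψ N xT)
  rw [← hAx] at h1
  change Ideal.Quotient.mk _ Ax * Ideal.Quotient.mk _ Bb =
    Ideal.Quotient.mk _ Bx * Ideal.Quotient.mk _ Bb at h1
  rw [← map_mul, ← map_mul, Jet.mk_eq_mk_iff, ← sub_mul] at h1
  -- the leading term of `Ax`
  obtain ⟨V, hV, hAV⟩ : ∃ V, IsUnit V ∧ (PowerSeries.X : PowerSeries ℂ) ^ (N + 1) ∣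
      Ax - PowerSeries.X ^ m * V := by
    have h3 := hΨ N xT Kx _ hx
    rw [map_mul, DiscZero.ev_coe, ← hAx] at h3
    obtain ⟨q, hq, hq0⟩ := Polynomial.exists_eq_pow_rootMultiplicity_mul_and_not_dvd
      (Z.P.map C.φ) (Z.dist.monic.map C.φ).ne_zero Z.z
    have hshift : polyShift C.φ Z.z Z.P = PowerSeries.X ^ m *
        ((Polynomial.taylor Z.z q : ℂ[X]) : PowerSeries ℂ) := by
      rw [polyShift_eq]
      conv_lhs => rw [hq]
      rw [Polynomial.taylor_mul, Polynomial.taylor_pow, map_sub, Polynomial.taylor_X,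
        Polynomial.taylor_C, add_sub_cancel_right, Polynomial.coe_mul, Polynomial.coe_pow,
        Polynomial.coe_X]
    obtain ⟨Hh, hHh⟩ := Ideal.Quotient.mk_surjective (Z.ev N h)
    obtain ⟨Dd, hDd⟩ := Ideal.Quotient.mk_surjective
      ((((hDn N).pow Kx).unit⁻¹ : (Jet (N + 1))ˣ) : Jet (N + 1))
    refine ⟨((Polynomial.taylor Z.z q : ℂ[X]) : PowerSeries ℂ) * Hh * Dd, ?_, ?_⟩
    · refine (IsUnit.mul ?_ ?_).mul ?_
      · rw [PowerSeries.isUnit_iff_constantCoeff, isUnit_iff_ne_zero, Polynomial.constantCoeff_coe,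
          Polynomial.taylor_coeff_zero]
        exact fun h0 => hq0 (Polynomial.dvd_iff_isRoot.mpr h0)
      · rw [PowerSeries.isUnit_iff_constantCoeff, isUnit_iff_ne_zero, ← Jet.const_mk (N := N), hHh]
        exact Jet.isUnit_iff.mp (hh.map _)
      · rw [PowerSeries.isUnit_iff_constantCoeff, isUnit_iff_ne_zero, ← Jet.const_mk (N := N), hDd]
        exact Jet.isUnit_iff.mp (Units.isUnit _)
    · rw [← Jet.mk_eq_mk_iff]
      have h4 := congrArg (· * ((((hDn N).pow Kx).unit⁻¹ : (Jet (N + 1))ˣ) : Jet (N + 1))) h3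
      simp only [mul_assoc, IsUnit.mul_val_inv, mul_one] at h4
      rw [h4, hshift, map_mul, ← hDd, ← hHh]
      simp only [map_mul]
      ring
  -- cancel the order of `b`
  obtain ⟨Bu, hBu⟩ : (PowerSeries.X : PowerSeries ℂ) ^ β ∣ Bb := by
    have := PowerSeries.X_pow_order_dvd (φ := Bb)
    rwa [hordb, ENat.toNat_coe] at this
  have hBu0 : IsUnit Bu := by
    rw [PowerSeries.isUnit_iff_constantCoeff, isUnit_iff_ne_zero]
    have := PowerSeries.coeff_order (φ := Bb) (fun h0 => by rw [h0, PowerSeries.order_zero] at hordb; exact ENat.top_ne_coe β hordb)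
    rw [hordb, ENat.toNat_coe] at this
    rwa [hBu, PowerSeries.coeff_X_pow_mul', if_pos le_rfl, Nat.sub_self,
      PowerSeries.coeff_zero_eq_constantCoeff] at this
  rw [hBu, show (Ax - Bx) * (PowerSeries.X ^ β * Bu) = PowerSeries.X ^ β * ((Ax - Bx) * Bu) by ring,
    show N + 1 = β + (m + 1 + 1) by omega, pow_add,
    mul_dvd_mul_iff_left (pow_ne_zero β PowerSeries.X_ne_zero)] at h1
  have h5 : (PowerSeries.X : PowerSeries ℂ) ^ (m + 1) ∣ Bx - PowerSeries.X ^ m * V := by
    have h6 : (PowerSeries.X : PowerSeries ℂ) ^ (m + 1) ∣ Ax - Bx :=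
      (pow_dvd_pow _ (Nat.le_succ _)).trans (hBu0.dvd_mul_right.mp h1)
    have h7 : (PowerSeries.X : PowerSeries ℂ) ^ (m + 1) ∣ Ax - PowerSeries.X ^ m * V :=
      (pow_dvd_pow _ (by omega)).trans hAV
    have := dvd_sub h7 h6
    rwa [sub_sub_sub_cancel_left] at this
  have hmord : Bx.order = m := by
    rw [PowerSeries.order_eq_nat]
    have hc := PowerSeries.X_pow_dvd_iff.mp h5
    refine ⟨?_, fun i hi => ?_⟩
    · have := hc m (Nat.lt_succ_self m)
      rw [map_sub, PowerSeries.coeff_X_pow_mul', if_pos le_rfl, Nat.sub_self, sub_eq_zero,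
        PowerSeries.coeff_zero_eq_constantCoeff] at this
      rw [this]
      exact (PowerSeries.isUnit_constantCoeff _ hV).ne_zero
    · have := hc i (Nat.lt_succ_of_lt hi)
      rwa [map_sub, PowerSeries.coeff_X_pow_mul', if_neg (by omega), sub_zero] at this
  have := hord τ
  rwa [← hψ10, ← order_localAlg hψ1a hh0 hψ1d, ← hBx, hmord, ENat.toNat_coe] at this

end Fermat.Agent.GalRep.Model
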