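/-
A holomorphic element whose orders are divisible by `n` is an `n`-th power on every sheet.
-/
import Fermat.Agent.GalRep.Model.LocalRoots
import Fermat.Agent.GalRep.Model.ModularModel

set_option autoImplicit false

noncomputable section

namespace Fermat.Agent.GalRep.Model

open UpperHalfPlane CongruenceSubgroup Polynomial IsLocalRing
open scoped MatrixGroups PowerSeries

variable {O : Type*} [CommRing O] [IsDomain O] [IsDiscreteValuationRing O]
  [IsAdicComplete (maximalIdeal O) O]

omit [IsAdicComplete (maximalIdeal O) O] in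
/-- A zero of a distinguished polynomial is not a unit of the base. -/
theorem DiscZero.ne_of_isUnit {φ : O →+* ℂ} (hφ : Function.Injective φ) (Z : DiscZero O φ) {d : O}
    (hd : IsUnit d) : Z.z ≠ φ d := by
  intro h
  have hr : Polynomial.eval (φ d) (Z.P.map φ) = 0 := by rw [← h]; exact Z.root
  rw [Polynomial.eval_map, Polynomial.eval₂_at_apply, map_eq_zero_iff φ hφ] at hr
  have h1 := congrArg (residue O) hr
  rw [← Polynomial.eval₂_at_apply, ← Polynomial.eval_map,
    show Z.P.map (residue O) = Polynomial.X ^ Z.P.natDegree from Z.dist.map_eq_X_pow,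
    Polynomial.eval_pow, Polynomial.eval_X, map_zero] at h1
  exact pow_ne_zero _ ((residue_ne_zero_iff_isUnit d).mpr hd) h1

theorem DiscZero.isUnit_ev_X_pow_mul {φ : O →+* ℂ} (Z : DiscZero O φ) (hz : Z.z ≠ 0) (N k : ℕ)
    {U : PowerSeries O} (hU : IsUnit U) : IsUnit (Z.ev N (PowerSeries.X ^ k * U)) := by
  rw [map_mul, map_pow]
  refine IsUnit.mul (IsUnit.pow _ ?_) (hU.map _)
  rw [DiscZero.ev_X, Jet.isUnit_iff, Jet.const_mk]
  simpa using hz

theorem DiscZero.isUnit_ev_deriv {φ : O →+* ℂ} (Z : DiscZero O φ) (hz : Z.z ≠ 0) (N : ℕ) (c : O)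
    {e : ℕ} (he : IsUnit (e : O)) {U : PowerSeries O} (hU : IsUnit U) :
    IsUnit (Z.ev N (d⁄dX O (PowerSeries.C c + PowerSeries.X ^ e * U))) := by
  obtain ⟨k, rfl⟩ : ∃ k, e = k + 1 :=
    Nat.exists_eq_succ_of_ne_zero fun h => not_isUnit_zero (M₀ := O) (by simpa [h] using he)
  have h : d⁄dX O (PowerSeries.C c + PowerSeries.X ^ (k + 1) * U) =
      PowerSeries.X ^ k * (((k + 1 : ℕ) : PowerSeries O) * U + PowerSeries.X * d⁄dX O U) := by
    rw [map_add, PowerSeries.derivative_C, zero_add, Derivation.leibniz, Derivation.leibniz_pow,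
      PowerSeries.derivative_X]
    simp [smul_eq_mul, pow_succ]
    ring
  rw [h]
  refine Z.isUnit_ev_X_pow_mul hz N k (PowerSeries.isUnit_iff_constantCoeff.mpr ?_)
  rw [map_add, map_mul, map_mul, PowerSeries.constantCoeff_X, zero_mul, add_zero, map_natCast]
  exact he.mul (PowerSeries.isUnit_constantCoeff U hU)

variable {M : ℕ} [NeZero M] (L : Lev M) (C : Cyc O M)

local notation "al" => algebraMap (PowerSeries O) (SeriesField O)

omit [IsDiscreteValuationRing O] [IsAdicComplete (maximalIdeal O) O] in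
theorem Lev.isUnit_e (C : Cyc O M) : IsUnit (L.e : O) := by
  have := C.unit
  rw [L.eq, Nat.cast_mul] at this
  exact isUnit_of_mul_isUnit_left this

/-- On every sheet the zeros of the element in the disc have multiplicities divisible by `n`. -/
theorem Lev.exists_sheet_factor [IsAlgClosed (ResidueField O)] {ι : lvlField C →+* SeriesField O}
    (hι : L.IsSheet C ι) {n : ℕ} (hn0 : 0 < n) (x : holRing C)
    (hxc : (x : lvlField C) ∈ chartRing O (L.w C))
    (hred : ∃ K g, ι (x : lvlField C) * al (PowerSeries.X ^ K) = al g ∧ red g ≠ 0)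
    (hord : ∀ τ : ℍ, n ∣ (analyticOrderAt ((toMF C x : ℍ → ℂ) ∘ ofComplex) (τ : ℂ)).toNat)
    (hcusp : ∀ δ : SL(2, ℤ), (n : ℤ) ∣ (serHom M (shift M δ (toMF C x))).order) :
    ∃ (P : O[X]) (h : PowerSeries O) (K' : ℕ), IsUnit h ∧ P.Monic ∧
      ι (x : lvlField C) * al (PowerSeries.X ^ (n * K')) = al ((P : PowerSeries O) * h) ∧
      ∀ z, n ∣ (P.map C.φ).rootMultiplicity z := by
  classical
  obtain ⟨K, g, hg, hg0⟩ := hred
  have hinj := IsFractionRing.injective (PowerSeries O) (SeriesField O)
  have hXne : al (PowerSeries.X ^ K) ≠ 0 := by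
    rw [Ne, map_eq_zero_iff _ hinj]; exact pow_ne_zero _ PowerSeries.X_ne_zero
  have finish : ∀ (P : O[X]) (h : PowerSeries O) (K' : ℕ), IsUnit h → P.Monic →
      ι (x : lvlField C) * al (PowerSeries.X ^ (n * K')) = al ((P : PowerSeries O) * h) →
      (∀ z, n ∣ (P.map C.φ).rootMultiplicity z) →
      ∃ (P : O[X]) (h : PowerSeries O) (K' : ℕ), IsUnit h ∧ P.Monic ∧
        ι (x : lvlField C) * al (PowerSeries.X ^ (n * K')) = al ((P : PowerSeries O) * h) ∧
        ∀ z, n ∣ (P.map C.φ).rootMultiplicity z :=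
    fun P h K' h1 h2 h3 h4 => ⟨P, h, K', h1, h2, h3, h4⟩
  rcases hι with ⟨δ, rfl⟩ | ⟨c, hc, hw, hιO⟩
  · obtain ⟨i, hi, hic⟩ := L.exists_cusp δ
    set G := g * PowerSeries.X ^ ((n - 1) * K)
    have hG : serAt C δ (x : lvlField C) * al (PowerSeries.X ^ (n * K)) = al G := by
      obtain ⟨j, rfl⟩ : ∃ j, n = j + 1 := Nat.exists_eq_succ_of_ne_zero hn0.ne'
      rw [show (j + 1) * K = K + j * K by ring, pow_add, map_mul, ← mul_assoc, hg, map_mul]
      rfl
    have hG0 : red G ≠ 0 := by
      rw [map_mul, map_pow, PowerSeries.map_X]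
      exact mul_ne_zero hg0 (pow_ne_zero _ PowerSeries.X_ne_zero)
    obtain ⟨P, h, hfac⟩ := PowerSeries.exists_isWeierstrassFactorization hG0
    refine finish P h K hfac.isUnit hfac.isDistinguishedAt.monic (by rw [hG, hfac.eq_mul]) fun z => ?_
    by_cases hroot : (P.map C.φ).IsRoot z
    swap
    · rw [Polynomial.rootMultiplicity_eq_zero hroot]; exact dvd_zero n
    let Z : DiscZero O C.φ := ⟨P, hfac.isDistinguishedAt, z, hroot⟩
    by_cases hz : z = 0
    · subst hz
      set m := (P.map C.φ).rootMultiplicity 0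
      obtain ⟨q, hq, hq0⟩ := Polynomial.exists_eq_pow_rootMultiplicity_mul_and_not_dvd
        (P.map C.φ) (hfac.isDistinguishedAt.monic.map C.φ).ne_zero 0
      rw [map_zero, sub_zero] at hq hq0
      have hgC : C.gC G = HahnSeries.single (m : ℤ) 1 *
          HahnSeries.ofPowerSeries ℤ ℂ ((q : PowerSeries ℂ) * PowerSeries.map C.φ h) := by
        rw [hfac.eq_mul, Cyc.gC, RingHom.comp_apply, map_mul, ← Polynomial.polynomial_map_coe, hq,
          Polynomial.coe_mul, Polynomial.coe_pow, Polynomial.coe_X, mul_assoc, map_mul,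
          HahnSeries.ofPowerSeries_X_pow]
      set V := HahnSeries.ofPowerSeries ℤ ℂ ((q : PowerSeries ℂ) * PowerSeries.map C.φ h)
      have hV : V.coeff 0 ≠ 0 := by
        rw [show (0 : ℤ) = ((0 : ℕ) : ℤ) from rfl, HahnSeries.ofPowerSeries_apply_coeff,
          PowerSeries.coeff_zero_eq_constantCoeff, map_mul, Polynomial.constantCoeff_coe,
          ← PowerSeries.coeff_zero_eq_constantCoeff_apply (PowerSeries.map C.φ h),
          PowerSeries.coeff_map, PowerSeries.coeff_zero_eq_constantCoeff]
        refine mul_ne_zero (fun h0 => hq0 (Polynomial.X_dvd_iff.mpr h0)) ?_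
        exact ((PowerSeries.isUnit_constantCoeff h hfac.isUnit).map C.φ).ne_zero
      have hVo : V.order = 0 := by
        refine le_antisymm (HahnSeries.order_le_of_coeff_ne_zero hV) ?_
        refine (HahnSeries.le_order_iff_forall (fun h0 => hV (by rw [h0, HahnSeries.coeff_zero]))).mpr fun j hj => ?_
        simp only [V]; rw [HahnSeries.ofPowerSeries_apply, HahnSeries.embDomain_of_notMem_range]
        rintro ⟨l, hl⟩
        simp at hl
        omega
      have hser := congrArg C.toC hG
      rw [map_mul, C.toC_algebraMap, C.toC_algebraMap, ← serHom_shift_eq C (algebraMap_toMF C x),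
        C.gC_X_pow, hgC] at hser
      have hSne : serHom M (shift M δ (toMF C x)) ≠ 0 := by
        intro h0
        rw [h0, zero_mul, eq_comm, mul_eq_zero] at hser
        rcases hser with h1 | h1
        · exact one_ne_zero (HahnSeries.single_eq_zero_iff.mp h1)
        · exact hV (by rw [h1, HahnSeries.coeff_zero])
      have hord' := congrArg HahnSeries.order hser
      rw [HahnSeries.order_mul hSne (by simp), HahnSeries.order_mul (by simp)
          (fun h0 => hV (by rw [h0, HahnSeries.coeff_zero])), HahnSeries.order_single one_ne_zero,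
        HahnSeries.order_single one_ne_zero, hVo, add_zero] at hord'
      have hd := dvd_add (hcusp δ) (show (n : ℤ) ∣ ((n * K : ℕ) : ℤ) from ⟨K, by push_cast; ring⟩)
      rw [hord'] at hd
      exact_mod_cast hd
    · have hX : ∀ N k, ∀ {U : PowerSeries O}, IsUnit U → IsUnit (Z.ev N (PowerSeries.X ^ k * U)) :=
        fun N k U hU => Z.isUnit_ev_X_pow_mul hz N k hU
      refine L.dvd_rootMultiplicity C (serAt C δ) (serAt_algebraMap C δ) Z PowerSeries.X
        (fun N => by simpa using hX N 1 isUnit_one) ?_ ?_ ?_ x (n * K) h hfac.isUnit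
        (by rw [hG, hfac.eq_mul]) hord
      · intro y hy
        by_cases h1 : i = 1
        · subst h1
          obtain ⟨K', g', hg'⟩ := hy.2.2 δ hic
          exact ⟨K', g', hg'.symm⟩
        · obtain ⟨g', hg'⟩ := hy.2.1 i (L.mem_J.mpr ⟨hi, h1⟩) δ hic
          exact ⟨0, g', by rw [pow_zero, map_one, mul_one, hg']⟩
      · intro k hk
        by_cases h1 : i = 1
        · subst h1
          obtain ⟨U, hU⟩ := L.serAt_w_pole C hic
          refine ⟨L.e, (U : PowerSeries O) - PowerSeries.C (L.cval C k) * PowerSeries.X ^ L.e, ?_,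
            fun N => ?_⟩
          · rw [map_sub, serAt_algebraMap, sub_mul, hU, map_sub, map_mul]
          · have hu : IsUnit ((U : PowerSeries O) -
                PowerSeries.C (L.cval C k) * PowerSeries.X ^ L.e) :=
              PowerSeries.isUnit_iff_constantCoeff.mpr (by
                simpa [zero_pow L.e_pos.ne'] using
                  PowerSeries.isUnit_constantCoeff (U : PowerSeries O) U.isUnit)
            exact hu.map _
        · obtain ⟨U, hU⟩ := L.serAt_w_finite C (L.mem_J.mpr ⟨hi, h1⟩) hic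
          refine ⟨0, PowerSeries.C (L.cval C i - L.cval C k) + PowerSeries.X ^ L.e * (U : PowerSeries O),
            ?_, fun N => ?_⟩
          · rw [pow_zero, map_one, mul_one, map_sub, serAt_algebraMap, hU, ← map_sub, map_sub PowerSeries.C]
            congr 1
            ring
          · by_cases hki : i = k
            · subst hki
              rw [sub_self, map_zero, zero_add]
              exact hX N L.e U.isUnit
            · exact (PowerSeries.isUnit_iff_constantCoeff.mpr (by
                simpa [zero_pow L.e_pos.ne'] using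
                  L.isUnit_cval_sub C (L.mem_J.mpr ⟨hi, h1⟩) hk hki)).map _
      · by_cases h1 : i = 1
        · subst h1
          obtain ⟨U, hU⟩ := L.serAt_w_pole C hic
          refine ⟨PowerSeries.C (0 : O) + PowerSeries.X ^ L.e * ((U⁻¹ : (PowerSeries O)ˣ) : PowerSeries O),
            Or.inr ?_, fun N => Z.isUnit_ev_deriv hz N 0 (L.isUnit_e C) (U⁻¹).isUnit⟩
          rw [map_zero, zero_add, map_inv₀]
          refine inv_eq_of_mul_eq_one_right ?_
          rw [map_mul, ← mul_assoc, hU, ← map_mul, Units.mul_inv, map_one]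
        · obtain ⟨U, hU⟩ := L.serAt_w_finite C (L.mem_J.mpr ⟨hi, h1⟩) hic
          exact ⟨_, Or.inl hU, fun N => Z.isUnit_ev_deriv hz N _ (L.isUnit_e C) U.isUnit⟩
  · obtain ⟨g0, hg'⟩ := exists_series_of_mem ι hιO hw ⟨(x : lvlField C), hxc⟩
    have hgg : g = g0 * PowerSeries.X ^ K := hinj (by rw [map_mul, hg', hg])
    have hg00 : red g0 ≠ 0 := fun h0 => hg0 (by rw [hgg, map_mul, h0, zero_mul])
    obtain ⟨P, h, hfac⟩ := PowerSeries.exists_isWeierstrassFactorization hg00
    refine finish P h 0 hfac.isUnit hfac.isDistinguishedAt.monic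
      (by rw [mul_zero, pow_zero, map_one, mul_one, ← hfac.eq_mul, hg']) fun z => ?_
    by_cases hroot : (P.map C.φ).IsRoot z
    swap
    · rw [Polynomial.rootMultiplicity_eq_zero hroot]; exact dvd_zero n
    let Z : DiscZero O C.φ := ⟨P, hfac.isDistinguishedAt, z, hroot⟩
    refine L.dvd_rootMultiplicity C ι hιO Z 1 (fun N => by simp) ?_ ?_ ?_ x 0 h hfac.isUnit
      (by rw [pow_zero, map_one, mul_one, ← hfac.eq_mul, hg']) hord
    · intro y hy
      obtain ⟨g', hg''⟩ := exists_series_of_mem ι hιO hw ⟨y, L.mem_chartRing C hy⟩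
      exact ⟨0, g', by rw [pow_zero, map_one, mul_one, hg'']⟩
    · intro i hi
      refine ⟨0, PowerSeries.C (c - L.cval C i) + PowerSeries.X, ?_, fun N => ?_⟩
      · rw [pow_zero, map_one, mul_one, map_sub, hιO, hw, ← map_sub, map_sub PowerSeries.C]
        congr 1
        ring
      · rw [Jet.isUnit_iff, map_add, map_add, DiscZero.ev_C, DiscZero.ev_X, Jet.const_mk,
          Jet.const_mk]
        intro h0
        refine Z.ne_of_isUnit C.inj (hc i hi).neg ?_
        simp only [map_add, PowerSeries.constantCoeff_C, PowerSeries.constantCoeff_X, add_zero] at h0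
        rw [map_neg, eq_neg_iff_add_eq_zero, add_comm]
        exact h0
    · exact ⟨_, Or.inl hw, fun N => by simp⟩


/-- Roots on all sheets. -/
theorem Lev.exists_sheet_root [IsAlgClosed (ResidueField O)] {ι : lvlField C →+* SeriesField O}
    (hι : L.IsSheet C ι) {n : ℕ} (hn : IsUnit (n : O)) (x : holRing C)
    (hxc : (x : lvlField C) ∈ chartRing O (L.w C))
    (hred : ∃ K g, ι (x : lvlField C) * al (PowerSeries.X ^ K) = al g ∧ red g ≠ 0)
    (hord : ∀ τ : ℍ, n ∣ (analyticOrderAt ((toMF C x : ℍ → ℂ) ∘ ofComplex) (τ : ℂ)).toNat)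
    (hcusp : ∀ δ : SL(2, ℤ), (n : ℤ) ∣ (serHom M (shift M δ (toMF C x))).order) :
    ∃ r : SeriesField O, r ^ n = ι (x : lvlField C) := by
  classical
  have hn0 : 0 < n := Nat.pos_of_ne_zero fun h => not_isUnit_zero (M₀ := O) (by simpa [h] using hn)
  have hinj := IsFractionRing.injective (PowerSeries O) (SeriesField O)
  obtain ⟨P, h, K', hh, hP, heq, hm⟩ := L.exists_sheet_factor C hι hn0 x hxc hred hord hcusp
  obtain ⟨Q, hQ⟩ := exists_monic_root hn C.φ C.inj hP hm
  obtain ⟨v, hv⟩ := exists_pow_eq_of_isUnit hn hh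
  refine ⟨al ((Q : PowerSeries O) * v) / al (PowerSeries.X ^ K'), ?_⟩
  rw [div_pow, ← map_pow, ← map_pow, mul_pow, ← Polynomial.coe_pow, hQ, hv, ← pow_mul,
    mul_comm K' n, ← heq, mul_div_assoc, div_self, mul_one]
  rw [Ne, map_eq_zero_iff _ hinj]
  exact pow_ne_zero _ PowerSeries.X_ne_zero

end Fermat.Agent.GalRep.Model
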