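/-
A holomorphic element congruent to an `n`-th power whose zeros and poles have orders divisible by
`n` is an `n`-th power, and the character of such a root is trivial.
-/
import Fermat.Agent.GalRep.Model.SheetRoots
import Fermat.Agent.GalRep.Model.HolIntegral
import Fermat.Agent.GalRep.Level.Rep

set_option autoImplicit false

noncomputable section

namespace Fermat.Agent.GalRep.Model

open UpperHalfPlane CongruenceSubgroup Polynomial IsLocalRing
open scoped MatrixGroups PowerSeries Manifold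

variable {M : ℕ} [NeZero M] (L : Lev M) {O : Type*} [CommRing O] [IsDomain O]
  [IsDiscreteValuationRing O] [IsAdicComplete (maximalIdeal O) O] [IsAlgClosed (ResidueField O)]
  (C : Cyc O M)

local notation "al" => algebraMap (PowerSeries O) (SeriesField O)

omit [IsAdicComplete (maximalIdeal O) O] [IsAlgClosed (ResidueField O)] in
theorem Lev.aeval_cuspPoly_pow_ne_zero (K : ℕ) :
    Polynomial.aeval (L.w C) (L.cuspPoly C ^ K) ≠ 0 := by
  rw [map_pow]
  exact pow_ne_zero K (L.aeval_cuspPoly_ne_zero C)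

omit [IsAdicComplete (maximalIdeal O) O] [IsAlgClosed (ResidueField O)] in
/-- An element of the chart ring, divided by the cusp factors, has bounded poles at all cusps. -/
theorem Lev.exists_pole_bound (z : chartRing O (L.w C)) (K : ℕ) (δ : SL(2, ℤ)) :
    ∃ (N : ℕ) (g : PowerSeries O),
      serAt C δ ((z : lvlField C) / Polynomial.aeval (L.w C) (L.cuspPoly C ^ K)) *
        al (PowerSeries.X ^ N) = al g := by
  obtain ⟨i, hiv, hic⟩ := L.exists_cusp δ
  have hinj := IsFractionRing.injective (PowerSeries O) (SeriesField O)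
  have hQ : serAt C δ (Polynomial.aeval (L.w C) (L.cuspPoly C ^ K)) ≠ 0 :=
    (_root_.map_ne_zero _).mpr (L.aeval_cuspPoly_pow_ne_zero C K)
  by_cases h1 : i = 1
  · subst h1
    obtain ⟨U, hU⟩ := L.serAt_w_pole C hic
    obtain ⟨V, hV⟩ := serAt_cuspPoly_pole L C δ hic
    obtain ⟨E, hE⟩ := exists_inv_pow_mul_mem (L.w_ne_zero C) z
    have hinv : serAt C δ (L.w C)⁻¹ =
        al (PowerSeries.C (0 : O) +
          PowerSeries.X ^ L.e * ((U⁻¹ : (PowerSeries O)ˣ) : PowerSeries O)) := by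
      rw [map_zero, zero_add, map_inv₀]
      refine inv_eq_of_mul_eq_one_right ?_
      rw [map_mul, ← mul_assoc, hU, ← map_mul, Units.mul_inv, map_one]
    obtain ⟨g, hg⟩ := exists_series_of_mem (serAt C δ) (serAt_algebraMap C δ) hinv ⟨_, hE⟩
    refine ⟨L.e * E, g * ((U : PowerSeries O) ^ E *
      (PowerSeries.X ^ (L.e * L.J.card * K) * ((V⁻¹ ^ K : (PowerSeries O)ˣ) : PowerSeries O))), ?_⟩
    rw [map_div₀, div_mul_eq_mul_div, div_eq_iff hQ]
    simp only [map_mul, map_pow, Units.val_pow_eq_pow_val, pow_mul] at hg hV ⊢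
    rw [hinv] at hg
    simp only [map_zero, zero_add, map_mul, map_pow] at hg
    rw [hg]
    have hUU : al (U : PowerSeries O) * al ((U⁻¹ : (PowerSeries O)ˣ) : PowerSeries O) = 1 := by
      rw [← map_mul, Units.mul_inv, map_one]
    have hVV : al (V : PowerSeries O) * al ((V⁻¹ : (PowerSeries O)ˣ) : PowerSeries O) = 1 := by
      rw [← map_mul, Units.mul_inv, map_one]
    have e1 : ((al PowerSeries.X ^ L.e) * al ((U⁻¹ : (PowerSeries O)ˣ) : PowerSeries O)) ^ E *
        al (U : PowerSeries O) ^ E = (al PowerSeries.X ^ L.e) ^ E := by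
      rw [← mul_pow, mul_assoc, mul_comm (al _) (al (U : PowerSeries O)), hUU, mul_one]
    have e2 : (serAt C δ (Polynomial.aeval (L.w C) (L.cuspPoly C)) *
        (al PowerSeries.X ^ L.e) ^ L.J.card) ^ K *
          al ((V⁻¹ : (PowerSeries O)ˣ) : PowerSeries O) ^ K = 1 := by
      rw [hV, ← mul_pow, hVV, one_pow]
    linear_combination (-(serAt C δ (z : lvlField C))) * e1 -
      (serAt C δ (z : lvlField C) * ((al PowerSeries.X ^ L.e) *
        al ((U⁻¹ : (PowerSeries O)ˣ) : PowerSeries O)) ^ E * al (U : PowerSeries O) ^ E) * e2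
  · obtain ⟨U, hU⟩ := L.serAt_w_finite C (L.mem_J.mpr ⟨hiv, h1⟩) hic
    obtain ⟨V, hV⟩ := L.serAt_cuspPoly C (L.mem_J.mpr ⟨hiv, h1⟩) hic
    obtain ⟨g, hg⟩ := exists_series_of_mem (serAt C δ) (serAt_algebraMap C δ) hU z
    refine ⟨L.e * K, g * ((V⁻¹ ^ K : (PowerSeries O)ˣ) : PowerSeries O), ?_⟩
    rw [map_div₀, div_mul_eq_mul_div, div_eq_iff hQ]
    simp only [map_mul, map_pow, Units.val_pow_eq_pow_val, pow_mul] at hg hV ⊢
    rw [hV, ← hg, mul_assoc, ← mul_pow, mul_left_comm (al ((V⁻¹ : (PowerSeries O)ˣ) : PowerSeries O)),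
      ← map_mul, Units.inv_mul, map_one, mul_one]

/-- Lifting of roots for the elements of the level field. -/
theorem Lev.exists_nth_root {π : O} (hπ : Irreducible π) {n : ℕ} (hn : IsUnit (n : O))
    (x : holRing C) (hxc : (x : lvlField C) ∈ chartRing O (L.w C))
    (v : chartRing O (L.w C)) (hv : ¬ algebraMap O (chartRing O (L.w C)) π ∣ v)
    (hxv : algebraMap O (chartRing O (L.w C)) π ∣ ⟨_, hxc⟩ - v ^ n)
    (hord : ∀ τ : ℍ, n ∣ (analyticOrderAt ((toMF C x : ℍ → ℂ) ∘ ofComplex) (τ : ℂ)).toNat)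
    (hcusp : ∀ δ : SL(2, ℤ), (n : ℤ) ∣ (serHom M (shift M δ (toMF C x))).order) :
    ∃ f : chartRing O (L.w C), (f : lvlField C) ^ n = x := by
  set T := L.model C
  have hm := hπ.maximalIdeal_eq
  set a : chartRing O (L.w C) := ⟨_, hxc⟩
  have hn0 : n ≠ 0 := by rintro rfl; simp at hn
  have ha : ¬ algebraMap O (chartRing O (L.w C)) π ∣ a := by
    intro h
    refine hv ?_
    have h2 : algebraMap O (chartRing O (L.w C)) π ∣ v ^ n := by
      have := dvd_sub h hxv
      rwa [sub_sub_cancel] at this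
    refine T.pi_dvd_of_red_ser_eq_zero hπ 0 ⟨0, T.chart0.r_pos 0⟩ v ?_
    obtain ⟨u, hu⟩ := h2
    have h3 := (T.chart0.sheets (0 : O)).red_ser_pi_mul hm ⟨0, T.chart0.r_pos 0⟩ u
    rw [← hu, map_pow, map_pow, pow_eq_zero_iff hn0] at h3
    exact h3
  refine (T.exists_root hπ hn a v hv hxv (fun c j => ?_) (fun c j => ?_)).imp
    fun f hf => congrArg Subtype.val hf
  · refine L.exists_sheet_root C (L.isSheet_model0 C c j) hn x hxc
      ⟨0, (T.chart0.sheets c).ser j a, ?_, T.red_ser_ne_zero_of_not_dvd hπ a ha c j⟩ hord hcusp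
    rw [pow_zero, map_one, mul_one, Sheets.algebraMap_ser]
  · obtain ⟨E, hE⟩ := T.exists_red_ser1_ne_zero hπ a ha
    obtain ⟨g, hg, hg0⟩ := hE c j
    obtain ⟨k, W, hW⟩ : ∃ (k : ℕ) (W : (PowerSeries O)ˣ),
        PowerSeries.C (T.chart1.rep c) + PowerSeries.X ^ (T.chart1.sheets c).e j * ((T.chart1.sheets c).unit j : PowerSeries O) =
          PowerSeries.X ^ k * (W : PowerSeries O) := by
      by_cases hu : IsUnit (T.chart1.rep c)
      · have hU : IsUnit (PowerSeries.C (T.chart1.rep c) +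
            PowerSeries.X ^ (T.chart1.sheets c).e j * ((T.chart1.sheets c).unit j : PowerSeries O)) :=
          PowerSeries.isUnit_iff_constantCoeff.mpr (by simp [zero_pow ((T.chart1.sheets c).e_pos j).ne', hu])
        exact ⟨0, hU.unit, by simp⟩
      · have h0 : T.chart1.rep c = 0 := by
          show L.rep1 C c = 0
          refine if_neg fun hc => hu ?_
          show IsUnit (L.rep1 C c)
          rw [Lev.rep1, if_pos hc]
          exact (L.isUnit_rep0_inverse C hc).ringInverse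
        exact ⟨(T.chart1.sheets c).e j, (T.chart1.sheets c).unit j, by
          rw [congrArg PowerSeries.C h0, map_zero, zero_add]⟩
    refine L.exists_sheet_root C (L.isSheet_model1 C c j) hn x hxc
      ⟨k * E, g * ((W⁻¹ ^ E : (PowerSeries O)ˣ) : PowerSeries O), ?_, ?_⟩ hord hcusp
    · rw [map_mul, map_pow, (T.chart1.sheets c).ι_w, hW] at hg
      simp only [map_mul, map_pow, pow_mul, Units.val_pow_eq_pow_val, mul_pow] at hg ⊢
      have hWW : al (W : PowerSeries O) ^ E * al ((W⁻¹ : (PowerSeries O)ˣ) : PowerSeries O) ^ E = 1 := by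
        rw [← mul_pow, ← map_mul, Units.mul_inv, map_one, one_pow]
      linear_combination (al ((W⁻¹ : (PowerSeries O)ˣ) : PowerSeries O) ^ E) * hg -
        ((T.chart1.sheets c).ι j (x : lvlField C) * (al PowerSeries.X ^ k) ^ E) * hWW
    · rw [map_mul]
      exact mul_ne_zero hg0 ((Units.isUnit _).map _).ne_zero

include L in
/-- The character value of a root of an element congruent to an `n`-th power is one. -/
theorem Lev.multiplier_eq_one {n : ℕ} (hn : IsUnit (n : O))
    {h : ℍ → ℂ} (hol : MDifferentiable 𝓘(ℂ) 𝓘(ℂ) h) (hne : h ≠ 0)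
    (hser : ∀ δ : SL(2, ℤ), ∃ f, HasQSeries M (fun τ => h (δ • τ)) f)
    (xH xV : holRing C) (hH : ((toMF C xH : modFuns (Gamma M)) : ℍ → ℂ) = h ^ n)
    (K₀ : ℕ) (gH gV : PowerSeries O)
    (hgH : serAt C 1 (xH : lvlField C) * al (PowerSeries.X ^ (n * K₀)) = al gH)
    (hgV : serAt C 1 (xV : lvlField C) * al (PowerSeries.X ^ K₀) = al gV)
    (hcongr : red gH = red gV ^ n) (hgV0 : red gV ≠ 0)
    (g : SL(2, ℤ)) (ζg : ℂ) (hζn : ζg ^ n = 1) (hhg : ∀ τ : ℍ, h (g • τ) = ζg * h τ)
    (hVg : shift M g (toMF C xV) = toMF C xV) : ζg = 1 := by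
  classical
  obtain ⟨π, hπ⟩ := IsDiscreteValuationRing.exists_irreducible O
  have hm := hπ.maximalIdeal_eq
  have hn0 : n ≠ 0 := by rintro rfl; simp at hn
  have hinj := IsFractionRing.injective (PowerSeries O) (SeriesField O)
  have hXne : ∀ k : ℕ, al (PowerSeries.X ^ k) ≠ 0 := fun k => by
    rw [Ne, map_eq_zero_iff _ hinj]; exact pow_ne_zero _ PowerSeries.X_ne_zero
  set T := L.model C
  -- into the chart ring
  obtain ⟨KH, hKH⟩ := L.exists_mem_chartRing C xH.2 (K0 := n * K₀) ⟨gH, hgH.symm⟩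
  obtain ⟨KV, hKV⟩ := L.exists_mem_chartRing C xV.2 (K0 := K₀) ⟨gV, hgV.symm⟩
  set K := KH + KV
  set Qh : holRing C := ⟨Polynomial.aeval (L.w C) (L.cuspPoly C ^ K),
    aeval_mem_holRing C _ (rat_mem_holRing C _)⟩
  have hQ0 : (Qh : lvlField C) ≠ 0 := L.aeval_cuspPoly_pow_ne_zero C K
  set xa : holRing C := xH * Qh ^ n
  have hxac : (xa : lvlField C) ∈ chartRing O (L.w C) := by
    show (xH : lvlField C) * (Polynomial.aeval (L.w C) (L.cuspPoly C ^ K)) ^ n ∈ _
    rw [← map_pow, ← pow_mul]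
    exact hKH _ (le_trans (Nat.le_add_right KH KV) (Nat.le_mul_of_pos_right _ (Nat.pos_of_ne_zero hn0)))
  set a : chartRing O (L.w C) := ⟨_, hxac⟩ with hadef
  set vv : chartRing O (L.w C) := ⟨_, hKV K (Nat.le_add_left _ _)⟩ with hvdef
  -- the reduction at infinity
  obtain ⟨j, hj⟩ := L.exists_sheet_one C (O := O)
  obtain ⟨V, hV⟩ := L.serAt_cuspPoly C (L.mem_J.mpr ⟨L.valid2, by decide⟩)
    (δ := (1 : SL(2, ℤ))) (by simpa [cuspMat] using L.isCusp_cuspMat 2 L.valid2)
  set W := (PowerSeries.X ^ L.e * (V : PowerSeries O)) ^ K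
  have hWQ : serAt C 1 (Qh : lvlField C) = al W := by
    show serAt C 1 (Polynomial.aeval (L.w C) (L.cuspPoly C ^ K)) = _
    rw [map_pow, map_pow, hV, ← map_pow]
  have hW0 : red W ≠ 0 := by
    rw [map_pow, map_mul, map_pow, PowerSeries.map_X]
    exact pow_ne_zero _ (mul_ne_zero (pow_ne_zero _ PowerSeries.X_ne_zero)
      (V.isUnit.map red).ne_zero)
  have hsv : (T.chart0.sheets (0 : O)).ser j vv * PowerSeries.X ^ K₀ = gV * W := by
    apply hinj
    rw [map_mul, Sheets.algebraMap_ser, hj, map_mul (al) gV W, ← hgV, ← hWQ]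
    show serAt C 1 ((xV : lvlField C) * (Qh : lvlField C)) * _ = _
    rw [map_mul]
    ring
  have hsa : (T.chart0.sheets (0 : O)).ser j a * PowerSeries.X ^ (n * K₀) = gH * W ^ n := by
    apply hinj
    rw [map_mul, Sheets.algebraMap_ser, hj, map_mul, map_pow al W, ← hgH, ← hWQ]
    show serAt C 1 ((xH : lvlField C) * (Qh : lvlField C) ^ n) * _ = _
    rw [map_mul, map_pow]
    ring
  set rv := red ((T.chart0.sheets (0 : O)).ser j vv) with hrv
  have hra : red ((T.chart0.sheets (0 : O)).ser j a) = rv ^ n := by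
    have h1 := congrArg red hsa
    have h2 := congrArg red hsv
    rw [map_mul, map_mul, map_pow, map_pow, PowerSeries.map_X, hcongr] at h1
    rw [map_mul, map_mul, map_pow, PowerSeries.map_X, ← hrv] at h2
    refine mul_right_cancel₀ (pow_ne_zero (n * K₀) PowerSeries.X_ne_zero) (h1.trans ?_)
    rw [← mul_pow, ← h2, mul_pow, ← pow_mul, mul_comm K₀ n]
  have hrv0 : rv ≠ 0 := by
    intro h0
    have h2 := congrArg red hsv
    rw [map_mul, map_mul, ← hrv, h0, zero_mul, eq_comm] at h2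
    exact mul_ne_zero hgV0 hW0 h2
  have hvdvd : ¬ algebraMap O (chartRing O (L.w C)) π ∣ vv := by
    rintro ⟨u, hu⟩
    exact hrv0 (by rw [hrv, hu]; exact (T.chart0.sheets (0 : O)).red_ser_pi_mul hm j u)
  have hav : algebraMap O (chartRing O (L.w C)) π ∣ a - vv ^ n :=
    T.pi_dvd_of_red_ser_eq_zero hπ 0 j _ (by
      rw [map_sub, map_sub, map_pow, map_pow, hra, sub_self])
  -- orders of zeros and poles
  set Qf : ℍ → ℂ := ((toMF C Qh : modFuns (Gamma M)) : ℍ → ℂ) with hQf
  have hxaf : ((toMF C xa : modFuns (Gamma M)) : ℍ → ℂ) = (h * Qf) ^ n := by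
    show ((toMF C (xH * Qh ^ n) : modFuns (Gamma M)) : ℍ → ℂ) = _
    rw [map_mul, map_pow, MulMemClass.coe_mul, SubmonoidClass.coe_pow, hH, mul_pow]
  have hQhol : MDifferentiable 𝓘(ℂ) 𝓘(ℂ) Qf := (toMF C Qh).2.holo
  have hord : ∀ τ : ℍ, n ∣ (analyticOrderAt ((toMF C xa : ℍ → ℂ) ∘ ofComplex) (τ : ℂ)).toNat := by
    intro τ
    have han : AnalyticAt ℂ ((h * Qf) ∘ ofComplex) (τ : ℂ) :=
      ((UpperHalfPlane.mdifferentiable_iff.mp (hol.mul hQhol)).analyticOnNhd
        isOpen_upperHalfPlaneSet) _ τ.im_pos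
    rw [hxaf, show ((h * Qf) ^ n) ∘ ofComplex = ((h * Qf) ∘ ofComplex) ^ n from rfl,
      analyticOrderAt_pow han, nsmul_eq_mul, ENat.toNat_mul, ENat.toNat_natCast]
    exact dvd_mul_right _ _
  have hcusp : ∀ δ : SL(2, ℤ), (n : ℤ) ∣ (serHom M (shift M δ (toMF C xa))).order := by
    intro δ
    obtain ⟨fd, hfd⟩ := hser δ
    have h1 := (hfd.mul (hasQSeries_serHom (shift M δ (toMF C Qh)))).pow n
    rw [(hasQSeries_serHom (shift M δ (toMF C xa))).unique (NeZero.pos M) (h1.congr
      (.of_forall fun τ => ?_)), HahnSeries.order_pow, nsmul_eq_mul]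
    · exact dvd_mul_right _ _
    · rw [shift_apply, hxaf]
      rfl
  obtain ⟨f, hf⟩ := L.exists_nth_root C hπ hn xa hxac vv hvdvd hav hord hcusp
  -- the root as a function
  obtain ⟨p, hp, q, hq, hq0, hpq⟩ := exists_hol_div C (f : lvlField C)
  have hpn : (⟨p, hp⟩ : holRing C) ^ n = (⟨q, hq⟩ : holRing C) ^ n * xa := Subtype.ext (by
    show p ^ n = q ^ n * (xa : lvlField C)
    rw [← hpq, ← hf, mul_pow, mul_comm])
  set P : ℍ → ℂ := ((toMF C ⟨p, hp⟩ : modFuns (Gamma M)) : ℍ → ℂ) with hPdef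
  set D : ℍ → ℂ := ((toMF C ⟨q, hq⟩ : modFuns (Gamma M)) : ℍ → ℂ) with hDdef
  have hPn : P ^ n = (D * (h * Qf)) ^ n := by
    have := congrArg (fun z => ((toMF C z : modFuns (Gamma M)) : ℍ → ℂ)) hpn
    simp only [map_pow, map_mul, MulMemClass.coe_mul, SubmonoidClass.coe_pow, hxaf] at this
    rw [hPdef, hDdef, this]; simp only [mul_pow]
  obtain ⟨hs, hhs⟩ := hser 1
  simp only [one_smul] at hhs
  set sG := serHom M (toMF C ⟨q, hq⟩) * (hs * serHom M (toMF C Qh))
  have hGser : HasQSeries M (D * (h * Qf)) sG :=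
    (hasQSeries_serHom _).mul (hhs.mul (hasQSeries_serHom _))
  have hne' : ∀ z : holRing C, z ≠ 0 → serHom M (toMF C z) ≠ 0 := fun z hz =>
    (map_ne_zero_iff _ (serHom_injective M)).mpr ((map_ne_zero_iff _ (toMF_injective C)).mpr hz)
  have hsG : sG ≠ 0 := by
    refine mul_ne_zero (hne' _ fun h0 => hq0 (congrArg Subtype.val h0))
      (mul_ne_zero ?_ (hne' _ fun h0 => hQ0 (congrArg Subtype.val h0)))
    intro h0
    exact hne (eq_of_hasQSeries hol mdifferentiable_const (h0 ▸ hhs) (HasQSeries.zero M))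
  haveI : NeZero n := ⟨hn0⟩
  obtain ⟨ω, -, hω⟩ := exists_root_unity_of_pow_eq (n := n) hsG
    (show serHom M (toMF C ⟨p, hp⟩) ^ n = sG ^ n from
      (((hasQSeries_serHom (toMF C ⟨p, hp⟩)).pow n).congr
        (.of_forall fun τ => congrFun hPn τ)).unique (NeZero.pos M) (hGser.pow n))
  have hPeq : P = fun τ => ω * (D * (h * Qf)) τ := by
    refine eq_of_hasQSeries (toMF C ⟨p, hp⟩).2.holo
      (mdifferentiable_const.mul ((toMF C ⟨q, hq⟩).2.holo.mul (hol.mul hQhol)))
      (hasQSeries_serHom _) ?_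
    rw [hω]
    exact hGser.smul ω
  -- the automorphy of the root
  set y : lvlField C := (f : lvlField C) / (Qh : lvlField C) with hydef
  have hy : y = p / (q * (Qh : lvlField C)) := by
    rw [hydef, ← hpq, mul_comm (f : lvlField C) q, mul_div_mul_left _ _ hq0]
  have hyn : y ^ n = (xH : lvlField C) := by
    rw [hydef, div_pow, hf]
    show (xH : lvlField C) * (Qh : lvlField C) ^ n / _ = _
    rw [mul_div_assoc, div_self (pow_ne_zero _ hQ0), mul_one]
  have hy0 : y ≠ 0 := by
    intro h0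
    rw [h0, zero_pow hn0] at hyn
    have h1 : toMF C xH = 0 := by
      rw [show xH = 0 from Subtype.ext hyn.symm, map_zero]
    rw [h1] at hH
    exact hne (funext fun τ => eq_zero_of_pow_eq_zero (congrFun hH τ).symm)
  set am := algebraMap (modFuns (Gamma M)) (WFld M)
  have hyW : wShift g (y : WFld M) = am (algebraMap ℂ _ ζg) * (y : WFld M) := by
    have hcoe : (y : WFld M) = am (toMF C ⟨p, hp⟩) /
        (am (toMF C ⟨q, hq⟩) * am (toMF C Qh)) := by
      rw [hy, algebraMap_toMF, algebraMap_toMF, algebraMap_toMF]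
      rfl
    have hd0 : am (toMF C ⟨q, hq⟩) * am (toMF C Qh) ≠ 0 := by
      rw [algebraMap_toMF, algebraMap_toMF]
      exact mul_ne_zero (fun h0 => hq0 (Subtype.ext h0)) (fun h0 => hQ0 (Subtype.ext h0))
    rw [hcoe, map_div₀, ← mul_div_assoc, div_eq_div_iff ((_root_.map_ne_zero _).mpr hd0) hd0, map_mul,
      wShift_algebraMap, wShift_algebraMap, wShift_algebraMap, ← map_mul am, ← map_mul am, ← map_mul am,
      ← map_mul am, ← map_mul am]
    refine congrArg am (Subtype.ext (funext fun τ => ?_))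
    show P (g • τ) * (D τ * Qf τ) = ζg * P τ * (D (g • τ) * Qf (g • τ))
    rw [hPeq]
    simp only [Pi.mul_apply, hhg]
    ring
  have hyser : C.toC (serAt C g y) = HahnSeries.C ζg * C.toC (serAt C 1 y) := by
    rw [toC_serAt, toC_serAt, hyW, wShift_one, map_mul, wSer_algebraMap, serHom_algebraMap]
  have ht0 : serAt C 1 y ≠ 0 := (_root_.map_ne_zero _).mpr hy0
  set R := serAt C g y / serAt C 1 y with hRdef
  have hRC : C.toC R = HahnSeries.C ζg := by
    rw [hRdef, map_div₀, hyser, mul_div_assoc, div_self ((_root_.map_ne_zero _).mpr ht0), mul_one]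
  have hRn : R ^ n = 1 := C.toC.injective (by
    rw [map_pow, hRC, ← map_pow, hζn, map_one, map_one])
  obtain ⟨G₀, hG₀⟩ := IsIntegrallyClosed.isIntegral_iff.mp
    (show IsIntegral (PowerSeries O) R from ⟨Polynomial.X ^ n - Polynomial.C 1,
      Polynomial.monic_X_pow_sub_C 1 hn0, by simp [hRn]⟩)
  set R₀ := PowerSeries.constantCoeff G₀
  have hgC : C.gC G₀ = HahnSeries.C ζg := by rw [← C.toC_algebraMap, hG₀, hRC]
  have hR₀ : C.φ R₀ = ζg := by
    rw [← coeff_gC_zero C G₀, hgC, HahnSeries.C_apply, HahnSeries.coeff_single_same]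
  have hG₀C : G₀ = PowerSeries.C R₀ := C.gC_injective (by
    rw [hgC, Cyc.gC, RingHom.comp_apply, PowerSeries.map_C, HahnSeries.ofPowerSeries_C, hR₀])
  have hR₀n : R₀ ^ n = 1 := C.inj (by rw [map_pow, hR₀, hζn, map_one])
  -- the root is congruent to a multiple of `vv`
  obtain ⟨c, hc0, hcv⟩ : ∃ c : O, residue O c ≠ 0 ∧
      red ((T.chart0.sheets (0 : O)).ser j f) = PowerSeries.C (residue O c) * rv := by
    haveI : NeZero (n : ResidueField O) := ⟨by
      intro h0
      rw [← map_natCast (residue O), residue_eq_zero_iff] at h0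
      exact h0 hn⟩
    obtain ⟨ζ₀, hζ₀⟩ := HasEnoughRootsOfUnity.exists_primitiveRoot (ResidueField O) n
    have hprim := hζ₀.map_of_injective
      (f := (PowerSeries.C : ResidueField O →+* PowerSeries (ResidueField O)))
      PowerSeries.C_injective
    have h0 : red ((T.chart0.sheets (0 : O)).ser j f) ^ n - rv ^ n = 0 := by
      rw [← hra, ← map_pow, ← map_pow, sub_eq_zero]
      congr 2
      exact Subtype.ext (by rw [SubmonoidClass.coe_pow, hf])
    rw [hprim.pow_sub_pow_eq_prod_sub_mul _ _ (Nat.pos_of_ne_zero hn0), Finset.prod_eq_zero_iff] at h0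
    obtain ⟨μ, hμ, hμ0⟩ := h0
    rw [Polynomial.mem_nthRootsFinset (Nat.pos_of_ne_zero hn0)] at hμ
    obtain ⟨i, -, rfl⟩ := hprim.eq_pow_of_pow_eq_one hμ
    obtain ⟨c, hc⟩ := residue_surjective (R := O) (ζ₀ ^ i)
    refine ⟨c, hc ▸ pow_ne_zero _ (hζ₀.ne_zero hn0), ?_⟩
    rw [hc, map_pow, ← sub_eq_zero]
    exact hμ0
  obtain ⟨z, hz⟩ : algebraMap O (chartRing O (L.w C)) π ∣
      f - algebraMap O (chartRing O (L.w C)) c * vv :=
    T.pi_dvd_of_red_ser_eq_zero hπ 0 j _ (by
      rw [map_sub, map_sub, map_mul, Sheets.ser_algebraMap, map_mul, PowerSeries.map_C, hcv, hrv,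
        sub_self])
  set zq := (z : lvlField C) / (Qh : lvlField C)
  have hyz : y = algebraMap O (lvlField C) c * (xV : lvlField C) +
      algebraMap O (lvlField C) π * zq := by
    have h1 : (f : lvlField C) = algebraMap O (lvlField C) c * ((xV : lvlField C) * Qh) +
        algebraMap O (lvlField C) π * z := by
      have := congrArg (fun u : chartRing O (L.w C) => (u : lvlField C)) (sub_eq_iff_eq_add'.mp hz)
      exact this
    rw [hydef, h1, add_div, ← mul_assoc, mul_div_assoc, div_self hQ0, mul_one, mul_div_assoc]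
  have hxVg : serAt C g (xV : lvlField C) = serAt C 1 (xV : lvlField C) := by
    apply C.toC.injective
    rw [toC_serAt, toC_serAt, wShift_one, ← algebraMap_toMF, wShift_algebraMap, hVg]
  obtain ⟨N1, G1, hG1⟩ := L.exists_pole_bound C z K (1 : SL(2, ℤ))
  obtain ⟨Ng, Gg, hGg⟩ := L.exists_pole_bound C z K g
  change serAt C 1 zq * _ = _ at hG1
  change serAt C g zq * _ = _ at hGg
  have hrel : serAt C g y = al (PowerSeries.C R₀) * serAt C 1 y := by
    rw [← hG₀C, hG₀, hRdef, div_mul_cancel₀ _ ht0]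
  rw [hyz, map_add, map_add, map_mul, map_mul, map_mul, map_mul, serAt_algebraMap,
    serAt_algebraMap, serAt_algebraMap, serAt_algebraMap, hxVg] at hrel
  have key : PowerSeries.C (R₀ - 1) * (PowerSeries.C c * gV * PowerSeries.X ^ (N1 + Ng) +
      PowerSeries.C π * G1 * PowerSeries.X ^ (K₀ + Ng)) =
        PowerSeries.C π * (Gg * PowerSeries.X ^ (K₀ + N1) - G1 * PowerSeries.X ^ (K₀ + Ng)) := by
    apply hinj
    simp only [map_sub, map_one, map_mul, map_add, map_pow, pow_add] at hgV hG1 hGg hrel ⊢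
    rw [← hgV, ← hG1, ← hGg]
    linear_combination (-(al PowerSeries.X ^ K₀ * al PowerSeries.X ^ N1 *
      al PowerSeries.X ^ Ng)) * hrel
  have hr1 : residue O R₀ = 1 := by
    have h1 := congrArg red key
    simp only [map_mul, map_add, map_sub, map_pow, PowerSeries.map_C, PowerSeries.map_X,
      (residue_eq_zero_iff π).mpr hπ.not_isUnit, map_zero, zero_mul, add_zero, map_one] at h1
    rcases mul_eq_zero.mp h1 with h2 | h2
    · rw [← map_one (PowerSeries.C (R := ResidueField O)), ← map_sub] at h2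
      exact sub_eq_zero.mp ((map_eq_zero_iff _ PowerSeries.C_injective).mp h2)
    · exfalso
      refine mul_ne_zero (mul_ne_zero ?_ hgV0) (pow_ne_zero _ PowerSeries.X_ne_zero) h2
      rw [Ne, map_eq_zero_iff _ PowerSeries.C_injective]
      exact hc0
  have hR1 : R₀ = 1 := by
    have h1 : (∑ i ∈ Finset.range n, R₀ ^ i) * (R₀ - 1) = 0 := by
      rw [geom_sum_mul, hR₀n, sub_self]
    refine sub_eq_zero.mp ((mul_eq_zero.mp h1).resolve_left fun h2 => ?_)
    have h3 := congrArg (residue O) h2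
    simp only [map_sum, map_pow, hr1, one_pow, Finset.sum_const, Finset.card_range, nsmul_eq_mul,
      mul_one, map_zero] at h3
    rw [← map_natCast (residue O), residue_eq_zero_iff] at h3
    exact h3 hn
  rw [← hR₀, hR1, map_one]

end Fermat.Agent.GalRep.Model
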