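/-
Injectivity of reduction on Kummer classes.
-/
import Fermat.Agent.GalRep.Model.NthRoot
import Fermat.Agent.GalRep.Model.Descent
import Fermat.Agent.GalRep.Model.BaseField
import Fermat.Agent.GalRep.Level.Defs
import Fermat.Agent.GalRep.KummerGalois

set_option autoImplicit false

noncomputable section

namespace Fermat.Agent.GalRep.Model

open UpperHalfPlane CongruenceSubgroup IsLocalRing
open scoped MatrixGroups Manifold
open Fermat.Agent.GalRep.Level (IsRepG ParG KummerReductionG)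

local notation "Q̄" => AlgebraicClosure ℚ

/-! ## Coefficients -/

theorem coeff_pow_mem {K : Type*} [Field K] {R : Subring K} {f : LaurentSeries K}
    (h : ∀ m, f.coeff m ∈ R) : ∀ (n : ℕ) (m : ℤ), (f ^ n).coeff m ∈ R
  | 0, m => by
    rw [pow_zero, HahnSeries.coeff_one]
    split_ifs
    exacts [one_mem R, zero_mem R]
  | n + 1, m => by
    rw [pow_succ, HahnSeries.coeff_mul]
    exact Subring.sum_mem _ fun ij _ => mul_mem (coeff_pow_mem h n _) (h _)

theorem coeff_expand_mem {K : Type*} [Field K] {P : K → Prop} (hP : P 0) {f : LaurentSeries K}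
    (h : ∀ m, P (f.coeff m)) {k : ℕ} (hk : k ≠ 0) (m : ℤ) : P ((expand k hk f).coeff m) := by
  by_cases hd : (k : ℤ) ∣ m
  · obtain ⟨j, rfl⟩ := hd
    rw [expand_coeff_mul]
    exact h j
  · rw [expand_coeff_of_not_dvd _ _ _ _ hd]
    exact hP

theorem isUnit_natCast_of_not_dvd {O : Type*} [CommRing O] [IsLocalRing O] {ℓ m : ℕ}
    (hℓ : ℓ.Prime) (hl : (ℓ : O) ∈ maximalIdeal O) (h : ¬ ℓ ∣ m) : IsUnit (m : O) := by
  by_contra hm
  obtain ⟨a, b, hab⟩ := Nat.Coprime.cast (R := O) (hℓ.coprime_iff_not_dvd.mpr h)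
  refine (maximalIdeal.isMaximal O).ne_top ((Ideal.eq_top_iff_one _).mpr ?_)
  rw [← hab]
  exact add_mem (Ideal.mul_mem_left _ a hl)
    (Ideal.mul_mem_left _ b (show (m : O) ∈ maximalIdeal O from hm))

/-! ## The core -/

variable {M : ℕ} [NeZero M]

/-- Coefficient rings for a pair of functions with algebraic series. -/
theorem Lev.exists_setup (L : Lev M) {G : Subgroup SL(2, ℤ)} (hG : Gamma M ≤ G) {ℓ : ℕ}
    (hℓ : ℓ.Prime) (hℓM : ¬ ℓ ∣ M) {n : ℕ} [NeZero n]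
    {A : ValuationSubring Q̄} (hA : A.LiesOverPrime ℓ) {χ : ParG G (ZMod n)} {h v : ℍ → ℂ}
    {hq vq : LaurentSeries Q̄} (hh : IsRepG G n χ h) (hhq : HasQSeries M h (seriesToC hq))
    (hv : IsModFun G v) (hvq : HasQSeries M v (seriesToC vq))
    (hint : SeriesIntegral A (hq ^ n)) (hvint : SeriesIntegral A vq)
    (hvne : ∃ m, vq.coeff m ∉ A.nonunits) :
    ∃ (O : Type) (_ : CommRing O) (_ : IsDomain O) (_ : IsDiscreteValuationRing O)
      (_ : IsAdicComplete (maximalIdeal O) O) (_ : IsAlgClosed (ResidueField O))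
      (C : Cyc O M) (xH xV : holRing C) (Lf : IntermediateField ℚ Q̄) (K₀ : ℕ)
      (gH gV : PowerSeries O),
      (ℓ : O) ∈ maximalIdeal O ∧
      ((toMF C xH : modFuns (Gamma M)) : ℍ → ℂ) = h ^ n ∧
      ((toMF C xV : modFuns (Gamma M)) : ℍ → ℂ) = v ∧
      serAt C 1 (xH : lvlField C) *
        algebraMap (PowerSeries O) (SeriesField O) (PowerSeries.X ^ (n * K₀)) =
          algebraMap (PowerSeries O) (SeriesField O) gH ∧
      serAt C 1 (xV : lvlField C) *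
        algebraMap (PowerSeries O) (SeriesField O) (PowerSeries.X ^ K₀) =
          algebraMap (PowerSeries O) (SeriesField O) gV ∧
      (∀ x ∈ Lf, x ∈ A → ∃ o, C.φ o = qbarToC x ∧ (residue O o = 0 ↔ x ∈ A.nonunits)) ∧
      (∀ m, (hq ^ n).coeff m - (vq ^ n).coeff m ∈ Lf) ∧
      (∀ i : ℕ, C.φ (PowerSeries.coeff i gH - PowerSeries.coeff i (gV ^ n)) =
        qbarToC ((hq ^ n).coeff ((i : ℤ) - (n * K₀ : ℕ)) -
          (vq ^ n).coeff ((i : ℤ) - (n * K₀ : ℕ)))) ∧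
      PowerSeries.map (residue O) gV ≠ 0 := by
  classical
  have hn0 : n ≠ 0 := NeZero.ne n
  -- the functions
  set H : modFuns (Gamma M) := ⟨h ^ n, modFuns_anti hG hh.isModFun_pow⟩
  set V : modFuns (Gamma M) := ⟨v, modFuns_anti hG hv⟩
  have hHs : serHom M H = seriesToC (hq ^ n) := by
    rw [seriesToC_eq_lmap, map_pow, ← seriesToC_eq_lmap]
    exact (hasQSeries_serHom H).unique (NeZero.pos M) (hhq.pow n)
  have hVs : serHom M V = seriesToC vq :=
    (hasQSeries_serHom V).unique (NeZero.pos M) hvq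
  -- the number field
  obtain ⟨S₁, hS₁⟩ := L.exists_descent H fun k => ⟨(hq ^ n).coeff k, by rw [hHs]; rfl⟩
  obtain ⟨S₂, hS₂⟩ := L.exists_descent V fun k => ⟨vq.coeff k, by rw [hVs]; rfl⟩
  set s : Finset Q̄ := insert (cycBar M).ζ (S₁ ∪ S₂)
  set Lf : IntermediateField ℚ Q̄ := IntermediateField.adjoin ℚ (s : Set Q̄)
  haveI : FiniteDimensional ℚ Lf :=
    IntermediateField.finiteDimensional_adjoin fun x _ => Algebra.IsIntegral.isIntegral x
  have hsub : ∀ x ∈ s, x ∈ Lf := fun x hx => IntermediateField.subset_adjoin _ _ hx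
  let CL : Cyc Lf M :=
    ⟨qbarToC.comp Lf.val.toRingHom, RingHom.injective _,
      ⟨(cycBar M).ζ, hsub _ (Finset.mem_insert_self _ _)⟩, (cycBar M).map_ζ,
      (Nat.cast_ne_zero.mpr (NeZero.ne M)).isUnit⟩
  have hkCL : ∀ x ∈ Lf, qbarToC x ∈ CL.kC := fun x hx => Subfield.subset_closure ⟨⟨x, hx⟩, rfl⟩
  have hcoef : ∀ (F : modFuns (Gamma M)) (f : LaurentSeries Q̄), serHom M F = seriesToC f →
      algebraMap (modFuns (Gamma M)) (WFld M) F ∈ lvlField CL → ∀ k, f.coeff k ∈ Lf := by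
    intro F f hF hmem k
    have h1 := toC_serF CL ⟨_, hmem⟩
    rw [wSer_algebraMap, hF] at h1
    have h2 := coeff_toC_mem CL (serF CL ⟨_, hmem⟩) k
    rw [h1] at h2
    have h3 : CL.kC ≤ (qbarToC.comp Lf.val.toRingHom).fieldRange := by
      refine Subfield.closure_le.mpr ?_
      rintro _ ⟨a, rfl⟩
      exact ⟨a, rfl⟩
    obtain ⟨a, ha⟩ := h3 h2
    rw [show f.coeff k = (a : Q̄) from qbarToC.injective (ha.symm : qbarToC (f.coeff k) = _)]
    exact a.2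
  have hHL := hcoef H _ hHs (hS₁ Lf CL fun x hx => hkCL x (hsub x (by simp [s, hx])))
  have hVL := hcoef V _ hVs (hS₂ Lf CL fun x hx => hkCL x (hsub x (by simp [s, hx])))
  -- the base
  obtain ⟨O, iR, iD, iV, iC, φ, hφ, hcl, hlmax, hbase⟩ := exists_base ℓ hℓ A hA M hℓM Lf
  haveI := hcl
  have hζpow : (cycBar M).ζ ^ M = 1 := (cycBar M).isPrimitiveRoot.pow_eq_one
  have hζA : (cycBar M).ζ ∈ A :=
    Fermat.Agent.Galois.integralClosure_le A
      ⟨_, (cycBar M).isPrimitiveRoot.isIntegral (NeZero.pos M)⟩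
  obtain ⟨ζO, hζO, -⟩ := hbase _ (Or.inl (hsub _ (Finset.mem_insert_self _ _))) hζA
  let C : Cyc O M := ⟨φ, hφ, ζO, hζO.trans (cycBar M).map_ζ,
    isUnit_natCast_of_not_dvd hℓ hlmax hℓM⟩
  have hkC : ∀ x ∈ Lf, qbarToC x ∈ C.kC := by
    intro x hx
    rcases A.mem_or_inv_mem x with h1 | h1
    · obtain ⟨o, ho, -⟩ := hbase x (Or.inl hx) h1
      exact Subfield.subset_closure ⟨o, ho⟩
    · obtain ⟨o, ho, -⟩ := hbase x⁻¹ (Or.inl (inv_mem hx)) h1
      rw [← inv_inv x, map_inv₀]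
      exact inv_mem (Subfield.subset_closure ⟨o, ho⟩)
  have hHC := hS₁ O C fun x hx => hkC x (hsub x (by simp [s, hx]))
  have hVC := hS₂ O C fun x hx => hkC x (hsub x (by simp [s, hx]))
  let xH : holRing C := ⟨⟨_, hHC⟩, H, rfl⟩
  let xV : holRing C := ⟨⟨_, hVC⟩, V, rfl⟩
  have htH : toMF C xH = H := toMF_eq C rfl
  have htV : toMF C xV = V := toMF_eq C rfl
  -- residues
  have hres : ∀ (o : O) (x : Q̄), φ o = qbarToC x → x ∈ Lf → x ∈ A →
      (residue O o = 0 ↔ x ∈ A.nonunits) := by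
    intro o x ho hx hxA
    obtain ⟨o', ho', hiff⟩ := hbase x (Or.inl hx) hxA
    rw [hiff, hφ (ho.trans ho'.symm), residue_eq_zero_iff]
  -- the series at infinity
  obtain ⟨m₀, hm₀⟩ := hvne
  set K₀ : ℕ := (-(hq ^ n).order).toNat + (-vq.order).toNat with hK₀
  have hmake : ∀ (F : modFuns (Gamma M)) (hF : algebraMap _ (WFld M) F ∈ lvlField C)
      (f : LaurentSeries Q̄) (K : ℕ), serHom M F = seriesToC f → (∀ k, f.coeff k ∈ Lf) →
      SeriesIntegral A f → (∀ k : ℤ, k < -(K : ℤ) → f.coeff k = 0) →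
      ∃ g : PowerSeries O, serAt C 1 ⟨_, hF⟩ *
          algebraMap (PowerSeries O) (SeriesField O) (PowerSeries.X ^ K) =
          algebraMap (PowerSeries O) (SeriesField O) g ∧
        ∀ i : ℕ, φ (PowerSeries.coeff i g) = qbarToC (f.coeff (i - K)) := by
    intro F hF f K hFs hfL hfA hfK
    have hch : ∀ i : ℕ, ∃ o, φ o = qbarToC (f.coeff (i - K)) := fun i =>
      (hbase _ (Or.inl (hfL _)) (hfA _)).imp fun o ho => ho.1
    choose o ho using hch
    refine ⟨PowerSeries.mk o, C.toC.injective ?_, fun i => by rw [PowerSeries.coeff_mk, ho]⟩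
    rw [map_mul, toC_serAt, C.toC_algebraMap, C.toC_algebraMap, C.gC_X_pow, wShift_one,
      wSer_algebraMap, hFs]
    ext k
    rw [mul_comm, HahnSeries.coeff_single_mul, one_mul]
    rcases lt_or_ge k 0 with hk | hk
    · rw [coeff_gC_neg C _ hk]
      show qbarToC (f.coeff (k - (K : ℤ))) = 0
      rw [hfK _ (by omega), map_zero]
    · obtain ⟨i, rfl⟩ := Int.eq_ofNat_of_zero_le hk
      rw [Cyc.gC, RingHom.comp_apply, HahnSeries.ofPowerSeries_apply_coeff, PowerSeries.coeff_map,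
        PowerSeries.coeff_mk]
      exact (ho i).symm
  have hK₀V : ∀ k : ℤ, k < -(K₀ : ℤ) → vq.coeff k = 0 := fun k hk =>
    HahnSeries.coeff_eq_zero_of_lt_order (by omega)
  have hK₀H : ∀ k : ℤ, k < -((n * K₀ : ℕ) : ℤ) → (hq ^ n).coeff k = 0 := fun k hk =>
    HahnSeries.coeff_eq_zero_of_lt_order (by
      have : K₀ ≤ n * K₀ := Nat.le_mul_of_pos_left _ (NeZero.pos n)
      omega)
  obtain ⟨gH, hgH, hcH⟩ := hmake H hHC _ (n * K₀) hHs hHL hint hK₀H
  obtain ⟨gV, hgV, hcV⟩ := hmake V hVC _ K₀ hVs hVL hvint hK₀V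
  have hgV0 : PowerSeries.map (residue O) gV ≠ 0 := by
    intro h0
    have hge : -(K₀ : ℤ) ≤ m₀ := not_lt.mp fun hlt => hm₀ (by
      rw [hK₀V m₀ hlt, A.mem_nonunits_iff, map_zero]
      exact zero_lt_one)
    obtain ⟨i, hi⟩ : ∃ i : ℕ, m₀ = (i : ℤ) - K₀ := ⟨(m₀ + K₀).toNat, by omega⟩
    refine hm₀ (hi ▸ (hres _ _ (hcV i) (hVL _) (hvint _)).mp ?_)
    rw [← PowerSeries.coeff_map, h0, map_zero]
  have hgW : C.gC (gV ^ n) = HahnSeries.single ((n * K₀ : ℕ) : ℤ) 1 * seriesToC (vq ^ n) := by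
    have h1 := congrArg C.toC hgV
    rw [map_mul, C.toC_algebraMap, C.toC_algebraMap, C.gC_X_pow, toC_serAt, wShift_one,
      wSer_algebraMap, hVs] at h1
    rw [map_pow, ← h1, mul_pow, HahnSeries.single_pow, one_pow, mul_comm, nsmul_eq_mul,
      seriesToC_eq_lmap, seriesToC_eq_lmap, map_pow, Nat.cast_mul]
  refine ⟨O, iR, iD, iV, iC, hcl, C, xH, xV, Lf, K₀, gH, gV, hlmax, by rw [htH], by rw [htV],
    hgH, hgV, fun x hx hxA => ?_,
    fun m => sub_mem (hHL m) (coeff_pow_mem (R := Lf.toSubfield.toSubring) hVL n m), fun i => ?_,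
    hgV0⟩
  · obtain ⟨o, ho, -⟩ := hbase x (Or.inl hx) hxA
    exact ⟨o, ho, hres o x ho hx hxA⟩
  · rw [map_sub C.φ, map_sub qbarToC]
    show φ _ - φ _ = _
    rw [hcH]
    congr 1
    have h1 := congrArg (fun f : LaurentSeries ℂ => f.coeff (i : ℤ)) hgW
    simp only [HahnSeries.coeff_single_mul, one_mul] at h1
    rw [Cyc.gC, RingHom.comp_apply, HahnSeries.ofPowerSeries_apply_coeff,
      PowerSeries.coeff_map] at h1
    exact h1

/-- Series of width `M` at all cusps for a representative. -/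
theorem exists_series_cusp {G : Subgroup SL(2, ℤ)} (hG : Gamma M ≤ G) {n : ℕ} [NeZero n]
    {χ : ParG G (ZMod n)} {h : ℍ → ℂ} (hh : IsRepG G n χ h) (δ : SL(2, ℤ)) :
    ∃ f, HasQSeries M (fun τ => h (δ • τ)) f := by
  obtain ⟨w, f, hw, hf⟩ := hh.cusps δ
  refine exists_hasQSeries_of_periodic (mdifferentiable_comp_smul hh.holo δ) (fun τ => ?_) hw hf
  have hmem : δ * ModularGroup.T ^ (M : ℤ) * δ⁻¹ ∈ G :=
    hG ((Gamma_normal M).conj_mem _ (ModularGroup_T_pow_mem_Gamma M M dvd_rfl) δ)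
  rw [show (M : ℝ) = (((M : ℕ) : ℤ) : ℝ) by simp]
  exact hh.periodic δ M hmem τ

/-- The version with a level structure on the width. -/
theorem Lev.char_eq_zero_of_congr (L : Lev M) {G : Subgroup SL(2, ℤ)} (hG : Gamma M ≤ G) {ℓ : ℕ}
    (hℓ : ℓ.Prime) (hℓM : ¬ ℓ ∣ M) {n : ℕ} [NeZero n] (hn : ¬ ℓ ∣ n)
    {A : ValuationSubring Q̄} (hA : A.LiesOverPrime ℓ) {χ : ParG G (ZMod n)} {h v : ℍ → ℂ}
    {hq vq : LaurentSeries Q̄} (hh : IsRepG G n χ h) (hhq : HasQSeries M h (seriesToC hq))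
    (hv : IsModFun G v) (hvq : HasQSeries M v (seriesToC vq))
    (hint : SeriesIntegral A (hq ^ n)) (hvint : SeriesIntegral A vq)
    (hvne : ∃ m, vq.coeff m ∉ A.nonunits) (hcongr : SeriesCongr A (hq ^ n) (vq ^ n)) : χ = 0 := by
  obtain ⟨O, _, _, _, _, _, C, xH, xV, Lf, K₀, gH, gV, hlmax, htH, htV, hgH, hgV, hlift, hdL, hdiff,
    hgV0⟩ := L.exists_setup hG hℓ hℓM hA hh hhq hv hvq hint hvint hvne
  have hnO : IsUnit (n : O) := isUnit_natCast_of_not_dvd hℓ hlmax hn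
  have hred : PowerSeries.map (residue O) gH = PowerSeries.map (residue O) gV ^ n := by
    rw [← map_pow]
    refine sub_eq_zero.mp ((map_sub _ _ _).symm.trans (PowerSeries.ext fun i => ?_))
    rw [PowerSeries.coeff_map, map_zero, map_sub]
    obtain ⟨o, ho, hiff⟩ := hlift _ (hdL _) (A.nonunits_le (hcongr ((i : ℤ) - (n * K₀ : ℕ))))
    rw [C.inj ((hdiff i).trans ho.symm)]
    exact hiff.mpr (hcongr _)
  -- the values of the character
  refine Subtype.ext (AddMonoidHom.ext fun x => ?_)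
  obtain ⟨g, rfl⟩ := Additive.ofMul.surjective x
  refine ZMod.injective_stdAddChar ?_
  rw [ZeroMemClass.coe_zero, AddMonoidHom.zero_apply, AddChar.map_zero_eq_one]
  refine L.multiplier_eq_one C hnO hh.holo hh.ne_zero
    (exists_series_cusp hG hh) xH xV htH K₀ gH gV hgH hgV
    hred hgV0 (g : SL(2, ℤ)) _ ?_ (hh.equivariant g) ?_
  · rw [← AddChar.map_nsmul_eq_pow, ← Nat.cast_smul_eq_nsmul (ZMod n), ZMod.natCast_self,
      zero_smul, AddChar.map_zero_eq_one]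
  · refine Subtype.ext (funext fun τ => ?_)
    rw [shift_apply, htV]
    exact hv.invariant _ g.2 τ

/-! ## All levels -/

/-- The auxiliary level structure. -/
theorem exists_lev {ℓ : ℕ} (hℓ : ℓ.Prime) (hℓM : ¬ ℓ ∣ M) :
    ∃ k, 0 < k ∧ ¬ ℓ ∣ M * k ∧ Nonempty (Lev (M * k)) := by
  have hM := NeZero.pos M
  by_cases h2 : ℓ = 2
  · subst h2
    refine ⟨15, by norm_num, fun h => ?_, ⟨⟨3, M * 5, Or.inr rfl, by ring, by omega⟩⟩⟩
    rcases hℓ.dvd_mul.mp h with h | h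
    · exact hℓM h
    · norm_num at h
  · refine ⟨8, by norm_num, fun h => ?_, ⟨⟨2, M * 4, Or.inl rfl, by ring, by omega⟩⟩⟩
    rcases hℓ.dvd_mul.mp h with h | h
    · exact hℓM h
    · exact h2 ((Nat.prime_dvd_prime_iff_eq hℓ Nat.prime_two).mp
        (hℓ.dvd_of_dvd_pow (show ℓ ∣ 2 ^ 3 by norm_num; exact h)))

omit [NeZero M] in
/-- The sharp form: no constant is lost, at any width. -/
theorem char_eq_zero_of_congr {w : ℕ} (hwM : w ∣ M) {G : Subgroup SL(2, ℤ)} (hG : Gamma M ≤ G)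
    {ℓ : ℕ} (hℓ : ℓ.Prime) (hℓM : ¬ ℓ ∣ M) {n : ℕ} [NeZero n] (hn : ¬ ℓ ∣ n)
    {A : ValuationSubring Q̄} (hA : A.LiesOverPrime ℓ) {χ : ParG G (ZMod n)} {h v : ℍ → ℂ}
    {hq vq : LaurentSeries Q̄} (hh : IsRepG G n χ h) (hhq : HasQSeries w h (seriesToC hq))
    (hv : IsModFun G v) (hvq : HasQSeries w v (seriesToC vq))
    (hint : SeriesIntegral A (hq ^ n)) (hvint : SeriesIntegral A vq)
    (hvne : ∃ m, vq.coeff m ∉ A.nonunits) (hcongr : SeriesCongr A (hq ^ n) (vq ^ n)) : χ = 0 := by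
  have hM0 : M ≠ 0 := fun h0 => hℓM (h0 ▸ dvd_zero ℓ)
  haveI : NeZero M := ⟨hM0⟩
  obtain ⟨j, hj⟩ := hwM
  have hj0 : j ≠ 0 := fun h0 => hM0 (by rw [hj, h0, mul_zero])
  have hw : 0 < w := Nat.pos_of_ne_zero fun h0 => hM0 (by rw [hj, h0, zero_mul])
  obtain ⟨k, hk, hℓk, ⟨L⟩⟩ := exists_lev (M := M) hℓ hℓM
  haveI : NeZero (M * k) := ⟨mul_ne_zero hM0 hk.ne'⟩
  have hle : Gamma (M * k) ≤ G := fun γ hγ => hG (by
    rw [Gamma_mem] at hγ ⊢
    obtain ⟨a, b, c, d⟩ := hγ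
    have hd : M ∣ M * k := dvd_mul_right M k
    exact ⟨by simpa using congrArg (ZMod.castHom hd (ZMod M)) a,
      by simpa using congrArg (ZMod.castHom hd (ZMod M)) b,
      by simpa using congrArg (ZMod.castHom hd (ZMod M)) c,
      by simpa using congrArg (ZMod.castHom hd (ZMod M)) d⟩)
  have hjk : j * k ≠ 0 := mul_ne_zero hj0 hk.ne'
  have hexp : ∀ (F : ℍ → ℂ) (f : LaurentSeries Q̄), HasQSeries w F (seriesToC f) →
      HasQSeries (M * k) F (seriesToC (expand (j * k) hjk f)) := by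
    intro F f hf
    have h1 := hf.refine_width hw (j * k) hjk
    rw [seriesToC_eq_lmap] at h1
    rw [seriesToC_eq_lmap, lmap_expand, hj, mul_assoc]
    exact h1
  have h0 : (0 : Q̄) ∈ A.nonunits := by
    rw [A.mem_nonunits_iff, map_zero]; exact zero_lt_one
  refine L.char_eq_zero_of_congr hle hℓ hℓk hn hA hh (hexp _ _ hhq) hv (hexp _ _ hvq) ?_ ?_ ?_ ?_
  · rw [← map_pow]
    exact fun m => coeff_expand_mem (P := fun x => x ∈ A) (zero_mem A) hint hjk m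
  · exact fun m => coeff_expand_mem (P := fun x => x ∈ A) (zero_mem A) hvint hjk m
  · obtain ⟨m, hm⟩ := hvne
    exact ⟨((j * k : ℕ) : ℤ) * m, by rwa [expand_coeff_mul]⟩
  · intro m
    rw [← map_pow, ← map_pow, ← HahnSeries.coeff_sub, ← map_sub]
    exact coeff_expand_mem (P := fun x => x ∈ A.nonunits) h0
      (fun i => by rw [HahnSeries.coeff_sub]; exact hcongr i) hjk m

/-- Part D in width `M`. -/
theorem kummerReductionG (M : ℕ) (G : Subgroup SL(2, ℤ)) (hG : Gamma M ≤ G) :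
    KummerReductionG M G := by
  intro ℓ hℓ hℓM
  refine ⟨1, one_pos, fun n _ hn A hA χ h v hq vq h1 h2 h3 h4 h5 h6 h7 h8 => ?_⟩
  rw [one_smul]
  exact char_eq_zero_of_congr dvd_rfl hG hℓ hℓM hn hA h1 h2 h3 h4 h5 h6 h7 h8

/-- Part D, sharp form on `Γ₀(N)`. -/
theorem kummerReduction_exact {N ℓ : ℕ} (hℓ : ℓ.Prime) (hℓN : ¬ ℓ ∣ N) {n : ℕ} [NeZero n]
    (hn : ¬ ℓ ∣ n) {A : ValuationSubring Q̄} (hA : A.LiesOverPrime ℓ) {χ : ParHom N (ZMod n)}
    {h v : ℍ → ℂ} {hq vq : LaurentSeries Q̄} (hh : IsKummerRep N n χ h)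
    (hhq : HasQSeries 1 h (seriesToC hq)) (hv : IsModFun (Gamma0 N) v)
    (hvq : HasQSeries 1 v (seriesToC vq)) (hint : SeriesIntegral A (hq ^ n))
    (hvint : SeriesIntegral A vq) (hvne : ∃ m, vq.coeff m ∉ A.nonunits)
    (hcongr : SeriesCongr A (hq ^ n) (vq ^ n)) : χ = 0 :=
  char_eq_zero_of_congr (one_dvd N) (Gamma_le_Gamma0 N) hℓ hℓN hn hA
    ⟨hh.holo, hh.ne_zero, hh.equivariant, hh.cusps⟩ hhq hv hvq hint hvint hvne hcongr

/-- Part D. -/
theorem kummerReduction (N : ℕ) : KummerReduction N := by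
  intro ℓ hℓ hℓN
  refine ⟨1, one_pos, fun n _ hn A hA χ h v hq vq h1 h2 h3 h4 h5 h6 h7 h8 => ?_⟩
  rw [one_smul]
  exact kummerReduction_exact hℓ hℓN hn hA h1 h2 h3 h4 h5 h6 h7 h8

end Fermat.Agent.GalRep.Model
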