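/-
Roots of series for exponents that need not be prime to the residue characteristic: polynomials
with divisible multiplicities, and units close to `n`-th powers.
-/
import Fermat.Agent.GalRep.Model.SeriesPow
import Fermat.Agent.GalRep.Model.SeriesLemmas
import Fermat.Agent.GalRep.Model.Local

set_option autoImplicit false

noncomputable section

namespace Fermat.Agent.GalRep.Model

open IsLocalRing
open scoped PowerSeries

section MonicRoot

variable {O : Type*} [CommRing O] [IsDomain O]

/-- A monic polynomial with all multiplicities divisible by `n` is an `n`-th power, for any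
`n ≠ 0` in characteristic zero. -/
theorem exists_monic_root_charZero [IsIntegrallyClosed O] {n : ℕ} (hn : n ≠ 0)
    (φ : O →+* ℂ) (hφ : Function.Injective φ) {P : Polynomial O} (hP : P.Monic)
    (hdiv : ∀ z : ℂ, n ∣ (P.map φ).rootMultiplicity z) : ∃ Q : Polynomial O, Q ^ n = P := by
  classical
  haveI : CharZero O := φ.charZero
  let K := FractionRing O
  haveI : CharZero K := charZero_of_injective_algebraMap (IsFractionRing.injective O K)
  let ψ : K →+* ℂ := IsFractionRing.lift hφ
  have hψ : ψ.comp (algebraMap O K) = φ := RingHom.ext fun a => IsFractionRing.lift_algebraMap hφ a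
  set Pc := P.map φ
  have hsp : Pc.Splits := IsAlgClosed.splits Pc
  have hPc : Pc.Monic := hP.map φ
  set Q : Polynomial ℂ := ∏ z ∈ Pc.roots.toFinset, (Polynomial.X - Polynomial.C z) ^
    (Pc.rootMultiplicity z / n) with hQ
  have hQm : Q.Monic :=
    Polynomial.monic_prod_of_monic _ _ fun z _ => (Polynomial.monic_X_sub_C z).pow _
  have hQn : Q ^ n = Pc := by
    conv_rhs => rw [hsp.eq_prod_roots_of_monic hPc, Finset.prod_multiset_map_count]
    rw [hQ, ← Finset.prod_pow]
    refine Finset.prod_congr rfl fun z _ => ?_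
    rw [← pow_mul, Nat.div_mul_cancel (hdiv z), Polynomial.count_roots]
  set PK := P.map (algebraMap O K)
  have hPK : PK.map ψ = Pc := by rw [Polynomial.map_map, hψ]
  -- the formal root of the reversed polynomial
  obtain ⟨v, hv, hv1⟩ := HenselianRing.is_henselian
    (I := Ideal.span {(PowerSeries.X : PowerSeries K)})
    (Polynomial.X ^ n - Polynomial.C (PK.reverse : PowerSeries K))
    (Polynomial.monic_X_pow_sub_C _ hn) 1
    (Ideal.mem_span_singleton.mpr (PowerSeries.X_dvd_iff.mpr (by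
      simp [Polynomial.constantCoeff_coe, Polynomial.coeff_zero_reverse,
        (hP.map (algebraMap O K)).leadingCoeff, PK])))
    (IsUnit.map _ (by
      rw [Polynomial.derivative_sub, Polynomial.derivative_C, sub_zero,
        Polynomial.derivative_X_pow, Polynomial.eval_mul, Polynomial.eval_C, Polynomial.eval_pow,
        Polynomial.eval_X, one_pow, mul_one]
      rw [← map_natCast (PowerSeries.C (R := K))]
      exact (IsUnit.mk0 (n : K) (Nat.cast_ne_zero.mpr hn)).map _))
  rw [Ideal.mem_span_singleton, PowerSeries.X_dvd_iff, map_sub, map_one, sub_eq_zero] at hv1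
  have hv' : v ^ n = (PK.reverse : PowerSeries K) := by simpa [sub_eq_zero] using hv
  have hrev : (Pc.reverse : PowerSeries ℂ) = PowerSeries.map ψ (PK.reverse : PowerSeries K) := by
    rw [← Polynomial.polynomial_map_coe, Polynomial.reverse, Polynomial.reverse,
      ← Polynomial.reflect_map, hPK, ← hPK,
      Polynomial.natDegree_map_eq_of_injective ψ.injective]
  have heq : (Q.reverse : PowerSeries ℂ) = PowerSeries.map ψ v := by
    refine eq_of_pow_eq_pow_series (Nat.cast_ne_zero.mpr hn) (coe_reverse_eq_of_monic hQm) ?_ ?_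
    · rw [← PowerSeries.coeff_zero_eq_constantCoeff, PowerSeries.coeff_map,
        PowerSeries.coeff_zero_eq_constantCoeff, hv1, map_one]
    · rw [← map_pow, hv', ← hrev, ← hQn, ← Polynomial.coe_pow]
      rw [reverse_pow]
  have hlift : Q ∈ Polynomial.lifts ψ := by
    rw [Polynomial.lifts_iff_coeff_lifts]
    intro i
    rcases le_or_gt i Q.natDegree with hi | hi
    · refine ⟨PowerSeries.coeff (Q.natDegree - i) v, ?_⟩
      rw [← PowerSeries.coeff_map, ← heq, Polynomial.coeff_coe, Polynomial.coeff_reverse,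
        Polynomial.revAt_le (Nat.sub_le _ _), Nat.sub_sub_self hi]
    · exact ⟨0, by rw [map_zero, Polynomial.coeff_eq_zero_of_natDegree_lt hi]⟩
  obtain ⟨QK, hQK⟩ := (Polynomial.mem_lifts Q).mp hlift
  have hQKm : QK.Monic := Polynomial.monic_of_injective ψ.injective (hQK.symm ▸ hQm)
  have hQKn : QK ^ n = PK := Polynomial.map_injective ψ ψ.injective
    (by rw [Polynomial.map_pow, hQK, hQn, hPK])
  obtain ⟨Q', hQ'⟩ := IsIntegrallyClosed.eq_map_mul_C_of_dvd K hP
    (show QK ∣ PK from hQKn ▸ dvd_pow_self QK hn)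
  rw [hQKm.leadingCoeff, map_one, mul_one] at hQ'
  exact ⟨Q', Polynomial.map_injective (algebraMap O K) (IsFractionRing.injective O K)
    (by rw [Polynomial.map_pow, hQ', hQKn])⟩

end MonicRoot

variable {O : Type*} [CommRing O] [IsDomain O] [IsDiscreteValuationRing O]
  [IsAdicComplete (maximalIdeal O) O] {π : O} (hπ : Irreducible π)
  {n e : ℕ} {u : Oˣ} (hne : (n : O) = π ^ e * (u : O))

omit [IsDomain O] [IsDiscreteValuationRing O] [IsAdicComplete (maximalIdeal O) O] in
include hne in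
theorem natCast_series : (n : O⟦X⟧) = PowerSeries.C π ^ e * PowerSeries.C (u : O) := by
  rw [← map_natCast (PowerSeries.C (R := O)), hne, map_mul, map_pow]

omit [IsDomain O] [IsDiscreteValuationRing O] [IsAdicComplete (maximalIdeal O) O] in
include hne in
/-- Congruences improve under `n`-th powers. -/
theorem sub_pow_dvd_of_dvd {a b : O⟦X⟧} {j : ℕ} (hj : e ≤ j)
    (h : PowerSeries.C π ^ j ∣ a - b) : PowerSeries.C π ^ (e + j) ∣ a ^ n - b ^ n := by
  obtain ⟨d, hd⟩ := h
  obtain ⟨w, hw⟩ := Polynomial.binomExpansion (Polynomial.X ^ n : Polynomial O⟦X⟧) b (a - b)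
  simp only [Polynomial.eval_pow, Polynomial.eval_X, Polynomial.derivative_X_pow,
    Polynomial.eval_mul, Polynomial.eval_C, add_sub_cancel] at hw
  rw [hw, add_assoc, add_sub_cancel_left, natCast_series hne, hd, mul_pow, ← pow_mul]
  refine dvd_add ⟨PowerSeries.C (u : O) * b ^ (n - 1) * d, by rw [pow_add]; ring⟩ ?_
  exact Dvd.dvd.mul_left (Dvd.dvd.mul_right (pow_dvd_pow _ (by omega)) _) _

include hπ hne in
/-- A unit congruent to an `n`-th power to high precision is an `n`-th power. -/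
theorem exists_pow_eq_of_near {k : ℕ} (hk : 2 * e + 1 ≤ k) {h w : O⟦X⟧} (hh : IsUnit h)
    (hw : PowerSeries.C π ^ k ∣ h - w ^ n) :
    ∃ y : O⟦X⟧, y ^ n = h ∧ PowerSeries.C π ^ (k - e) ∣ y - w := by
  classical
  have hm := hπ.maximalIdeal_eq
  have hn0 : n ≠ 0 := fun h0 => by
    rw [h0, Nat.cast_zero] at hne
    exact mul_ne_zero (pow_ne_zero e hπ.ne_zero) u.ne_zero hne.symm
  have hCπ : ¬ IsUnit (PowerSeries.C π : O⟦X⟧) := fun h0 => hπ.not_isUnit (by
    simpa using PowerSeries.isUnit_constantCoeff _ h0)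
  have hunit : ∀ {a b : O⟦X⟧}, IsUnit a → PowerSeries.C π ∣ a - b → IsUnit b := fun {a b} ha hab => by
    have hr : red b = red a := by
      rw [eq_comm, ← sub_eq_zero, ← map_sub, red_eq_zero_iff hm]; exact hab
    refine PowerSeries.isUnit_iff_constantCoeff.mpr ?_
    rw [← residue_ne_zero_iff_isUnit, ← PowerSeries.coeff_zero_eq_constantCoeff_apply,
      ← PowerSeries.coeff_map, show (PowerSeries.map (residue O)) b = red b from rfl, hr,
      PowerSeries.coeff_map, PowerSeries.coeff_zero_eq_constantCoeff_apply,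
      residue_ne_zero_iff_isUnit]
    exact PowerSeries.isUnit_constantCoeff _ ha
  have hwu : IsUnit w := (isUnit_pow_iff hn0).mp
    (hunit hh ((dvd_pow_self _ (by omega)).trans hw))
  obtain ⟨s, rfl⟩ : ∃ s, k = e + s := ⟨k - e, by omega⟩
  -- successive approximations
  have step : ∀ (t : ℕ) (y : O⟦X⟧),
      IsUnit y ∧ PowerSeries.C π ^ (e + s + t) ∣ h - y ^ n →
      ∃ y', (IsUnit y' ∧ PowerSeries.C π ^ (e + s + (t + 1)) ∣ h - y' ^ n) ∧
        PowerSeries.C π ^ (s + t) ∣ y' - y := by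
    rintro t y ⟨hy, r, hr⟩
    set a : O⟦X⟧ := PowerSeries.C (u : O) * y ^ (n - 1) with ha
    have hau : IsUnit a := (u.isUnit.map _).mul (hy.pow _)
    set d := r * ((hau.unit⁻¹ : (O⟦X⟧)ˣ) : O⟦X⟧) with hd
    have had : a * d = r := by
      rw [hd, mul_left_comm, IsUnit.mul_val_inv hau, mul_one]
    obtain ⟨w', hw'⟩ := Polynomial.binomExpansion (Polynomial.X ^ n : Polynomial O⟦X⟧) y
      (PowerSeries.C π ^ (s + t) * d)
    simp only [Polynomial.eval_pow, Polynomial.eval_X, Polynomial.derivative_X_pow,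
      Polynomial.eval_mul, Polynomial.eval_C, natCast_series hne] at hw'
    refine ⟨y + PowerSeries.C π ^ (s + t) * d, ⟨hunit hy ?_, ?_⟩, (by rw [add_sub_cancel_left]; exact dvd_mul_right _ _)⟩
    · rw [sub_add_cancel_left, dvd_neg]
      exact Dvd.dvd.mul_right (dvd_pow_self _ (by omega)) _
    · have h2 : h - (y + PowerSeries.C π ^ (s + t) * d) ^ n =
          -(w' * d ^ 2) * PowerSeries.C π ^ (2 * (s + t)) := by
        rw [hw']
        linear_combination hr - (PowerSeries.C π ^ (e + s + t)) * had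
      rw [h2]
      exact Dvd.dvd.mul_left (pow_dvd_pow _ (by omega)) _
  choose! next hnext using step
  let seq : ℕ → O⟦X⟧ := fun t => Nat.rec w (fun t y => next t y) t
  have hseq : ∀ t, IsUnit (seq t) ∧ PowerSeries.C π ^ (e + s + t) ∣ h - seq t ^ n := by
    intro t
    induction t with
    | zero => exact ⟨hwu, hw⟩
    | succ t ih => exact (hnext t (seq t) ih).1
  obtain ⟨y, hy⟩ := exists_series_limit hm seq fun t =>
    dvd_trans (pow_dvd_pow _ (Nat.le_add_left t s)) (hnext t (seq t) (hseq t)).2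
  refine ⟨y, (sub_eq_zero.mp (eq_zero_of_forall_C_pow_dvd hm fun N => ?_)).symm, ?_⟩
  swap
  · have h1 : ∀ t, PowerSeries.C π ^ s ∣ seq t - w := by
      intro t
      induction t with
      | zero => show _ ∣ w - w; simp
      | succ t ih =>
        have := dvd_add (dvd_trans (pow_dvd_pow _ (Nat.le_add_right s t))
          (hnext t (seq t) (hseq t)).2) ih
        rwa [sub_add_sub_cancel] at this
    rw [Nat.add_sub_cancel_left, ← sub_add_sub_cancel y (seq s) w]
    exact dvd_add (hy s) (h1 s)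
  rw [show h - y ^ n = (h - seq N ^ n) - (y ^ n - seq N ^ n) by ring]
  exact dvd_sub (dvd_trans (pow_dvd_pow _ (by omega)) (hseq N).2)
    (dvd_trans (hy N) (sub_dvd_pow_sub_pow _ _ _))

include hπ hne in
/-- If `h qⁿ ≡ vⁿ` to high precision, `h` is congruent to an `n`-th power. -/
theorem exists_near_of_mul [CharZero O] {k d : ℕ} (hk : 2 * e + 1 ≤ k) {h q v : O⟦X⟧} (hh : IsUnit h)
    {u₀ : (ResidueField O)⟦X⟧} (hu₀ : IsUnit u₀) (hq : red q = PowerSeries.X ^ d * u₀)
    (hv : PowerSeries.C π ^ k ∣ h * q ^ n - v ^ n) :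
    ∃ w : O⟦X⟧, PowerSeries.C π ^ k ∣ h - w ^ n ∧ PowerSeries.C π ^ (k - e) ∣ v - q * w := by
  classical
  have hm := hπ.maximalIdeal_eq
  have hn0 : n ≠ 0 := fun h0 => by
    rw [h0, Nat.cast_zero] at hne
    exact mul_ne_zero (pow_ne_zero e hπ.ne_zero) u.ne_zero hne.symm
  set P : O⟦X⟧ := PowerSeries.C π
  have hPp : Prime P := C_pi_prime hπ
  have hredP : red P = 0 := (red_eq_zero_iff hm P).mpr dvd_rfl
  have hq0 : red q ≠ 0 := hq ▸ mul_ne_zero (pow_ne_zero _ PowerSeries.X_ne_zero) hu₀.ne_zero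
  have hqd : ∀ {a b : ℕ} {f : O⟦X⟧}, P ^ a ∣ q ^ b * f → P ^ a ∣ f := fun {a b f} hf =>
    hPp.pow_dvd_of_dvd_mul_left a (fun h0 => hq0 ((red_eq_zero_iff hm q).mpr
      (hPp.dvd_of_dvd_pow h0))) hf
  obtain ⟨w, rp, hdiv⟩ := PowerSeries.exists_isWeierstrassDivision (f := v) (g := q) hq0
  have hord : (red q).order.toNat = d := by
    rw [hq, mul_comm, PowerSeries.order_mul, PowerSeries.order_X_pow,
      PowerSeries.order_zero_of_unit hu₀]
    simp
  have hdeg : rp.degree < d := lt_of_lt_of_le hdiv.degree_lt (le_of_eq (by rw [← hord]; rfl))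
  set r : O⟦X⟧ := (rp : O⟦X⟧) with hr
  have hv' : v = q * w + r := hdiv.eq_mul_add
  have hlow : ∀ f : O⟦X⟧, (∀ i, d ≤ i → PowerSeries.coeff i f = 0) → red f ≠ 0 →
      ∃ s, s < d ∧ ∃ g : (ResidueField O)⟦X⟧, red f = PowerSeries.X ^ s * g ∧
        ¬ PowerSeries.X ∣ g := by
    intro f hf hf0
    obtain ⟨i, hi⟩ : ∃ i, PowerSeries.coeff i (red f) ≠ 0 := by
      by_contra hcon
      push Not at hcon
      exact hf0 (PowerSeries.ext fun i => by rw [hcon i, map_zero])
    obtain ⟨g, hg⟩ := PowerSeries.X_pow_order_dvd (φ := red f)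
    refine ⟨(red f).order.toNat, ?_, g, hg, fun hX => ?_⟩
    · refine lt_of_le_of_lt (b := i) ?_ (not_le.mp fun hdi => hi (by
        rw [PowerSeries.coeff_map, hf i hdi, map_zero]))
      exact ENat.toNat_le_of_le_coe (PowerSeries.order_le i hi)
    · obtain ⟨g', rfl⟩ := hX
      have h1 : ((red f).order.toNat + 1 : ℕ) ≤ (red f).order := by
        refine PowerSeries.nat_le_order _ _ fun j hj => ?_
        have := PowerSeries.X_pow_dvd_iff.mp
          (show PowerSeries.X ^ ((red f).order.toNat + 1) ∣ red f from ⟨g', by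
            conv_lhs => rw [hg]
            rw [pow_succ, mul_assoc]⟩) j hj
        exact this
      obtain ⟨o, ho⟩ := WithTop.ne_top_iff_exists.mp
        (show (red f).order ≠ ⊤ from fun htop => hf0 (PowerSeries.order_eq_top.mp htop))
      rw [← ho] at h1
      exact absurd (ENat.natCast_le_natCast.mp h1) (Nat.not_succ_le_self o)
  -- the quotient is a unit and the remainder vanishes on the special fibre
  have hbar : PowerSeries.X ^ (d * n) * (red h * u₀ ^ n) = red v ^ n := by
    have h1 : red (h * q ^ n - v ^ n) = 0 :=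
      (red_eq_zero_iff hm _).mpr (dvd_trans (dvd_pow_self P (by omega)) hv)
    rw [map_sub, map_mul, map_pow, map_pow, sub_eq_zero, hq, mul_pow, ← pow_mul] at h1
    rw [← h1]
    ring
  have hXd : PowerSeries.X ^ d ∣ red v := by
    refine (IsIntegrallyClosed.pow_dvd_pow_iff hn0).mp ⟨red h * u₀ ^ n, ?_⟩
    rw [← pow_mul, hbar]
  have hr0 : red r = 0 := by
    have h1 : PowerSeries.X ^ d ∣ red r := by
      have h2 := dvd_sub hXd (show PowerSeries.X ^ d ∣ red (q * w) from ⟨u₀ * red w, by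
        rw [map_mul, hq, mul_assoc]⟩)
      rwa [hv', map_add, add_sub_cancel_left] at h2
    ext i
    rw [map_zero]
    rcases lt_or_ge i d with hi | hi
    · exact PowerSeries.X_pow_dvd_iff.mp h1 i hi
    · rw [PowerSeries.coeff_map, hr, Polynomial.coeff_coe,
        Polynomial.coeff_eq_zero_of_degree_lt (lt_of_lt_of_le hdeg (WithBot.coe_le_coe.mpr hi)),
        map_zero]
  have hwu : IsUnit (red w) := by
    have h1 : red v = PowerSeries.X ^ d * (u₀ * red w) := by
      rw [hv', map_add, hr0, add_zero, map_mul, hq, mul_assoc]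
    rw [h1, mul_pow, ← pow_mul] at hbar
    have h2 := mul_left_cancel₀ (pow_ne_zero _ PowerSeries.X_ne_zero) hbar
    have h3 : IsUnit ((u₀ * red w) ^ n) := h2 ▸ (hh.map red).mul (hu₀.pow n)
    exact isUnit_of_mul_isUnit_right ((isUnit_pow_iff hn0).mp h3)
  -- the remainder is small
  suffices hsmall : P ^ (k - e) ∣ r by
    refine ⟨w, hqd (b := n) ?_, by rwa [hv', add_sub_cancel_left]⟩
    have h1 := sub_pow_dvd_of_dvd hne (a := v) (b := q * w) (j := k - e) (by omega)
      (by rwa [hv', add_sub_cancel_left])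
    rw [show e + (k - e) = k by omega] at h1
    rw [show q ^ n * (h - w ^ n) = (h * q ^ n - v ^ n) + (v ^ n - (q * w) ^ n) by ring]
    exact dvd_add hv h1
  by_contra hsmall
  obtain ⟨j, hj, hj'⟩ : ∃ j, P ^ j ∣ r ∧ ¬ P ^ (j + 1) ∣ r := by
    by_contra hcon
    push Not at hcon
    exact hsmall (Nat.rec (by simp) (fun j ih => hcon j ih) (k - e))
  have hjk : j < k - e := not_le.mp fun hle => hsmall (dvd_trans (pow_dvd_pow P hle) hj)
  have hj1 : 1 ≤ j := by
    rcases Nat.eq_zero_or_pos j with rfl | h0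
    · exact absurd ((pow_one P).symm ▸ (red_eq_zero_iff hm r).mp hr0) hj'
    · exact h0
  obtain ⟨r', hr'⟩ := id hj
  have hπj : π ^ j ≠ 0 := pow_ne_zero j hπ.ne_zero
  have hr'c : ∀ i, d ≤ i → PowerSeries.coeff i r' = 0 := fun i hi => by
    have h1 := congrArg (PowerSeries.coeff i) hr'
    rw [hr, Polynomial.coeff_coe,
      Polynomial.coeff_eq_zero_of_degree_lt (lt_of_lt_of_le hdeg (WithBot.coe_le_coe.mpr hi)),
      ← map_pow, PowerSeries.coeff_C_mul] at h1
    exact (mul_eq_zero.mp h1.symm).resolve_left hπj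
  have hr'0 : red r' ≠ 0 := fun h0 => hj' (by
    obtain ⟨r'', hr''⟩ := (red_eq_zero_iff hm r').mp h0
    exact ⟨r'', by rw [hr', hr'', pow_succ, mul_assoc]⟩)
  obtain ⟨s, hsd, g, hg, hgX⟩ := hlow r' hr'c hr'0
  -- the least valuation of the binomial coefficients
  let a : ℕ → O := fun i => (n.choose i : O) * π ^ (i * j)
  have hane : ∀ i, i ≤ n → a i ≠ 0 := fun i hi =>
    mul_ne_zero (Nat.cast_ne_zero.mpr (Nat.choose_pos hi).ne') (pow_ne_zero _ hπ.ne_zero)
  have hfac : ∀ i, i ≤ n → ∃ (v : ℕ) (b : Oˣ), a i = π ^ v * (b : O) := fun i hi => by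
    obtain ⟨v, b, hb⟩ := IsDiscreteValuationRing.eq_unit_mul_pow_irreducible (hane i hi) hπ
    exact ⟨v, b, by rw [hb, mul_comm]⟩
  choose! ev bu hev using hfac
  obtain ⟨i₀, hi₀, hmin⟩ := Finset.exists_min_image (Finset.Icc 1 n) ev
    ⟨1, Finset.mem_Icc.mpr ⟨le_rfl, Nat.pos_of_ne_zero hn0⟩⟩
  set m := ev i₀
  have hmk : m < k := by
    refine lt_of_le_of_lt (hmin 1 (Finset.mem_Icc.mpr ⟨le_rfl, Nat.pos_of_ne_zero hn0⟩)) ?_
    by_contra hcon
    push Not at hcon
    have h1 : π ^ k ∣ a 1 := by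
      rw [hev 1 (Nat.pos_of_ne_zero hn0)]
      exact Dvd.dvd.mul_right (pow_dvd_pow π hcon) _
    simp only [a, Nat.choose_one_right, one_mul, hne] at h1
    rw [mul_right_comm, ← pow_add, IsUnit.dvd_mul_right u.isUnit,
      pow_dvd_pow_iff hπ.ne_zero hπ.not_isUnit] at h1
    omega
  let b : ℕ → O := fun i => π ^ (ev i - m) * (bu i : O)
  have hab : ∀ i ∈ Finset.Icc 1 n, a i = π ^ m * b i := fun i hi => by
    rw [hev i (Finset.mem_Icc.mp hi).2]
    show _ = π ^ m * (π ^ (ev i - m) * _)
    rw [← mul_assoc, ← pow_add, Nat.add_sub_cancel' (hmin i hi)]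
  set S := ∑ i ∈ Finset.Icc 1 n, PowerSeries.C (b i) * (r' ^ i * (q * w) ^ (n - i)) with hS
  have hexp : v ^ n = (q * w) ^ n + P ^ m * S := by
    rw [hv', hr', add_comm (q * w), add_pow, hS, Finset.mul_sum,
      ← Finset.sum_erase_add _ _ (Finset.mem_range.mpr (Nat.succ_pos n))]
    rw [show (Finset.range (n + 1)).erase 0 = Finset.Icc 1 n by
      ext i; simp only [Finset.mem_erase, Finset.mem_range, Finset.mem_Icc]; omega]
    rw [add_comm]
    refine congrArg₂ (· + ·) (by simp) (Finset.sum_congr rfl fun i hi => ?_)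
    have h1 := congrArg (PowerSeries.C (R := O)) (hab i hi)
    simp only [a, map_mul, map_pow, map_natCast, pow_mul'] at h1
    linear_combination (r' ^ i * (q * w) ^ (n - i)) * h1
  have hkey : P ^ k ∣ q ^ n * (h - w ^ n) - P ^ m * S := by
    rw [show q ^ n * (h - w ^ n) - P ^ m * S = h * q ^ n - v ^ n by rw [hexp]; ring]
    exact hv
  have hc : P ^ m ∣ h - w ^ n := hqd (b := n) (by
    have := dvd_add (dvd_trans (pow_dvd_pow P hmk.le) hkey) (dvd_mul_right (P ^ m) S)
    rwa [sub_add_cancel] at this)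
  obtain ⟨c, hc⟩ := hc
  have hmain : red (q ^ n * c - S) = 0 := by
    rw [red_eq_zero_iff hm]
    have h1 := dvd_trans (pow_dvd_pow P (show m + 1 ≤ k by omega)) hkey
    rw [hc, pow_succ, show q ^ n * (P ^ m * c) - P ^ m * S = P ^ m * (q ^ n * c - S) by ring] at h1
    exact (mul_dvd_mul_iff_left (pow_ne_zero m hPp.ne_zero)).mp h1
  -- the last unit coefficient dominates
  set good := (Finset.Icc 1 n).filter fun i => residue O (b i) ≠ 0 with hgood
  have hgne : good.Nonempty := ⟨i₀, Finset.mem_filter.mpr ⟨hi₀, by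
    show residue O (π ^ (ev i₀ - m) * _) ≠ 0
    rw [Nat.sub_self, pow_zero, one_mul, residue_ne_zero_iff_isUnit]
    exact (bu i₀).isUnit⟩⟩
  set I := good.max' hgne
  obtain ⟨hIn, hIb⟩ := Finset.mem_filter.mp (good.max'_mem hgne)
  set E := d * (n - I) + s * I
  have hterm : ∀ i, red (PowerSeries.C (b i) * (r' ^ i * (q * w) ^ (n - i))) =
      PowerSeries.X ^ (d * (n - i) + s * i) *
        (PowerSeries.C (residue O (b i)) * (g ^ i * (u₀ * red w) ^ (n - i))) := fun i => by
    rw [map_mul red _ (r' ^ i * _), map_mul red (r' ^ i), map_pow, map_pow, map_mul red q w,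
      PowerSeries.map_C, hg, hq]
    ring
  have hrest : PowerSeries.X ^ (E + 1) ∣
      red (PowerSeries.C (b I) * (r' ^ I * (q * w) ^ (n - I))) := by
    have h1 : red (PowerSeries.C (b I) * (r' ^ I * (q * w) ^ (n - I))) = red (q ^ n * c) -
        ∑ i ∈ (Finset.Icc 1 n).erase I,
          red (PowerSeries.C (b i) * (r' ^ i * (q * w) ^ (n - i))) := by
      rw [map_sub, sub_eq_zero] at hmain
      rw [hmain, hS, map_sum, ← Finset.sum_erase_add _ _ hIn, add_sub_cancel_left]
    rw [h1]
    have hlt : ∀ i, i < I → E + 1 ≤ d * (n - i) + s * i := fun i hi => by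
      obtain ⟨t, ht⟩ : ∃ t, I = i + (t + 1) := ⟨I - i - 1, by omega⟩
      obtain ⟨t', ht'⟩ : ∃ t', n = i + (t + 1) + t' :=
        ⟨n - (i + (t + 1)), by have := (Finset.mem_Icc.mp hIn).2; omega⟩
      simp only [E, ht, ht', show i + (t + 1) + t' - i = t + 1 + t' by omega, Nat.add_sub_cancel_left]
      have h2 : (t + 1) * (s + 1) ≤ (t + 1) * d := Nat.mul_le_mul_left _ hsd
      nlinarith [h2]
    refine dvd_sub ?_ (Finset.dvd_sum fun i hi => ?_)
    · rw [map_mul, map_pow, hq, mul_pow, ← pow_mul]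
      refine Dvd.dvd.mul_right (Dvd.dvd.mul_right (pow_dvd_pow _ ?_) _) _
      simpa using hlt 0 (Finset.mem_Icc.mp hIn).1
    · obtain ⟨hiI, hiIcc⟩ := Finset.mem_erase.mp hi
      rw [hterm]
      rcases lt_or_gt_of_ne hiI with hlt' | hgt
      · exact Dvd.dvd.mul_right (pow_dvd_pow _ (hlt i hlt')) _
      · have h0 : residue O (b i) = 0 := by
          by_contra hne'
          exact absurd (good.le_max' i (Finset.mem_filter.mpr ⟨hiIcc, hne'⟩)) (not_le.mpr hgt)
        rw [h0, map_zero, zero_mul, mul_zero]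
        exact dvd_zero _
  rw [hterm, pow_succ, mul_dvd_mul_iff_left (pow_ne_zero _ PowerSeries.X_ne_zero)] at hrest
  rcases (PowerSeries.X_prime (R := ResidueField O)).dvd_mul.mp hrest with h1 | h1
  · exact (PowerSeries.X_prime (R := ResidueField O)).not_isUnit
      (isUnit_of_dvd_unit h1 ((IsUnit.mk0 _ hIb).map _))
  · rcases (PowerSeries.X_prime (R := ResidueField O)).dvd_mul.mp h1 with h2 | h2
    · exact hgX ((PowerSeries.X_prime (R := ResidueField O)).dvd_of_dvd_pow h2)
    · exact (PowerSeries.X_prime (R := ResidueField O)).not_isUnit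
        (isUnit_of_dvd_unit h2 ((hu₀.mul hwu).pow _))

end Fermat.Agent.GalRep.Model
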