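/-
Lifting of roots for an exponent that need not be prime to the residue characteristic: an element
congruent to an `n`-th power to precision beyond twice that of `n` is an `n`-th power when the
orders of its zeros and poles allow it.
-/
import Fermat.Agent.GalRep.Model.WildSeries
import Fermat.Agent.GalRep.Model.NthRoot

set_option autoImplicit false

noncomputable section

namespace Fermat.Agent.GalRep.Model

open UpperHalfPlane CongruenceSubgroup IsLocalRing
open scoped MatrixGroups PowerSeries Manifold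

variable {O : Type*} [CommRing O] [IsDomain O] [IsDiscreteValuationRing O]
  [IsAdicComplete (maximalIdeal O) O]
  {π : O} (hπ : Irreducible π) {n e : ℕ} {u : Oˣ} (hne : (n : O) = π ^ e * (u : O))

local notation "al" => algebraMap (PowerSeries O) (SeriesField O)

/-! ## Congruences on sheets -/

omit [IsAdicComplete (maximalIdeal O) O] in
theorem map_pow_pi_mul {F : Type*} [Field F] [Algebra O F] {w : F} {c : O} (S : Sheets w c)
    (j : Fin S.r) (k : ℕ) (r : chartRing O w) :
    S.ser j (algebraMap O (chartRing O w) π ^ k * r) = PowerSeries.C π ^ k * S.ser j r := by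
  rw [map_mul, map_pow, Sheets.ser_algebraMap]

include hπ in
theorem TwoChart.pi_pow_dvd_of_ser [IsAlgClosed (ResidueField O)] {F : Type*} [Field F]
    [Algebra O F] {w : F} (T : TwoChart O w) (c : O) (j : Fin (T.chart0.sheets c).r) :
    ∀ (k : ℕ) (f : chartRing O w), PowerSeries.C π ^ k ∣ (T.chart0.sheets c).ser j f →
      algebraMap O (chartRing O w) π ^ k ∣ f
  | 0, f, _ => by rw [pow_zero]; exact one_dvd f
  | k + 1, f, h => by
    obtain ⟨g, rfl⟩ := T.pi_dvd_of_red_ser_eq_zero hπ c j f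
      ((red_eq_zero_iff hπ.maximalIdeal_eq _).mpr (dvd_trans (dvd_pow_self _ k.succ_ne_zero) h))
    rw [map_mul, Sheets.ser_algebraMap, pow_succ',
      mul_dvd_mul_iff_left (C_pi_prime hπ).ne_zero] at h
    rw [pow_succ']
    exact mul_dvd_mul_left _ (T.pi_pow_dvd_of_ser c j k g h)

include hπ hne in
/-- An exact root congruent to a given series, from a factorisation and a congruence. -/
theorem exists_series_root_wild [CharZero O] (φ : O →+* ℂ) (hφ : Function.Injective φ)
    {k : ℕ} (hk : 2 * e + 1 ≤ k) (xi : SeriesField O) {P : Polynomial O} {h : O⟦X⟧} {K' : ℕ}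
    (hh : IsUnit h) (hP : P.Monic)
    (hfac : xi * al (PowerSeries.X ^ (n * K')) = al ((P : O⟦X⟧) * h))
    (hdiv : ∀ z, n ∣ (P.map φ).rootMultiplicity z)
    (D g v : O⟦X⟧) (hD : red D ≠ 0) (hg : xi * al (D ^ n) = al g)
    (hv : PowerSeries.C π ^ k ∣ g - v ^ n) :
    ∃ G : O⟦X⟧, G ^ n = g ∧ PowerSeries.C π ^ (k - e) ∣ G - v := by
  classical
  have hm := hπ.maximalIdeal_eq
  have hinj := IsFractionRing.injective O⟦X⟧ (SeriesField O)
  have hn0 : n ≠ 0 := fun h0 => by
    rw [h0, Nat.cast_zero] at hne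
    exact mul_ne_zero (pow_ne_zero e hπ.ne_zero) u.ne_zero hne.symm
  obtain ⟨Q, hQ⟩ := exists_monic_root_charZero hn0 φ hφ hP hdiv
  set q : O⟦X⟧ := (Q : O⟦X⟧) * D with hqdef
  have hgq : g * PowerSeries.X ^ (n * K') = h * q ^ n := by
    apply hinj
    rw [map_mul, ← hg, hqdef, mul_pow, ← Polynomial.coe_pow, hQ, mul_right_comm, hfac, ← map_mul]
    congr 1
    ring
  have hq0 : red q ≠ 0 := by
    rw [hqdef, map_mul]
    refine mul_ne_zero (fun h0 => ?_) hD
    have h1 := congrArg (fun p : O⟦X⟧ => red p) (congrArg (Polynomial.toPowerSeries) hQ)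
    simp only [Polynomial.coe_pow, map_pow, h0, zero_pow hn0] at h1
    rw [red_coe, eq_comm, Polynomial.coe_eq_zero_iff] at h1
    exact (hP.map (residue O)).ne_zero h1
  obtain ⟨u₀, hu₀, hq⟩ : ∃ u₀, IsUnit u₀ ∧
      red q = PowerSeries.X ^ (red q).order.toNat * u₀ :=
    ⟨_, PowerSeries.isUnit_divided_by_X_pow_order hq0,
      (PowerSeries.X_pow_order_mul_divXPowOrder).symm⟩
  set vv := v * PowerSeries.X ^ K' with hvv
  have hv' : PowerSeries.C π ^ k ∣ h * q ^ n - vv ^ n := by
    rw [← hgq, hvv, mul_pow, ← pow_mul, mul_comm K' n, ← sub_mul]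
    exact Dvd.dvd.mul_right hv _
  obtain ⟨w, hw, hwv⟩ := exists_near_of_mul hπ hne hk hh hu₀ hq hv'
  obtain ⟨y, hy, hyw⟩ := exists_pow_eq_of_near hπ hne hk hh hw
  have hint : IsIntegral O⟦X⟧ (al (q * y) / al (PowerSeries.X ^ K')) := by
    refine ⟨Polynomial.X ^ n - Polynomial.C g, Polynomial.monic_X_pow_sub_C g hn0, ?_⟩
    have hXne : al (PowerSeries.X ^ K') ≠ 0 := by
      rw [Ne, map_eq_zero_iff _ hinj]; exact pow_ne_zero _ PowerSeries.X_ne_zero
    rw [Polynomial.eval₂_sub, Polynomial.eval₂_X_pow, Polynomial.eval₂_C, sub_eq_zero, div_pow,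
      div_eq_iff (pow_ne_zero n hXne), ← map_pow, ← map_pow, ← map_mul, mul_pow, hy, ← pow_mul,
      mul_comm K' n, hgq, mul_comm]
  obtain ⟨G, hG⟩ := IsIntegrallyClosed.isIntegral_iff.mp hint
  have hGq : G * PowerSeries.X ^ K' = q * y := by
    apply hinj
    rw [map_mul, hG, div_mul_cancel₀]
    rw [Ne, map_eq_zero_iff _ hinj]
    exact pow_ne_zero _ PowerSeries.X_ne_zero
  refine ⟨G, mul_right_cancel₀ (pow_ne_zero (n * K') (PowerSeries.X_ne_zero (R := O))) ?_, ?_⟩
  · rw [hgq, mul_comm n K', pow_mul, ← mul_pow, hGq, mul_pow, hy, mul_comm]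
  · have h1 : PowerSeries.C π ^ (k - e) ∣ PowerSeries.X ^ K' * (G - v) := by
      rw [show PowerSeries.X ^ K' * (G - v) = q * (y - w) - (vv - q * w) by
        rw [hvv]; linear_combination hGq]
      exact dvd_sub (hyw.mul_left q) hwv
    refine (C_pi_prime hπ).pow_dvd_of_dvd_mul_left _ (fun h0 => ?_) h1
    have := (red_eq_zero_iff hm _).mpr h0
    rw [map_pow, PowerSeries.map_X] at this
    exact pow_ne_zero _ PowerSeries.X_ne_zero this

include hπ hne in
/-- The Newton step on a sheet. -/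
theorem red_dvd_of_pow_eq_wild {x G r : O⟦X⟧} {j : ℕ} (hj : e + 1 ≤ j)
    (hGx : PowerSeries.C π ^ (e + 1) ∣ x - G) (h : x ^ n - G ^ n = PowerSeries.C π ^ (e + j) * r)
    (hx : red x ≠ 0) :
    red (PowerSeries.C (u : O) * x ^ (n - 1)) ∣ red r := by
  classical
  have hm := hπ.maximalIdeal_eq
  obtain ⟨d, hd⟩ := hGx
  obtain ⟨w, hw⟩ := Polynomial.binomExpansion (Polynomial.X ^ n : Polynomial O⟦X⟧) x (G - x)
  simp only [Polynomial.eval_pow, Polynomial.eval_X, Polynomial.derivative_X_pow,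
    Polynomial.eval_mul, Polynomial.eval_C, add_sub_cancel, natCast_series hne] at hw
  set S := PowerSeries.C (u : O) * x ^ (n - 1) - w * PowerSeries.C π * d with hS
  have hSig : x ^ n - G ^ n = (x - G) * (PowerSeries.C π ^ e * S) := by
    rw [hw, hS]
    linear_combination (w * (x - G)) * hd * (-1)
  have hSred : red S = red (PowerSeries.C (u : O) * x ^ (n - 1)) := by
    rw [hS, map_sub, map_mul red (w * _), map_mul red w, (red_eq_zero_iff hm _).mpr dvd_rfl,
      mul_zero, zero_mul, sub_zero]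
  have hS0 : red S ≠ 0 := by
    rw [hSred, map_mul, map_pow, PowerSeries.map_C]
    exact mul_ne_zero (fun h0 => (residue_ne_zero_iff_isUnit (u : O)).mpr u.isUnit
      ((map_eq_zero_iff _ PowerSeries.C_injective).mp h0)) (pow_ne_zero _ hx)
  rw [hSig, pow_add, mul_left_comm, mul_assoc] at h
  have h1 := mul_left_cancel₀ (pow_ne_zero e (C_pi_prime hπ).ne_zero) h
  obtain ⟨d', hd'⟩ := (C_pi_prime hπ).pow_dvd_of_dvd_mul_right j
    (fun h0 => hS0 ((red_eq_zero_iff hm S).mpr h0)) (a := x - G)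
    (by rw [h1]; exact dvd_mul_right _ _)
  rw [hd', mul_assoc] at h1
  rw [← mul_left_cancel₀ (pow_ne_zero j (C_pi_prime hπ).ne_zero) h1, map_mul red d' S, hSred]
  exact dvd_mul_left _ _

/-! ## Global roots -/

omit [IsAdicComplete (maximalIdeal O) O] in
theorem eval_pole_bound {F : Type*} [Field F] [Algebra O F] {w : F} {B : ℕ}
    {d : chartRing O w} (hd : w⁻¹ ^ B * (d : F) ∈ chartRing O w⁻¹) (m : ℕ)
    (p : Polynomial (chartRing O w)) (hdeg : p.natDegree ≤ m)
    (hp : ∀ i ≤ m, w⁻¹ ^ ((m - i) * B) * ((p.coeff i : chartRing O w) : F) ∈ chartRing O w⁻¹) :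
    w⁻¹ ^ (m * B) * ((p.eval d : chartRing O w) : F) ∈ chartRing O w⁻¹ := by
  rw [Polynomial.eval_eq_sum_range' (Nat.lt_succ_of_le hdeg), AddSubmonoidClass.coe_finsetSum,
    Finset.mul_sum]
  refine sum_mem fun i hi => ?_
  have him : i ≤ m := Nat.lt_succ_iff.mp (Finset.mem_range.mp hi)
  have h1 : w⁻¹ ^ (m * B) = w⁻¹ ^ ((m - i) * B) * (w⁻¹ ^ B) ^ i := by
    rw [← pow_mul, ← pow_add, mul_comm B i, ← add_mul, Nat.sub_add_cancel him]
  rw [MulMemClass.coe_mul, SubmonoidClass.coe_pow, h1, mul_mul_mul_comm, ← mul_pow]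
  exact mul_mem (hp i him) (pow_mem hd i)

include hπ hne in
/-- Lifting of roots, wild exponent. -/
theorem TwoChart.exists_root_wild [IsAlgClosed (ResidueField O)] {F : Type*} [Field F]
    [Algebra O F] {w : F} (T : TwoChart O w) (a v : chartRing O w)
    (hv : ¬ algebraMap O (chartRing O w) π ∣ v)
    (hav : algebraMap O (chartRing O w) π ^ (2 * e + 2) ∣ a - v ^ n)
    (h0 : ∀ c j, ∃ G : O⟦X⟧, G ^ n = (T.chart0.sheets c).ser j a ∧
      PowerSeries.C π ^ (e + 1) ∣ G - (T.chart0.sheets c).ser j v)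
    (h1 : ∀ c j (B : ℕ) (a1 v1 : chartRing O w⁻¹), (a1 : F) = w⁻¹ ^ (n * B) * a →
      (v1 : F) = w⁻¹ ^ B * v → algebraMap O (chartRing O w⁻¹) π ^ (2 * e + 2) ∣ a1 - v1 ^ n →
      ∃ G : O⟦X⟧, G ^ n = (T.chart1.sheets c).ser j a1 ∧
        PowerSeries.C π ^ (e + 1) ∣ G - (T.chart1.sheets c).ser j v1) :
    ∃ f : chartRing O w, f ^ n = a ∧ algebraMap O (chartRing O w) π ^ (e + 1) ∣ f - v := by
  classical
  have hm := hπ.maximalIdeal_eq
  let R := chartRing O w
  set pi : R := algebraMap O R π with hpi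
  have hn0 : 0 < n := Nat.pos_of_ne_zero fun h0' => by
    rw [h0', Nat.cast_zero] at hne
    exact mul_ne_zero (pow_ne_zero e hπ.ne_zero) u.ne_zero hne.symm
  have hpi0 : pi ≠ 0 := fun h =>
    hπ.ne_zero (T.algebraMap_injective (by rw [map_zero]; exact congrArg Subtype.val h))
  obtain ⟨c₀, hc₀⟩ := hav
  obtain ⟨B₁, hdec⟩ := T.exists_decomp
  obtain ⟨Ev, hEv⟩ := T.exists_pow_mul_mem_inv v
  obtain ⟨Ea, hEa⟩ := T.exists_pow_mul_mem_inv a
  obtain ⟨Ec, hEc⟩ := T.exists_pow_mul_mem_inv c₀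
  obtain ⟨B, hB, hBv, hBa, hBc⟩ : ∃ B, B₁ ≤ B ∧ Ev ≤ B ∧ Ea ≤ n * B ∧ Ec ≤ n * B :=
    ⟨B₁ + Ev + Ea + Ec, by omega, by omega,
      le_trans (by omega) (Nat.le_mul_of_pos_left _ hn0),
      le_trans (by omega) (Nat.le_mul_of_pos_left _ hn0)⟩
  have hnB : n * B - B = (n - 1) * B := (Nat.sub_one_mul n B).symm
  -- the scaled equation for the correction
  have hb : ∀ i, 1 ≤ i → ∃ b : O, (n.choose i : O) * π ^ ((e + 1) * i) = π ^ (e + (e + 1)) * b := by
    intro i hi
    rcases eq_or_lt_of_le hi with rfl | hi2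
    · exact ⟨u, by rw [Nat.choose_one_right, mul_one, hne, pow_add]; ring⟩
    · obtain ⟨t, ht⟩ : ∃ t, (e + 1) * i = e + (e + 1) + t := by
        obtain ⟨l, rfl⟩ : ∃ l, i = l + 2 := ⟨i - 2, by omega⟩
        exact ⟨(e + 1) * l + 1, by ring⟩
      exact ⟨(n.choose i : O) * π ^ t, by rw [ht, pow_add]; ring⟩
  choose! b hb using hb
  set Pp : Polynomial R := Polynomial.C (-(pi * c₀)) +
    ∑ i ∈ Finset.Icc 1 n, Polynomial.C (algebraMap O R (b i) * v ^ (n - i)) * Polynomial.X ^ i
    with hPp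
  have hid : Polynomial.C (pi ^ (e + (e + 1))) * Pp =
      (Polynomial.C v + Polynomial.C (pi ^ (e + 1)) * Polynomial.X) ^ n - Polynomial.C a := by
    rw [add_comm (Polynomial.C v), add_pow, ← Finset.sum_erase_add _ _
      (Finset.mem_range.mpr (Nat.succ_pos n)), show (Finset.range (n + 1)).erase 0 =
        Finset.Icc 1 n by
      ext i; simp only [Finset.mem_erase, Finset.mem_range, Finset.mem_Icc]; omega, hPp, mul_add,
      Finset.mul_sum, sub_eq_iff_eq_add'.mp hc₀]
    rw [add_sub_assoc, add_comm (Polynomial.C _ * Polynomial.C _)]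
    refine congrArg₂ (· + ·) (Finset.sum_congr rfl fun i hi => ?_) ?_
    · have h2 := congrArg (fun o => Polynomial.C (algebraMap O R o)) (hb i (Finset.mem_Icc.mp hi).1)
      simp only [map_mul, map_pow, map_natCast] at h2
      simp only [map_mul, map_pow, mul_pow, ← pow_mul, hpi]
      linear_combination (-(Polynomial.C v ^ (n - i) * Polynomial.X ^ i)) * h2
    · simp only [Nat.sub_zero, pow_zero, one_mul, Nat.choose_zero_right, Nat.cast_one, mul_one,
        map_sub, map_add, map_mul, map_pow, map_neg]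
      ring
  set Φ : R → R := fun d => Pp.eval d
  set Φ' : R → R := fun d => Pp.derivative.eval d
  have hΨ : ∀ f d : R, ∃ k : R, Φ (f + d) = Φ f + Φ' f * d + k * d ^ 2 := fun f d => by
    obtain ⟨k, hk⟩ := Polynomial.binomExpansion Pp f d
    exact ⟨k, hk⟩
  choose Ψ hΨ using hΨ
  have hΦeq : ∀ d : R, pi ^ (e + (e + 1)) * Φ d = (v + pi ^ (e + 1) * d) ^ n - a := fun d => by
    have := congrArg (Polynomial.eval d) hid
    simpa [Φ] using this
  have hΦ'eq : ∀ d : R, Φ' d = algebraMap O R (u : O) * (v + pi ^ (e + 1) * d) ^ (n - 1) := fun d => by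
    have h2 := congrArg (fun p => Polynomial.eval d (Polynomial.derivative p)) hid
    simp only [Polynomial.derivative_mul, Polynomial.derivative_C, zero_mul, zero_add,
      Polynomial.derivative_sub, sub_zero, Polynomial.derivative_pow, Polynomial.derivative_add,
      Polynomial.derivative_X, mul_one, Polynomial.eval_mul, Polynomial.eval_C, Polynomial.eval_pow,
      Polynomial.eval_add, Polynomial.eval_X] at h2
    rw [show (n : R) = pi ^ e * algebraMap O R (u : O) by
      rw [← map_natCast (algebraMap O R), hne, map_mul, map_pow]] at h2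
    refine mul_left_cancel₀ (pow_ne_zero (e + (e + 1)) hpi0) (h2.trans ?_)
    ring
  have hpole : ∀ d : R, (d : F) ∈ poleSpace O w B → w⁻¹ ^ B * (d : F) ∈ chartRing O w⁻¹ :=
    fun d hd => (mem_poleSpace_iff.mp hd).2
  have hcB : ∀ m, Pp.natDegree ≤ n ∧ (m ≤ n →
      w⁻¹ ^ ((n - m) * B) * ((Pp.coeff m : R) : F) ∈ chartRing O w⁻¹) := by
    intro m
    refine ⟨Polynomial.natDegree_add_le_of_degree_le (le_trans (Polynomial.natDegree_C _).le (Nat.zero_le n)) (Polynomial.natDegree_sum_le_of_forall_le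
      _ _ fun i hi => le_trans (Polynomial.natDegree_C_mul_X_pow_le _ _) (Finset.mem_Icc.mp hi).2),
      fun hmn => ?_⟩
    rw [hPp, Polynomial.coeff_add, Polynomial.coeff_C, Polynomial.finsetSum_coeff,
      AddMemClass.coe_add, mul_add]
    refine add_mem ?_ ?_
    · split_ifs with hm0
      · subst hm0
        rw [Nat.sub_zero, NegMemClass.coe_neg, mul_neg]
        refine neg_mem ?_
        rw [MulMemClass.coe_mul, mul_left_comm]
        exact mul_mem (Subalgebra.algebraMap_mem _ π) (hEc _ hBc)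
      · rw [ZeroMemClass.coe_zero, mul_zero]; exact zero_mem _
    · rw [AddSubmonoidClass.coe_finsetSum, Finset.mul_sum]
      refine sum_mem fun i hi => ?_
      rw [Polynomial.coeff_C_mul_X_pow]
      split_ifs with hmi
      · subst hmi
        rw [MulMemClass.coe_mul, SubmonoidClass.coe_pow, mul_left_comm, mul_comm (n - m) B,
          pow_mul, ← mul_pow]
        exact mul_mem (Subalgebra.algebraMap_mem _ (b m)) (pow_mem (hEv B hBv) _)
      · rw [ZeroMemClass.coe_zero, mul_zero]; exact zero_mem _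
  have hfd : ∀ d : R, algebraMap O (chartRing O w) π ∣ (v + pi ^ (e + 1) * d) - v := fun d => by
    rw [add_sub_cancel_left]
    exact Dvd.dvd.mul_right (dvd_pow_self _ e.succ_ne_zero) _
  have hne' : ∀ d : R, ∀ c j, red ((T.chart0.sheets c).ser j (v + pi ^ (e + 1) * d)) ≠ 0 :=
    fun d c j => by
      rw [T.chart0.red_ser_eq_of_pi_dvd hm c j (hfd d)]
      exact fun h => hv (T.pi_dvd_of_red_ser_eq_zero hπ c j v h)
  have hu0 : (PowerSeries.C (residue O (u : O)) : (ResidueField O)⟦X⟧) ≠ 0 := fun h0' =>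
    (residue_ne_zero_iff_isUnit (u : O)).mpr u.isUnit
      ((map_eq_zero_iff _ PowerSeries.C_injective).mp h0')
  obtain ⟨d, -, hd⟩ := T.exists_exact_solution hm hdec (B := B) (C := n * B) hB
    (Nat.le_mul_of_pos_left _ hn0) Φ Φ' Ψ hΨ
    (fun d hd => by
      refine ⟨eval_pole_bound (hpole d hd) n Pp (hcB 0).1 fun i hi => (hcB i).2 hi, ?_⟩
      rw [hnB]
      refine eval_pole_bound (hpole d hd) (n - 1) _ ?_ fun i hi => ?_
      · exact le_trans (Polynomial.natDegree_derivative_le Pp) (Nat.sub_le_sub_right (hcB 0).1 1)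
      · rw [Polynomial.coeff_derivative, MulMemClass.coe_mul, ← mul_assoc,
          show n - 1 - i = n - (i + 1) by omega]
        refine mul_mem ((hcB (i + 1)).2 (by omega)) ?_
        rw [AddMemClass.coe_add, OneMemClass.coe_one]
        exact add_mem (by rw [show ((i : R) : F) = (i : F) from map_natCast (chartRing O w).val i]
                          exact natCast_mem _ i) (one_mem _))
    0 (zero_mem _) (by
      refine ⟨-c₀, ?_⟩
      show Pp.eval 0 = _
      rw [hPp, Polynomial.eval_add, Polynomial.eval_C, Polynomial.eval_finsetSum,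
        Finset.sum_eq_zero fun i hi => by
          rw [Polynomial.eval_mul, Polynomial.eval_pow, Polynomial.eval_X,
            zero_pow (by have := (Finset.mem_Icc.mp hi).1; omega), mul_zero], add_zero, mul_neg])
    (fun d _ c j => by
      rw [hΦ'eq, map_mul, map_mul, Sheets.ser_algebraMap, PowerSeries.map_C, map_pow, map_pow]
      exact mul_ne_zero hu0 (pow_ne_zero _ (hne' d c j)))
    (fun k hk d r _ hr c j => by
      obtain ⟨G, hG, hGv⟩ := h0 c j
      have hr' := congrArg ((T.chart0.sheets c).ser j) (hΦeq d)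
      rw [hr, ← mul_assoc, ← pow_add, map_pow_pi_mul, map_sub, map_pow, ← hG] at hr'
      rw [hΦ'eq, map_mul ((T.chart0.sheets c).ser j), Sheets.ser_algebraMap,
        map_pow ((T.chart0.sheets c).ser j)]
      refine red_dvd_of_pow_eq_wild hπ hne (j := e + 1 + k) (G := G) (by omega) ?_
        (by rw [← hr']; ring) (hne' d c j)
      rw [map_add, map_pow_pi_mul, show (T.chart0.sheets c).ser j v +
        PowerSeries.C π ^ (e + 1) * (T.chart0.sheets c).ser j d - G =
        PowerSeries.C π ^ (e + 1) * (T.chart0.sheets c).ser j d -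
          (G - (T.chart0.sheets c).ser j v) by ring]
      exact dvd_sub (dvd_mul_right _ _) hGv)
    (fun k hk d r _ hr hdW q1 r1 hq1 hr1 c j => by
      let d1 : chartRing O w⁻¹ := ⟨_, (mem_poleSpace_iff.mp hdW).2⟩
      let a1 : chartRing O w⁻¹ := ⟨_, hEa _ hBa⟩
      let v1 : chartRing O w⁻¹ := ⟨_, hEv B hBv⟩
      let c1 : chartRing O w⁻¹ := ⟨_, hEc _ hBc⟩
      have hcr1 : ((algebraMap O (chartRing O w⁻¹) π : chartRing O w⁻¹) : F) =
          algebraMap O F π := rfl
      have hcr0 : ((algebraMap O (chartRing O w) π : chartRing O w) : F) = algebraMap O F π := rfl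
      have hav1 : algebraMap O (chartRing O w⁻¹) π ^ (2 * e + 2) ∣ a1 - v1 ^ n := ⟨c1, by
        apply Subtype.ext
        have e1 := congrArg (fun z : R => (z : F)) hc₀
        simp only [a1, v1, c1, hpi, MulMemClass.coe_mul, AddSubgroupClass.coe_sub,
          SubmonoidClass.coe_pow, hcr1, hcr0, R] at e1 ⊢
        rw [mul_pow, ← pow_mul, mul_comm B n]
        linear_combination (w⁻¹ ^ (n * B)) * e1⟩
      obtain ⟨G, hG, hGv⟩ := h1 c j B a1 v1 rfl rfl hav1
      set x1 : chartRing O w⁻¹ := v1 + algebraMap O (chartRing O w⁻¹) π ^ (e + 1) * d1 with hx1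
      have hx : x1 ^ n - a1 = algebraMap O (chartRing O w⁻¹) π ^ (e + (e + 1 + k)) * r1 := by
        apply Subtype.ext
        have e1 := congrArg (fun z : R => (z : F)) (hΦeq d)
        rw [hr] at e1
        simp only [x1, d1, a1, v1, R, pi, MulMemClass.coe_mul, AddSubgroupClass.coe_sub,
          SubmonoidClass.coe_pow, AddMemClass.coe_add, hr1, hcr1, hcr0] at e1 ⊢
        rw [show w⁻¹ ^ B * (v : F) + algebraMap O F π ^ (e + 1) * (w⁻¹ ^ B * (d : F)) =
          w⁻¹ ^ B * ((v : F) + algebraMap O F π ^ (e + 1) * (d : F)) by ring, mul_pow, ← pow_mul,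
          mul_comm B n]
        linear_combination -(w⁻¹ ^ (n * B)) * e1
      have hq : q1 = algebraMap O (chartRing O w⁻¹) (u : O) * x1 ^ (n - 1) := by
        apply Subtype.ext
        rw [hq1, hΦ'eq, hnB]
        simp only [x1, d1, v1, R, pi, MulMemClass.coe_mul, SubmonoidClass.coe_pow,
          AddMemClass.coe_add, hcr1, hcr0, Subalgebra.coe_algebraMap]
        rw [show w⁻¹ ^ B * (v : F) + algebraMap O F π ^ (e + 1) * (w⁻¹ ^ B * (d : F)) =
          w⁻¹ ^ B * ((v : F) + algebraMap O F π ^ (e + 1) * (d : F)) by ring, mul_pow, ← pow_mul,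
          mul_comm B (n - 1)]
        ring
      have hne1 := T.red_ser1_ne_zero hm c (Φ' d) (fun j' => by
        rw [hΦ'eq, map_mul, map_mul, Sheets.ser_algebraMap, PowerSeries.map_C, map_pow, map_pow]
        exact mul_ne_zero hu0 (pow_ne_zero _ (hne' d c j'))) (n * B - B) q1 hq1 c j
      have hr' := congrArg ((T.chart1.sheets c).ser j) hx
      rw [map_sub, map_pow, map_pow_pi_mul, ← hG] at hr'
      rw [hq, map_mul ((T.chart1.sheets c).ser j), Sheets.ser_algebraMap,
        map_pow ((T.chart1.sheets c).ser j)] at hne1 ⊢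
      have hGx : PowerSeries.C π ^ (e + 1) ∣ (T.chart1.sheets c).ser j x1 - G := by
        rw [hx1, map_add, map_pow_pi_mul, show (T.chart1.sheets c).ser j v1 +
          PowerSeries.C π ^ (e + 1) * (T.chart1.sheets c).ser j d1 - G =
          PowerSeries.C π ^ (e + 1) * (T.chart1.sheets c).ser j d1 -
            (G - (T.chart1.sheets c).ser j v1) by ring]
        exact dvd_sub (dvd_mul_right _ _) hGv
      by_cases hxne : red ((T.chart1.sheets c).ser j x1) = 0
      · have hn1 : n = 1 := by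
          by_contra hn1
          refine hne1 ?_
          rw [map_mul, map_pow, hxne, zero_pow (by omega : n - 1 ≠ 0), mul_zero]
        subst hn1
        rw [Nat.sub_self, pow_zero, mul_one, PowerSeries.map_C]
        exact (IsUnit.map _ (IsUnit.mk0 _
          ((residue_ne_zero_iff_isUnit (u : O)).mpr u.isUnit))).dvd
      · exact red_dvd_of_pow_eq_wild hπ hne (j := e + 1 + k) (G := G) (by omega) hGx hr' hxne)
  refine ⟨v + pi ^ (e + 1) * d, sub_eq_zero.mp ?_, ⟨d, by rw [add_sub_cancel_left]⟩⟩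
  rw [← hΦeq d, hd, mul_zero]

end Fermat.Agent.GalRep.Model
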