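/-
The character of a root of an element congruent to an `n`-th power is trivial, for an exponent that
need not be prime to the residue characteristic.
-/
import Fermat.Agent.GalRep.Model.WildRoot

set_option autoImplicit false

noncomputable section

namespace Fermat.Agent.GalRep.Model

open UpperHalfPlane CongruenceSubgroup IsLocalRing
open scoped MatrixGroups PowerSeries Manifold

variable {M : ℕ} [NeZero M] (L : Lev M) {O : Type*} [CommRing O] [IsDomain O]
  [IsDiscreteValuationRing O] [IsAdicComplete (maximalIdeal O) O] [IsAlgClosed (ResidueField O)]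
  (C : Cyc O M)
  {π : O} (hπ : Irreducible π) {n e : ℕ} {u : Oˣ} (hne : (n : O) = π ^ e * (u : O))

local notation "al" => algebraMap (PowerSeries O) (SeriesField O)

include hπ hne in
/-- Lifting of roots for the elements of the level field, wild exponent. -/
theorem Lev.exists_nth_root_wild (x : holRing C)
    (hxc : (x : lvlField C) ∈ chartRing O (L.w C))
    (v : chartRing O (L.w C)) (hv : ¬ algebraMap O (chartRing O (L.w C)) π ∣ v)
    (hxv : algebraMap O (chartRing O (L.w C)) π ^ (2 * e + 2) ∣ ⟨_, hxc⟩ - v ^ n)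
    (hord : ∀ τ : ℍ, n ∣ (analyticOrderAt ((toMF C x : ℍ → ℂ) ∘ ofComplex) (τ : ℂ)).toNat)
    (hcusp : ∀ δ : SL(2, ℤ), (n : ℤ) ∣ (serHom M (shift M δ (toMF C x))).order) :
    ∃ f : chartRing O (L.w C), (f : lvlField C) ^ n = x ∧
      algebraMap O (chartRing O (L.w C)) π ^ (e + 1) ∣ f - v := by
  haveI : CharZero O := C.φ.charZero
  set T := L.model C
  have hm := hπ.maximalIdeal_eq
  set a : chartRing O (L.w C) := ⟨_, hxc⟩
  have hn0 : n ≠ 0 := fun h0 => by
    rw [h0, Nat.cast_zero] at hne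
    exact mul_ne_zero (pow_ne_zero e hπ.ne_zero) u.ne_zero hne.symm
  have ha : ¬ algebraMap O (chartRing O (L.w C)) π ∣ a := by
    intro h
    refine hv ?_
    have h2 : algebraMap O (chartRing O (L.w C)) π ∣ v ^ n := by
      have := dvd_sub h (dvd_trans (dvd_pow_self _ (by omega)) hxv)
      rwa [sub_sub_cancel] at this
    refine T.pi_dvd_of_red_ser_eq_zero hπ 0 ⟨0, T.chart0.r_pos 0⟩ v ?_
    obtain ⟨r, hr⟩ := h2
    have h3 := (T.chart0.sheets (0 : O)).red_ser_pi_mul hm ⟨0, T.chart0.r_pos 0⟩ r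
    rw [← hr, map_pow, map_pow, pow_eq_zero_iff hn0] at h3
    exact h3
  refine (T.exists_root_wild hπ hne a v hv hxv (fun c j => ?_)
    (fun c j B a1 v1 ha1 hv1 hav1 => ?_)).imp fun f hf => ⟨congrArg Subtype.val hf.1, hf.2⟩
  · obtain ⟨P, h, K', hh, hP, hfac, hdiv⟩ := L.exists_sheet_factor C (L.isSheet_model0 C c j)
      (Nat.pos_of_ne_zero hn0) x hxc
      ⟨0, (T.chart0.sheets c).ser j a, by
        rw [pow_zero, map_one, mul_one, Sheets.algebraMap_ser],
        T.red_ser_ne_zero_of_not_dvd hπ a ha c j⟩ hord hcusp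
    obtain ⟨r, hr⟩ := hxv
    obtain ⟨G, hG, hGv⟩ := exists_series_root_wild hπ hne C.φ C.inj (k := 2 * e + 2) (by omega) _
      hh hP hfac hdiv 1 ((T.chart0.sheets c).ser j a) ((T.chart0.sheets c).ser j v) (by simp)
      (by rw [one_pow, map_one, mul_one, Sheets.algebraMap_ser])
      (by rw [← map_pow ((T.chart0.sheets c).ser j), ← map_sub, hr, map_pow_pi_mul]; exact dvd_mul_right _ _)
    exact ⟨G, hG, dvd_trans (pow_dvd_pow _ (by omega)) hGv⟩
  · obtain ⟨E, hE⟩ := T.exists_red_ser1_ne_zero hπ a ha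
    obtain ⟨g, hg, hg0⟩ := hE c j
    obtain ⟨k, W, hW⟩ : ∃ (k : ℕ) (W : (PowerSeries O)ˣ),
        PowerSeries.C (T.chart1.rep c) +
          PowerSeries.X ^ (T.chart1.sheets c).e j * ((T.chart1.sheets c).unit j : PowerSeries O) =
          PowerSeries.X ^ k * (W : PowerSeries O) := by
      by_cases hu : IsUnit (T.chart1.rep c)
      · have hU : IsUnit (PowerSeries.C (T.chart1.rep c) +
            PowerSeries.X ^ (T.chart1.sheets c).e j *
              ((T.chart1.sheets c).unit j : PowerSeries O)) :=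
          PowerSeries.isUnit_iff_constantCoeff.mpr
            (by simp [zero_pow ((T.chart1.sheets c).e_pos j).ne', hu])
        exact ⟨0, hU.unit, by simp⟩
      · have h0 : T.chart1.rep c = 0 := by
          show L.rep1 C c = 0
          refine if_neg fun hc => hu ?_
          show IsUnit (L.rep1 C c)
          rw [Lev.rep1, if_pos hc]
          exact (L.isUnit_rep0_inverse C hc).ringInverse
        exact ⟨(T.chart1.sheets c).e j, (T.chart1.sheets c).unit j, by
          rw [congrArg PowerSeries.C h0, map_zero, zero_add]⟩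
    obtain ⟨P, h, K', hh, hP, hfac, hdiv⟩ := L.exists_sheet_factor C (L.isSheet_model1 C c j)
      (Nat.pos_of_ne_zero hn0) x hxc
      ⟨k * E, g * ((W⁻¹ ^ E : (PowerSeries O)ˣ) : PowerSeries O), by
        rw [map_mul, map_pow, (T.chart1.sheets c).ι_w, hW] at hg
        simp only [map_mul, map_pow, pow_mul, Units.val_pow_eq_pow_val, mul_pow] at hg ⊢
        have hWW : al (W : PowerSeries O) ^ E *
            al ((W⁻¹ : (PowerSeries O)ˣ) : PowerSeries O) ^ E = 1 := by
          rw [← mul_pow, ← map_mul, Units.mul_inv, map_one, one_pow]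
        linear_combination (al ((W⁻¹ : (PowerSeries O)ˣ) : PowerSeries O) ^ E) * hg -
          ((T.chart1.sheets c).ι j (x : lvlField C) * (al PowerSeries.X ^ k) ^ E) * hWW,
        by
          rw [map_mul]
          exact mul_ne_zero hg0 ((Units.isUnit _).map _).ne_zero⟩ hord hcusp
    obtain ⟨r, hr⟩ := hav1
    obtain ⟨G, hG, hGv⟩ := exists_series_root_wild hπ hne C.φ C.inj (k := 2 * e + 2) (by omega) _
      hh hP hfac hdiv ((PowerSeries.X ^ k * (W : PowerSeries O)) ^ B)
      ((T.chart1.sheets c).ser j a1) ((T.chart1.sheets c).ser j v1)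
      (by
        rw [map_pow, map_mul, map_pow, PowerSeries.map_X]
        exact pow_ne_zero _ (mul_ne_zero (pow_ne_zero _ PowerSeries.X_ne_zero)
          (W.isUnit.map red).ne_zero))
      (by
        rw [Sheets.algebraMap_ser, ha1, map_mul, map_pow ((T.chart1.sheets c).ι j),
          (T.chart1.sheets c).ι_w, hW, ← map_pow,
          ← pow_mul, mul_comm B n, mul_comm])
      (by rw [← map_pow ((T.chart1.sheets c).ser j), ← map_sub, hr, map_pow_pi_mul]; exact dvd_mul_right _ _)
    exact ⟨G, hG, dvd_trans (pow_dvd_pow _ (by omega)) hGv⟩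

include L hπ hne in
/-- The character value of a root of an element close to an `n`-th power is one. -/
theorem Lev.multiplier_eq_one_wild
    {h : ℍ → ℂ} (hol : MDifferentiable 𝓘(ℂ) 𝓘(ℂ) h) (hne0 : h ≠ 0)
    (hser : ∀ δ : SL(2, ℤ), ∃ f, HasQSeries M (fun τ => h (δ • τ)) f)
    (xH xV : holRing C) (hH : ((toMF C xH : modFuns (Gamma M)) : ℍ → ℂ) = h ^ n)
    (K₀ : ℕ) (gH gV : PowerSeries O)
    (hgH : serAt C 1 (xH : lvlField C) * al (PowerSeries.X ^ (n * K₀)) = al gH)
    (hgV : serAt C 1 (xV : lvlField C) * al (PowerSeries.X ^ K₀) = al gV)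
    (hcongr : PowerSeries.C π ^ (2 * e + 2) ∣ gH - gV ^ n) (hgV0 : red gV ≠ 0)
    (g : SL(2, ℤ)) (ζg : ℂ) (hζn : ζg ^ n = 1) (hhg : ∀ τ : ℍ, h (g • τ) = ζg * h τ)
    (hVg : shift M g (toMF C xV) = toMF C xV) : ζg = 1 := by
  classical
  have hm := hπ.maximalIdeal_eq
  have hn0 : n ≠ 0 := fun h0 => by
    rw [h0, Nat.cast_zero] at hne
    exact mul_ne_zero (pow_ne_zero e hπ.ne_zero) u.ne_zero hne.symm
  have hinj := IsFractionRing.injective (PowerSeries O) (SeriesField O)
  set T := L.model C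
  -- into the chart ring
  obtain ⟨KH, hKH⟩ := L.exists_mem_chartRing C xH.2 (K0 := n * K₀) ⟨gH, hgH.symm⟩
  obtain ⟨KV, hKV⟩ := L.exists_mem_chartRing C xV.2 (K0 := K₀) ⟨gV, hgV.symm⟩
  set K := KH + KV
  set Qh : holRing C := ⟨Polynomial.aeval (L.w C) (L.cuspPoly C ^ K),
    aeval_mem_holRing C _ (rat_mem_holRing C _)⟩
  have hQ0 : (Qh : lvlField C) ≠ 0 := L.aeval_cuspPoly_pow_ne_zero C K
  set xa : holRing C := xH * Qh ^ n
  have hxac : (xa : lvlField C) ∈ chartRing O (L.w C) := by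
    show (xH : lvlField C) * (Polynomial.aeval (L.w C) (L.cuspPoly C ^ K)) ^ n ∈ _
    rw [← map_pow, ← pow_mul]
    exact hKH _ (le_trans (Nat.le_add_right KH KV)
      (Nat.le_mul_of_pos_right _ (Nat.pos_of_ne_zero hn0)))
  set a : chartRing O (L.w C) := ⟨_, hxac⟩ with hadef
  set vv : chartRing O (L.w C) := ⟨_, hKV K (Nat.le_add_left _ _)⟩ with hvdef
  -- the congruence at infinity
  obtain ⟨j, hj⟩ := L.exists_sheet_one C (O := O)
  obtain ⟨V, hV⟩ := L.serAt_cuspPoly C (L.mem_J.mpr ⟨L.valid2, by decide⟩)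
    (δ := (1 : SL(2, ℤ))) (by simpa [cuspMat] using L.isCusp_cuspMat 2 L.valid2)
  set W := (PowerSeries.X ^ L.e * (V : PowerSeries O)) ^ K
  have hWQ : serAt C 1 (Qh : lvlField C) = al W := by
    show serAt C 1 (Polynomial.aeval (L.w C) (L.cuspPoly C ^ K)) = _
    rw [map_pow, map_pow, hV, ← map_pow]
  have hW0 : red W ≠ 0 := by
    rw [map_pow, map_mul, map_pow, PowerSeries.map_X]
    exact pow_ne_zero _ (mul_ne_zero (pow_ne_zero _ PowerSeries.X_ne_zero)
      (V.isUnit.map red).ne_zero)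
  have hsv : (T.chart0.sheets (0 : O)).ser j vv * PowerSeries.X ^ K₀ = gV * W := by
    apply hinj
    rw [map_mul, Sheets.algebraMap_ser, hj, map_mul (al) gV W, ← hgV, ← hWQ]
    show serAt C 1 ((xV : lvlField C) * (Qh : lvlField C)) * _ = _
    rw [map_mul]
    ring
  have hsa : (T.chart0.sheets (0 : O)).ser j a * PowerSeries.X ^ (n * K₀) = gH * W ^ n := by
    apply hinj
    rw [map_mul, Sheets.algebraMap_ser, hj, map_mul, map_pow al W, ← hgH, ← hWQ]
    show serAt C 1 ((xH : lvlField C) * (Qh : lvlField C) ^ n) * _ = _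
    rw [map_mul, map_pow]
    ring
  have hrv0 : red ((T.chart0.sheets (0 : O)).ser j vv) ≠ 0 := by
    intro h0
    have h2 := congrArg red hsv
    rw [map_mul, map_mul, h0, zero_mul, eq_comm] at h2
    exact mul_ne_zero hgV0 hW0 h2
  have hvdvd : ¬ algebraMap O (chartRing O (L.w C)) π ∣ vv := by
    rintro ⟨r, hr⟩
    exact hrv0 (by rw [hr]; exact (T.chart0.sheets (0 : O)).red_ser_pi_mul hm j r)
  have hav : algebraMap O (chartRing O (L.w C)) π ^ (2 * e + 2) ∣ a - vv ^ n := by
    refine T.pi_pow_dvd_of_ser hπ 0 j _ _ ?_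
    refine (C_pi_prime hπ).pow_dvd_of_dvd_mul_left (a := PowerSeries.X ^ (n * K₀)) _ (fun h0 => ?_) ?_
    · have := (red_eq_zero_iff hm _).mpr h0
      rw [map_pow, PowerSeries.map_X] at this
      exact pow_ne_zero _ PowerSeries.X_ne_zero this
    · rw [map_sub, map_pow, mul_sub, mul_comm (PowerSeries.X ^ (n * K₀)) ((T.chart0.sheets (0 : O)).ser j a),
        hsa, mul_comm n K₀, pow_mul, ← mul_pow,
        mul_comm _ ((T.chart0.sheets (0 : O)).ser j vv), hsv, mul_pow, ← sub_mul]
      exact hcongr.mul_right _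
  -- orders of zeros and poles
  set Qf : ℍ → ℂ := ((toMF C Qh : modFuns (Gamma M)) : ℍ → ℂ) with hQf
  have hxaf : ((toMF C xa : modFuns (Gamma M)) : ℍ → ℂ) = (h * Qf) ^ n := by
    show ((toMF C (xH * Qh ^ n) : modFuns (Gamma M)) : ℍ → ℂ) = _
    rw [map_mul, map_pow, MulMemClass.coe_mul, SubmonoidClass.coe_pow, hH, mul_pow]
  have hQhol : MDifferentiable 𝓘(ℂ) 𝓘(ℂ) Qf := (toMF C Qh).2.holo
  have hord : ∀ τ : ℍ, n ∣ (analyticOrderAt ((toMF C xa : ℍ → ℂ) ∘ ofComplex) (τ : ℂ)).toNat := by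
    intro τ
    have han : AnalyticAt ℂ ((h * Qf) ∘ ofComplex) (τ : ℂ) :=
      ((UpperHalfPlane.mdifferentiable_iff.mp (hol.mul hQhol)).analyticOnNhd
        isOpen_upperHalfPlaneSet) _ τ.im_pos
    rw [hxaf, show ((h * Qf) ^ n) ∘ ofComplex = ((h * Qf) ∘ ofComplex) ^ n from rfl,
      analyticOrderAt_pow han, nsmul_eq_mul, ENat.toNat_mul, ENat.toNat_natCast]
    exact dvd_mul_right _ _
  have hcusp : ∀ δ : SL(2, ℤ), (n : ℤ) ∣ (serHom M (shift M δ (toMF C xa))).order := by
    intro δ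
    obtain ⟨fd, hfd⟩ := hser δ
    have h1 := (hfd.mul (hasQSeries_serHom (shift M δ (toMF C Qh)))).pow n
    rw [(hasQSeries_serHom (shift M δ (toMF C xa))).unique (NeZero.pos M) (h1.congr
      (.of_forall fun τ => ?_)), HahnSeries.order_pow, nsmul_eq_mul]
    · exact dvd_mul_right _ _
    · rw [shift_apply, hxaf]
      rfl
  obtain ⟨f, hf, hfv⟩ := L.exists_nth_root_wild C hπ hne xa hxac vv hvdvd hav hord hcusp
  -- the root as a function
  obtain ⟨p, hp, q, hq, hq0, hpq⟩ := exists_hol_div C (f : lvlField C)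
  have hpn : (⟨p, hp⟩ : holRing C) ^ n = (⟨q, hq⟩ : holRing C) ^ n * xa := Subtype.ext (by
    show p ^ n = q ^ n * (xa : lvlField C)
    rw [← hpq, ← hf, mul_pow, mul_comm])
  set P : ℍ → ℂ := ((toMF C ⟨p, hp⟩ : modFuns (Gamma M)) : ℍ → ℂ) with hPdef
  set D : ℍ → ℂ := ((toMF C ⟨q, hq⟩ : modFuns (Gamma M)) : ℍ → ℂ) with hDdef
  have hPn : P ^ n = (D * (h * Qf)) ^ n := by
    have := congrArg (fun z => ((toMF C z : modFuns (Gamma M)) : ℍ → ℂ)) hpn
    simp only [map_pow, map_mul, MulMemClass.coe_mul, SubmonoidClass.coe_pow, hxaf] at this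
    rw [hPdef, hDdef, this]; simp only [mul_pow]
  obtain ⟨hs, hhs⟩ := hser 1
  simp only [one_smul] at hhs
  set sG := serHom M (toMF C ⟨q, hq⟩) * (hs * serHom M (toMF C Qh))
  have hGser : HasQSeries M (D * (h * Qf)) sG :=
    (hasQSeries_serHom _).mul (hhs.mul (hasQSeries_serHom _))
  have hne' : ∀ z : holRing C, z ≠ 0 → serHom M (toMF C z) ≠ 0 := fun z hz =>
    (map_ne_zero_iff _ (serHom_injective M)).mpr ((map_ne_zero_iff _ (toMF_injective C)).mpr hz)
  have hsG : sG ≠ 0 := by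
    refine mul_ne_zero (hne' _ fun h0 => hq0 (congrArg Subtype.val h0))
      (mul_ne_zero ?_ (hne' _ fun h0 => hQ0 (congrArg Subtype.val h0)))
    intro h0
    exact hne0 (eq_of_hasQSeries hol mdifferentiable_const (h0 ▸ hhs) (HasQSeries.zero M))
  haveI : NeZero n := ⟨hn0⟩
  obtain ⟨ω, -, hω⟩ := exists_root_unity_of_pow_eq (n := n) hsG
    (show serHom M (toMF C ⟨p, hp⟩) ^ n = sG ^ n from
      (((hasQSeries_serHom (toMF C ⟨p, hp⟩)).pow n).congr
        (.of_forall fun τ => congrFun hPn τ)).unique (NeZero.pos M) (hGser.pow n))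
  have hPeq : P = fun τ => ω * (D * (h * Qf)) τ := by
    refine eq_of_hasQSeries (toMF C ⟨p, hp⟩).2.holo
      (mdifferentiable_const.mul ((toMF C ⟨q, hq⟩).2.holo.mul (hol.mul hQhol)))
      (hasQSeries_serHom _) ?_
    rw [hω]
    exact hGser.smul ω
  -- the automorphy of the root
  set y : lvlField C := (f : lvlField C) / (Qh : lvlField C) with hydef
  have hy : y = p / (q * (Qh : lvlField C)) := by
    rw [hydef, ← hpq, mul_comm (f : lvlField C) q, mul_div_mul_left _ _ hq0]
  have hyn : y ^ n = (xH : lvlField C) := by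
    rw [hydef, div_pow, hf]
    show (xH : lvlField C) * (Qh : lvlField C) ^ n / _ = _
    rw [mul_div_assoc, div_self (pow_ne_zero _ hQ0), mul_one]
  have hy0 : y ≠ 0 := by
    intro h0
    rw [h0, zero_pow hn0] at hyn
    have h1 : toMF C xH = 0 := by
      rw [show xH = 0 from Subtype.ext hyn.symm, map_zero]
    rw [h1] at hH
    exact hne0 (funext fun τ => eq_zero_of_pow_eq_zero (congrFun hH τ).symm)
  set am := algebraMap (modFuns (Gamma M)) (WFld M)
  have hyW : wShift g (y : WFld M) = am (algebraMap ℂ _ ζg) * (y : WFld M) := by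
    have hcoe : (y : WFld M) = am (toMF C ⟨p, hp⟩) /
        (am (toMF C ⟨q, hq⟩) * am (toMF C Qh)) := by
      rw [hy, algebraMap_toMF, algebraMap_toMF, algebraMap_toMF]
      rfl
    have hd0 : am (toMF C ⟨q, hq⟩) * am (toMF C Qh) ≠ 0 := by
      rw [algebraMap_toMF, algebraMap_toMF]
      exact mul_ne_zero (fun h0 => hq0 (Subtype.ext h0)) (fun h0 => hQ0 (Subtype.ext h0))
    rw [hcoe, map_div₀, ← mul_div_assoc,
      div_eq_div_iff ((_root_.map_ne_zero _).mpr hd0) hd0, map_mul,
      wShift_algebraMap, wShift_algebraMap, wShift_algebraMap, ← map_mul am, ← map_mul am,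
      ← map_mul am, ← map_mul am, ← map_mul am]
    refine congrArg am (Subtype.ext (funext fun τ => ?_))
    show P (g • τ) * (D τ * Qf τ) = ζg * P τ * (D (g • τ) * Qf (g • τ))
    rw [hPeq]
    simp only [Pi.mul_apply, hhg]
    ring
  have hyser : C.toC (serAt C g y) = HahnSeries.C ζg * C.toC (serAt C 1 y) := by
    rw [toC_serAt, toC_serAt, hyW, wShift_one, map_mul, wSer_algebraMap, serHom_algebraMap]
  have ht0 : serAt C 1 y ≠ 0 := (_root_.map_ne_zero _).mpr hy0
  set R := serAt C g y / serAt C 1 y with hRdef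
  have hRC : C.toC R = HahnSeries.C ζg := by
    rw [hRdef, map_div₀, hyser, mul_div_assoc, div_self ((_root_.map_ne_zero _).mpr ht0), mul_one]
  have hRn : R ^ n = 1 := C.toC.injective (by
    rw [map_pow, hRC, ← map_pow, hζn, map_one, map_one])
  obtain ⟨G₀, hG₀⟩ := IsIntegrallyClosed.isIntegral_iff.mp
    (show IsIntegral (PowerSeries O) R from ⟨Polynomial.X ^ n - Polynomial.C 1,
      Polynomial.monic_X_pow_sub_C 1 hn0, by simp [hRn]⟩)
  set R₀ := PowerSeries.constantCoeff G₀
  have hgC : C.gC G₀ = HahnSeries.C ζg := by rw [← C.toC_algebraMap, hG₀, hRC]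
  have hR₀ : C.φ R₀ = ζg := by
    rw [← coeff_gC_zero C G₀, hgC, HahnSeries.C_apply, HahnSeries.coeff_single_same]
  have hG₀C : G₀ = PowerSeries.C R₀ := C.gC_injective (by
    rw [hgC, Cyc.gC, RingHom.comp_apply, PowerSeries.map_C, HahnSeries.ofPowerSeries_C, hR₀])
  have hR₀n : R₀ ^ n = 1 := C.inj (by rw [map_pow, hR₀, hζn, map_one])
  -- the root is close to the given function
  obtain ⟨z, hz⟩ := hfv
  set zq := (z : lvlField C) / (Qh : lvlField C)
  have hyz : y = (xV : lvlField C) + algebraMap O (lvlField C) π ^ (e + 1) * zq := by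
    have h1 : (f : lvlField C) = (xV : lvlField C) * Qh +
        algebraMap O (lvlField C) π ^ (e + 1) * z := by
      have := congrArg (fun r : chartRing O (L.w C) => (r : lvlField C)) (sub_eq_iff_eq_add'.mp hz)
      exact this
    rw [hydef, h1, add_div, mul_div_assoc, div_self hQ0, mul_one, mul_div_assoc]
  have hxVg : serAt C g (xV : lvlField C) = serAt C 1 (xV : lvlField C) := by
    apply C.toC.injective
    rw [toC_serAt, toC_serAt, wShift_one, ← algebraMap_toMF, wShift_algebraMap, hVg]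
  obtain ⟨N1, G1, hG1⟩ := L.exists_pole_bound C z K (1 : SL(2, ℤ))
  obtain ⟨Ng, Gg, hGg⟩ := L.exists_pole_bound C z K g
  change serAt C 1 zq * _ = _ at hG1
  change serAt C g zq * _ = _ at hGg
  have hrel : serAt C g y = al (PowerSeries.C R₀) * serAt C 1 y := by
    rw [← hG₀C, hG₀, hRdef, div_mul_cancel₀ _ ht0]
  rw [hyz, map_add, map_add, map_mul, map_mul, map_pow, map_pow, serAt_algebraMap,
    serAt_algebraMap, hxVg] at hrel
  have key : PowerSeries.C (R₀ - 1) * (gV * PowerSeries.X ^ (N1 + Ng) +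
      PowerSeries.C π ^ (e + 1) * G1 * PowerSeries.X ^ (K₀ + Ng)) =
        PowerSeries.C π ^ (e + 1) *
          (Gg * PowerSeries.X ^ (K₀ + N1) - G1 * PowerSeries.X ^ (K₀ + Ng)) := by
    apply hinj
    simp only [map_sub, map_one, map_mul, map_add, map_pow, pow_add] at hgV hG1 hGg hrel ⊢
    rw [← hgV, ← hG1, ← hGg]
    linear_combination (-(al PowerSeries.X ^ K₀ * al PowerSeries.X ^ N1 *
      al PowerSeries.X ^ Ng)) * hrel
  obtain ⟨tt, htt⟩ := (C_pi_prime hπ).pow_dvd_of_dvd_mul_right (a := PowerSeries.C (R₀ - 1)) (e + 1)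
    (fun h0 => by
      have h1 := (red_eq_zero_iff hm (gV * PowerSeries.X ^ (N1 + Ng) +
        PowerSeries.C π ^ (e + 1) * G1 * PowerSeries.X ^ (K₀ + Ng))).mpr h0
      simp only [map_add, map_mul, map_pow, PowerSeries.map_X,
        (red_eq_zero_iff hm (PowerSeries.C π)).mpr dvd_rfl, zero_pow e.succ_ne_zero, zero_mul,
        add_zero] at h1
      exact mul_ne_zero hgV0 (pow_ne_zero _ PowerSeries.X_ne_zero) h1)
    (by rw [key]; exact dvd_mul_right _ _)
  have htt0 : R₀ - 1 = π ^ (e + 1) * PowerSeries.constantCoeff tt := by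
    simpa using congrArg PowerSeries.constantCoeff htt
  have hR1 : R₀ = 1 := by
    obtain ⟨w, hw⟩ := Polynomial.binomExpansion (Polynomial.X ^ n : Polynomial O) 1 (R₀ - 1)
    simp only [Polynomial.eval_pow, Polynomial.eval_X, Polynomial.derivative_X_pow,
      Polynomial.eval_mul, Polynomial.eval_C, add_sub_cancel, one_pow, mul_one, hR₀n, hne] at hw
    have h1 : (R₀ - 1) * (π ^ e * ((u : O) + π * (w * PowerSeries.constantCoeff tt))) = 0 := by
      linear_combination (-1 : O) * hw - (R₀ - 1) * w * htt0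
    refine sub_eq_zero.mp ((mul_eq_zero.mp h1).resolve_right
      (mul_ne_zero (pow_ne_zero e hπ.ne_zero) fun h2 => ?_))
    have h3 := congrArg (residue O) h2
    rw [map_add, map_mul, (residue_eq_zero_iff π).mpr hπ.not_isUnit, zero_mul, add_zero,
      map_zero] at h3
    exact (residue_ne_zero_iff_isUnit (u : O)).mpr u.isUnit h3
  rw [← hR₀, hR1, map_one]

end Fermat.Agent.GalRep.Model
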