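/-
Kummer classes whose power is very close to an `n`-th power vanish, for exponents divisible by the
residue characteristic.
-/
import Fermat.Agent.GalRep.Model.Reduction
import Fermat.Agent.GalRep.Model.WildNthRoot

set_option autoImplicit false

noncomputable section

namespace Fermat.Agent.GalRep.Model

open UpperHalfPlane CongruenceSubgroup IsLocalRing
open scoped MatrixGroups Manifold
open Fermat.Agent.GalRep.Level (IsRepG ParG)

local notation "Q̄" => AlgebraicClosure ℚ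

variable {M : ℕ} [NeZero M]

/-- Coefficientwise congruence modulo `n² ℓ²`. -/
def SeriesNear (A : ValuationSubring Q̄) (ℓ n : ℕ) (f g : LaurentSeries Q̄) : Prop :=
  ∀ m, (f.coeff m - g.coeff m) / ((n : Q̄) ^ 2 * (ℓ : Q̄) ^ 2) ∈ A

/-- The version with a level structure on the width. -/
theorem Lev.char_eq_zero_of_near (L : Lev M) {G : Subgroup SL(2, ℤ)} (hG : Gamma M ≤ G) {ℓ : ℕ}
    (hℓ : ℓ.Prime) (hℓM : ¬ ℓ ∣ M) {n : ℕ} [NeZero n]
    {A : ValuationSubring Q̄} (hA : A.LiesOverPrime ℓ) {χ : ParG G (ZMod n)} {h v : ℍ → ℂ}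
    {hq vq : LaurentSeries Q̄} (hh : IsRepG G n χ h) (hhq : HasQSeries M h (seriesToC hq))
    (hv : IsModFun G v) (hvq : HasQSeries M v (seriesToC vq))
    (hint : SeriesIntegral A (hq ^ n)) (hvint : SeriesIntegral A vq)
    (hvne : ∃ m, vq.coeff m ∉ A.nonunits) (hnear : SeriesNear A ℓ n (hq ^ n) (vq ^ n)) : χ = 0 := by
  classical
  obtain ⟨O, _, _, _, _, _, C, xH, xV, Lf, K₀, gH, gV, hlmax, htH, htV, hgH, hgV, hlift, hdL,
    hdiff, hgV0⟩ := L.exists_setup hG hℓ hℓM hA hh hhq hv hvq hint hvint hvne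
  haveI : CharZero O := C.φ.charZero
  obtain ⟨π, hπ⟩ := IsDiscreteValuationRing.exists_irreducible O
  obtain ⟨e, u, hu⟩ := IsDiscreteValuationRing.eq_unit_mul_pow_irreducible
    (Nat.cast_ne_zero.mpr (NeZero.ne n) : (n : O) ≠ 0) hπ
  have hne : (n : O) = π ^ e * (u : O) := by rw [hu, mul_comm]
  have hπℓ : π ∣ (ℓ : O) := by
    rw [← Ideal.mem_span_singleton, ← hπ.maximalIdeal_eq]; exact hlmax
  have hcongr : PowerSeries.C π ^ (2 * e + 2) ∣ gH - gV ^ n := by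
    rw [C_pow_dvd_series_iff]
    intro i
    set d := (hq ^ n).coeff ((i : ℤ) - (n * K₀ : ℕ)) - (vq ^ n).coeff ((i : ℤ) - (n * K₀ : ℕ))
    obtain ⟨o, ho, -⟩ := hlift _ (div_mem (hdL ((i : ℤ) - (n * K₀ : ℕ)))
      (mul_mem (pow_mem (natCast_mem Lf n) 2) (pow_mem (natCast_mem Lf ℓ) 2))) (hnear _)
    have h0 : ((n : Q̄) ^ 2 * (ℓ : Q̄) ^ 2) ≠ 0 := mul_ne_zero
      (pow_ne_zero _ (Nat.cast_ne_zero.mpr (NeZero.ne n)))
      (pow_ne_zero _ (Nat.cast_ne_zero.mpr hℓ.ne_zero))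
    have heq : PowerSeries.coeff i gH - PowerSeries.coeff i (gV ^ n) =
        (n : O) ^ 2 * (ℓ : O) ^ 2 * o := C.inj (by
      rw [hdiff, map_mul C.φ, map_mul C.φ, map_pow, map_pow, map_natCast, map_natCast, ho,
        ← map_natCast qbarToC n, ← map_natCast qbarToC ℓ, ← map_pow, ← map_pow, ← map_mul,
        ← map_mul, mul_div_cancel₀ _ h0])
    rw [map_sub, heq, hne, mul_pow, ← pow_mul, mul_comm e 2, pow_add]
    exact Dvd.dvd.mul_right (mul_dvd_mul (dvd_mul_right _ _) (pow_dvd_pow_of_dvd hπℓ 2)) _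
  refine Subtype.ext (AddMonoidHom.ext fun x => ?_)
  obtain ⟨g, rfl⟩ := Additive.ofMul.surjective x
  refine ZMod.injective_stdAddChar ?_
  rw [ZeroMemClass.coe_zero, AddMonoidHom.zero_apply, AddChar.map_zero_eq_one]
  refine L.multiplier_eq_one_wild C hπ hne hh.holo hh.ne_zero (exists_series_cusp hG hh) xH xV htH
    K₀ gH gV hgH hgV hcongr hgV0 (g : SL(2, ℤ)) _ ?_ (hh.equivariant g) ?_
  · rw [← AddChar.map_nsmul_eq_pow, ← Nat.cast_smul_eq_nsmul (ZMod n), ZMod.natCast_self,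
      zero_smul, AddChar.map_zero_eq_one]
  · refine Subtype.ext (funext fun τ => ?_)
    rw [shift_apply, htV]
    exact hv.invariant _ g.2 τ

omit [NeZero M] in
/-- A Kummer class with representative near a modular function vanishes, at any width. -/
theorem char_eq_zero_of_near {w : ℕ} (hwM : w ∣ M) {G : Subgroup SL(2, ℤ)} (hG : Gamma M ≤ G)
    {ℓ : ℕ} (hℓ : ℓ.Prime) (hℓM : ¬ ℓ ∣ M) {n : ℕ} [NeZero n]
    {A : ValuationSubring Q̄} (hA : A.LiesOverPrime ℓ) {χ : ParG G (ZMod n)} {h v : ℍ → ℂ}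
    {hq vq : LaurentSeries Q̄} (hh : IsRepG G n χ h) (hhq : HasQSeries w h (seriesToC hq))
    (hv : IsModFun G v) (hvq : HasQSeries w v (seriesToC vq))
    (hint : SeriesIntegral A (hq ^ n)) (hvint : SeriesIntegral A vq)
    (hvne : ∃ m, vq.coeff m ∉ A.nonunits) (hnear : SeriesNear A ℓ n (hq ^ n) (vq ^ n)) : χ = 0 := by
  have hM0 : M ≠ 0 := fun h0 => hℓM (h0 ▸ dvd_zero ℓ)
  haveI : NeZero M := ⟨hM0⟩
  obtain ⟨j, hj⟩ := hwM
  have hj0 : j ≠ 0 := fun h0 => hM0 (by rw [hj, h0, mul_zero])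
  have hw : 0 < w := Nat.pos_of_ne_zero fun h0 => hM0 (by rw [hj, h0, zero_mul])
  obtain ⟨k, hk, hℓk, ⟨L⟩⟩ := exists_lev (M := M) hℓ hℓM
  haveI : NeZero (M * k) := ⟨mul_ne_zero hM0 hk.ne'⟩
  have hle : Gamma (M * k) ≤ G := fun γ hγ => hG (by
    rw [Gamma_mem] at hγ ⊢
    obtain ⟨a, b, c, d⟩ := hγ
    have hd : M ∣ M * k := dvd_mul_right M k
    exact ⟨by simpa using congrArg (ZMod.castHom hd (ZMod M)) a,
      by simpa using congrArg (ZMod.castHom hd (ZMod M)) b,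
      by simpa using congrArg (ZMod.castHom hd (ZMod M)) c,
      by simpa using congrArg (ZMod.castHom hd (ZMod M)) d⟩)
  have hjk : j * k ≠ 0 := mul_ne_zero hj0 hk.ne'
  have hexp : ∀ (F : ℍ → ℂ) (f : LaurentSeries Q̄), HasQSeries w F (seriesToC f) →
      HasQSeries (M * k) F (seriesToC (expand (j * k) hjk f)) := by
    intro F f hf
    have h1 := hf.refine_width hw (j * k) hjk
    rw [seriesToC_eq_lmap] at h1
    rw [seriesToC_eq_lmap, lmap_expand, hj, mul_assoc]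
    exact h1
  refine L.char_eq_zero_of_near hle hℓ hℓk hA hh (hexp _ _ hhq) hv (hexp _ _ hvq) ?_ ?_ ?_ ?_
  · rw [← map_pow]
    exact fun m => coeff_expand_mem (P := fun x => x ∈ A) (zero_mem A) hint hjk m
  · exact fun m => coeff_expand_mem (P := fun x => x ∈ A) (zero_mem A) hvint hjk m
  · obtain ⟨m, hm⟩ := hvne
    exact ⟨((j * k : ℕ) : ℤ) * m, by rwa [expand_coeff_mul]⟩
  · intro m
    rw [← map_pow, ← map_pow, ← HahnSeries.coeff_sub, ← map_sub]
    exact coeff_expand_mem (P := fun x => x / ((n : Q̄) ^ 2 * (ℓ : Q̄) ^ 2) ∈ A)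
      (by rw [zero_div]; exact zero_mem A)
      (fun i => by rw [HahnSeries.coeff_sub]; exact hnear i) hjk m

/-- The same on `Γ₀(N)` in width one. -/
theorem kummerReduction_near {N ℓ : ℕ} (hℓ : ℓ.Prime) (hℓN : ¬ ℓ ∣ N) {n : ℕ} [NeZero n]
    {A : ValuationSubring Q̄} (hA : A.LiesOverPrime ℓ) {χ : ParHom N (ZMod n)}
    {h v : ℍ → ℂ} {hq vq : LaurentSeries Q̄} (hh : IsKummerRep N n χ h)
    (hhq : HasQSeries 1 h (seriesToC hq)) (hv : IsModFun (Gamma0 N) v)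
    (hvq : HasQSeries 1 v (seriesToC vq)) (hint : SeriesIntegral A (hq ^ n))
    (hvint : SeriesIntegral A vq) (hvne : ∃ m, vq.coeff m ∉ A.nonunits)
    (hnear : SeriesNear A ℓ n (hq ^ n) (vq ^ n)) : χ = 0 :=
  char_eq_zero_of_near (one_dvd N) (Gamma_le_Gamma0 N) hℓ hℓN hA
    ⟨hh.holo, hh.ne_zero, hh.equivariant, hh.cusps⟩ hhq hv hvq hint hvint hvne hnear

end Fermat.Agent.GalRep.Model
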